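/-
GATE-E / GE9-OLDQ, leaf (O3) of helper63's node table (board 7233) (helper57): **`q`-expansion
bookkeeping for the level-changing operators on weight-2 cusp forms of `Γ₀`.**

Vocabulary of main: `GE/Mod/Stab` (`restrict`, `Vq`, `qCoeff_Vq`), `GM/End/Endgame.formOp M l`
(`= T_l` for `l ∤ M`, `= U_l` for `l ∣ M`), `GB/B7/Depl.depl` (helper52: `D_l = 1 − V_l U_l` of level
`Γ₀(N l l)`, `qCoeff_depl`), `S49_helper65` (`qCoeff_heckeTLin`, `qCoeff_heckeULin`,
`cusp_eq_zero_of_qCoeff`).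

* `ext_qCoeff` : a cusp form of level `Γ₀(N)` is determined by its `q`-expansion;
* `res q g` : the restriction `Γ₀(M) → Γ₀(M q)`; `qCoeff_res`;
* `qCoeff_formOp` : `a_n(formOp M l g) = a_{n l}(g) + [l ∤ M][l ∣ n] l a_{n / l}(g)`;
* **`formOp_Vq`** : `formOp (M q) l (V_q g) = V_q (formOp M l g)` for `l ∤ q`;
* **`formOp_res`** : `formOp (M q) l (res g) = res (formOp M l g)` when `l ∣ M q ↔ l ∣ M`
  (`formOp_res_of_not_dvd` : `l ∤ q`; `formOp_res_of_dvd` : `l ∣ M`);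
* **`formOp_self_Vq`** : `U_q ∘ V_q = res` ; **`res_formOp_self`** : `T_q = U_q + q V_q` for `q ∤ M`;
* `formOp_depl` : `formOp (N l l) l' (D_l f) = D_l (formOp N l' f)` for `l' ≠ l` ;
  `formOp_self_depl` : `U_l (D_l f) = 0` ; `qCoeff_depl_one` : `a₁(D_l f) = a₁(f)`.
-/
import Mathlib
import Fermat.Agent.GB.B7.Depl
import Fermat.Agent.GM.End.Endgame
import Fermat.Agent.S49_helper65.Eigenform

set_option autoImplicit false
set_option linter.unusedSectionVars false

open CongruenceSubgroup ModularFormClass UpperHalfPlane CuspForm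

namespace Fermat.Agent.GE9.OldQ

open Fermat.Agent.GE.Mod.Stab (restrict G0 G0_mul_le Vq qCoeff_Vq)
open Fermat.Agent.GM.End (formOp formOp_of_dvd formOp_of_not_dvd)
open Fermat.Agent.S49_helper65 (cusp_eq_zero_of_qCoeff qCoeff_heckeTLin qCoeff_heckeULin
  qCoeff_smul_cusp)
open Fermat.Agent.GB.B7.Depl (qCoeff_sub' depl qCoeff_depl)

/-! ### generalities -/

/-- a cusp form of level `Γ₀(N)` is determined by its `q`-expansion. -/
theorem ext_qCoeff {N : ℕ} {f g : CuspForm (Gamma0 N) 2} (h : ∀ n, qCoeff f n = qCoeff g n) :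
    f = g :=
  sub_eq_zero.mp (cusp_eq_zero_of_qCoeff (f - g) fun n => by rw [qCoeff_sub', h n, sub_self])

theorem qCoeff_add' {N : ℕ} (f g : CuspForm (Gamma0 N) 2) (n : ℕ) :
    qCoeff ⇑(f + g) n = qCoeff ⇑f n + qCoeff ⇑g n := Fermat.Agent.S49.qCoeff_add f g n

/-- the restriction `Γ₀(M) → Γ₀(M q)`. -/
noncomputable abbrev res (q : ℕ) {M : ℕ} (g : CuspForm (Gamma0 M) 2) :
    CuspForm (Gamma0 (M * q)) 2 := restrict (G0_mul_le M q) g

theorem qCoeff_res (q : ℕ) {M : ℕ} (g : CuspForm (Gamma0 M) 2) (n : ℕ) :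
    qCoeff (res q g) n = qCoeff g n := rfl

/-- **the `q`-expansion of `formOp M l g`** (`T_l` for `l ∤ M`, `U_l` for `l ∣ M`). -/
theorem qCoeff_formOp {M : ℕ} [NeZero M] (l : Nat.Primes) (g : CuspForm (Gamma0 M) 2) (n : ℕ) :
    qCoeff (formOp M l g) n = qCoeff g (n * l) +
      if (l : ℕ) ∣ M then 0 else if (l : ℕ) ∣ n then (l : ℂ) * qCoeff g (n / l) else 0 := by
  by_cases hl : (l : ℕ) ∣ M
  · rw [if_pos hl, add_zero]
    have h1 : formOp M l = heckeULin 2 hl := formOp_of_dvd M l.2 hl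
    rw [h1]
    exact qCoeff_heckeULin g l.2 hl n
  · rw [if_neg hl]
    have h1 : formOp M l = heckeTLin 2 l.2 hl := formOp_of_not_dvd M l.2 hl
    rw [h1]
    exact qCoeff_heckeTLin g l.2 hl n

/-! ### coefficient algebra (no modular forms) -/

section Coeff

/-- the coefficients of `T_l` (`d` false) / `U_l` (`d` true). -/
def opC (d : Prop) [Decidable d] (l : ℕ) (a : ℕ → ℂ) (n : ℕ) : ℂ :=
  a (n * l) + if d then 0 else if l ∣ n then (l : ℂ) * a (n / l) else 0

/-- the coefficients of `V_q`. -/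
def vC (q : ℕ) (a : ℕ → ℂ) (n : ℕ) : ℂ := if q ∣ n then a (n / q) else 0

/-- the coefficients of the depletion `D_l`. -/
def dC (l : ℕ) (a : ℕ → ℂ) (n : ℕ) : ℂ := if l ∣ n then 0 else a n

theorem opC_vC (d : Prop) [Decidable d] {l q : ℕ} (hl : l.Prime) (hq0 : q ≠ 0)
    (hlq : ¬ l ∣ q) (a : ℕ → ℂ) (n : ℕ) : opC d l (vC q a) n = vC q (opC d l a) n := by
  have hcop : Nat.Coprime q l := ((Nat.Prime.coprime_iff_not_dvd hl).2 hlq).symm
  have hqn : q ∣ n * l ↔ q ∣ n := hcop.dvd_mul_right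
  unfold opC vC
  by_cases hn : q ∣ n
  · obtain ⟨m, rfl⟩ := hn
    have e1 : q * m * l / q = m * l := by
      rw [mul_assoc, Nat.mul_div_cancel_left _ (Nat.pos_of_ne_zero hq0)]
    rw [if_pos (hqn.2 (dvd_mul_right q m)), if_pos (dvd_mul_right q m),
      Nat.mul_div_cancel_left m (Nat.pos_of_ne_zero hq0), e1]
    congr 1
    by_cases hd : d
    · rw [if_pos hd, if_pos hd]
    · rw [if_neg hd, if_neg hd]
      have hlm : l ∣ q * m ↔ l ∣ m := hcop.symm.dvd_mul_left
      by_cases hm : l ∣ m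
      · obtain ⟨k, rfl⟩ := hm
        have e2 : q * (l * k) / l = q * k := by
          rw [mul_left_comm, Nat.mul_div_cancel_left _ hl.pos]
        rw [if_pos (hlm.2 (dvd_mul_right _ k)), if_pos (dvd_mul_right _ k),
          Nat.mul_div_cancel_left k hl.pos, e2, if_pos (dvd_mul_right q k),
          Nat.mul_div_cancel_left k (Nat.pos_of_ne_zero hq0)]
      · rw [if_neg (fun h => hm (hlm.1 h)), if_neg hm]
  · rw [if_neg (fun h => hn (hqn.1 h)), if_neg hn, zero_add]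
    by_cases hd : d
    · rw [if_pos hd]
    · rw [if_neg hd]
      by_cases hln : l ∣ n
      · rw [if_pos hln, if_neg, mul_zero]
        intro h
        exact hn (h.trans (Nat.div_dvd_of_dvd hln))
      · rw [if_neg hln]

theorem opC_dC (d : Prop) [Decidable d] {l l' : ℕ} (hl : l.Prime) (hl' : l'.Prime)
    (hne : l' ≠ l) (a : ℕ → ℂ) (n : ℕ) : opC d l' (dC l a) n = dC l (opC d l' a) n := by
  have hll' : ¬ l ∣ l' := fun h => hne ((Nat.prime_dvd_prime_iff_eq hl hl').mp h).symm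
  have hcop : Nat.Coprime l l' := (Nat.Prime.coprime_iff_not_dvd hl).2 hll'
  have hln : l ∣ n * l' ↔ l ∣ n := hcop.dvd_mul_right
  unfold opC dC
  by_cases hn : l ∣ n
  · rw [if_pos (hln.2 hn), if_pos hn, zero_add]
    by_cases hd : d
    · rw [if_pos hd]
    · rw [if_neg hd]
      by_cases hl'n : l' ∣ n
      · rw [if_pos hl'n, if_pos, mul_zero]
        obtain ⟨k, rfl⟩ := hl'n
        rw [Nat.mul_div_cancel_left k hl'.pos]
        exact (hcop.dvd_mul_left).1 hn
      · rw [if_neg hl'n]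
  · rw [if_neg (fun h => hn (hln.1 h)), if_neg hn]
    congr 1
    by_cases hd : d
    · rw [if_pos hd, if_pos hd]
    · rw [if_neg hd, if_neg hd]
      by_cases hl'n : l' ∣ n
      · rw [if_pos hl'n, if_pos hl'n, if_neg]
        intro h
        exact hn (h.trans (Nat.div_dvd_of_dvd hl'n))
      · rw [if_neg hl'n, if_neg hl'n]

end Coeff

theorem qCoeff_formOp_eq_opC {M : ℕ} [NeZero M] (l : Nat.Primes) (g : CuspForm (Gamma0 M) 2) :
    (fun n => qCoeff (formOp M l g) n) = opC ((l : ℕ) ∣ M) l (fun n => qCoeff g n) :=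
  funext fun n => qCoeff_formOp l g n

theorem qCoeff_Vq_eq_vC {q : ℕ} (hq : q ≠ 0) {M : ℕ} (g : CuspForm (Gamma0 M) 2) :
    (fun n => qCoeff (Vq q g) n) = vC q (fun n => qCoeff g n) :=
  funext fun n => qCoeff_Vq hq g n

theorem qCoeff_depl_eq_dC {l : ℕ} (hl : l.Prime) {N : ℕ} [NeZero N] [NeZero l]
    (f : CuspForm (Gamma0 N) 2) :
    (fun n => qCoeff (depl l f) n) = dC l (fun n => qCoeff f n) :=
  funext fun n => qCoeff_depl hl f n

/-! ### `V_q` and `res` commute with the Hecke operators away from `q` -/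

section Commute

variable {M q : ℕ} [NeZero M] [NeZero q]

theorem dvd_mul_iff_of_not_dvd (l : Nat.Primes) (hlq : ¬ (l : ℕ) ∣ q) :
    (l : ℕ) ∣ M * q ↔ (l : ℕ) ∣ M :=
  ⟨fun h => (l.2.dvd_mul.mp h).resolve_right hlq, fun h => h.mul_right q⟩

/-- **`formOp (M q) l ∘ V_q = V_q ∘ formOp M l`** for `l ∤ q`. -/
theorem formOp_Vq (l : Nat.Primes) (hlq : ¬ (l : ℕ) ∣ q) (g : CuspForm (Gamma0 M) 2) :
    formOp (M * q) l (Vq q g) = Vq q (formOp M l g) := by
  have hq0 : q ≠ 0 := NeZero.ne q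
  have hiff : (l : ℕ) ∣ M * q ↔ (l : ℕ) ∣ M := dvd_mul_iff_of_not_dvd l hlq
  refine ext_qCoeff fun n => ?_
  have h1 : qCoeff (formOp (M * q) l (Vq q g)) n =
      opC ((l : ℕ) ∣ M * q) l (fun n => qCoeff (Vq q g) n) n :=
    congrFun (qCoeff_formOp_eq_opC l (Vq q g)) n
  have h2 : qCoeff (Vq q (formOp M l g)) n = vC q (fun n => qCoeff (formOp M l g) n) n :=
    congrFun (qCoeff_Vq_eq_vC hq0 (formOp M l g)) n
  rw [h1, h2, qCoeff_Vq_eq_vC hq0 g, qCoeff_formOp_eq_opC l g]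
  have h3 : opC ((l : ℕ) ∣ M * q) l (vC q fun n => qCoeff g n) n =
      opC ((l : ℕ) ∣ M) l (vC q fun n => qCoeff g n) n := by
    unfold opC
    by_cases hlM : (l : ℕ) ∣ M
    · rw [if_pos (hiff.2 hlM), if_pos hlM]
    · rw [if_neg (fun h => hlM (hiff.1 h)), if_neg hlM]
  rw [h3]
  exact opC_vC _ l.2 hq0 hlq _ n

/-- **`formOp (M q) l ∘ res = res ∘ formOp M l`** whenever `l ∣ M q ↔ l ∣ M`. -/
theorem formOp_res (l : Nat.Primes) (hiff : (l : ℕ) ∣ M * q ↔ (l : ℕ) ∣ M)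
    (g : CuspForm (Gamma0 M) 2) :
    formOp (M * q) l (res q g) = res q (formOp M l g) := by
  refine ext_qCoeff fun n => ?_
  rw [qCoeff_res q (formOp M l g) n, qCoeff_formOp l g n, qCoeff_formOp l (res q g) n,
    qCoeff_res q g (n * l)]
  congr 1
  by_cases hlM : (l : ℕ) ∣ M
  · rw [if_pos (hiff.2 hlM), if_pos hlM]
  · rw [if_neg (fun h => hlM (hiff.1 h)), if_neg hlM]
    rfl

theorem formOp_res_of_not_dvd (l : Nat.Primes) (hlq : ¬ (l : ℕ) ∣ q)
    (g : CuspForm (Gamma0 M) 2) :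
    formOp (M * q) l (res q g) = res q (formOp M l g) :=
  formOp_res l (dvd_mul_iff_of_not_dvd l hlq) g

theorem formOp_res_of_dvd (l : Nat.Primes) (hlM : (l : ℕ) ∣ M) (g : CuspForm (Gamma0 M) 2) :
    formOp (M * q) l (res q g) = res q (formOp M l g) :=
  formOp_res l ⟨fun _ => hlM, fun h => h.mul_right q⟩ g

/-- **`U_q ∘ V_q = res`**. -/
theorem formOp_self_Vq (hq : q.Prime) (g : CuspForm (Gamma0 M) 2) :
    formOp (M * q) ⟨q, hq⟩ (Vq q g) = res q g := by
  refine ext_qCoeff fun n => ?_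
  rw [qCoeff_formOp, if_pos (show ((⟨q, hq⟩ : Nat.Primes) : ℕ) ∣ M * q from dvd_mul_left q M),
    add_zero, qCoeff_Vq hq.ne_zero, qCoeff_res]
  show (if q ∣ n * q then qCoeff g (n * q / q) else 0) = qCoeff g n
  rw [if_pos (dvd_mul_left q n), Nat.mul_div_cancel n hq.pos]

/-- **`T_q = U_q + q V_q`** on `q`-expansions, `q ∤ M`: the `T_q` of level `M` restricted to level
`M q` is `U_q + q V_q`. -/
theorem res_formOp_self (hq : q.Prime) (hqM : ¬ q ∣ M) (g : CuspForm (Gamma0 M) 2) :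
    res q (formOp M ⟨q, hq⟩ g) =
      formOp (M * q) ⟨q, hq⟩ (res q g) + (q : ℂ) • Vq q g := by
  refine ext_qCoeff fun n => ?_
  rw [qCoeff_res, qCoeff_formOp, qCoeff_add', qCoeff_formOp, qCoeff_smul_cusp,
    qCoeff_Vq hq.ne_zero, qCoeff_res,
    if_pos (show ((⟨q, hq⟩ : Nat.Primes) : ℕ) ∣ M * q from dvd_mul_left q M),
    if_neg (show ¬ ((⟨q, hq⟩ : Nat.Primes) : ℕ) ∣ M from hqM), add_zero]
  show qCoeff g (n * q) + (if q ∣ n then (q : ℂ) * qCoeff g (n / q) else 0) =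
    qCoeff g (n * q) + (q : ℂ) * (if q ∣ n then qCoeff g (n / q) else 0)
  congr 1
  split_ifs <;> simp

end Commute

/-! ### the depletion `D_l = 1 − V_l U_l` (helper52 `GB/B7/Depl`) and the Hecke operators -/

section Depl

variable {N : ℕ} [NeZero N] {l : ℕ} [NeZero l]

theorem qCoeff_depl_one (hl : l.Prime) (f : CuspForm (Gamma0 N) 2) :
    qCoeff (depl l f) 1 = qCoeff f 1 := by
  rw [qCoeff_depl hl, if_neg (fun h => hl.one_lt.ne' (Nat.dvd_one.mp h))]

/-- **`formOp (N l l) l' ∘ D_l = D_l ∘ formOp N l'`** for `l' ≠ l`. -/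
theorem formOp_depl (hl : l.Prime) (l' : Nat.Primes) (hne : (l' : ℕ) ≠ l)
    (f : CuspForm (Gamma0 N) 2) :
    formOp (N * l * l) l' (depl l f) = depl l (formOp N l' f) := by
  have hl'l : ¬ (l' : ℕ) ∣ l := fun h => hne ((Nat.prime_dvd_prime_iff_eq l'.2 hl).mp h)
  have hiff : (l' : ℕ) ∣ N * l * l ↔ (l' : ℕ) ∣ N := by
    constructor
    · intro h
      rcases l'.2.dvd_mul.mp h with h | h
      · exact (l'.2.dvd_mul.mp h).resolve_right hl'l
      · exact absurd h hl'l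
    · intro h
      exact (h.mul_right l).mul_right l
  refine ext_qCoeff fun n => ?_
  have h1 : qCoeff (formOp (N * l * l) l' (depl l f)) n =
      opC ((l' : ℕ) ∣ N * l * l) l' (fun n => qCoeff (depl l f) n) n :=
    congrFun (qCoeff_formOp_eq_opC l' (depl l f)) n
  have h2 : qCoeff (depl l (formOp N l' f)) n = dC l (fun n => qCoeff (formOp N l' f) n) n :=
    congrFun (qCoeff_depl_eq_dC hl (formOp N l' f)) n
  rw [h1, h2, qCoeff_depl_eq_dC hl f, qCoeff_formOp_eq_opC l' f]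
  have h3 : opC ((l' : ℕ) ∣ N * l * l) l' (dC l fun n => qCoeff f n) n =
      opC ((l' : ℕ) ∣ N) l' (dC l fun n => qCoeff f n) n := by
    unfold opC
    by_cases hlN : (l' : ℕ) ∣ N
    · rw [if_pos (hiff.2 hlN), if_pos hlN]
    · rw [if_neg (fun h => hlN (hiff.1 h)), if_neg hlN]
  rw [h3]
  exact opC_dC _ hl l'.2 hne _ n

/-- **`U_l (D_l f) = 0`**: the depleted form has eigenvalue `0` at `l`. -/
theorem formOp_self_depl (hl : l.Prime) (f : CuspForm (Gamma0 N) 2) :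
    formOp (N * l * l) ⟨l, hl⟩ (depl l f) = 0 := by
  refine cusp_eq_zero_of_qCoeff _ fun n => ?_
  rw [qCoeff_formOp, if_pos (show ((⟨l, hl⟩ : Nat.Primes) : ℕ) ∣ N * l * l from dvd_mul_left l _),
    add_zero, qCoeff_depl hl]
  exact if_pos (dvd_mul_left l n)

end Depl

/-! ### linear-map forms -/

section Lin

variable {M : ℕ}

/-- `res q` as a linear map. -/
noncomputable def resLin (q : ℕ) :
    CuspForm (Gamma0 M) 2 →ₗ[ℂ] CuspForm (Gamma0 (M * q)) 2 where
  toFun := res q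
  map_add' _ _ := rfl
  map_smul' _ _ := rfl

@[simp] theorem resLin_apply (q : ℕ) (g : CuspForm (Gamma0 M) 2) : resLin q g = res q g := rfl

theorem res_injective (q : ℕ) : Function.Injective (res q : CuspForm (Gamma0 M) 2 → _) :=
  fun f g h => ext_qCoeff fun n => by rw [← qCoeff_res q f n, h, qCoeff_res]

/-- `V_q` as a linear map. -/
noncomputable def VqLin (q : ℕ) [NeZero q] :
    CuspForm (Gamma0 M) 2 →ₗ[ℂ] CuspForm (Gamma0 (M * q)) 2 where
  toFun := Vq q
  map_add' f g := ext_qCoeff fun n => by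
    rw [qCoeff_add', qCoeff_Vq (NeZero.ne q), qCoeff_Vq (NeZero.ne q), qCoeff_Vq (NeZero.ne q),
      qCoeff_add']
    split_ifs <;> simp
  map_smul' c g := ext_qCoeff fun n => by
    rw [RingHom.id_apply, qCoeff_smul_cusp, qCoeff_Vq (NeZero.ne q), qCoeff_Vq (NeZero.ne q),
      qCoeff_smul_cusp]
    split_ifs <;> simp

@[simp] theorem VqLin_apply (q : ℕ) [NeZero q] (g : CuspForm (Gamma0 M) 2) :
    VqLin q g = Vq q g := rfl

theorem Vq_injective (q : ℕ) [NeZero q] :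
    Function.Injective (Vq q : CuspForm (Gamma0 M) 2 → _) := by
  intro f g h
  refine ext_qCoeff fun n => ?_
  have h1 := qCoeff_Vq (NeZero.ne q) f (q * n)
  have h2 := qCoeff_Vq (NeZero.ne q) g (q * n)
  rw [if_pos (dvd_mul_right q n), Nat.mul_div_cancel_left n (Nat.pos_of_ne_zero (NeZero.ne q))]
    at h1 h2
  rw [← h1, ← h2, h]

variable [NeZero M]

/-- `D_l` as a linear map. -/
noncomputable def deplLin (l : ℕ) [NeZero l] (hl : l.Prime) :
    CuspForm (Gamma0 M) 2 →ₗ[ℂ] CuspForm (Gamma0 (M * l * l)) 2 where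
  toFun := depl l
  map_add' f g := ext_qCoeff fun n => by
    rw [qCoeff_add', qCoeff_depl hl, qCoeff_depl hl, qCoeff_depl hl, qCoeff_add']
    split_ifs <;> simp
  map_smul' c g := ext_qCoeff fun n => by
    rw [RingHom.id_apply, qCoeff_smul_cusp, qCoeff_depl hl, qCoeff_depl hl, qCoeff_smul_cusp]
    split_ifs <;> simp

@[simp] theorem deplLin_apply (l : ℕ) [NeZero l] (hl : l.Prime) (g : CuspForm (Gamma0 M) 2) :
    deplLin l hl g = depl l g := rfl

/-- operator form of `formOp_Vq`. -/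
theorem formOp_comp_VqLin {q : ℕ} [NeZero q] (l : Nat.Primes) (hlq : ¬ (l : ℕ) ∣ q) :
    (formOp (M * q) l).comp (VqLin q) = (VqLin q).comp (formOp M l) :=
  LinearMap.ext fun g => formOp_Vq l hlq g

/-- operator form of `formOp_res_of_not_dvd`. -/
theorem formOp_comp_resLin {q : ℕ} [NeZero q] (l : Nat.Primes) (hlq : ¬ (l : ℕ) ∣ q) :
    (formOp (M * q) l).comp (resLin q) = (resLin q).comp (formOp M l) :=
  LinearMap.ext fun g => formOp_res_of_not_dvd l hlq g

/-- operator form of `formOp_self_Vq`: `U_q ∘ V_q = res`. -/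
theorem formOp_self_comp_VqLin {q : ℕ} [NeZero q] (hq : q.Prime) :
    (formOp (M * q) ⟨q, hq⟩).comp (VqLin q) = resLin q :=
  LinearMap.ext fun g => formOp_self_Vq hq g

/-- operator form of `formOp_depl`. -/
theorem formOp_comp_deplLin {l : ℕ} [NeZero l] (hl : l.Prime) (l' : Nat.Primes)
    (hne : (l' : ℕ) ≠ l) :
    (formOp (M * l * l) l').comp (deplLin l hl) = (deplLin l hl).comp (formOp M l') :=
  LinearMap.ext fun g => formOp_depl hl l' hne g

/-- eigenvectors away from `q` go to eigenvectors under `V_q`, `res`, `D_l`. -/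
theorem formOp_Vq_of_eigen {q : ℕ} [NeZero q] (l : Nat.Primes) (hlq : ¬ (l : ℕ) ∣ q)
    {g : CuspForm (Gamma0 M) 2} {c : ℂ} (hg : formOp M l g = c • g) :
    formOp (M * q) l (Vq q g) = c • Vq q g := by
  rw [formOp_Vq l hlq, hg]
  exact (VqLin q).map_smul c g

theorem formOp_res_of_eigen {q : ℕ} [NeZero q] (l : Nat.Primes) (hlq : ¬ (l : ℕ) ∣ q)
    {g : CuspForm (Gamma0 M) 2} {c : ℂ} (hg : formOp M l g = c • g) :
    formOp (M * q) l (res q g) = c • res q g := by
  rw [formOp_res_of_not_dvd l hlq, hg]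
  rfl

theorem formOp_depl_of_eigen {l : ℕ} [NeZero l] (hl : l.Prime) (l' : Nat.Primes)
    (hne : (l' : ℕ) ≠ l) {g : CuspForm (Gamma0 M) 2} {c : ℂ} (hg : formOp M l' g = c • g) :
    formOp (M * l * l) l' (depl l g) = c • depl l g := by
  rw [formOp_depl hl l' hne, hg]
  exact (deplLin l hl).map_smul c g

end Lin

end Fermat.Agent.GE9.OldQ
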