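/-
GATE-E / GE9-OLDQ, leaf (O5) of helper63's node table (board 7233 / 7266) (helper8):
**the DEPLETION REDUCTION — from single-prime identities at a depleted level to the anemic
eigenspace.**

`N` a level, `b` a prime, `ls` a list of primes not containing `b` (`= B ∖ {b}`), `lam` a system of
eigenvalues.  `E := {h ∈ S₂(Γ₀(N)) | formOp N l h = lam l • h ∀ l ∉ ls ∪ {b}}` (the ANEMIC eigenspace).

* `deplL ls hls hN' : S₂(Γ₀(N)) →ₗ[ℂ] S₂(Γ₀(N'))`, `N' = N * ls.prod ^ 2` (a VARIABLE with an equation):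
  the iterated depletion `∏_{l ∈ ls} D_l` (`D_l = 1 − V_l U_l`, helper52 `GB/B7/Depl.depl`);
  `qCoeff_deplL_one` (`a₁` is preserved), `formOp_deplL` (commutes with `formOp` at `l' ∉ ls`),
  `formOp_deplL_of_mem` (`U_l ∘ deplL = 0` for `l ∈ ls`), `deplL_ne_zero`;
* `intertwine_aeval` : `D ∘ T = T' ∘ D ⟹ D ∘ Φ(T) = Φ(T') ∘ D`;
* **`aeval_formOp_eq_zero_of_depleted`** : if `Φ(formOp N' b)` kills every form of the DEPLETED level
  `N'` which is an eigenvector away from `b` for the depleted system (`lam l` off `ls ∪ {b}`, `0` on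
  `ls`), then `Φ(formOp N b)` kills the whole anemic eigenspace `E` of level `N`.
  Proof (helper63): `W := Φ(U_b) E` is stable under all `formOp N l` and `a₁ ≡ 0` on it (deplete:
  `D (Φ(U_b) h) = Φ(U_b) (D h) = 0` and `a₁ ∘ D = a₁`); a nonzero stable subspace contains a joint
  eigenvector of the commuting family (`GM/End/AbsLattice.exists_common_eigenvector_mem`), whose
  `a₁` cannot vanish (`GB/B5/Point/Period.qCoeff_eq_zero_of_one`).
-/
import Mathlib
import Fermat.Agent.GE9.OldQ.Commute
import Fermat.Agent.GB.B5.Point.Period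

set_option autoImplicit false
set_option linter.unusedSectionVars false
set_option linter.style.haveILetI false

open CongruenceSubgroup ModularFormClass UpperHalfPlane CuspForm

namespace Fermat.Agent.GE9.OldQ.Deplete

open Fermat.Agent.GM.End (formOp formOp_of_dvd formOp_of_not_dvd formOp_commute
  exists_common_eigenvector_mem)
open Fermat.Agent.S49_helper65 (cusp_eq_zero_of_qCoeff)
open Fermat.Agent.GE9.OldQ

/-- the `q`-expansion of the zero form -/
theorem qCoeff_zero' {N : ℕ} (n : ℕ) : qCoeff ⇑(0 : CuspForm (Gamma0 N) 2) n = 0 := by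
  have h : (0 : CuspForm (Gamma0 N) 2) = (0 : ℂ) • (0 : CuspForm (Gamma0 N) 2) :=
    (zero_smul _ _).symm
  rw [h, Fermat.Agent.S49.qCoeff_smul, zero_mul]

/-! ### transport along an equality of levels -/

/-- transport of cusp forms along an equality of levels -/
noncomputable def castF {N N' : ℕ} (h : N' = N) :
    CuspForm (Gamma0 N) 2 →ₗ[ℂ] CuspForm (Gamma0 N') 2 :=
  h ▸ LinearMap.id

theorem castF_rfl {N : ℕ} (f : CuspForm (Gamma0 N) 2) : castF (rfl : N = N) f = f := rfl

/-! ### the iterated depletion -/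

theorem neZero_step {N l : ℕ} [NeZero N] (hl : l.Prime) : NeZero (N * l * l) :=
  ⟨Nat.mul_ne_zero (Nat.mul_ne_zero (NeZero.ne N) hl.ne_zero) hl.ne_zero⟩

theorem hls_tail {l : ℕ} {ls : List ℕ} (hls : ∀ l' ∈ l :: ls, l'.Prime) : ∀ l' ∈ ls, l'.Prime :=
  fun l' h => hls l' (List.mem_cons_of_mem _ h)

theorem level_tail {N N' l : ℕ} {ls : List ℕ} (h : N' = N * (l :: ls).prod ^ 2) :
    N' = N * l * l * ls.prod ^ 2 := by
  rw [h, List.prod_cons]
  ring

theorem level_nil {N N' : ℕ} (h : N' = N * ([] : List ℕ).prod ^ 2) : N' = N := by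
  rw [h, List.prod_nil, one_pow, mul_one]

/-- **the iterated depletion** at the primes of `ls`, from level `N` to level `N' = N * ls.prod ^ 2` -/
noncomputable def deplL : (ls : List ℕ) → (∀ l ∈ ls, l.Prime) → {N N' : ℕ} → [NeZero N] →
    (N' = N * ls.prod ^ 2) → CuspForm (Gamma0 N) 2 →ₗ[ℂ] CuspForm (Gamma0 N') 2
  | [], _, _, _, _, h => castF (level_nil h)
  | l :: ls, hls, N, _, _, h =>
    haveI : NeZero l := ⟨(hls l List.mem_cons_self).ne_zero⟩
    haveI : NeZero (N * l * l) := neZero_step (hls l List.mem_cons_self)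
    (deplL ls (hls_tail hls) (level_tail h)).comp (deplLin l (hls l List.mem_cons_self))

theorem deplL_nil {N N' : ℕ} [NeZero N] (hls : ∀ l ∈ ([] : List ℕ), l.Prime)
    (h : N' = N * ([] : List ℕ).prod ^ 2) (f : CuspForm (Gamma0 N) 2) :
    deplL [] hls h f = castF (level_nil h) f := rfl

theorem deplL_cons {N N' l : ℕ} {ls : List ℕ} [NeZero N] [NeZero l] [NeZero (N * l * l)]
    (hls : ∀ l' ∈ l :: ls, l'.Prime)
    (h : N' = N * (l :: ls).prod ^ 2) (f : CuspForm (Gamma0 N) 2) :
    deplL (l :: ls) hls h f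
      = deplL ls (hls_tail hls) (level_tail h) (Fermat.Agent.GB.B7.Depl.depl l f) := rfl

/-- the iterated depletion preserves `a₁` -/
theorem qCoeff_deplL_one (ls : List ℕ) (hls : ∀ l ∈ ls, l.Prime) {N N' : ℕ} [NeZero N]
    (h : N' = N * ls.prod ^ 2) (f : CuspForm (Gamma0 N) 2) :
    qCoeff (deplL ls hls h f) 1 = qCoeff f 1 := by
  induction ls generalizing N with
  | nil =>
    have h' := level_nil h
    subst h'
    rfl
  | cons l ls ih =>
    haveI : NeZero l := ⟨(hls l List.mem_cons_self).ne_zero⟩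
    haveI : NeZero (N * l * l) := neZero_step (hls l List.mem_cons_self)
    rw [deplL_cons, ih (hls_tail hls) (level_tail h), qCoeff_depl_one (hls l List.mem_cons_self)]

/-- **the iterated depletion commutes with the Hecke operators away from `ls`** -/
theorem formOp_deplL (ls : List ℕ) (hls : ∀ l ∈ ls, l.Prime) {N N' : ℕ} [NeZero N] [NeZero N']
    (h : N' = N * ls.prod ^ 2) (l' : Nat.Primes) (hl' : (l' : ℕ) ∉ ls)
    (f : CuspForm (Gamma0 N) 2) :
    formOp N' l' (deplL ls hls h f) = deplL ls hls h (formOp N l' f) := by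
  induction ls generalizing N with
  | nil =>
    have h' := level_nil h
    subst h'
    rfl
  | cons l ls ih =>
    haveI : NeZero l := ⟨(hls l List.mem_cons_self).ne_zero⟩
    haveI : NeZero (N * l * l) := neZero_step (hls l List.mem_cons_self)
    have hne : (l' : ℕ) ≠ l := fun e => hl' (e ▸ List.mem_cons_self)
    have hl'' : (l' : ℕ) ∉ ls := fun e => hl' (List.mem_cons_of_mem _ e)
    rw [deplL_cons, deplL_cons, ih (hls_tail hls) (level_tail h) hl'',
      formOp_depl (hls l List.mem_cons_self) l' hne]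

/-- **`U_l` kills the iterated depletion for `l ∈ ls`** -/
theorem formOp_deplL_of_mem (ls : List ℕ) (hls : ∀ l ∈ ls, l.Prime) {N N' : ℕ} [NeZero N]
    [NeZero N'] (h : N' = N * ls.prod ^ 2) (l' : Nat.Primes) (hl' : (l' : ℕ) ∈ ls)
    (f : CuspForm (Gamma0 N) 2) :
    formOp N' l' (deplL ls hls h f) = 0 := by
  induction ls generalizing N with
  | nil => exact absurd hl' List.not_mem_nil
  | cons l ls ih =>
    haveI : NeZero l := ⟨(hls l List.mem_cons_self).ne_zero⟩
    haveI : NeZero (N * l * l) := neZero_step (hls l List.mem_cons_self)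
    rw [deplL_cons]
    by_cases hmem : (l' : ℕ) ∈ ls
    · exact ih (hls_tail hls) (level_tail h) hmem _
    · have hl'l : (l' : ℕ) = l := by
        rcases List.mem_cons.mp hl' with e | e
        · exact e
        · exact absurd e hmem
      rw [formOp_deplL ls (hls_tail hls) (level_tail h) l' hmem]
      have e : l' = ⟨l, hls l List.mem_cons_self⟩ := Subtype.ext hl'l
      rw [e, formOp_self_depl (hls l List.mem_cons_self), map_zero]

/-- the iterated depletion of a form with `a₁ ≠ 0` is nonzero -/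
theorem deplL_ne_zero (ls : List ℕ) (hls : ∀ l ∈ ls, l.Prime) {N N' : ℕ} [NeZero N]
    (h : N' = N * ls.prod ^ 2) {f : CuspForm (Gamma0 N) 2} (ha : qCoeff f 1 ≠ 0) :
    deplL ls hls h f ≠ 0 := by
  intro h0
  apply ha
  rw [← qCoeff_deplL_one ls hls h f, h0]
  exact qCoeff_zero' 1

/-! ### polynomials in intertwined operators -/

/-- `D ∘ T = T' ∘ D ⟹ D ∘ Φ(T) = Φ(T') ∘ D` -/
theorem intertwine_aeval {V V' : Type*} [AddCommGroup V] [Module ℂ V] [AddCommGroup V']
    [Module ℂ V'] (D : V →ₗ[ℂ] V') (T : Module.End ℂ V) (T' : Module.End ℂ V')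
    (hDT : ∀ x, D (T x) = T' (D x)) (Φ : Polynomial ℂ) (x : V) :
    D (Polynomial.aeval T Φ x) = Polynomial.aeval T' Φ (D x) := by
  have hpow : ∀ (n : ℕ) (y : V), D ((T ^ n) y) = (T' ^ n) (D y) := by
    intro n
    induction n with
    | zero => intro y; rfl
    | succ n ih =>
      intro y
      rw [pow_succ, pow_succ, Module.End.mul_apply, Module.End.mul_apply, ih, hDT]
  induction Φ using Polynomial.induction_on' with
  | add p q hp hq =>
    rw [map_add, map_add, LinearMap.add_apply, LinearMap.add_apply, map_add, hp, hq]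
  | monomial n c =>
    rw [Polynomial.aeval_monomial, Polynomial.aeval_monomial, Module.End.mul_apply,
      Module.End.mul_apply, Module.algebraMap_end_apply, Module.algebraMap_end_apply, map_smul,
      hpow]

/-- a polynomial in `T` commutes with everything commuting with `T` -/
theorem commute_aeval {V : Type*} [AddCommGroup V] [Module ℂ V] {S T : Module.End ℂ V}
    (h : Commute S T) (Φ : Polynomial ℂ) : Commute S (Polynomial.aeval T Φ) := by
  induction Φ using Polynomial.induction_on' with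
  | add p q hp hq =>
    rw [map_add]
    exact hp.add_right hq
  | monomial n c =>
    rw [Polynomial.aeval_monomial]
    exact (Algebra.commute_algebraMap_right c S).mul_right (h.pow_right n)

/-! ### a joint eigenvector with `a₁ = 0` vanishes -/

theorem eq_zero_of_full_eigen {N : ℕ} [NeZero N] (v : CuspForm (Gamma0 N) 2)
    (c : Nat.Primes → ℂ) (hv : ∀ l : Nat.Primes, formOp N l v = c l • v)
    (h1 : qCoeff v 1 = 0) : v = 0 := by
  classical
  let θ : ℕ → ℂ := fun n => if h : n.Prime then c ⟨n, h⟩ else 0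
  have hθ : ∀ (ℓ : ℕ) (hℓ : ℓ.Prime), θ ℓ = c ⟨ℓ, hℓ⟩ := fun ℓ hℓ => dif_pos hℓ
  refine cusp_eq_zero_of_qCoeff v
    (Fermat.Agent.S49_helper65.qCoeff_eq_zero_of_one v θ ?_ ?_ h1)
  · intro ℓ hℓ hℓN
    have h := hv ⟨ℓ, hℓ⟩
    rw [formOp_of_not_dvd N hℓ hℓN] at h
    rw [h, hθ ℓ hℓ]
  · intro q hq hqN
    have h := hv ⟨q, hq⟩
    rw [formOp_of_dvd N hq hqN] at h
    rw [h, hθ q hq]

/-! ### the depletion reduction -/

/-- **(O5) the depletion reduction.**  If `Φ(formOp N' b)` kills every form of the depleted level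
`N' = N * ls.prod ^ 2` which is an eigenvector away from `b` for the depleted system (`lam l` off
`ls ∪ {b}`, `0` on `ls`), then `Φ(formOp N b)` kills every `h` of level `N` with
`formOp N l h = lam l • h` for all `l ∉ ls ∪ {b}`. -/
theorem aeval_formOp_eq_zero_of_depleted {N : ℕ} [NeZero N] (b : Nat.Primes) (ls : List ℕ)
    (hls : ∀ l ∈ ls, l.Prime) (hb : (b : ℕ) ∉ ls) {N' : ℕ} [NeZero N']
    (hN' : N' = N * ls.prod ^ 2) (lam : Nat.Primes → ℂ) (Φ : Polynomial ℂ)
    (hsingle : ∀ h' : CuspForm (Gamma0 N') 2,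
      (∀ l : Nat.Primes, (l : ℕ) ≠ b → (l : ℕ) ∉ ls → formOp N' l h' = lam l • h') →
      (∀ l : Nat.Primes, (l : ℕ) ∈ ls → formOp N' l h' = 0) →
      Polynomial.aeval (formOp N' b) Φ h' = 0)
    (h : CuspForm (Gamma0 N) 2)
    (he : ∀ l : Nat.Primes, (l : ℕ) ≠ b → (l : ℕ) ∉ ls → formOp N l h = lam l • h) :
    Polynomial.aeval (formOp N b) Φ h = 0 := by
  classical
  -- the anemic eigenspace
  let E : Submodule ℂ (CuspForm (Gamma0 N) 2) :=
    { carrier := {f | ∀ l : Nat.Primes, (l : ℕ) ≠ b → (l : ℕ) ∉ ls → formOp N l f = lam l • f}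
      add_mem' := by
        intro f g hf hg l h1 h2
        rw [map_add, hf l h1 h2, hg l h1 h2, smul_add]
      zero_mem' := by
        intro l _ _
        rw [map_zero, smul_zero]
      smul_mem' := by
        intro c f hf l h1 h2
        rw [map_smul, hf l h1 h2, smul_comm] }
  have hEstab : ∀ l : Nat.Primes, ∀ f ∈ E, formOp N l f ∈ E := by
    intro l f hf i h1 h2
    have hc := congrArg (fun t : Module.End ℂ (CuspForm (Gamma0 N) 2) => t f)
      (formOp_commute N i l).eq
    have hc' : formOp N i (formOp N l f) = formOp N l (formOp N i f) := hc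
    rw [hc', hf i h1 h2, map_smul]
  set P : Module.End ℂ (CuspForm (Gamma0 N) 2) := Polynomial.aeval (formOp N b) Φ with hP
  have hPcomm : ∀ l : Nat.Primes, ∀ f, formOp N l (P f) = P (formOp N l f) := by
    intro l f
    have hc := congrArg (fun t : Module.End ℂ (CuspForm (Gamma0 N) 2) => t f)
      (commute_aeval (formOp_commute N l b) Φ).eq
    exact hc
  let W : Submodule ℂ (CuspForm (Gamma0 N) 2) := E.map P
  have hWstab : ∀ l : Nat.Primes, ∀ w ∈ W, formOp N l w ∈ W := by
    rintro l w ⟨f, hf, rfl⟩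
    exact ⟨formOp N l f, hEstab l f hf, (hPcomm l f).symm⟩
  -- `a₁` vanishes on `W`
  have hW1 : ∀ w ∈ W, qCoeff w 1 = 0 := by
    rintro w ⟨f, hf, rfl⟩
    have hD : deplL ls hls hN' (P f)
        = Polynomial.aeval (formOp N' b) Φ (deplL ls hls hN' f) :=
      intertwine_aeval (deplL ls hls hN') (formOp N b) (formOp N' b)
        (fun x => (formOp_deplL ls hls hN' b hb x).symm) Φ f
    have h0 : deplL ls hls hN' (P f) = 0 := by
      rw [hD]
      refine hsingle _ (fun l h1 h2 => ?_) (fun l h1 => ?_)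
      · rw [formOp_deplL ls hls hN' l h2, hf l h1 h2, map_smul]
      · exact formOp_deplL_of_mem ls hls hN' l h1 f
    have h1 := qCoeff_deplL_one ls hls hN' (P f)
    rw [h0] at h1
    rw [← h1]
    exact qCoeff_zero' 1
  -- hence `W = ⊥`
  have hfd : FiniteDimensional ℂ (CuspForm (Gamma0 N) 2) :=
    Fermat.Agent.S23.finiteDimensional_cuspForm N 2
  have hWbot : W = ⊥ := by
    by_contra hW
    obtain ⟨v, c, hvW, hv0, hc⟩ :=
      exists_common_eigenvector_mem (fun l : Nat.Primes => formOp N l) (formOp_commute N) W hW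
        hWstab
    exact hv0 (eq_zero_of_full_eigen v c hc (hW1 v hvW))
  have hmem : P h ∈ W := ⟨h, he, rfl⟩
  rw [hWbot, Submodule.mem_bot] at hmem
  exact hmem

end Fermat.Agent.GE9.OldQ.Deplete
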