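/-
GATE-E / GE9-OLDQ (helper63) — O1: **the Atkin–Lehner descent (AL1 + AL2).**

`q` a prime, `M₁ ≠ 0`, `h` a weight-2 cusp form of level `Γ₀(M₁ q)` whose `q`-expansion is supported
on the multiples of `q`.  Then `h = V_q h₁` for a cusp form `h₁` of level `Γ₀(M₁)`
(`Stab.Vq q h₁ = (z ↦ h₁ (q z))`).

Proof (group theory only).  `g₀ := h ∣[2] δ⁻¹`, `δ = diag(q, 1)`, is invariant under
`δ Γ₀(M₁ q) δ⁻¹ = Γ₀(M₁) ∩ Γ⁰(q)` and — because `a_n(h) = 0` for `q ∤ n`, i.e. `h(z + 1/q) = h(z)` —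
under `T = (1 1; 0 1)`.  These generate `Γ₀(M₁)`: for `γ = (a b; c d) ∈ Γ₀(M₁)`, if `q ∣ a` then
`q ∤ c` and `Tγ` has `q ∤ a + c`; if `q ∤ a` then `γ T^j` has `q ∣ a j + b` for a suitable `j`.
Holomorphy and vanishing at the cusps come from `CuspForm.translate` (all groups are arithmetic).
-/
import Mathlib
import Fermat.Agent.GE.Mod.Stab

set_option autoImplicit false

open UpperHalfPlane ModularForm
open scoped MatrixGroups ModularForm Manifold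

namespace Fermat.Agent.GE9.OldQ

open Matrix Matrix.SpecialLinearGroup ConjAct Pointwise CongruenceSubgroup ModularFormClass
open Fermat.Agent.GE.Mod.Stab

/-! ### The unipotent matrices `(1 b; 0 1)` -/

/-- `(1 b; 0 1) ∈ GL(2, ℝ)`. -/
noncomputable def unip (b : ℝ) : GL (Fin 2) ℝ := upperTriangularGL 1 b 1 (by norm_num)

theorem val_unip (b : ℝ) :
    ((unip b : GL (Fin 2) ℝ) : Matrix (Fin 2) (Fin 2) ℝ) = !![1, b; 0, 1] := rfl

theorem det_unip (b : ℝ) : ((unip b).det : ℝ) = 1 := by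
  rw [Matrix.GeneralLinearGroup.val_det_apply, val_unip, Matrix.det_fin_two_of]
  ring

theorem det_unip_pos (b : ℝ) : 0 < ((unip b).det : ℝ) := by
  rw [det_unip]
  exact one_pos

theorem denom_unip (b : ℝ) (τ : ℍ) : UpperHalfPlane.denom (unip b) τ = 1 := by
  simp [UpperHalfPlane.denom, val_unip]

theorem coe_unip_smul (b : ℝ) (τ : ℍ) : ((unip b • τ : ℍ) : ℂ) = (τ : ℂ) + b := by
  rw [UpperHalfPlane.coe_smul_of_det_pos (det_unip_pos b)]
  simp [UpperHalfPlane.num, UpperHalfPlane.denom, val_unip]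

theorem σ_unip (b : ℝ) : UpperHalfPlane.σ (unip b) = .refl ℝ ℂ := by
  rw [UpperHalfPlane.σ, if_pos (det_unip_pos b)]

theorem slash_unip_apply (k : ℤ) (b : ℝ) (f : ℍ → ℂ) (τ : ℍ) :
    (f ∣[k] unip b) τ = f (unip b • τ) := by
  rw [ModularForm.slash_apply, σ_unip, det_unip, denom_unip]
  simp

/-! ### `h (z + 1/q) = h z` when the `q`-expansion is supported on the multiples of `q` -/

theorem apply_unip_inv {q : ℕ} (hq : q ≠ 0) {M : ℕ} (h : CuspForm (Gamma0 M) 2)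
    (h0 : ∀ n : ℕ, ¬ q ∣ n → qCoeff h n = 0) (τ : ℍ) :
    h (unip ((q : ℝ)⁻¹) • τ) = h τ := by
  have : Fact (IsCusp OnePoint.infty (G0 M)) :=
    ⟨Subgroup.isCusp_of_mem_strictPeriods one_pos
      (CongruenceSubgroup.one_mem_strictPeriods_Gamma0 M)⟩
  have h1 := ModularForm.hasSum_qExpansion (f := h) one_pos
    (CongruenceSubgroup.one_mem_strictPeriods_Gamma0 M) (unip ((q : ℝ)⁻¹) • τ)
  have h2 := ModularForm.hasSum_qExpansion (f := h) one_pos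
    (CongruenceSubgroup.one_mem_strictPeriods_Gamma0 M) τ
  have hq' : (q : ℂ) ≠ 0 := by exact_mod_cast hq
  have hterm : ∀ m : ℕ,
      (qExpansion 1 (h : ℍ → ℂ)).coeff m *
          Function.Periodic.qParam 1 ((unip ((q : ℝ)⁻¹) • τ : ℍ) : ℂ) ^ m =
        (qExpansion 1 (h : ℍ → ℂ)).coeff m * Function.Periodic.qParam 1 (τ : ℂ) ^ m := by
    intro m
    by_cases hm : q ∣ m
    · obtain ⟨m', rfl⟩ := hm
      congr 1
      rw [coe_unip_smul, Function.Periodic.qParam, Function.Periodic.qParam,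
        ← Complex.exp_nat_mul, ← Complex.exp_nat_mul]
      have e : ((q * m' : ℕ) : ℂ) * (2 * (Real.pi : ℂ) * Complex.I *
          ((τ : ℂ) + ((q : ℝ)⁻¹ : ℝ)) / (1 : ℝ)) =
          ((q * m' : ℕ) : ℂ) * (2 * (Real.pi : ℂ) * Complex.I * (τ : ℂ) / (1 : ℝ)) +
            (m' : ℂ) * (2 * (Real.pi : ℂ) * Complex.I) := by
        push_cast
        field_simp
      rw [e, Complex.exp_add, Complex.exp_nat_mul_two_pi_mul_I, mul_one]
    · have := h0 m hm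
      unfold qCoeff at this
      rw [this, zero_mul, zero_mul]
  have h1' : HasSum (fun m : ℕ => (qExpansion 1 (h : ℍ → ℂ)).coeff m *
      Function.Periodic.qParam 1 (τ : ℂ) ^ m) (h (unip ((q : ℝ)⁻¹) • τ)) := by
    convert h1 using 2 with m
    exact (hterm m).symm
  exact h1'.unique h2

/-! ### The stabiliser of a function under the slash action -/

/-- the stabiliser of `F` under the weight-`k` slash action of `GL(2, ℝ)`. -/
def slashStab (k : ℤ) (F : ℍ → ℂ) : Subgroup (GL (Fin 2) ℝ) where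
  carrier := {γ | F ∣[k] γ = F}
  mul_mem' := fun {a b} ha hb => by
    show F ∣[k] (a * b) = F
    rw [SlashAction.slash_mul, show F ∣[k] a = F from ha, show F ∣[k] b = F from hb]
  one_mem' := SlashAction.slash_one k F
  inv_mem' := fun {a} ha => by
    show F ∣[k] a⁻¹ = F
    have h1 : F ∣[k] a = F := ha
    conv_lhs => rw [← h1]
    rw [← SlashAction.slash_mul, mul_inv_cancel, SlashAction.slash_one]

theorem mem_slashStab {k : ℤ} {F : ℍ → ℂ} {γ : GL (Fin 2) ℝ} :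
    γ ∈ slashStab k F ↔ F ∣[k] γ = F := Iff.rfl

/-! ### Matrix identities -/

theorem mapGL_T : mapGL ℝ ModularGroup.T = unip 1 := by
  apply Matrix.GeneralLinearGroup.ext
  intro i j
  rw [val_unip, mapGL_coe_matrix, Matrix.SpecialLinearGroup.map_apply_coe, ModularGroup.coe_T]
  fin_cases i <;> fin_cases j <;> simp

/-- `δ · (1 1/q; 0 1) = (1 1; 0 1) · δ`, `δ = diag(q, 1)`. -/
theorem heckeDiag_mul_unip {q : ℕ} (hq : q ≠ 0) :
    heckeDiagMatrix q * unip ((q : ℝ)⁻¹) = unip 1 * heckeDiagMatrix q := by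
  have hq' : (q : ℝ) ≠ 0 := by exact_mod_cast hq
  apply Matrix.GeneralLinearGroup.ext
  intro i j
  simp only [Matrix.GeneralLinearGroup.coe_mul, val_heckeDiagMatrix hq, val_unip]
  fin_cases i <;> fin_cases j <;> simp [Matrix.mul_apply, Fin.sum_univ_two, hq']

/-- `γ₁ δ = δ γ₂` for `γ₁ = (a, q b'; c, d)`, `γ₂ = (a, b'; q c, d)`. -/
theorem exists_mul_heckeDiag {q M₁ : ℕ} (hq : q ≠ 0) (γ₁ : SL(2, ℤ)) (hc : (M₁ : ℤ) ∣ γ₁ 1 0)
    (hb : (q : ℤ) ∣ γ₁ 0 1) :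
    ∃ γ₂ ∈ Gamma0 (M₁ * q), mapGL ℝ γ₁ * heckeDiagMatrix q = heckeDiagMatrix q * mapGL ℝ γ₂ := by
  obtain ⟨b', hb'⟩ := hb
  obtain ⟨c', hc'⟩ := hc
  have hdet : γ₁ 0 0 * γ₁ 1 1 - γ₁ 0 1 * γ₁ 1 0 = 1 := by
    have := γ₁.det_coe
    rwa [Matrix.det_fin_two] at this
  have hdet' : (!![γ₁ 0 0, b'; q * γ₁ 1 0, γ₁ 1 1] : Matrix (Fin 2) (Fin 2) ℤ).det = 1 := by
    rw [Matrix.det_fin_two_of]
    rw [hb'] at hdet
    linear_combination hdet
  let γ₂ : SL(2, ℤ) := ⟨!![γ₁ 0 0, b'; q * γ₁ 1 0, γ₁ 1 1], hdet'⟩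
  have h00 : (γ₂ 0 0 : ℤ) = γ₁ 0 0 := rfl
  have h01 : (γ₂ 0 1 : ℤ) = b' := rfl
  have h10 : (γ₂ 1 0 : ℤ) = q * γ₁ 1 0 := rfl
  have h11 : (γ₂ 1 1 : ℤ) = γ₁ 1 1 := rfl
  refine ⟨γ₂, ?_, ?_⟩
  · rw [Gamma0_mem, CharP.intCast_eq_zero_iff (ZMod (M₁ * q)) (M₁ * q), h10, hc']
    exact ⟨c', by push_cast; ring⟩
  · apply Matrix.GeneralLinearGroup.ext
    intro i j
    simp only [Matrix.GeneralLinearGroup.coe_mul, val_heckeDiagMatrix hq, mapGL_coe_matrix]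
    fin_cases i <;> fin_cases j <;>
      simp [Matrix.mul_apply, Fin.sum_univ_two, h00, h01, h10, h11, hb'] <;> ring

/-! ### Group theory: `Γ₀(M₁) = ⟨Γ₀(M₁) ∩ Γ⁰(q), T⟩` -/

theorem exists_zpow_T_mul {q : ℕ} (hq : q.Prime) (γ : SL(2, ℤ)) :
    ∃ (i j : ℤ) (γ₁ : SL(2, ℤ)), γ₁ = ModularGroup.T ^ i * γ * ModularGroup.T ^ j ∧
      γ₁ 1 0 = γ 1 0 ∧ (q : ℤ) ∣ γ₁ 0 1 := by
  have hdet : γ 0 0 * γ 1 1 - γ 0 1 * γ 1 0 = 1 := by
    have := γ.det_coe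
    rwa [Matrix.det_fin_two] at this
  have hqp : Prime (q : ℤ) := Nat.prime_iff_prime_int.mp hq
  -- entries of `T^i γ T^j`
  have hent : ∀ i j : ℤ,
      (ModularGroup.T ^ i * γ * ModularGroup.T ^ j) 1 0 = γ 1 0 ∧
      (ModularGroup.T ^ i * γ * ModularGroup.T ^ j) 0 1 =
        (γ 0 0 + i * γ 1 0) * j + γ 0 1 + i * γ 1 1 := by
    intro i j
    have hT : ∀ n : ℤ, ((ModularGroup.T ^ n : SL(2, ℤ)) : Matrix (Fin 2) (Fin 2) ℤ) =
        !![1, n; 0, 1] := ModularGroup.coe_T_zpow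
    constructor
    · rw [Matrix.SpecialLinearGroup.coe_mul, Matrix.SpecialLinearGroup.coe_mul, Matrix.mul_apply,
        Fin.sum_univ_two, Matrix.mul_apply, Fin.sum_univ_two, Matrix.mul_apply, Fin.sum_univ_two,
        hT, hT]
      simp
    · rw [Matrix.SpecialLinearGroup.coe_mul, Matrix.SpecialLinearGroup.coe_mul, Matrix.mul_apply,
        Fin.sum_univ_two, Matrix.mul_apply, Fin.sum_univ_two, Matrix.mul_apply, Fin.sum_univ_two,
        hT, hT]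
      simp
      ring
  -- the key arithmetic: if `q ∤ a'` then `a' j + b' ≡ 0` is solvable
  have hsolve : ∀ a' b' : ℤ, ¬ (q : ℤ) ∣ a' → ∃ j : ℤ, (q : ℤ) ∣ a' * j + b' := by
    intro a' b' ha'
    have hcop : IsCoprime a' (q : ℤ) := (hqp.coprime_iff_not_dvd.mpr ha').symm
    obtain ⟨u, v, huv⟩ := hcop
    refine ⟨-b' * u, ⟨b' * v, ?_⟩⟩
    linear_combination (-b') * huv
  by_cases ha : (q : ℤ) ∣ γ 0 0
  · have hc : ¬ (q : ℤ) ∣ γ 1 0 := by
      intro hc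
      have : (q : ℤ) ∣ 1 := by
        rw [← hdet]
        exact dvd_sub (Dvd.dvd.mul_right ha _) (Dvd.dvd.mul_left hc _)
      exact hqp.not_dvd_one this
    have ha' : ¬ (q : ℤ) ∣ γ 0 0 + 1 * γ 1 0 := by
      intro h
      rw [one_mul] at h
      exact hc ((dvd_add_right ha).mp h)
    obtain ⟨j, hj⟩ := hsolve (γ 0 0 + 1 * γ 1 0) (γ 0 1 + 1 * γ 1 1) ha'
    refine ⟨1, j, _, rfl, (hent 1 j).1, ?_⟩
    rw [(hent 1 j).2]
    convert hj using 1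
    ring
  · obtain ⟨j, hj⟩ := hsolve (γ 0 0) (γ 0 1) ha
    refine ⟨0, j, _, rfl, (hent 0 j).1, ?_⟩
    rw [(hent 0 j).2]
    convert hj using 1
    ring

/-! ### The descended form -/

section main

variable {q M₁ : ℕ}

/-- the descended function `h ∣[2] δ⁻¹`, `δ = diag(q, 1)` (`= q⁻¹ h(z / q)`). -/
noncomputable def descFun (q : ℕ) {M : ℕ} (h : CuspForm (Gamma0 M) 2) : ℍ → ℂ :=
  (h : ℍ → ℂ) ∣[(2 : ℤ)] (heckeDiagMatrix q)⁻¹

theorem descFun_slash_heckeDiag (q : ℕ) {M : ℕ} (h : CuspForm (Gamma0 M) 2) :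
    descFun q h ∣[(2 : ℤ)] heckeDiagMatrix q = h := by
  rw [descFun, ← SlashAction.slash_mul, inv_mul_cancel, SlashAction.slash_one]

theorem unip_one_mem_slashStab (hq : q ≠ 0) {M : ℕ} (h : CuspForm (Gamma0 M) 2)
    (h0 : ∀ n : ℕ, ¬ q ∣ n → qCoeff h n = 0) : unip 1 ∈ slashStab 2 (descFun q h) := by
  rw [mem_slashStab, descFun, ← SlashAction.slash_mul]
  have e : (heckeDiagMatrix q)⁻¹ * unip 1 = unip ((q : ℝ)⁻¹) * (heckeDiagMatrix q)⁻¹ := by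
    rw [inv_mul_eq_iff_eq_mul, ← mul_assoc, heckeDiag_mul_unip hq, mul_assoc, mul_inv_cancel,
      mul_one]
  rw [e, SlashAction.slash_mul]
  congr 1
  funext τ
  rw [slash_unip_apply, apply_unip_inv hq h h0]

theorem mapGL_mem_slashStab_of_dvd (hq : q ≠ 0) (h : CuspForm (Gamma0 (M₁ * q)) 2)
    (γ₁ : SL(2, ℤ)) (hc : (M₁ : ℤ) ∣ γ₁ 1 0) (hb : (q : ℤ) ∣ γ₁ 0 1) :
    mapGL ℝ γ₁ ∈ slashStab 2 (descFun q h) := by
  obtain ⟨γ₂, hγ₂, hmul⟩ := exists_mul_heckeDiag hq γ₁ hc hb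
  rw [mem_slashStab, descFun, ← SlashAction.slash_mul]
  have e : (heckeDiagMatrix q)⁻¹ * mapGL ℝ γ₁ = mapGL ℝ γ₂ * (heckeDiagMatrix q)⁻¹ := by
    rw [inv_mul_eq_iff_eq_mul, ← mul_assoc, ← hmul, mul_assoc, mul_inv_cancel, mul_one]
  rw [e, SlashAction.slash_mul]
  congr 1
  exact SlashInvariantFormClass.slash_action_eq h (mapGL ℝ γ₂) ⟨γ₂, hγ₂, rfl⟩

theorem G0_le_slashStab (hq : q.Prime) (h : CuspForm (Gamma0 (M₁ * q)) 2)
    (h0 : ∀ n : ℕ, ¬ q ∣ n → qCoeff h n = 0) : G0 M₁ ≤ slashStab 2 (descFun q h) := by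
  rintro _ ⟨γ, hγ, rfl⟩
  obtain ⟨i, j, γ₁, hγ₁, h10, h01⟩ := exists_zpow_T_mul hq γ
  have hT : mapGL ℝ ModularGroup.T ∈ slashStab 2 (descFun q h) := by
    rw [mapGL_T]
    exact unip_one_mem_slashStab hq.ne_zero h h0
  have hc : (M₁ : ℤ) ∣ γ₁ 1 0 := by
    rw [h10]
    rw [SetLike.mem_coe, Gamma0_mem, CharP.intCast_eq_zero_iff (ZMod M₁) M₁] at hγ
    exact hγ
  have h1 := mapGL_mem_slashStab_of_dvd hq.ne_zero h γ₁ hc h01
  rw [hγ₁, map_mul, map_mul, map_zpow, map_zpow] at h1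
  have h2 := (Subgroup.mul_mem_cancel_right _ (Subgroup.zpow_mem _ hT j)).mp h1
  exact (Subgroup.mul_mem_cancel_left _ (Subgroup.zpow_mem _ hT i)).mp h2

/-- `diag(q, 1)` over `ℚ`. -/
noncomputable def diagQ (q : ℕ) (hq : q ≠ 0) : GL (Fin 2) ℚ :=
  Matrix.GeneralLinearGroup.mkOfDetNeZero !![(q : ℚ), 0; 0, 1]
    (by rw [Matrix.det_fin_two_of, mul_one, mul_zero, sub_zero]; exact_mod_cast hq)

theorem map_diagQ (hq : q ≠ 0) :
    (diagQ q hq).map (Rat.castHom ℝ) = heckeDiagMatrix q := by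
  apply Matrix.GeneralLinearGroup.ext
  intro i j
  rw [val_heckeDiagMatrix hq]
  fin_cases i <;> fin_cases j <;> simp [diagQ]

/-- **the descended cusp form** `q⁻¹ h(z / q)` of level `Γ₀(M₁)`. -/
noncomputable def descend (hq : q.Prime) [NeZero M₁] (h : CuspForm (Gamma0 (M₁ * q)) 2)
    (h0 : ∀ n : ℕ, ¬ q ∣ n → qCoeff h n = 0) : CuspForm (Gamma0 M₁) 2 where
  toFun := descFun q h
  slash_action_eq' γ hγ := G0_le_slashStab hq h h0 hγ
  holo' := (CuspForm.translate h (heckeDiagMatrix q)⁻¹).holo'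
  zero_at_cusps' {c} hc := by
    have : NeZero (M₁ * q) := ⟨mul_ne_zero (NeZero.ne M₁) hq.ne_zero⟩
    have : (toConjAct ((heckeDiagMatrix q)⁻¹)⁻¹ • G0 (M₁ * q)).IsArithmetic := by
      rw [inv_inv, ← map_diagQ hq.ne_zero]
      exact Subgroup.IsArithmetic.conj (G0 (M₁ * q)) (diagQ q hq.ne_zero)
    refine (CuspForm.translate h (heckeDiagMatrix q)⁻¹).zero_at_cusps' ?_
    rw [Subgroup.IsArithmetic.isCusp_iff_isCusp_SL2Z]
    exact (Subgroup.IsArithmetic.isCusp_iff_isCusp_SL2Z (G0 M₁)).mp hc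

theorem coe_descend (hq : q.Prime) [NeZero M₁] (h : CuspForm (Gamma0 (M₁ * q)) 2)
    (h0 : ∀ n : ℕ, ¬ q ∣ n → qCoeff h n = 0) :
    (descend hq h h0 : ℍ → ℂ) = descFun q h := rfl

/-- **Atkin–Lehner descent (AL1 + AL2).**  A cusp form of level `Γ₀(M₁ q)` whose `q`-expansion
is supported on the multiples of `q` is `V_q` of a cusp form of level `Γ₀(M₁)`. -/
theorem exists_Vq_eq (hq : q.Prime) [NeZero M₁] (h : CuspForm (Gamma0 (M₁ * q)) 2)
    (h0 : ∀ n : ℕ, ¬ q ∣ n → qCoeff h n = 0) :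
    ∃ h₁ : CuspForm (Gamma0 M₁) 2, Vq q h₁ = h := by
  have hq' : (q : ℂ) ≠ 0 := by exact_mod_cast hq.ne_zero
  refine ⟨(q : ℂ) • descend hq h h0, ?_⟩
  apply DFunLike.ext
  intro τ
  rw [Vq_apply hq.ne_zero]
  have h1 := congrFun (descFun_slash_heckeDiag q h) τ
  rw [slash_heckeDiagMatrix_apply 2 hq.ne_zero, show (2 : ℤ) - 1 = 1 by norm_num, zpow_one] at h1
  rw [← h1]
  rfl

end main

end Fermat.Agent.GE9.OldQ
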