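/-
GATE-E / GE9-OLDQ (helper63) — O2: **AL3, the good-prime case.**

`b` a prime, `b ∤ M`, `h` a weight-2 cusp form of level `Γ₀(M)` whose `q`-expansion is supported on
the multiples of `b`.  Then `h = 0`.

Proof (no Petersson product, no strong multiplicity one).  By the descent `O1` (at level `M b`),
`h = V_b g` with `g` of level `M`; since `T_b = U_b + b V_b` on `q`-expansions at the good prime
`b`, the form `V_b h = b⁻¹ (T_b h − g)` is again of level `M` and again supported on the multiples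
of `b`.  Iterating, `V_b^k h` has level `M` for every `k`; its `q`-expansion starts in degree
`≥ b^k`, beyond the Sturm bound for `k` large, so `V_b^k h = 0` and hence `h = 0`.
-/
import Mathlib
import Fermat.Agent.GE9.OldQ.Descent
import Fermat.Agent.S23.FinDim
import Fermat.Agent.S49_helper65.Eigenform

set_option autoImplicit false

open UpperHalfPlane ModularForm
open scoped MatrixGroups ModularForm Manifold

namespace Fermat.Agent.GE9.OldQ

open CongruenceSubgroup ModularFormClass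
open Fermat.Agent.GE.Mod.Stab Fermat.Agent.S49_helper65

variable {M b : ℕ}

/-- `V_b` preserves the level at a good prime, on forms supported on the multiples of `b`. -/
theorem exists_V_of_good [NeZero M] (hb : b.Prime) (hbM : ¬ b ∣ M) (h : CuspForm (Gamma0 M) 2)
    (h0 : ∀ n : ℕ, ¬ b ∣ n → qCoeff h n = 0) :
    ∃ h' : CuspForm (Gamma0 M) 2, ∀ n : ℕ,
      qCoeff h' n = if b ∣ n then qCoeff h (n / b) else 0 := by
  have hb' : (b : ℂ) ≠ 0 := by exact_mod_cast hb.ne_zero
  -- descent at level `M * b`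
  obtain ⟨g, hg⟩ := exists_Vq_eq hb (restrict (G0_mul_le M b) h) (fun n hn => by
    rw [qCoeff_restrict]
    exact h0 n hn)
  have hgn : ∀ n : ℕ, qCoeff h n = if b ∣ n then qCoeff g (n / b) else 0 := by
    intro n
    rw [← qCoeff_Vq hb.ne_zero g n, hg, qCoeff_restrict]
  refine ⟨(b : ℂ)⁻¹ • (CuspForm.heckeTLin 2 hb hbM h - g), fun n => ?_⟩
  rw [qCoeff_smul_cusp]
  have hsub : qCoeff (CuspForm.heckeTLin 2 hb hbM h - g : CuspForm (Gamma0 M) 2) n =
      qCoeff (CuspForm.heckeTLin 2 hb hbM h) n - qCoeff g n := by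
    have e : (CuspForm.heckeTLin 2 hb hbM h - g : CuspForm (Gamma0 M) 2) =
        CuspForm.heckeTLin 2 hb hbM h + (-1 : ℂ) • g := by
      rw [neg_one_smul, sub_eq_add_neg]
    rw [e, Fermat.Agent.S49.qCoeff_add, qCoeff_smul_cusp]
    ring
  rw [hsub, qCoeff_heckeTLin h hb hbM n]
  have h1 : qCoeff h (n * b) = qCoeff g n := by
    rw [hgn (n * b), if_pos (Dvd.intro_left n rfl), Nat.mul_div_cancel n hb.pos]
  rw [h1]
  by_cases hd : b ∣ n
  · rw [if_pos hd, if_pos hd]
    field_simp
    ring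
  · rw [if_neg hd, if_neg hd]
    ring

/-- iterating: `V_b^k h` has level `M`. -/
theorem exists_V_pow_of_good [NeZero M] (hb : b.Prime) (hbM : ¬ b ∣ M) (k : ℕ) :
    ∀ h : CuspForm (Gamma0 M) 2, (∀ n : ℕ, ¬ b ∣ n → qCoeff h n = 0) →
      ∃ hk : CuspForm (Gamma0 M) 2, ∀ n : ℕ,
        qCoeff hk n = if b ^ k ∣ n then qCoeff h (n / b ^ k) else 0 := by
  induction k with
  | zero =>
    intro h _
    exact ⟨h, fun n => by rw [pow_zero, if_pos (one_dvd n), Nat.div_one]⟩
  | succ k ih =>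
    intro h h0
    obtain ⟨h', hh'⟩ := exists_V_of_good hb hbM h h0
    have h0' : ∀ n : ℕ, ¬ b ∣ n → qCoeff h' n = 0 := fun n hn => by rw [hh' n, if_neg hn]
    obtain ⟨hk, hhk⟩ := ih h' h0'
    refine ⟨hk, fun n => ?_⟩
    rw [hhk n]
    by_cases hd : b ^ k ∣ n
    · rw [if_pos hd, hh']
      obtain ⟨m, rfl⟩ := hd
      have hpos : 0 < b ^ k := pow_pos hb.pos k
      rw [Nat.mul_div_cancel_left m hpos]
      by_cases hd' : b ∣ m
      · obtain ⟨m', rfl⟩ := hd'
        have e : b ^ k * (b * m') = b ^ (k + 1) * m' := by rw [pow_succ]; ring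
        rw [if_pos (Dvd.intro m' rfl), if_pos ⟨m', e⟩, Nat.mul_div_cancel_left m' hb.pos, e,
          Nat.mul_div_cancel_left m' (pow_pos hb.pos (k + 1))]
      · rw [if_neg hd', if_neg]
        intro hcon
        apply hd'
        rw [pow_succ] at hcon
        exact (Nat.mul_dvd_mul_iff_left hpos).mp hcon
    · rw [if_neg hd, if_neg]
      intro hcon
      exact hd ((pow_dvd_pow b (Nat.le_succ k)).trans hcon)

/-- **AL3.**  At a good prime `b ∤ M`, a cusp form of level `Γ₀(M)` whose `q`-expansion is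
supported on the multiples of `b` vanishes. -/
theorem eq_zero_of_qCoeff_off [NeZero M] (hb : b.Prime) (hbM : ¬ b ∣ M)
    (h : CuspForm (Gamma0 M) 2) (h0 : ∀ n : ℕ, ¬ b ∣ n → qCoeff h n = 0) : h = 0 := by
  set k := Fermat.Agent.S23.sturmBound M 2 + 1 with hk
  obtain ⟨hk', hhk⟩ := exists_V_pow_of_good hb hbM k h h0
  have hlt : Fermat.Agent.S23.sturmBound M 2 < b ^ k := by
    calc Fermat.Agent.S23.sturmBound M 2 < k := Nat.lt_succ_self _
      _ < 2 ^ k := Nat.lt_two_pow_self
      _ ≤ b ^ k := Nat.pow_le_pow_left hb.two_le k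
  have hzero : hk' = 0 := by
    apply Fermat.Agent.S23.eq_zero_of_qCoeff_eq_zero_of_le M 2
    intro n hn
    rw [hhk n]
    by_cases hd : b ^ k ∣ n
    · have hn0 : n = 0 := Nat.eq_zero_of_dvd_of_lt hd (lt_of_le_of_lt hn hlt)
      rw [if_pos hd, hn0, Nat.zero_div]
      exact qCoeff_zero_cusp h
    · rw [if_neg hd]
  apply cusp_eq_zero_of_qCoeff
  intro m
  have h1 := hhk (b ^ k * m)
  rw [if_pos (Dvd.intro m rfl), Nat.mul_div_cancel_left m (pow_pos hb.pos k), hzero] at h1
  rw [← h1]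
  exact qCoeff_zero_cusp_form (b ^ k * m)
where
  qCoeff_zero_cusp_form (m : ℕ) : qCoeff ((0 : CuspForm (Gamma0 M) 2) : ℍ → ℂ) m = 0 := by
    have := qCoeff_smul_cusp (0 : ℂ) (0 : CuspForm (Gamma0 M) 2) m
    rw [zero_smul, zero_mul] at this
    exact this

end Fermat.Agent.GE9.OldQ
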