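/-
GATE-E / GE9-OLDQ, leaf (O4) of helper63's node table (board 7233 / interface 7266) (helper57):
**the single-prime Atkin–Lehner identities** on weight-2 cusp forms of `Γ₀`.

`b` a prime, `lam : Nat.Primes → ℂ`, "eigen away from `b`" := `formOp _ l h = lam l • h` for every
prime `l ≠ b`;  `U := formOp _ ⟨b, hb⟩`.

The `_of_AL3` forms take O2 = AL3 (helper63, `Good.lean`: *a cusp form of level `Γ₀(M)`, `b ∤ M`,
whose `q`-expansion is supported on the multiples of `b`, vanishes*) as a hypothesis `AL3 M b`; the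
last section discharges it by `Good.eq_zero_of_qCoeff_off` and gives the BINDER-FREE interface of
board 7266: **`eq_zero_of_good`** (G), **`eq_zero_of_new`** (R), **`quadratic_of_old`** (P),
**`cubic_of_old`** (Q), with the span forms `exists_eq_smul`, `exists_eq_span_two`,
`exists_eq_span_three`.

* `qCoeff_eq_zero_of_eigen_away` : eigen away from `b` and `a₁ = 0` ⟹ `a_n = 0` for `b ∤ n`;
* (G) `eq_zero_of_good_of_AL3` : level `M`, `b ∤ M`, eigen away from `b`, `a₁ = 0` ⟹ `h = 0`;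
* (R) `eq_zero_of_new` : level `M₀ b`, the away-from-`b` system does not occur at level `M₀`,
  eigen away from `b`, `a₁ = 0` ⟹ `h = 0` (no AL3 needed);
* (S2) `exists_eq_span_two_of_AL3` : level `M₀ b`, `b ∤ M₀`, `f₀ ≠ 0` of level `M₀` eigen away
  from `b`: every `h` eigen away from `b` is `c • res f₀ + d • V_b f₀`;
* (P) `quadratic_of_old_of_AL3` : `U (U h) − lam_b • U h + b • h = 0`;
* (S3) `exists_eq_span_three_of_AL3` : level `M₀ b b`: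
  `h = c • res (res f₀) + d • V_b (res f₀) + e • V_b (V_b f₀)`;
* (Q) `cubic_of_old_of_AL3` : `U (U (U h)) − lam_b • U (U h) + b • U h = 0`.
-/
import Mathlib
import Fermat.Agent.GE9.OldQ.Commute
import Fermat.Agent.GE9.OldQ.Descent
import Fermat.Agent.GE9.OldQ.Good

set_option autoImplicit false
set_option linter.unusedSectionVars false
set_option linter.unusedVariables false

open CongruenceSubgroup ModularFormClass UpperHalfPlane CuspForm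

namespace Fermat.Agent.GE9.OldQ

open Fermat.Agent.GE.Mod.Stab (restrict G0 G0_mul_le Vq qCoeff_Vq)
open Fermat.Agent.GM.End (formOp formOp_of_dvd formOp_of_not_dvd)
open Fermat.Agent.S49_helper65 (cusp_eq_zero_of_qCoeff qCoeff_heckeTLin qCoeff_heckeULin
  qCoeff_smul_cusp qCoeff_zero_cusp)
open Fermat.Agent.GB.B7.Depl (qCoeff_sub')

/-- **AL3** (= O2 of the node table, helper63 `Good.lean`) as a `Prop`: a cusp form of level
`Γ₀(M)` whose `q`-expansion is supported on the multiples of `b` vanishes (true for `b` prime,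
`b ∤ M`). -/
def AL3 (M b : ℕ) : Prop :=
  ∀ h : CuspForm (Gamma0 M) 2, (∀ n : ℕ, ¬ b ∣ n → qCoeff h n = 0) → h = 0

/-! ### (0) the coefficients prime to `b` of a form which is eigen away from `b` -/

/-- eigen away from `b` and `a₁ = 0` ⟹ `a_n = 0` for every `n` prime to `b`. -/
theorem qCoeff_eq_zero_of_eigen_away {M : ℕ} [NeZero M] {b : ℕ} (lam : Nat.Primes → ℂ)
    (h : CuspForm (Gamma0 M) 2)
    (he : ∀ l : Nat.Primes, (l : ℕ) ≠ b → formOp M l h = lam l • h)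
    (h1 : qCoeff h 1 = 0) : ∀ n : ℕ, ¬ b ∣ n → qCoeff h n = 0 := by
  intro n
  induction n using Nat.strong_induction_on with
  | _ n ih =>
    intro hbn
    rcases Nat.lt_or_ge n 2 with hn | hn
    · interval_cases n
      · exact qCoeff_zero_cusp h
      · exact h1
    · have hp : n.minFac.Prime := Nat.minFac_prime (by omega)
      obtain ⟨m, hm⟩ := Nat.minFac_dvd n
      have hpb : n.minFac ≠ b := by
        intro hpb
        exact hbn (hpb ▸ Nat.minFac_dvd n)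
      have hm0 : m ≠ 0 := by
        rintro rfl
        omega
      have hmlt : m < n := by
        calc m = 1 * m := (one_mul m).symm
          _ < n.minFac * m := Nat.mul_lt_mul_of_pos_right hp.one_lt (Nat.pos_of_ne_zero hm0)
          _ = n := hm.symm
      have hbm : ¬ b ∣ m := fun hd => hbn (hm ▸ hd.mul_left _)
      have key := qCoeff_formOp ⟨n.minFac, hp⟩ h m
      rw [he ⟨n.minFac, hp⟩ hpb, qCoeff_smul_cusp, ih m hmlt hbm, mul_zero] at key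
      have hmn : m * ((⟨n.minFac, hp⟩ : Nat.Primes) : ℕ) = n :=
        (mul_comm m n.minFac).trans hm.symm
      rw [hmn] at key
      have hrest : (if ((⟨n.minFac, hp⟩ : Nat.Primes) : ℕ) ∣ M then (0 : ℂ)
          else if ((⟨n.minFac, hp⟩ : Nat.Primes) : ℕ) ∣ m then
            (((⟨n.minFac, hp⟩ : Nat.Primes) : ℕ) : ℂ) *
              qCoeff h (m / ((⟨n.minFac, hp⟩ : Nat.Primes) : ℕ)) else 0) = 0 := by
        split_ifs with h2 h3
        · rfl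
        · have hlt : m / n.minFac < n :=
            lt_of_le_of_lt (Nat.div_le_self _ _) hmlt
          have hb' : ¬ b ∣ m / n.minFac := fun hd => hbm (hd.trans (Nat.div_dvd_of_dvd h3))
          show ((n.minFac : ℕ) : ℂ) * qCoeff h (m / n.minFac) = 0
          rw [ih _ hlt hb', mul_zero]
        · rfl
      rw [hrest, add_zero] at key
      exact key.symm

/-! ### (G) the good case -/

/-- **(G)**, AL3-hypothesis form: level `M`, eigen away from `b`, `a₁ = 0` ⟹ `h = 0`. -/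
theorem eq_zero_of_good_of_AL3 {M : ℕ} [NeZero M] {b : ℕ} (hAL3 : AL3 M b)
    (lam : Nat.Primes → ℂ) (h : CuspForm (Gamma0 M) 2)
    (he : ∀ l : Nat.Primes, (l : ℕ) ≠ b → formOp M l h = lam l • h)
    (h1 : qCoeff h 1 = 0) : h = 0 :=
  hAL3 h (qCoeff_eq_zero_of_eigen_away lam h he h1)

/-- a nonzero form which is eigen away from `b` (at an AL3 level) has `a₁ ≠ 0`. -/
theorem qCoeff_one_ne_zero_of_AL3 {M : ℕ} [NeZero M] {b : ℕ} (hAL3 : AL3 M b)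
    (lam : Nat.Primes → ℂ) (f₀ : CuspForm (Gamma0 M) 2) (hf₀ : f₀ ≠ 0)
    (he : ∀ l : Nat.Primes, (l : ℕ) ≠ b → formOp M l f₀ = lam l • f₀) : qCoeff f₀ 1 ≠ 0 :=
  fun h1 => hf₀ (eq_zero_of_good_of_AL3 hAL3 lam f₀ he h1)

/-- two forms which are eigen away from `b` with the same system (at an AL3 level), the first one
nonzero: the second is a multiple of the first. -/
theorem exists_eq_smul_of_AL3 {M : ℕ} [NeZero M] {b : ℕ} (hAL3 : AL3 M b)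
    (lam : Nat.Primes → ℂ) (f₀ : CuspForm (Gamma0 M) 2) (hf₀ : f₀ ≠ 0)
    (hef₀ : ∀ l : Nat.Primes, (l : ℕ) ≠ b → formOp M l f₀ = lam l • f₀)
    (h : CuspForm (Gamma0 M) 2)
    (he : ∀ l : Nat.Primes, (l : ℕ) ≠ b → formOp M l h = lam l • h) :
    ∃ c : ℂ, h = c • f₀ := by
  have ha := qCoeff_one_ne_zero_of_AL3 hAL3 lam f₀ hf₀ hef₀
  refine ⟨qCoeff h 1 / qCoeff f₀ 1, ?_⟩
  have h0 : h - (qCoeff h 1 / qCoeff f₀ 1) • f₀ = 0 := by
    refine eq_zero_of_good_of_AL3 hAL3 lam _ (fun l hl => ?_) ?_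
    · rw [map_sub, map_smul, he l hl, hef₀ l hl, smul_sub, smul_comm]
    · rw [qCoeff_sub', qCoeff_smul_cusp, div_mul_cancel₀ _ ha, sub_self]
  exact sub_eq_zero.mp h0

/-! ### the descent step: a form which is eigen away from `b` with `a₁ = 0` is `V_b` of a form
which is eigen away from `b` -/

section Peel

variable {M₀ b : ℕ} [NeZero M₀] [NeZero b]

/-- level `M₀ b`: eigen away from `b` and `a₁ = 0` ⟹ `h = V_b h₁` with `h₁` of level `M₀` eigen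
away from `b` (O1 + `formOp_Vq` + `Vq_injective`). -/
theorem exists_Vq_eq_of_eigen_away (hb : b.Prime) (lam : Nat.Primes → ℂ)
    (h : CuspForm (Gamma0 (M₀ * b)) 2)
    (he : ∀ l : Nat.Primes, (l : ℕ) ≠ b → formOp (M₀ * b) l h = lam l • h)
    (h1 : qCoeff h 1 = 0) :
    ∃ h₁ : CuspForm (Gamma0 M₀) 2, Vq b h₁ = h ∧
      ∀ l : Nat.Primes, (l : ℕ) ≠ b → formOp M₀ l h₁ = lam l • h₁ := by
  obtain ⟨h₁, hh₁⟩ := exists_Vq_eq hb h (qCoeff_eq_zero_of_eigen_away lam h he h1)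
  refine ⟨h₁, hh₁, fun l hl => ?_⟩
  have hlb : ¬ (l : ℕ) ∣ b := fun hd => hl ((Nat.prime_dvd_prime_iff_eq l.2 hb).mp hd)
  apply Vq_injective (M := M₀) b
  rw [← formOp_Vq l hlb, hh₁, he l hl, ← hh₁]
  exact ((VqLin b).map_smul (lam l) h₁).symm

/-- **(R)**: the away-from-`b` system `lam` does not occur at level `M₀`; then a form of level
`M₀ b` which is eigen away from `b` with `a₁ = 0` vanishes. -/
theorem eq_zero_of_new (hb : b.Prime) (hbM : ¬ b ∣ M₀) (lam : Nat.Primes → ℂ)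
    (hnew : ∀ g : CuspForm (Gamma0 M₀) 2,
      (∀ l : Nat.Primes, (l : ℕ) ≠ b → formOp M₀ l g = lam l • g) → g = 0)
    (h : CuspForm (Gamma0 (M₀ * b)) 2)
    (he : ∀ l : Nat.Primes, (l : ℕ) ≠ b → formOp (M₀ * b) l h = lam l • h)
    (h1 : qCoeff h 1 = 0) : h = 0 := by
  obtain ⟨h₁, hh₁, he₁⟩ := exists_Vq_eq_of_eigen_away hb lam h he h1
  rw [← hh₁, hnew h₁ he₁]
  exact (VqLin b).map_zero

/-- `res` of a form which is eigen away from `b` is eigen away from `b`. -/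
theorem eigen_away_res (hb : b.Prime) (lam : Nat.Primes → ℂ) (f₀ : CuspForm (Gamma0 M₀) 2)
    (hef₀ : ∀ l : Nat.Primes, (l : ℕ) ≠ b → formOp M₀ l f₀ = lam l • f₀) :
    ∀ l : Nat.Primes, (l : ℕ) ≠ b → formOp (M₀ * b) l (res b f₀) = lam l • res b f₀ :=
  fun l hl => formOp_res_of_eigen l
    (fun hd => hl ((Nat.prime_dvd_prime_iff_eq l.2 hb).mp hd)) (hef₀ l hl)

/-- `V_b` of a form which is eigen away from `b` is eigen away from `b`. -/
theorem eigen_away_Vq (hb : b.Prime) (lam : Nat.Primes → ℂ) (f₀ : CuspForm (Gamma0 M₀) 2)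
    (hef₀ : ∀ l : Nat.Primes, (l : ℕ) ≠ b → formOp M₀ l f₀ = lam l • f₀) :
    ∀ l : Nat.Primes, (l : ℕ) ≠ b → formOp (M₀ * b) l (Vq b f₀) = lam l • Vq b f₀ :=
  fun l hl => formOp_Vq_of_eigen l
    (fun hd => hl ((Nat.prime_dvd_prime_iff_eq l.2 hb).mp hd)) (hef₀ l hl)

/-- the peel in reference form: level `M₀ b`, `f₀` of level `M₀` with `a₁(f₀) ≠ 0`, both eigen
away from `b`: `h = c • res f₀ + V_b h₁`, `h₁` of level `M₀` eigen away from `b`. -/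
theorem exists_eq_smul_res_add_Vq (hb : b.Prime) (lam : Nat.Primes → ℂ)
    (f₀ : CuspForm (Gamma0 M₀) 2) (ha : qCoeff f₀ 1 ≠ 0)
    (hef₀ : ∀ l : Nat.Primes, (l : ℕ) ≠ b → formOp M₀ l f₀ = lam l • f₀)
    (h : CuspForm (Gamma0 (M₀ * b)) 2)
    (he : ∀ l : Nat.Primes, (l : ℕ) ≠ b → formOp (M₀ * b) l h = lam l • h) :
    ∃ (c : ℂ) (h₁ : CuspForm (Gamma0 M₀) 2), h = c • res b f₀ + Vq b h₁ ∧
      ∀ l : Nat.Primes, (l : ℕ) ≠ b → formOp M₀ l h₁ = lam l • h₁ := by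
  have her := eigen_away_res hb lam f₀ hef₀
  obtain ⟨h₁, hh₁, he₁⟩ := exists_Vq_eq_of_eigen_away hb lam
    (h - (qCoeff h 1 / qCoeff f₀ 1) • res b f₀)
    (fun l hl => by rw [map_sub, map_smul, he l hl, her l hl, smul_sub, smul_comm])
    (by rw [qCoeff_sub', qCoeff_smul_cusp, qCoeff_res, div_mul_cancel₀ _ ha, sub_self])
  refine ⟨qCoeff h 1 / qCoeff f₀ 1, h₁, ?_, he₁⟩
  rw [hh₁]
  abel

end Peel

/-! ### (S2), (P): level `M₀ b` -/

section LevelOne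

variable {M₀ b : ℕ} [NeZero M₀] [NeZero b]

/-- **(S2)**: level `M₀ b`, `b ∤ M₀`; `f₀ ≠ 0` of level `M₀` eigen away from `b`; every `h` of
level `M₀ b` eigen away from `b` (same system) lies in the span of `res f₀` and `V_b f₀`. -/
theorem exists_eq_span_two_of_AL3 (hb : b.Prime) (hAL3 : AL3 M₀ b) (lam : Nat.Primes → ℂ)
    (f₀ : CuspForm (Gamma0 M₀) 2) (hf₀ : f₀ ≠ 0)
    (hef₀ : ∀ l : Nat.Primes, (l : ℕ) ≠ b → formOp M₀ l f₀ = lam l • f₀)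
    (h : CuspForm (Gamma0 (M₀ * b)) 2)
    (he : ∀ l : Nat.Primes, (l : ℕ) ≠ b → formOp (M₀ * b) l h = lam l • h) :
    ∃ c d : ℂ, h = c • res b f₀ + d • Vq b f₀ := by
  have ha := qCoeff_one_ne_zero_of_AL3 hAL3 lam f₀ hf₀ hef₀
  obtain ⟨c, h₁, hh, he₁⟩ := exists_eq_smul_res_add_Vq hb lam f₀ ha hef₀ h he
  obtain ⟨d, hd⟩ := exists_eq_smul_of_AL3 hAL3 lam f₀ hf₀ hef₀ h₁ he₁
  refine ⟨c, d, ?_⟩
  rw [hh, hd]
  congr 1
  exact (VqLin b).map_smul d f₀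

/-- `U_b (res f₀) = lam_b • res f₀ − b • V_b f₀` for a `T_b`-eigenform `f₀` of level `M₀`,
`b ∤ M₀`. -/
theorem formOp_self_res_of_eigen (hb : b.Prime) (hbM : ¬ b ∣ M₀) {a : ℂ}
    (f₀ : CuspForm (Gamma0 M₀) 2) (hf₀ : formOp M₀ ⟨b, hb⟩ f₀ = a • f₀) :
    formOp (M₀ * b) ⟨b, hb⟩ (res b f₀) = a • res b f₀ - (b : ℂ) • Vq b f₀ := by
  have h1 := res_formOp_self hb hbM f₀
  rw [hf₀] at h1
  rw [eq_sub_iff_add_eq, ← h1]
  rfl

/-- **(P)**, AL3-hypothesis form: `b ∤ M₀`, `f₀ ≠ 0` a FULL eigenform of level `M₀`, `h` of level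
`M₀ b` eigen away from `b` ⟹ `U (U h) − lam_b • U h + b • h = 0`. -/
theorem quadratic_of_old_of_AL3 (hb : b.Prime) (hbM : ¬ b ∣ M₀) (hAL3 : AL3 M₀ b)
    (lam : Nat.Primes → ℂ) (f₀ : CuspForm (Gamma0 M₀) 2) (hf₀ : f₀ ≠ 0)
    (hef₀ : ∀ l : Nat.Primes, formOp M₀ l f₀ = lam l • f₀)
    (h : CuspForm (Gamma0 (M₀ * b)) 2)
    (he : ∀ l : Nat.Primes, (l : ℕ) ≠ b → formOp (M₀ * b) l h = lam l • h) :
    formOp (M₀ * b) ⟨b, hb⟩ (formOp (M₀ * b) ⟨b, hb⟩ h)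
      - lam ⟨b, hb⟩ • formOp (M₀ * b) ⟨b, hb⟩ h + (b : ℂ) • h = 0 := by
  obtain ⟨c, d, rfl⟩ := exists_eq_span_two_of_AL3 hb hAL3 lam f₀ hf₀ (fun l _ => hef₀ l) h he
  have hUr := formOp_self_res_of_eigen hb hbM f₀ (hef₀ ⟨b, hb⟩)
  have hUv := formOp_self_Vq (M := M₀) hb f₀
  simp only [map_add, map_smul, map_sub, hUr, hUv]
  module

end LevelOne

/-! ### (S3), (Q): level `M₀ b b` -/

section LevelTwo

variable {M₀ b : ℕ} [NeZero M₀] [NeZero b]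

/-- `res_b ∘ V_b = V_b ∘ res_b` (both of level `M b b`). -/
theorem res_Vq_self {M : ℕ} (g : CuspForm (Gamma0 M) 2) :
    res b (Vq b g) = Vq b (res b g) := by
  refine ext_qCoeff fun n => ?_
  rw [qCoeff_res, qCoeff_Vq (NeZero.ne b), qCoeff_Vq (NeZero.ne b)]
  rfl

/-- **(S3)**: level `M₀ b b`, `b ∤ M₀`; `f₀ ≠ 0` of level `M₀` eigen away from `b`; every `h` of
level `M₀ b b` eigen away from `b` lies in the span of `res res f₀`, `V_b res f₀`, `V_b V_b f₀`. -/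
theorem exists_eq_span_three_of_AL3 (hb : b.Prime) (hAL3 : AL3 M₀ b) (lam : Nat.Primes → ℂ)
    (f₀ : CuspForm (Gamma0 M₀) 2) (hf₀ : f₀ ≠ 0)
    (hef₀ : ∀ l : Nat.Primes, (l : ℕ) ≠ b → formOp M₀ l f₀ = lam l • f₀)
    (h : CuspForm (Gamma0 (M₀ * b * b)) 2)
    (he : ∀ l : Nat.Primes, (l : ℕ) ≠ b → formOp (M₀ * b * b) l h = lam l • h) :
    ∃ c d e : ℂ, h = c • res b (res b f₀) + d • Vq b (res b f₀) + e • Vq b (Vq b f₀) := by
  have ha := qCoeff_one_ne_zero_of_AL3 hAL3 lam f₀ hf₀ hef₀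
  have her := eigen_away_res hb lam f₀ hef₀
  have ha' : qCoeff (res b f₀) 1 ≠ 0 := ha
  obtain ⟨c, h₁, hh, he₁⟩ := exists_eq_smul_res_add_Vq (M₀ := M₀ * b) hb lam (res b f₀) ha' her h he
  obtain ⟨d, e, hde⟩ := exists_eq_span_two_of_AL3 hb hAL3 lam f₀ hf₀ hef₀ h₁ he₁
  refine ⟨c, d, e, ?_⟩
  rw [hh, hde, add_assoc]
  congr 1
  show VqLin b (d • res b f₀ + e • Vq b f₀) = d • VqLin b (res b f₀) + e • VqLin b (Vq b f₀)
  rw [map_add, map_smul, map_smul]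

/-- **(Q)**, AL3-hypothesis form: `b ∤ M₀`, `f₀ ≠ 0` a FULL eigenform of level `M₀`, `h` of level
`M₀ b b` eigen away from `b` ⟹ `U (U (U h)) − lam_b • U (U h) + b • U h = 0`. -/
theorem cubic_of_old_of_AL3 (hb : b.Prime) (hbM : ¬ b ∣ M₀) (hAL3 : AL3 M₀ b)
    (lam : Nat.Primes → ℂ) (f₀ : CuspForm (Gamma0 M₀) 2) (hf₀ : f₀ ≠ 0)
    (hef₀ : ∀ l : Nat.Primes, formOp M₀ l f₀ = lam l • f₀)
    (h : CuspForm (Gamma0 (M₀ * b * b)) 2)
    (he : ∀ l : Nat.Primes, (l : ℕ) ≠ b → formOp (M₀ * b * b) l h = lam l • h) :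
    formOp (M₀ * b * b) ⟨b, hb⟩ (formOp (M₀ * b * b) ⟨b, hb⟩ (formOp (M₀ * b * b) ⟨b, hb⟩ h))
      - lam ⟨b, hb⟩ • formOp (M₀ * b * b) ⟨b, hb⟩ (formOp (M₀ * b * b) ⟨b, hb⟩ h)
      + (b : ℂ) • formOp (M₀ * b * b) ⟨b, hb⟩ h = 0 := by
  obtain ⟨c, d, e, rfl⟩ :=
    exists_eq_span_three_of_AL3 hb hAL3 lam f₀ hf₀ (fun l _ => hef₀ l) h he
  have hUr := formOp_self_res_of_eigen hb hbM f₀ (hef₀ ⟨b, hb⟩)
  -- `U e₂ = e₁`, `U e₁ = e₀`, `U e₀ = lam_b • e₀ − b • e₁`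
  have hU2 : formOp (M₀ * b * b) ⟨b, hb⟩ (Vq b (Vq b f₀)) = Vq b (res b f₀) := by
    rw [formOp_self_Vq (M := M₀ * b) hb (Vq b f₀), res_Vq_self]
  have hU1 : formOp (M₀ * b * b) ⟨b, hb⟩ (Vq b (res b f₀)) = res b (res b f₀) :=
    formOp_self_Vq (M := M₀ * b) hb (res b f₀)
  have hU0 : formOp (M₀ * b * b) ⟨b, hb⟩ (res b (res b f₀)) =
      lam ⟨b, hb⟩ • res b (res b f₀) - (b : ℂ) • Vq b (res b f₀) := by
    rw [formOp_res_of_dvd (M := M₀ * b) (q := b) ⟨b, hb⟩ (dvd_mul_left b M₀) (res b f₀), hUr,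
      ← res_Vq_self]
    rfl
  simp only [map_add, map_smul, map_sub, hU2, hU1, hU0]
  module

end LevelTwo

/-! ### the binder-free interface (AL3 discharged by helper63's `Good.eq_zero_of_qCoeff_off`) -/

section Final

theorem AL3_of_good {M b : ℕ} [NeZero M] (hb : b.Prime) (hbM : ¬ b ∣ M) : AL3 M b :=
  fun h h0 => eq_zero_of_qCoeff_off hb hbM h h0

/-- **(G)**: `b ∤ M`, `h` of level `M` eigen away from `b` with `a₁ = 0` ⟹ `h = 0`. -/
theorem eq_zero_of_good {M b : ℕ} [NeZero M] (hb : b.Prime) (hbM : ¬ b ∣ M)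
    (lam : Nat.Primes → ℂ) (h : CuspForm (Gamma0 M) 2)
    (he : ∀ l : Nat.Primes, (l : ℕ) ≠ b → formOp M l h = lam l • h)
    (h1 : qCoeff h 1 = 0) : h = 0 :=
  eq_zero_of_good_of_AL3 (AL3_of_good hb hbM) lam h he h1

/-- multiplicity one away from a good prime: `b ∤ M`, `f₀ ≠ 0` and `h` of level `M` eigen away
from `b` with the same system ⟹ `h = c • f₀`. -/
theorem exists_eq_smul {M b : ℕ} [NeZero M] (hb : b.Prime) (hbM : ¬ b ∣ M)
    (lam : Nat.Primes → ℂ) (f₀ : CuspForm (Gamma0 M) 2) (hf₀ : f₀ ≠ 0)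
    (hef₀ : ∀ l : Nat.Primes, (l : ℕ) ≠ b → formOp M l f₀ = lam l • f₀)
    (h : CuspForm (Gamma0 M) 2)
    (he : ∀ l : Nat.Primes, (l : ℕ) ≠ b → formOp M l h = lam l • h) :
    ∃ c : ℂ, h = c • f₀ :=
  exists_eq_smul_of_AL3 (AL3_of_good hb hbM) lam f₀ hf₀ hef₀ h he

variable {M₀ b : ℕ} [NeZero M₀] [NeZero b]

/-- **(S2)**: `b ∤ M₀`, `f₀ ≠ 0` of level `M₀` eigen away from `b`; every `h` of level `M₀ b` eigen
away from `b` is `c • res f₀ + d • V_b f₀`. -/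
theorem exists_eq_span_two (hb : b.Prime) (hbM : ¬ b ∣ M₀) (lam : Nat.Primes → ℂ)
    (f₀ : CuspForm (Gamma0 M₀) 2) (hf₀ : f₀ ≠ 0)
    (hef₀ : ∀ l : Nat.Primes, (l : ℕ) ≠ b → formOp M₀ l f₀ = lam l • f₀)
    (h : CuspForm (Gamma0 (M₀ * b)) 2)
    (he : ∀ l : Nat.Primes, (l : ℕ) ≠ b → formOp (M₀ * b) l h = lam l • h) :
    ∃ c d : ℂ, h = c • res b f₀ + d • Vq b f₀ :=
  exists_eq_span_two_of_AL3 hb (AL3_of_good hb hbM) lam f₀ hf₀ hef₀ h he

/-- **(P)**: `b ∤ M₀`, `f₀ ≠ 0` a FULL eigenform of level `M₀` (eigenvalues `lam l`, ALL `l`), `h` of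
level `M₀ b` eigen away from `b` ⟹ `U (U h) − lam_b • U h + b • h = 0`, `U = formOp (M₀ b) b`. -/
theorem quadratic_of_old (hb : b.Prime) (hbM : ¬ b ∣ M₀) (lam : Nat.Primes → ℂ)
    (f₀ : CuspForm (Gamma0 M₀) 2) (hf₀ : f₀ ≠ 0)
    (hef₀ : ∀ l : Nat.Primes, formOp M₀ l f₀ = lam l • f₀)
    (h : CuspForm (Gamma0 (M₀ * b)) 2)
    (he : ∀ l : Nat.Primes, (l : ℕ) ≠ b → formOp (M₀ * b) l h = lam l • h) :
    formOp (M₀ * b) ⟨b, hb⟩ (formOp (M₀ * b) ⟨b, hb⟩ h)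
      - lam ⟨b, hb⟩ • formOp (M₀ * b) ⟨b, hb⟩ h + (b : ℂ) • h = 0 :=
  quadratic_of_old_of_AL3 hb hbM (AL3_of_good hb hbM) lam f₀ hf₀ hef₀ h he

/-- **(S3)**: `b ∤ M₀`, `f₀ ≠ 0` of level `M₀` eigen away from `b`; every `h` of level `M₀ b b`
eigen away from `b` is `c • res res f₀ + d • V_b res f₀ + e • V_b V_b f₀`. -/
theorem exists_eq_span_three (hb : b.Prime) (hbM : ¬ b ∣ M₀) (lam : Nat.Primes → ℂ)
    (f₀ : CuspForm (Gamma0 M₀) 2) (hf₀ : f₀ ≠ 0)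
    (hef₀ : ∀ l : Nat.Primes, (l : ℕ) ≠ b → formOp M₀ l f₀ = lam l • f₀)
    (h : CuspForm (Gamma0 (M₀ * b * b)) 2)
    (he : ∀ l : Nat.Primes, (l : ℕ) ≠ b → formOp (M₀ * b * b) l h = lam l • h) :
    ∃ c d e : ℂ, h = c • res b (res b f₀) + d • Vq b (res b f₀) + e • Vq b (Vq b f₀) :=
  exists_eq_span_three_of_AL3 hb (AL3_of_good hb hbM) lam f₀ hf₀ hef₀ h he

/-- **(Q)**: `b ∤ M₀`, `f₀ ≠ 0` a FULL eigenform of level `M₀`, `h` of level `M₀ b b` eigen away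
from `b` ⟹ `U (U (U h)) − lam_b • U (U h) + b • U h = 0`, `U = formOp (M₀ b b) b`. -/
theorem cubic_of_old (hb : b.Prime) (hbM : ¬ b ∣ M₀) (lam : Nat.Primes → ℂ)
    (f₀ : CuspForm (Gamma0 M₀) 2) (hf₀ : f₀ ≠ 0)
    (hef₀ : ∀ l : Nat.Primes, formOp M₀ l f₀ = lam l • f₀)
    (h : CuspForm (Gamma0 (M₀ * b * b)) 2)
    (he : ∀ l : Nat.Primes, (l : ℕ) ≠ b → formOp (M₀ * b * b) l h = lam l • h) :
    formOp (M₀ * b * b) ⟨b, hb⟩ (formOp (M₀ * b * b) ⟨b, hb⟩ (formOp (M₀ * b * b) ⟨b, hb⟩ h))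
      - lam ⟨b, hb⟩ • formOp (M₀ * b * b) ⟨b, hb⟩ (formOp (M₀ * b * b) ⟨b, hb⟩ h)
      + (b : ℂ) • formOp (M₀ * b * b) ⟨b, hb⟩ h = 0 :=
  cubic_of_old_of_AL3 hb hbM (AL3_of_good hb hbM) lam f₀ hf₀ hef₀ h he

end Final

end Fermat.Agent.GE9.OldQ
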