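/-
GATE-E / GE9-OLDQ, leaf (O5) part 2 (helper8): **the four single-prime types `G`, `R`, `P`, `Q` on the
ANEMIC eigenspace**, from helper57's single-prime statements (`GE9/OldQ/Single`) at the depleted
level and the depletion reduction `Deplete.aeval_formOp_eq_zero_of_depleted`.

`b` a prime, `ls` a list of primes with `b ∉ ls` (`= B ∖ {b}`), `lam : Nat.Primes → ℂ`;
`h ∈ S₂(Γ₀(N))` with `formOp N l h = lam l • h` for all `l ∉ ls ∪ {b}`.  REFERENCE DATUM: a form `f₀`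
with `a₁(f₀) ≠ 0` and `formOp _ l f₀ = lam l • f₀` for all `l ∉ ls` (INCLUDING `l = b`; anything at
the primes of `ls`), of level

* `(G)` `N` (`b ∤ N`):                      ⟹ `U h = lam b • h`                 (`eigen_of_good`);
* `(R)` `N = M₀ b` (`b ∤ M₀`, `b`-new: the depleted system does not occur at level
        `M₀ * ls.prod ^ 2`):                 ⟹ `U h = lam b • h`                 (`eigen_of_new`);
* `(P)` `M₀`, `N = M₀ b` (`b ∤ M₀`):        ⟹ `U² h − lam b • U h + b • h = 0`  (`quadratic_of_ref`);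
* `(Q)` `M₀`, `N = M₀ b b` (`b ∤ M₀`):      ⟹ `U³ h − lam b • U² h + b • U h = 0` (`cubic_of_ref`),

`U = formOp N ⟨b, hb⟩`.  `lamD ls lam` is the depleted system (`0` on `ls`).
-/
import Mathlib
import Fermat.Agent.GE9.OldQ.Deplete
import Fermat.Agent.GE9.OldQ.Single

set_option autoImplicit false
set_option linter.unusedSectionVars false
set_option linter.style.haveILetI false

open CongruenceSubgroup ModularFormClass UpperHalfPlane CuspForm Polynomial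

namespace Fermat.Agent.GE9.OldQ.Deplete

open Fermat.Agent.GM.End (formOp)
open Fermat.Agent.S49_helper65 (qCoeff_smul_cusp)
open Fermat.Agent.GB.B7.Depl (qCoeff_sub')
open Fermat.Agent.GE9.OldQ

/-! ### arithmetic of the depleted level -/

theorem prod_ne_zero_of_primes (ls : List ℕ) (hls : ∀ l ∈ ls, l.Prime) : ls.prod ≠ 0 := by
  intro h
  obtain h0 := List.prod_eq_zero_iff.mp h
  exact (hls 0 h0).ne_zero rfl

theorem neZero_lvl (N : ℕ) [NeZero N] (ls : List ℕ) (hls : ∀ l ∈ ls, l.Prime) :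
    NeZero (N * ls.prod ^ 2) :=
  ⟨Nat.mul_ne_zero (NeZero.ne N) (pow_ne_zero 2 (prod_ne_zero_of_primes ls hls))⟩

theorem not_dvd_prod {b : ℕ} (hb : b.Prime) (ls : List ℕ) (hls : ∀ l ∈ ls, l.Prime)
    (hbls : b ∉ ls) : ¬ b ∣ ls.prod := by
  intro h
  obtain ⟨a, ha, hba⟩ := (Prime.dvd_prod_iff hb.prime).mp h
  have : b = a := (Nat.prime_dvd_prime_iff_eq hb (hls a ha)).mp hba
  exact hbls (this ▸ ha)

theorem not_dvd_lvl {b : ℕ} (hb : b.Prime) {N : ℕ} (hbN : ¬ b ∣ N) (ls : List ℕ)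
    (hls : ∀ l ∈ ls, l.Prime) (hbls : b ∉ ls) : ¬ b ∣ N * ls.prod ^ 2 := by
  intro h
  rcases hb.dvd_mul.mp h with h | h
  · exact hbN h
  · exact not_dvd_prod hb ls hls hbls (hb.dvd_of_dvd_pow h)

/-! ### the depleted system -/

/-- the depleted system of eigenvalues: `0` at the primes of `ls` -/
noncomputable def lamD (ls : List ℕ) (lam : Nat.Primes → ℂ) : Nat.Primes → ℂ :=
  open scoped Classical in fun l => if (l : ℕ) ∈ ls then 0 else lam l

theorem lamD_of_mem {ls : List ℕ} (lam : Nat.Primes → ℂ) {l : Nat.Primes} (h : (l : ℕ) ∈ ls) :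
    lamD ls lam l = 0 := by
  unfold lamD
  exact if_pos h

theorem lamD_of_not_mem {ls : List ℕ} (lam : Nat.Primes → ℂ) {l : Nat.Primes}
    (h : (l : ℕ) ∉ ls) : lamD ls lam l = lam l := by
  unfold lamD
  exact if_neg h

/-- a form of the depleted level satisfying the two hypotheses of the depletion reduction is an
eigenvector away from `b` for the depleted system -/
theorem eigen_lamD {N' : ℕ} [NeZero N'] {b : ℕ} (ls : List ℕ) (lam : Nat.Primes → ℂ)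
    (h' : CuspForm (Gamma0 N') 2)
    (h1 : ∀ l : Nat.Primes, (l : ℕ) ≠ b → (l : ℕ) ∉ ls → formOp N' l h' = lam l • h')
    (h2 : ∀ l : Nat.Primes, (l : ℕ) ∈ ls → formOp N' l h' = 0) :
    ∀ l : Nat.Primes, (l : ℕ) ≠ b → formOp N' l h' = lamD ls lam l • h' := by
  intro l hl
  by_cases hm : (l : ℕ) ∈ ls
  · rw [h2 l hm, lamD_of_mem lam hm, zero_smul]
  · rw [h1 l hl hm, lamD_of_not_mem lam hm]

/-- the depleted reference form is an eigenvector of ALL `formOp` for the depleted system -/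
theorem eigen_deplL_ref (ls : List ℕ) (hls : ∀ l ∈ ls, l.Prime) {M M' : ℕ} [NeZero M]
    [NeZero M'] (hM' : M' = M * ls.prod ^ 2) (lam : Nat.Primes → ℂ)
    (f₀ : CuspForm (Gamma0 M) 2)
    (hf₀e : ∀ l : Nat.Primes, (l : ℕ) ∉ ls → formOp M l f₀ = lam l • f₀) :
    ∀ l : Nat.Primes, formOp M' l (deplL ls hls hM' f₀) = lamD ls lam l • deplL ls hls hM' f₀ := by
  intro l
  by_cases hm : (l : ℕ) ∈ ls
  · rw [formOp_deplL_of_mem ls hls hM' l hm, lamD_of_mem lam hm, zero_smul]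
  · rw [formOp_deplL ls hls hM' l hm, hf₀e l hm, map_smul, lamD_of_not_mem lam hm]

/-! ### types `G` and `R` -/

/-- common tail of `(G)` and `(R)`: if every form of the depleted level which is eigen away from `b`
is a multiple of the depleted reference, `U` acts by `lam b` on the anemic eigenspace. -/
theorem eigen_of_mult_one {N : ℕ} [NeZero N] {b : ℕ} (hb : b.Prime) (ls : List ℕ)
    (hls : ∀ l ∈ ls, l.Prime) (hbls : b ∉ ls) {N' : ℕ} [NeZero N'] (hN' : N' = N * ls.prod ^ 2)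
    (lam : Nat.Primes → ℂ) (f₀ : CuspForm (Gamma0 N) 2)
    (hf₀e : ∀ l : Nat.Primes, (l : ℕ) ∉ ls → formOp N l f₀ = lam l • f₀)
    (hmult : ∀ h' : CuspForm (Gamma0 N') 2,
      (∀ l : Nat.Primes, (l : ℕ) ≠ b → formOp N' l h' = lamD ls lam l • h') →
      ∃ c : ℂ, h' = c • deplL ls hls hN' f₀)
    (h : CuspForm (Gamma0 N) 2)
    (he : ∀ l : Nat.Primes, (l : ℕ) ≠ b → (l : ℕ) ∉ ls → formOp N l h = lam l • h) :
    formOp N ⟨b, hb⟩ h = lam ⟨b, hb⟩ • h := by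
  have hcore := aeval_formOp_eq_zero_of_depleted (⟨b, hb⟩ : Nat.Primes) ls hls hbls hN' lam
    (X - C (lam ⟨b, hb⟩)) ?_ h he
  · rw [map_sub, aeval_X, aeval_C, LinearMap.sub_apply, Module.algebraMap_end_apply] at hcore
    exact sub_eq_zero.mp hcore
  · intro h' h1 h2
    obtain ⟨c, rfl⟩ := hmult h' (eigen_lamD ls lam h' h1 h2)
    have hbe := eigen_deplL_ref ls hls hN' lam f₀ hf₀e ⟨b, hb⟩
    rw [lamD_of_not_mem lam (show ((⟨b, hb⟩ : Nat.Primes) : ℕ) ∉ ls from hbls)] at hbe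
    rw [map_sub, aeval_X, aeval_C, LinearMap.sub_apply, Module.algebraMap_end_apply, map_smul, hbe,
      smul_comm, sub_self]

/-- **type `(G)`**: `b ∤ N`, reference of level `N`. -/
theorem eigen_of_good {N : ℕ} [NeZero N] {b : ℕ} (hb : b.Prime) (hbN : ¬ b ∣ N) (ls : List ℕ)
    (hls : ∀ l ∈ ls, l.Prime) (hbls : b ∉ ls) (lam : Nat.Primes → ℂ)
    (f₀ : CuspForm (Gamma0 N) 2) (ha : qCoeff f₀ 1 ≠ 0)
    (hf₀e : ∀ l : Nat.Primes, (l : ℕ) ∉ ls → formOp N l f₀ = lam l • f₀)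
    (h : CuspForm (Gamma0 N) 2)
    (he : ∀ l : Nat.Primes, (l : ℕ) ≠ b → (l : ℕ) ∉ ls → formOp N l h = lam l • h) :
    formOp N ⟨b, hb⟩ h = lam ⟨b, hb⟩ • h := by
  haveI : NeZero (N * ls.prod ^ 2) := neZero_lvl N ls hls
  refine eigen_of_mult_one hb ls hls hbls (rfl : N * ls.prod ^ 2 = N * ls.prod ^ 2) lam f₀ hf₀e
    ?_ h he
  intro h' he'
  exact exists_eq_smul hb (not_dvd_lvl hb hbN ls hls hbls) (lamD ls lam) _
    (deplL_ne_zero ls hls rfl ha)
    (fun l _ => eigen_deplL_ref ls hls rfl lam f₀ hf₀e l) h' he'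

/-- **type `(R)`**: `N = M₀ b`, `b ∤ M₀`, `b`-new: the depleted system away from `b` does not occur
at the depleted lower level `M₀ * ls.prod ^ 2`; reference of level `N`. -/
theorem eigen_of_new {M₀ : ℕ} [NeZero M₀] {b : ℕ} (hb : b.Prime) (hbM : ¬ b ∣ M₀) {N : ℕ}
    [NeZero N] (hN : N = M₀ * b) (ls : List ℕ)
    (hls : ∀ l ∈ ls, l.Prime) (hbls : b ∉ ls) (lam : Nat.Primes → ℂ)
    (hnew : ∀ g : CuspForm (Gamma0 (M₀ * ls.prod ^ 2)) 2,
      haveI : NeZero (M₀ * ls.prod ^ 2) := neZero_lvl M₀ ls hls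
      (∀ l : Nat.Primes, (l : ℕ) ≠ b → formOp (M₀ * ls.prod ^ 2) l g = lamD ls lam l • g) → g = 0)
    (f₀ : CuspForm (Gamma0 N) 2) (ha : qCoeff f₀ 1 ≠ 0)
    (hf₀e : ∀ l : Nat.Primes, (l : ℕ) ∉ ls → formOp N l f₀ = lam l • f₀)
    (h : CuspForm (Gamma0 N) 2)
    (he : ∀ l : Nat.Primes, (l : ℕ) ≠ b → (l : ℕ) ∉ ls → formOp N l h = lam l • h) :
    formOp N ⟨b, hb⟩ h = lam ⟨b, hb⟩ • h := by
  subst hN
  haveI : NeZero b := ⟨hb.ne_zero⟩
  haveI : NeZero (M₀ * ls.prod ^ 2) := neZero_lvl M₀ ls hls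
  haveI : NeZero (M₀ * ls.prod ^ 2 * b) := ⟨Nat.mul_ne_zero (NeZero.ne _) hb.ne_zero⟩
  have hN' : M₀ * ls.prod ^ 2 * b = M₀ * b * ls.prod ^ 2 := by ring
  refine eigen_of_mult_one hb ls hls hbls hN' lam f₀ hf₀e ?_ h he
  intro h' he'
  set f' := deplL ls hls hN' f₀ with hf'
  have ha' : qCoeff f' 1 ≠ 0 := by rw [hf', qCoeff_deplL_one]; exact ha
  have hfe' := eigen_deplL_ref ls hls hN' lam f₀ hf₀e
  set c : ℂ := qCoeff h' 1 / qCoeff f' 1 with hc
  refine ⟨c, ?_⟩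
  have hd : h' - c • f' = 0 := by
    refine eq_zero_of_new hb (not_dvd_lvl hb hbM ls hls hbls) (lamD ls lam) hnew (h' - c • f')
      (fun l hl => ?_) ?_
    · rw [map_sub, map_smul, he' l hl, hfe' l, smul_sub, smul_comm]
    · rw [qCoeff_sub', qCoeff_smul_cusp, hc, div_mul_cancel₀ _ ha', sub_self]
  exact sub_eq_zero.mp hd

/-! ### types `P` and `Q` -/

/-- **type `(P)`**: `N = M₀ b`, `b ∤ M₀`, reference of level `M₀` (`b`-old):
`U² h − lam b • U h + b • h = 0` on the anemic eigenspace. -/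
theorem quadratic_of_ref {M₀ : ℕ} [NeZero M₀] {b : ℕ} (hb : b.Prime) (hbM : ¬ b ∣ M₀) {N : ℕ}
    [NeZero N] (hN : N = M₀ * b) (ls : List ℕ)
    (hls : ∀ l ∈ ls, l.Prime) (hbls : b ∉ ls) (lam : Nat.Primes → ℂ)
    (f₀ : CuspForm (Gamma0 M₀) 2) (ha : qCoeff f₀ 1 ≠ 0)
    (hf₀e : ∀ l : Nat.Primes, (l : ℕ) ∉ ls → formOp M₀ l f₀ = lam l • f₀)
    (h : CuspForm (Gamma0 N) 2)
    (he : ∀ l : Nat.Primes, (l : ℕ) ≠ b → (l : ℕ) ∉ ls → formOp N l h = lam l • h) :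
    formOp N ⟨b, hb⟩ (formOp N ⟨b, hb⟩ h) - lam ⟨b, hb⟩ • formOp N ⟨b, hb⟩ h + (b : ℂ) • h = 0 := by
  subst hN
  haveI : NeZero b := ⟨hb.ne_zero⟩
  haveI : NeZero (M₀ * ls.prod ^ 2) := neZero_lvl M₀ ls hls
  haveI : NeZero (M₀ * ls.prod ^ 2 * b) := ⟨Nat.mul_ne_zero (NeZero.ne _) hb.ne_zero⟩
  have hN' : M₀ * ls.prod ^ 2 * b = M₀ * b * ls.prod ^ 2 := by ring
  have hcore := aeval_formOp_eq_zero_of_depleted (⟨b, hb⟩ : Nat.Primes) ls hls hbls hN' lam
    (X ^ 2 - C (lam ⟨b, hb⟩) * X + C (b : ℂ)) ?_ h he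
  · simpa only [map_add, map_sub, map_mul, map_pow, aeval_X, aeval_C, LinearMap.add_apply,
      LinearMap.sub_apply, Module.End.mul_apply, Module.algebraMap_end_apply, pow_two] using hcore
  · intro h' h1 h2
    have hq := quadratic_of_old hb (not_dvd_lvl hb hbM ls hls hbls) (lamD ls lam)
      (deplL ls hls rfl f₀) (deplL_ne_zero ls hls rfl ha)
      (eigen_deplL_ref ls hls rfl lam f₀ hf₀e) h' (eigen_lamD ls lam h' h1 h2)
    rw [lamD_of_not_mem lam (show ((⟨b, hb⟩ : Nat.Primes) : ℕ) ∉ ls from hbls)] at hq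
    simpa only [map_add, map_sub, map_mul, map_pow, aeval_X, aeval_C, LinearMap.add_apply,
      LinearMap.sub_apply, Module.End.mul_apply, Module.algebraMap_end_apply, pow_two] using hq

/-- **type `(Q)`**: `N = M₀ b b`, `b ∤ M₀`, reference of level `M₀`:
`U³ h − lam b • U² h + b • U h = 0` on the anemic eigenspace. -/
theorem cubic_of_ref {M₀ : ℕ} [NeZero M₀] {b : ℕ} (hb : b.Prime) (hbM : ¬ b ∣ M₀) {N : ℕ}
    [NeZero N] (hN : N = M₀ * b * b) (ls : List ℕ)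
    (hls : ∀ l ∈ ls, l.Prime) (hbls : b ∉ ls) (lam : Nat.Primes → ℂ)
    (f₀ : CuspForm (Gamma0 M₀) 2) (ha : qCoeff f₀ 1 ≠ 0)
    (hf₀e : ∀ l : Nat.Primes, (l : ℕ) ∉ ls → formOp M₀ l f₀ = lam l • f₀)
    (h : CuspForm (Gamma0 N) 2)
    (he : ∀ l : Nat.Primes, (l : ℕ) ≠ b → (l : ℕ) ∉ ls → formOp N l h = lam l • h) :
    formOp N ⟨b, hb⟩ (formOp N ⟨b, hb⟩ (formOp N ⟨b, hb⟩ h))
      - lam ⟨b, hb⟩ • formOp N ⟨b, hb⟩ (formOp N ⟨b, hb⟩ h)
      + (b : ℂ) • formOp N ⟨b, hb⟩ h = 0 := by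
  subst hN
  haveI : NeZero b := ⟨hb.ne_zero⟩
  haveI : NeZero (M₀ * ls.prod ^ 2) := neZero_lvl M₀ ls hls
  haveI : NeZero (M₀ * ls.prod ^ 2 * b * b) :=
    ⟨Nat.mul_ne_zero (Nat.mul_ne_zero (NeZero.ne _) hb.ne_zero) hb.ne_zero⟩
  have hN' : M₀ * ls.prod ^ 2 * b * b = M₀ * b * b * ls.prod ^ 2 := by ring
  have hcore := aeval_formOp_eq_zero_of_depleted (⟨b, hb⟩ : Nat.Primes) ls hls hbls hN' lam
    (X * (X * X) - C (lam ⟨b, hb⟩) * (X * X) + C (b : ℂ) * X) ?_ h he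
  · simpa only [map_add, map_sub, map_mul, aeval_X, aeval_C, LinearMap.add_apply,
      LinearMap.sub_apply, Module.End.mul_apply, Module.algebraMap_end_apply] using hcore
  · intro h' h1 h2
    have hq := cubic_of_old hb (not_dvd_lvl hb hbM ls hls hbls) (lamD ls lam)
      (deplL ls hls rfl f₀) (deplL_ne_zero ls hls rfl ha)
      (eigen_deplL_ref ls hls rfl lam f₀ hf₀e) h' (eigen_lamD ls lam h' h1 h2)
    rw [lamD_of_not_mem lam (show ((⟨b, hb⟩ : Nat.Primes) : ℕ) ∉ ls from hbls)] at hq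
    simpa only [map_add, map_sub, map_mul, aeval_X, aeval_C, LinearMap.add_apply,
      LinearMap.sub_apply, Module.End.mul_apply, Module.algebraMap_end_apply] using hq

end Fermat.Agent.GE9.OldQ.Deplete
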