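/-
GATE-E / GE9-OLDQ, leaf (O6) of helper63's node table (board 7233 / 7266) (helper8):
**the anemic identities on `Hom_par(Γ₀(N), ℂ)`** — transport of (O5) (`GE9/OldQ/Deplete`,
`GE9/OldQ/DepleteTypes`) along Eichler–Shimura `S21` (`periodHomPair N` is injective with image
`parabolicHoms ℂ Γ₀(N) ℂ`) and the Hecke equivariance `GM/End/Endgame.periodHomPair_formOp`.

`X ∈ Hom_par(Γ₀(N), ℂ)` with `cohLin N l X = lam l • X` for all primes `l ∉ ls ∪ {b}`
(`cohLin N l = cohGen N ℂ l` as a `ℂ`-linear endomorphism).  Then, with the SAME reference data as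
in `DepleteTypes`:

* `exists_eigen_pair_of` : `X = per(f₁, f₂)` with `f₁`, `f₂` eigen for the same operators;
* `aeval_cohLin_eq_zero_of_forms` : a polynomial identity `Φ(formOp N b) = 0` on the anemic
  eigenspace of forms gives `Φ(cohLin N b) X = 0`; `aeval_cohLin_eq_zero_of_depleted` (= (O5) core);
* `coh_eigen_of_good` (G), `coh_eigen_of_new` (R) : `cohLin N b X = lam b • X`;
* `coh_quadratic_of_ref` (P) : `U² X − lam b • U X + b • X = 0`;
* `coh_cubic_of_ref` (Q) : `U³ X − lam b • U² X + b • U X = 0`   (`U = cohLin N ⟨b, hb⟩`).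
-/
import Mathlib
import Fermat.Agent.GE9.OldQ.DepleteTypes
import Fermat.Agent.S21

set_option autoImplicit false
set_option linter.unusedSectionVars false

open scoped MatrixGroups
open CongruenceSubgroup ModularCurve ModularCurve.Period CuspForm ModularFormClass Polynomial

namespace Fermat.Agent.GE9.OldQ.Coh

open Fermat.Agent.GM.End (formOp cohLin periodHomPair_formOp)
open Fermat.Agent.GE9.OldQ.Deplete

variable {N : ℕ} [NeZero N]

/-- Hecke equivariance of the period pair, read from right to left -/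
theorem cohLin_pair (l : Nat.Primes) (f g : CuspForm (Gamma0 N) 2) :
    cohLin N l (periodHomPair N (f, g)) = periodHomPair N (formOp N l f, formOp N l g) :=
  (periodHomPair_formOp N l f g).symm

/-- a parabolic class which is an eigenvector of the operators selected by `S` is the period pair
of two cusp forms which are eigenvectors of the same operators with the same eigenvalues. -/
theorem exists_eigen_pair_of (S : Nat.Primes → Prop) (lam : Nat.Primes → ℂ)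
    (X : Additive (Gamma0 N) →+ ℂ) (hXpar : X ∈ parabolicHoms ℂ (Gamma0 N) ℂ)
    (hX : ∀ l : Nat.Primes, S l → cohLin N l X = lam l • X) :
    ∃ f₁ f₂ : CuspForm (Gamma0 N) 2, periodHomPair N (f₁, f₂) = X ∧
      (∀ l : Nat.Primes, S l → formOp N l f₁ = lam l • f₁) ∧
      (∀ l : Nat.Primes, S l → formOp N l f₂ = lam l • f₂) := by
  have hXpar' := hXpar
  rw [← (Fermat.Agent.S21.result N).2] at hXpar'
  obtain ⟨⟨f₁, f₂⟩, hf⟩ := hXpar'
  have hinj := (Fermat.Agent.S21.result N).1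
  have heig : ∀ l : Nat.Primes, S l →
      formOp N l f₁ = lam l • f₁ ∧ formOp N l f₂ = lam l • f₂ := by
    intro l hl
    have h1 : periodHomPair N (formOp N l f₁, formOp N l f₂)
        = periodHomPair N (lam l • (f₁, f₂)) := by
      rw [periodHomPair_formOp, hf, map_smul, hf]
      exact hX l hl
    have h2 := hinj h1
    rw [Prod.smul_mk, Prod.mk.injEq] at h2
    exact h2
  exact ⟨f₁, f₂, hf, fun l hl => (heig l hl).1, fun l hl => (heig l hl).2⟩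

/-- the period map of the first component -/
noncomputable def perL (N : ℕ) : CuspForm (Gamma0 N) 2 →ₗ[ℂ] (Additive (Gamma0 N) →+ ℂ) :=
  (periodHomPair N).comp (LinearMap.inl ℂ _ _)

/-- the period map of the second component -/
noncomputable def perR (N : ℕ) : CuspForm (Gamma0 N) 2 →ₗ[ℂ] (Additive (Gamma0 N) →+ ℂ) :=
  (periodHomPair N).comp (LinearMap.inr ℂ _ _)

theorem perL_apply (f : CuspForm (Gamma0 N) 2) : perL N f = periodHomPair N (f, 0) := rfl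

theorem perR_apply (f : CuspForm (Gamma0 N) 2) : perR N f = periodHomPair N (0, f) := rfl

theorem perL_add_perR (f g : CuspForm (Gamma0 N) 2) :
    perL N f + perR N g = periodHomPair N (f, g) := by
  rw [perL_apply, perR_apply, ← map_add, Prod.mk_add_mk, add_zero, zero_add]

theorem perL_formOp (l : Nat.Primes) (f : CuspForm (Gamma0 N) 2) :
    perL N (formOp N l f) = cohLin N l (perL N f) := by
  rw [perL_apply, perL_apply, cohLin_pair, map_zero]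

theorem perR_formOp (l : Nat.Primes) (f : CuspForm (Gamma0 N) 2) :
    perR N (formOp N l f) = cohLin N l (perR N f) := by
  rw [perR_apply, perR_apply, cohLin_pair, map_zero]

/-- **transport of a polynomial identity**: if `Φ(formOp N b)` kills every cusp form which is an
eigenvector of the operators selected by `S`, then `Φ(cohLin N b)` kills every parabolic class
which is an eigenvector of the same operators. -/
theorem aeval_cohLin_eq_zero_of_forms (b : Nat.Primes) (S : Nat.Primes → Prop)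
    (lam : Nat.Primes → ℂ) (Φ : Polynomial ℂ)
    (hforms : ∀ h : CuspForm (Gamma0 N) 2, (∀ l : Nat.Primes, S l → formOp N l h = lam l • h) →
      aeval (formOp N b) Φ h = 0)
    (X : Additive (Gamma0 N) →+ ℂ) (hXpar : X ∈ parabolicHoms ℂ (Gamma0 N) ℂ)
    (hX : ∀ l : Nat.Primes, S l → cohLin N l X = lam l • X) :
    aeval (cohLin N b) Φ X = 0 := by
  obtain ⟨f₁, f₂, hf, h₁, h₂⟩ := exists_eigen_pair_of S lam X hXpar hX
  rw [← hf, ← perL_add_perR, map_add,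
    ← intertwine_aeval (perL N) (formOp N b) (cohLin N b) (perL_formOp b) Φ f₁,
    ← intertwine_aeval (perR N) (formOp N b) (cohLin N b) (perR_formOp b) Φ f₂,
    hforms f₁ h₁, hforms f₂ h₂, map_zero, map_zero, add_zero]

/-- **(O6) core**: the depletion reduction on parabolic classes. -/
theorem aeval_cohLin_eq_zero_of_depleted (b : Nat.Primes) (ls : List ℕ)
    (hls : ∀ l ∈ ls, l.Prime) (hb : (b : ℕ) ∉ ls) {N' : ℕ} [NeZero N']
    (hN' : N' = N * ls.prod ^ 2) (lam : Nat.Primes → ℂ) (Φ : Polynomial ℂ)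
    (hsingle : ∀ h' : CuspForm (Gamma0 N') 2,
      (∀ l : Nat.Primes, (l : ℕ) ≠ b → (l : ℕ) ∉ ls → formOp N' l h' = lam l • h') →
      (∀ l : Nat.Primes, (l : ℕ) ∈ ls → formOp N' l h' = 0) →
      aeval (formOp N' b) Φ h' = 0)
    (X : Additive (Gamma0 N) →+ ℂ) (hXpar : X ∈ parabolicHoms ℂ (Gamma0 N) ℂ)
    (hX : ∀ l : Nat.Primes, (l : ℕ) ≠ b → (l : ℕ) ∉ ls → cohLin N l X = lam l • X) :
    aeval (cohLin N b) Φ X = 0 :=
  aeval_cohLin_eq_zero_of_forms b (fun l => (l : ℕ) ≠ b ∧ (l : ℕ) ∉ ls) lam Φ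
    (fun h he => aeval_formOp_eq_zero_of_depleted b ls hls hb hN' lam Φ hsingle h
      (fun l h1 h2 => he l ⟨h1, h2⟩))
    X hXpar (fun l hl => hX l hl.1 hl.2)

/-! ### the four types on parabolic classes -/

section Types

variable {b : ℕ} (hb : b.Prime) (ls : List ℕ) (lam : Nat.Primes → ℂ)

/-- common tail of `(G)`, `(R)` on classes -/
theorem coh_eigen_of_forms
    (hforms : ∀ h : CuspForm (Gamma0 N) 2,
      (∀ l : Nat.Primes, (l : ℕ) ≠ b → (l : ℕ) ∉ ls → formOp N l h = lam l • h) →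
      formOp N ⟨b, hb⟩ h = lam ⟨b, hb⟩ • h)
    (X : Additive (Gamma0 N) →+ ℂ) (hXpar : X ∈ parabolicHoms ℂ (Gamma0 N) ℂ)
    (hX : ∀ l : Nat.Primes, (l : ℕ) ≠ b → (l : ℕ) ∉ ls → cohLin N l X = lam l • X) :
    cohLin N ⟨b, hb⟩ X = lam ⟨b, hb⟩ • X := by
  obtain ⟨f₁, f₂, hf, h₁, h₂⟩ :=
    exists_eigen_pair_of (fun l => (l : ℕ) ≠ b ∧ (l : ℕ) ∉ ls) lam X hXpar
      (fun l hl => hX l hl.1 hl.2)
  rw [← hf, cohLin_pair, hforms f₁ (fun l a c => h₁ l ⟨a, c⟩), hforms f₂ (fun l a c => h₂ l ⟨a, c⟩),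
    ← Prod.smul_mk, map_smul]

/-- **(G) on classes**: `b ∤ N`, reference of level `N`. -/
theorem coh_eigen_of_good (hbN : ¬ b ∣ N) (hls : ∀ l ∈ ls, l.Prime) (hbls : b ∉ ls)
    (f₀ : CuspForm (Gamma0 N) 2) (ha : qCoeff f₀ 1 ≠ 0)
    (hf₀e : ∀ l : Nat.Primes, (l : ℕ) ∉ ls → formOp N l f₀ = lam l • f₀)
    (X : Additive (Gamma0 N) →+ ℂ) (hXpar : X ∈ parabolicHoms ℂ (Gamma0 N) ℂ)
    (hX : ∀ l : Nat.Primes, (l : ℕ) ≠ b → (l : ℕ) ∉ ls → cohLin N l X = lam l • X) :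
    cohLin N ⟨b, hb⟩ X = lam ⟨b, hb⟩ • X :=
  coh_eigen_of_forms hb ls lam
    (fun h he => eigen_of_good hb hbN ls hls hbls lam f₀ ha hf₀e h he) X hXpar hX

/-- **(R) on classes**: `N = M₀ b`, `b ∤ M₀`, the depleted system away from `b` does not occur at
level `M₀ * ls.prod ^ 2`; reference of level `N`. -/
theorem coh_eigen_of_new {M₀ : ℕ} [NeZero M₀] (hbM : ¬ b ∣ M₀) (hN : N = M₀ * b)
    (hls : ∀ l ∈ ls, l.Prime) (hbls : b ∉ ls)
    (hnew : ∀ g : CuspForm (Gamma0 (M₀ * ls.prod ^ 2)) 2,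
      haveI : NeZero (M₀ * ls.prod ^ 2) := neZero_lvl M₀ ls hls
      (∀ l : Nat.Primes, (l : ℕ) ≠ b → formOp (M₀ * ls.prod ^ 2) l g = lamD ls lam l • g) → g = 0)
    (f₀ : CuspForm (Gamma0 N) 2) (ha : qCoeff f₀ 1 ≠ 0)
    (hf₀e : ∀ l : Nat.Primes, (l : ℕ) ∉ ls → formOp N l f₀ = lam l • f₀)
    (X : Additive (Gamma0 N) →+ ℂ) (hXpar : X ∈ parabolicHoms ℂ (Gamma0 N) ℂ)
    (hX : ∀ l : Nat.Primes, (l : ℕ) ≠ b → (l : ℕ) ∉ ls → cohLin N l X = lam l • X) :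
    cohLin N ⟨b, hb⟩ X = lam ⟨b, hb⟩ • X :=
  coh_eigen_of_forms hb ls lam
    (fun h he => eigen_of_new hb hbM hN ls hls hbls lam hnew f₀ ha hf₀e h he) X hXpar hX

/-- **(P) on classes**: `N = M₀ b`, `b ∤ M₀`, reference of level `M₀`. -/
theorem coh_quadratic_of_ref {M₀ : ℕ} [NeZero M₀] (hbM : ¬ b ∣ M₀) (hN : N = M₀ * b)
    (hls : ∀ l ∈ ls, l.Prime) (hbls : b ∉ ls)
    (f₀ : CuspForm (Gamma0 M₀) 2) (ha : qCoeff f₀ 1 ≠ 0)
    (hf₀e : ∀ l : Nat.Primes, (l : ℕ) ∉ ls → formOp M₀ l f₀ = lam l • f₀)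
    (X : Additive (Gamma0 N) →+ ℂ) (hXpar : X ∈ parabolicHoms ℂ (Gamma0 N) ℂ)
    (hX : ∀ l : Nat.Primes, (l : ℕ) ≠ b → (l : ℕ) ∉ ls → cohLin N l X = lam l • X) :
    cohLin N ⟨b, hb⟩ (cohLin N ⟨b, hb⟩ X) - lam ⟨b, hb⟩ • cohLin N ⟨b, hb⟩ X + (b : ℂ) • X = 0 := by
  obtain ⟨f₁, f₂, hf, h₁, h₂⟩ :=
    exists_eigen_pair_of (fun l => (l : ℕ) ≠ b ∧ (l : ℕ) ∉ ls) lam X hXpar
      (fun l hl => hX l hl.1 hl.2)
  have e₁ := quadratic_of_ref hb hbM hN ls hls hbls lam f₀ ha hf₀e f₁ (fun l a c => h₁ l ⟨a, c⟩)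
  have e₂ := quadratic_of_ref hb hbM hN ls hls hbls lam f₀ ha hf₀e f₂ (fun l a c => h₂ l ⟨a, c⟩)
  rw [← hf, cohLin_pair, cohLin_pair, ← map_smul, ← map_smul, ← map_sub, ← map_add,
    Prod.smul_mk, Prod.smul_mk, Prod.mk_sub_mk, Prod.mk_add_mk, e₁, e₂]
  exact map_zero _

/-- **(Q) on classes**: `N = M₀ b b`, `b ∤ M₀`, reference of level `M₀`. -/
theorem coh_cubic_of_ref {M₀ : ℕ} [NeZero M₀] (hbM : ¬ b ∣ M₀) (hN : N = M₀ * b * b)
    (hls : ∀ l ∈ ls, l.Prime) (hbls : b ∉ ls)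
    (f₀ : CuspForm (Gamma0 M₀) 2) (ha : qCoeff f₀ 1 ≠ 0)
    (hf₀e : ∀ l : Nat.Primes, (l : ℕ) ∉ ls → formOp M₀ l f₀ = lam l • f₀)
    (X : Additive (Gamma0 N) →+ ℂ) (hXpar : X ∈ parabolicHoms ℂ (Gamma0 N) ℂ)
    (hX : ∀ l : Nat.Primes, (l : ℕ) ≠ b → (l : ℕ) ∉ ls → cohLin N l X = lam l • X) :
    cohLin N ⟨b, hb⟩ (cohLin N ⟨b, hb⟩ (cohLin N ⟨b, hb⟩ X))
      - lam ⟨b, hb⟩ • cohLin N ⟨b, hb⟩ (cohLin N ⟨b, hb⟩ X)
      + (b : ℂ) • cohLin N ⟨b, hb⟩ X = 0 := by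
  obtain ⟨f₁, f₂, hf, h₁, h₂⟩ :=
    exists_eigen_pair_of (fun l => (l : ℕ) ≠ b ∧ (l : ℕ) ∉ ls) lam X hXpar
      (fun l hl => hX l hl.1 hl.2)
  have e₁ := cubic_of_ref hb hbM hN ls hls hbls lam f₀ ha hf₀e f₁ (fun l a c => h₁ l ⟨a, c⟩)
  have e₂ := cubic_of_ref hb hbM hN ls hls hbls lam f₀ ha hf₀e f₂ (fun l a c => h₂ l ⟨a, c⟩)
  rw [← hf, cohLin_pair, cohLin_pair, cohLin_pair, ← map_smul, ← map_smul, ← map_sub, ← map_add,
    Prod.smul_mk, Prod.smul_mk, Prod.mk_sub_mk, Prod.mk_add_mk, e₁, e₂]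
  exact map_zero _

end Types

end Fermat.Agent.GE9.OldQ.Coh
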