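/-
GATE-E / GE9-OLDQ (helper63) — O8, file 1: **field transfer of polynomial identities on joint
eigenspaces of integer matrices** (Mathlib + `GE9/Mult1/FieldBC`).

`F` a field, `K` a commutative `F`-algebra, `σ : F →+* L` a ring homomorphism into a field `L`
(in the application `K = Frac O`, `F` = the algebraic closure of `ℚ` in `K`, `L = ℂ`),
`Amat : S → Matrix ι ι ℤ`, `lamF : S → F`.

* `mulVec_eq_zero_of_forall` (Tr1): a matrix `P` over `F` whose `σ`-image kills every joint
  eigenvector over `L` (eigenvalues `σ (lamF s)`) has `P^K` killing every joint eigenvector over `K`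
  (eigenvalues `lamF s`);
* `exists_ne_zero_eigen` (Tr2/Tr3): a nonzero joint eigenvector over `K` produces a nonzero joint
  eigenvector over `F`;  `map_eigen` : joint eigenvectors over `F` map to joint eigenvectors over `L`;
* `mapLin / mapQuad / mapCub` : the three polynomial shapes `X − c`, `X² − aX + b`,
  `X³ − aX² + bX` of a matrix commute with base change along a ring homomorphism;
* `exists_integer_multiple` : a vector over a fraction field has a nonzero multiple with integral
  coordinates.
-/
import Mathlib
import Fermat.Agent.GE9.Mult1.FieldBC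

set_option autoImplicit false
set_option linter.unusedSectionVars false

namespace Fermat.Agent.GE9.OldQ.Transfer

open Submodule Matrix Fermat.Agent.GE9.Mult1

variable {ι : Type*} [Fintype ι] {S : Type*}

section Basic

variable {F : Type*} [Field F]

/-- integer matrices: base change in two steps. -/
theorem map_intCast_map {R R' : Type*} [Ring R] [Ring R'] (f : R →+* R') (A : Matrix ι ι ℤ) :
    (A.map (Int.cast : ℤ → R)).map f = A.map (Int.cast : ℤ → R') := by
  ext i j
  simp

/-- joint eigenvectors are mapped to joint eigenvectors by a ring homomorphism. -/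
theorem map_eigen {L : Type*} [CommRing L] (σ : F →+* L) (Amat : S → Matrix ι ι ℤ) (lamF : S → F)
    (x : ι → F) (hx : ∀ s, ((Amat s).map (Int.cast : ℤ → F)).mulVec x = lamF s • x) (s : S) :
    ((Amat s).map (Int.cast : ℤ → L)).mulVec (fun i => σ (x i)) = σ (lamF s) • fun i => σ (x i) := by
  funext i
  have h1 := congrFun (hx s) i
  have h2 := congrArg σ h1
  simp only [Matrix.mulVec, dotProduct, Matrix.map_apply, Pi.smul_apply, smul_eq_mul, map_sum,
    map_mul, map_intCast] at h2 ⊢
  exact h2

/-- a matrix over `F` applied to a vector, mapped by `f`. -/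
theorem map_mulVec_apply {L : Type*} [CommRing L] (f : F →+* L) (P : Matrix ι ι F) (x : ι → F) :
    (P.map f).mulVec (fun i => f (x i)) = fun i => f (P.mulVec x i) := by
  funext i
  simp only [Matrix.mulVec, dotProduct, Matrix.map_apply, map_sum, map_mul]

/-- **(Tr1)** a polynomial identity on the joint eigenspace over `L` descends to `F` and extends to
every commutative `F`-algebra `K`. -/
theorem mulVec_eq_zero_of_forall {K : Type*} [CommRing K] [Algebra F K] {L : Type*} [Field L]
    (σ : F →+* L) (Amat : S → Matrix ι ι ℤ) (lamF : S → F) (P : Matrix ι ι F)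
    (hC : ∀ z : ι → L, (∀ s, ((Amat s).map (Int.cast : ℤ → L)).mulVec z = σ (lamF s) • z) →
      (P.map σ).mulVec z = 0)
    (y : ι → K)
    (hy : ∀ s, ((Amat s).map (Int.cast : ℤ → K)).mulVec y = algebraMap F K (lamF s) • y) :
    (P.map (algebraMap F K)).mulVec y = 0 := by
  classical
  have h1 := FieldBC.mem_span_eigenVecs (fun s => (Amat s).map (Int.cast : ℤ → F)) lamF y (by
    intro s
    rw [map_intCast_map]
    exact hy s)
  have hker : span K ((fun x : ι → F => (fun i => algebraMap F K (x i))) ''
      (FieldBC.eigenVecs (fun s => (Amat s).map (Int.cast : ℤ → F)) lamF : Set (ι → F)))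
      ≤ LinearMap.ker (Matrix.mulVecLin (P.map (algebraMap F K))) := by
    rw [Submodule.span_le]
    rintro _ ⟨x, hx, rfl⟩
    rw [SetLike.mem_coe, LinearMap.mem_ker, Matrix.mulVecLin_apply]
    have hx' : ∀ s, ((Amat s).map (Int.cast : ℤ → F)).mulVec x = lamF s • x := hx
    have hPx : P.mulVec x = 0 := by
      have h2 := hC (fun i => σ (x i)) (map_eigen σ Amat lamF x hx')
      rw [map_mulVec_apply] at h2
      funext i
      have h3 := congrFun h2 i
      rw [Pi.zero_apply] at h3 ⊢
      exact σ.injective (h3.trans (map_zero σ).symm)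
    rw [map_mulVec_apply, hPx]
    funext i
    simp
  have h2 := hker h1
  rwa [LinearMap.mem_ker, Matrix.mulVecLin_apply] at h2

/-- **(Tr2/Tr3)** a nonzero joint eigenvector over a commutative `F`-algebra `K` produces a nonzero
joint eigenvector over `F`. -/
theorem exists_ne_zero_eigen {K : Type*} [CommRing K] [Algebra F K]
    (Amat : S → Matrix ι ι ℤ) (lamF : S → F) (y : ι → K) (hy0 : y ≠ 0)
    (hy : ∀ s, ((Amat s).map (Int.cast : ℤ → K)).mulVec y = algebraMap F K (lamF s) • y) :
    ∃ x : ι → F, x ≠ 0 ∧ ∀ s, ((Amat s).map (Int.cast : ℤ → F)).mulVec x = lamF s • x := by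
  classical
  by_contra hcon
  push Not at hcon
  apply hy0
  have h1 := FieldBC.mem_span_eigenVecs (fun s => (Amat s).map (Int.cast : ℤ → F)) lamF y (by
    intro s
    rw [map_intCast_map]
    exact hy s)
  have hle : span K ((fun x : ι → F => (fun i => algebraMap F K (x i))) ''
      (FieldBC.eigenVecs (fun s => (Amat s).map (Int.cast : ℤ → F)) lamF : Set (ι → F)))
      ≤ ⊥ := by
    rw [Submodule.span_le]
    rintro _ ⟨x, hx, rfl⟩
    have hx0 : x = 0 := by
      by_contra hne
      exact hne (by
        by_contra hne'
        exact absurd (hcon x hne') (by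
          push Not
          exact hx))
    rw [hx0]
    show (fun i => algebraMap F K ((0 : ι → F) i)) ∈ (⊥ : Submodule K (ι → K))
    rw [Submodule.mem_bot]
    funext i
    simp
  exact (Submodule.mem_bot K).mp (hle h1)

end Basic

section Shapes

variable {R R' : Type*} [CommRing R] [CommRing R'] [DecidableEq ι]

/-- shape `X − c`. -/
theorem mapLin (f : R →+* R') (m : Matrix ι ι R) (c : R) (v : ι → R') :
    ((m - c • (1 : Matrix ι ι R)).map f).mulVec v = (m.map f).mulVec v - f c • v := by
  rw [Matrix.map_sub _ (map_sub f), Matrix.map_smul' _ _ _ (map_mul f),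
    Matrix.map_one _ (map_zero f) (map_one f), Matrix.sub_mulVec, Matrix.smul_mulVec,
    Matrix.one_mulVec]

/-- shape `X² − aX + b`. -/
theorem mapQuad (f : R →+* R') (m : Matrix ι ι R) (a b : R) (v : ι → R') :
    ((m * m - a • m + b • (1 : Matrix ι ι R)).map f).mulVec v
      = (m.map f).mulVec ((m.map f).mulVec v) - f a • (m.map f).mulVec v + f b • v := by
  rw [Matrix.map_add _ (map_add f), Matrix.map_sub _ (map_sub f), Matrix.map_mul,
    Matrix.map_smul' _ _ _ (map_mul f), Matrix.map_smul' _ _ _ (map_mul f),
    Matrix.map_one _ (map_zero f) (map_one f), Matrix.add_mulVec, Matrix.sub_mulVec,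
    Matrix.smul_mulVec, Matrix.smul_mulVec, Matrix.one_mulVec, Matrix.mulVec_mulVec]

/-- shape `X³ − aX² + bX`. -/
theorem mapCub (f : R →+* R') (m : Matrix ι ι R) (a b : R) (v : ι → R') :
    ((m * m * m - a • (m * m) + b • m).map f).mulVec v
      = (m.map f).mulVec ((m.map f).mulVec ((m.map f).mulVec v))
        - f a • (m.map f).mulVec ((m.map f).mulVec v) + f b • (m.map f).mulVec v := by
  rw [Matrix.map_add _ (map_add f), Matrix.map_sub _ (map_sub f), Matrix.map_mul, Matrix.map_mul,
    Matrix.map_smul' _ _ _ (map_mul f), Matrix.map_smul' _ _ _ (map_mul f), Matrix.map_mul,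
    Matrix.add_mulVec, Matrix.sub_mulVec,
    Matrix.smul_mulVec, Matrix.smul_mulVec, Matrix.mulVec_mulVec, Matrix.mulVec_mulVec,
    Matrix.mulVec_mulVec, Matrix.mul_assoc]

end Shapes

section Denominators

variable {O : Type*} [CommRing O] [IsDomain O] {K : Type*} [Field K] [Algebra O K]
  [IsFractionRing O K]

/-- a vector over the fraction field has a nonzero multiple with integral coordinates. -/
theorem exists_integer_multiple (x : ι → K) :
    ∃ (d : O) (c : ι → O), d ≠ 0 ∧ ∀ i, algebraMap O K (c i) = algebraMap O K d * x i := by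
  classical
  obtain ⟨d, hd⟩ := IsLocalization.exist_integer_multiples (nonZeroDivisors O) Finset.univ x
  choose c hc using fun i => hd i (Finset.mem_univ i)
  refine ⟨(d : O), c, nonZeroDivisors.coe_ne_zero d, fun i => ?_⟩
  rw [hc i, Algebra.smul_def]

end Denominators

end Fermat.Agent.GE9.OldQ.Transfer
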