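/-
GATE-E / GE9-OLDQ (helper63) — O8, file 2: **the two coordinate systems of the lattice `Lam N`**.

`β` a `ℤ`-basis of `Lam N`, `latMat β l` the integer matrix of `latT N l` (MainO).

* ℂ-side: `toC β : (ι → ℂ) →ₗ[ℂ] (Additive (Gamma0 N) →+ ℂ)`, `z ↦ ∑ z_i • latC N (β i)`;
  injective, values parabolic, `cohGen N ℂ l (toC β z) = toC β ((latMat β l)^ℂ z)`.
* `O`-side (`M` an `O`-module with basis `β'`, `j : Lam N →+ M`, `j (β i) = β' i`, `T' l ∘ j =
  j ∘ latT N l`; instance `M = O ⊗[ℤ] Lam N`): `crd β' y := (β'.repr y ·)` and, into a field `K ⊇ O`,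
  `crdK`; `crd (T' l y) = (latMat β l)^O (crd y)`.
-/
import Mathlib
import Fermat.Agent.GE9.Mult1.MainO
import Fermat.Agent.GE9.OldQ.Transfer

set_option autoImplicit false
set_option linter.unusedSectionVars false

open scoped MatrixGroups TensorProduct
open CongruenceSubgroup ModularCurve ModularCurve.Period CuspForm ModularFormClass

namespace Fermat.Agent.GE9.OldQ.Transfer

open Fermat.Agent.S16_helper49 Fermat.Agent.GJ.J2.Lat Fermat.Agent.GE9.Mult1

variable {N : ℕ} [NeZero N] {ι : Type*} [Fintype ι]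

section Complex

/-- `z ↦ ∑ z_i • latC N (β i)`. -/
noncomputable def toC (β : Module.Basis ι ℤ (Lam N)) :
    (ι → ℂ) →ₗ[ℂ] (Additive (Gamma0 N) →+ ℂ) where
  toFun z := ∑ i, z i • latC N (β i)
  map_add' z w := by
    simp only [Pi.add_apply, add_smul, Finset.sum_add_distrib]
  map_smul' c z := by
    simp only [Pi.smul_apply, smul_eq_mul, RingHom.id_apply, Finset.smul_sum, smul_smul]

theorem toC_apply (β : Module.Basis ι ℤ (Lam N)) (z : ι → ℂ) :
    toC β z = ∑ i, z i • latC N (β i) := rfl

theorem toC_mem (β : Module.Basis ι ℤ (Lam N)) (z : ι → ℂ) :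
    toC β z ∈ parabolicHoms ℂ (Gamma0 N) ℂ :=
  Submodule.sum_mem _ fun i _ => Submodule.smul_mem _ _ (latC_isParabolicHom N (β i))

theorem toC_injective (β : Module.Basis ι ℤ (Lam N)) : Function.Injective (toC β) := by
  classical
  have hind := linearIndependent_latC_basis β
  rw [Fintype.linearIndependent_iff] at hind
  rw [← LinearMap.ker_eq_bot, LinearMap.ker_eq_bot']
  intro z hz
  funext i
  exact hind z hz i

/-- the Hecke operators in the coordinates `toC`. -/
theorem cohGen_toC (β : Module.Basis ι ℤ (Lam N)) (l : Nat.Primes) (z : ι → ℂ) :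
    cohGen N ℂ l (toC β z) = toC β (((latMat β l).map (Int.cast : ℤ → ℂ)).mulVec z) := by
  classical
  rw [toC_apply, toC_apply, map_sum]
  have h1 : ∀ i, cohGen N ℂ l (z i • latC N (β i))
      = ∑ k, (z i * (latMat β l k i : ℂ)) • latC N (β k) := by
    intro i
    rw [cohGen_smul, ← latC_latT, latT_basis_eq, map_sum, Finset.smul_sum]
    refine Finset.sum_congr rfl fun k _ => ?_
    rw [map_zsmul, ← Int.cast_smul_eq_zsmul ℂ, smul_smul]
  simp only [h1]
  rw [Finset.sum_comm]
  refine Finset.sum_congr rfl fun k _ => ?_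
  rw [← Finset.sum_smul]
  congr 1
  simp only [Matrix.mulVec, dotProduct, Matrix.map_apply]
  refine Finset.sum_congr rfl fun i _ => ?_
  ring

end Complex

section Coord

variable {O : Type*} [CommRing O] {M : Type*} [AddCommGroup M] [Module O M]

/-- the coordinates of `T' l y`. -/
theorem repr_T' (β : Module.Basis ι ℤ (Lam N)) (β' : Module.Basis ι O M) (j : Lam N →+ M)
    (hj : ∀ i, j (β i) = β' i) (T' : Nat.Primes → M →ₗ[O] M)
    (hT' : ∀ (l : Nat.Primes) (Φ : Lam N), T' l (j Φ) = j (latT N l Φ)) (l : Nat.Primes) (y : M) :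
    (fun k => β'.repr (T' l y) k)
      = ((latMat β l).map (Int.cast : ℤ → O)).mulVec (fun i => β'.repr y i) := by
  classical
  funext k
  have h2 : y = ∑ i, β'.repr y i • j (β i) := by
    conv_lhs => rw [← β'.sum_repr y]
    exact Finset.sum_congr rfl fun i _ => by rw [hj]
  have h3 : T' l y = ∑ i, β'.repr y i • j (latT N l (β i)) := by
    conv_lhs => rw [h2]
    rw [map_sum]
    exact Finset.sum_congr rfl fun i _ => by rw [map_smul, hT']
  have h4 := congrArg (fun w => β'.repr w k) h3
  simp only [map_sum, map_smul, Finsupp.coe_finsetSum, Finset.sum_apply, Finsupp.smul_apply,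
    smul_eq_mul, repr_j β β' j hj] at h4
  rw [h4]
  simp only [Matrix.mulVec, dotProduct, Matrix.map_apply]
  refine Finset.sum_congr rfl fun i _ => ?_
  rw [mul_comm]
  rfl

end Coord

end Fermat.Agent.GE9.OldQ.Transfer
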