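/-
GATE-E / GE9-OLDQ (helper63) — O8, file 3: **the consumer, matrix form**: the ℂ-side polynomial
identities on ANEMIC eigenclasses (the four shapes `CohG / CohR / CohP / CohQ` that O6 proves)
transfer to joint eigenvectors of the integer Hecke matrices with coordinates and eigenvalues in
a domain `O` of characteristic `0`.

`β` a `ℤ`-basis of `Lam N`, `A_l := latMat β l`, `B : Set ℕ` the bad set, `b` a prime.
ℂ-side shapes (hypothesis form; `X` parabolic with `cohGen N ℂ l X = lam l • X` for `l ∉ B`):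
* `CohG N B b` : a nonzero FULL eigenclass `X₀` of the same level and system ⟹ `T_b X = lam_b X`;
* `CohR N B b` : the same, with the non-occurrence hypothesis `hnew` (no anemic eigenFORM of a level
  prime to `b`);
* `CohP N M₀ B b` : a nonzero full eigenclass `X₁` of level `M₀` ⟹ `U²X − lam_b UX + bX = 0`;
* `CohQ N M₀ B b` : the same ⟹ `U³X − lam_b U²X + b UX = 0`.
`O`-side: `core_G / core_R / core_P / core_Q` (coordinates `c : ι → O`).

Mechanism: `K = Frac O ⊇ F = (algebraic closure of ℚ in K) —σ→ ℂ`; eigenvalues of integer matrices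
are integral, so they lie in `F`; `Transfer.mulVec_eq_zero_of_forall`.
-/
import Mathlib
import Fermat.Agent.GE9.OldQ.TransferLam
import Fermat.Agent.GM.End.Endgame

set_option autoImplicit false
set_option linter.unusedSectionVars false

open scoped MatrixGroups TensorProduct
open CongruenceSubgroup ModularCurve ModularCurve.Period CuspForm ModularFormClass

namespace Fermat.Agent.GE9.OldQ.Consumer

open Fermat.Agent.S16_helper49 Fermat.Agent.GJ.J2.Lat Fermat.Agent.GE9.Mult1
open Fermat.Agent.GE9.OldQ.Transfer Fermat.Agent.GM.End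

/-! ### The four ℂ-side shapes -/

/-- type (G): `b ∤ N`. -/
def CohG (N : ℕ) [NeZero N] (B : Set ℕ) (b : Nat.Primes) : Prop :=
  ∀ (lam : Nat.Primes → ℂ) (X₀ : Additive (Gamma0 N) →+ ℂ),
    X₀ ∈ parabolicHoms ℂ (Gamma0 N) ℂ → X₀ ≠ 0 →
    (∀ l : Nat.Primes, cohGen N ℂ l X₀ = lam l • X₀) →
    ∀ X : Additive (Gamma0 N) →+ ℂ, X ∈ parabolicHoms ℂ (Gamma0 N) ℂ →
      (∀ l : Nat.Primes, (l : ℕ) ∉ B → cohGen N ℂ l X = lam l • X) →
      cohGen N ℂ b X = lam b • X

/-- type (R): `b ∥ N`, `b`-new. -/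
def CohR (N : ℕ) [NeZero N] (B : Set ℕ) (b : Nat.Primes) : Prop :=
  ∀ (lam : Nat.Primes → ℂ) (X₀ : Additive (Gamma0 N) →+ ℂ),
    X₀ ∈ parabolicHoms ℂ (Gamma0 N) ℂ → X₀ ≠ 0 →
    (∀ l : Nat.Primes, cohGen N ℂ l X₀ = lam l • X₀) →
    (∀ (M' : ℕ) [NeZero M'], ¬ (b : ℕ) ∣ M' → ∀ g : CuspForm (Gamma0 M') 2,
      (∀ l : Nat.Primes, (l : ℕ) ∉ B → formOp M' l g = lam l • g) → g = 0) →
    ∀ X : Additive (Gamma0 N) →+ ℂ, X ∈ parabolicHoms ℂ (Gamma0 N) ℂ →
      (∀ l : Nat.Primes, (l : ℕ) ∉ B → cohGen N ℂ l X = lam l • X) →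
      cohGen N ℂ b X = lam b • X

/-- type (P): `b ∥ N`, `b`-old, reference at level `M₀ = N / b`. -/
def CohP (N M₀ : ℕ) [NeZero N] [NeZero M₀] (B : Set ℕ) (b : Nat.Primes) : Prop :=
  ∀ (lam : Nat.Primes → ℂ) (X₁ : Additive (Gamma0 M₀) →+ ℂ),
    X₁ ∈ parabolicHoms ℂ (Gamma0 M₀) ℂ → X₁ ≠ 0 →
    (∀ l : Nat.Primes, cohGen M₀ ℂ l X₁ = lam l • X₁) →
    ∀ X : Additive (Gamma0 N) →+ ℂ, X ∈ parabolicHoms ℂ (Gamma0 N) ℂ →
      (∀ l : Nat.Primes, (l : ℕ) ∉ B → cohGen N ℂ l X = lam l • X) →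
      cohGen N ℂ b (cohGen N ℂ b X) - lam b • cohGen N ℂ b X + ((b : ℕ) : ℂ) • X = 0

/-- type (Q): `b² ∥ N`, reference at level `M₀ = N / b²`. -/
def CohQ (N M₀ : ℕ) [NeZero N] [NeZero M₀] (B : Set ℕ) (b : Nat.Primes) : Prop :=
  ∀ (lam : Nat.Primes → ℂ) (X₁ : Additive (Gamma0 M₀) →+ ℂ),
    X₁ ∈ parabolicHoms ℂ (Gamma0 M₀) ℂ → X₁ ≠ 0 →
    (∀ l : Nat.Primes, cohGen M₀ ℂ l X₁ = lam l • X₁) →
    ∀ X : Additive (Gamma0 N) →+ ℂ, X ∈ parabolicHoms ℂ (Gamma0 N) ℂ →
      (∀ l : Nat.Primes, (l : ℕ) ∉ B → cohGen N ℂ l X = lam l • X) →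
      cohGen N ℂ b (cohGen N ℂ b (cohGen N ℂ b X)) - lam b • cohGen N ℂ b (cohGen N ℂ b X)
        + ((b : ℕ) : ℂ) • cohGen N ℂ b X = 0

/-! ### The embedding `integralClosure ℤ O → F → ℂ` -/

section Emb

variable (O : Type*) [CommRing O] (K : Type*) [Field K] [Algebra O K] [IsFractionRing O K]
  [CharZero K]

/-- the algebraic closure of `ℚ` in `K`. -/
noncomputable abbrev FF : IntermediateField ℚ K := algebraicClosure ℚ K

/-- a chosen embedding of `F` into `ℂ`. -/
noncomputable def sig : FF K →ₐ[ℚ] ℂ :=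
  haveI : Algebra.IsAlgebraic ℚ (FF K) := algebraicClosure.isAlgebraic ℚ K
  IsAlgClosed.lift

theorem mem_FF_of_isIntegral {K : Type*} [Field K] [CharZero K] (x : K) (hx : IsIntegral ℤ x) :
    x ∈ FF K := by
  rw [mem_algebraicClosure_iff]
  exact (hx.tower_top (A := ℚ)).isAlgebraic

/-- the algebraic integers of `O`, inside `F`. -/
noncomputable def toF : integralClosure ℤ O →+* FF K :=
  RingHom.codRestrict ((algebraMap O K).comp (integralClosure ℤ O).val.toRingHom) (FF K)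
    (fun x => mem_FF_of_isIntegral _ (x.2.algebraMap))

theorem algebraMap_toF (x : integralClosure ℤ O) :
    algebraMap (FF K) K (toF O K x) = algebraMap O K (x : O) := rfl

/-- the algebraic integers of `O`, inside `ℂ`. -/
noncomputable def tau : integralClosure ℤ O →+* ℂ := (sig K).toRingHom.comp (toF O K)

theorem tau_apply (x : integralClosure ℤ O) : tau O K x = (sig K).toRingHom (toF O K x) := rfl

theorem tau_injective : Function.Injective (tau O K) := by
  intro x y h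
  have h1 : toF O K x = toF O K y := (sig K).toRingHom.injective h
  have h2 := congrArg (fun w : FF K => (w : K)) h1
  apply Subtype.ext
  exact IsFractionRing.injective O K h2

end Emb

/-! ### Coordinates in `K` -/

section CK

variable {O : Type*} [CommRing O] (K : Type*) [Field K] [Algebra O K] [IsFractionRing O K]
  {ι : Type*} [Fintype ι]

/-- coordinates in the fraction field. -/
def cK (c : ι → O) : ι → K := fun i => algebraMap O K (c i)

theorem cK_injective : Function.Injective (cK K : (ι → O) → ι → K) := by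
  intro c c' h
  funext i
  exact IsFractionRing.injective O K (congrFun h i)

theorem cK_ne_zero {c : ι → O} (hc : c ≠ 0) : cK K c ≠ 0 := by
  intro h
  apply hc
  apply cK_injective K
  rw [h]
  funext i
  simp [cK]

theorem cK_mulVec (A : Matrix ι ι ℤ) (c : ι → O) :
    cK K ((A.map (Int.cast : ℤ → O)).mulVec c) = (A.map (Int.cast : ℤ → K)).mulVec (cK K c) := by
  funext i
  simp only [cK, Matrix.mulVec, dotProduct, Matrix.map_apply, map_sum, map_mul, map_intCast]

theorem cK_smul (a : O) (c : ι → O) : cK K (a • c) = algebraMap O K a • cK K c := by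
  funext i
  simp [cK]

theorem cK_add (c c' : ι → O) : cK K (c + c') = cK K c + cK K c' := by
  funext i
  simp [cK]

theorem cK_sub (c c' : ι → O) : cK K (c - c') = cK K c - cK K c' := by
  funext i
  simp [cK]

theorem cK_zero : cK K (0 : ι → O) = 0 := by
  funext i
  simp [cK]

theorem cK_eigen (A : Matrix ι ι ℤ) (c : ι → O) (a : O)
    (h : (A.map (Int.cast : ℤ → O)).mulVec c = a • c) :
    (A.map (Int.cast : ℤ → K)).mulVec (cK K c) = algebraMap O K a • cK K c := by
  rw [← cK_mulVec, h, cK_smul]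

variable [IsDomain O] [CharZero O] [DecidableEq ι]

include K in
/-- eigenvalues of integer matrices on nonzero vectors over `O` are integral over `ℤ`. -/
theorem integral_of_eigen (A : Matrix ι ι ℤ) (c : ι → O) (hc : c ≠ 0) (a : O)
    (h : (A.map (Int.cast : ℤ → O)).mulVec c = a • c) : IsIntegral ℤ a := by
  have h1 := FieldBC.isIntegral_of_mulVec_eq_smul A (cK K c) (cK_ne_zero K hc) (algebraMap O K a)
    (cK_eigen K A c a h)
  exact (isIntegral_algebraMap_iff (IsFractionRing.injective O K)).mp h1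

end CK

/-! ### Classes from complex coordinates -/

section Cls

variable {N : ℕ} [NeZero N] {ι : Type*} [Fintype ι]

theorem toC_eigen (β : Module.Basis ι ℤ (Lam N)) (z : ι → ℂ) (l : Nat.Primes) (a : ℂ)
    (h : ((latMat β l).map (Int.cast : ℤ → ℂ)).mulVec z = a • z) :
    cohGen N ℂ l (toC β z) = a • toC β z := by
  rw [cohGen_toC, h, map_smul]

theorem eigen_of_toC (β : Module.Basis ι ℤ (Lam N)) (z : ι → ℂ) (l : Nat.Primes) (a : ℂ)
    (h : cohGen N ℂ l (toC β z) = a • toC β z) :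
    ((latMat β l).map (Int.cast : ℤ → ℂ)).mulVec z = a • z := by
  apply toC_injective β
  rw [← cohGen_toC, h, map_smul]

theorem toC_ne_zero (β : Module.Basis ι ℤ (Lam N)) {z : ι → ℂ} (hz : z ≠ 0) : toC β z ≠ 0 := by
  intro h
  apply hz
  apply toC_injective β
  rw [h, map_zero]

end Cls

/-! ### The four transfers, matrix form -/

section Core

variable {N : ℕ} [NeZero N] {ι : Type*} [Fintype ι] [DecidableEq ι]
variable {O : Type*} [CommRing O] [IsDomain O] [CharZero O]
variable (K : Type*) [Field K] [Algebra O K] [IsFractionRing O K] [CharZero K]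

include K in
/-- **type (G)/(R), common part**: a ℂ-side statement `T_b X = lam_b X` on anemic eigenclasses for
the conjugate system transfers to `O`-coordinates. -/
theorem core_lin (B : Set ℕ) (b : Nat.Primes) (β : Module.Basis ι ℤ (Lam N))
    (lam : Nat.Primes → O) (hint : ∀ l, IsIntegral ℤ (lam l))
    (hC : ∀ X : Additive (Gamma0 N) →+ ℂ, X ∈ parabolicHoms ℂ (Gamma0 N) ℂ →
      (∀ l : Nat.Primes, (l : ℕ) ∉ B → cohGen N ℂ l X = tau O K ⟨lam l, hint l⟩ • X) →
      cohGen N ℂ b X = tau O K ⟨lam b, hint b⟩ • X)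
    (c : ι → O)
    (hc : ∀ l : Nat.Primes, (l : ℕ) ∉ B →
      ((latMat β l).map (Int.cast : ℤ → O)).mulVec c = lam l • c) :
    ((latMat β b).map (Int.cast : ℤ → O)).mulVec c = lam b • c := by
  classical
  set lamF : Nat.Primes → FF K := fun l => toF O K ⟨lam l, hint l⟩ with hlamF
  have hlamK : ∀ l, algebraMap (FF K) K (lamF l) = algebraMap O K (lam l) := fun l => rfl
  have h1 := mulVec_eq_zero_of_forall (F := FF K) (K := K) (sig K).toRingHom
    (fun s : {l : Nat.Primes // (l : ℕ) ∉ B} => latMat β s.1) (fun s => lamF s.1)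
    ((latMat β b).map (Int.cast : ℤ → FF K) - lamF b • (1 : Matrix ι ι (FF K)))
    (by
      intro z hz
      rw [mapLin, map_intCast_map]
      have h2 := hC (toC β z) (toC_mem β z)
        (fun l hl => toC_eigen β z l _ (hz ⟨l, hl⟩))
      have h3 := eigen_of_toC β z b _ h2
      rw [h3]
      exact sub_self _)
    (cK K c)
    (fun s => by
      rw [hlamK]
      exact cK_eigen K _ _ _ (hc s.1 s.2))
  rw [mapLin, map_intCast_map, hlamK, sub_eq_zero] at h1
  apply cK_injective K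
  rw [cK_mulVec, cK_smul]
  exact h1

include K in
/-- a nonzero full eigenvector with coordinates in `O` gives a nonzero full eigenclass over `ℂ` for
the conjugate system. -/
theorem exists_class (β : Module.Basis ι ℤ (Lam N)) (lam : Nat.Primes → O)
    (hint : ∀ l, IsIntegral ℤ (lam l)) (c₀ : ι → O) (hc₀ : c₀ ≠ 0)
    (hc₀e : ∀ l : Nat.Primes, ((latMat β l).map (Int.cast : ℤ → O)).mulVec c₀ = lam l • c₀) :
    ∃ X₀ : Additive (Gamma0 N) →+ ℂ, X₀ ∈ parabolicHoms ℂ (Gamma0 N) ℂ ∧ X₀ ≠ 0 ∧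
      ∀ l : Nat.Primes, cohGen N ℂ l X₀ = tau O K ⟨lam l, hint l⟩ • X₀ := by
  classical
  set lamF : Nat.Primes → FF K := fun l => toF O K ⟨lam l, hint l⟩ with hlamF
  have hlamK : ∀ l, algebraMap (FF K) K (lamF l) = algebraMap O K (lam l) := fun l => rfl
  obtain ⟨x₀, hx₀, hx₀e⟩ := exists_ne_zero_eigen (F := FF K) (K := K)
    (fun l : Nat.Primes => latMat β l) lamF (cK K c₀) (cK_ne_zero K hc₀)
    (fun l => by
      rw [hlamK]
      exact cK_eigen K _ _ _ (hc₀e l))
  have hz₀ : (fun i => (sig K).toRingHom (x₀ i)) ≠ 0 := by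
    intro h
    apply hx₀
    funext i
    have := congrFun h i
    rw [Pi.zero_apply] at this ⊢
    exact (sig K).toRingHom.injective (this.trans (map_zero _).symm)
  refine ⟨toC β (fun i => (sig K).toRingHom (x₀ i)), toC_mem β _, toC_ne_zero β hz₀, fun l => ?_⟩
  exact toC_eigen β _ l _ (map_eigen (sig K).toRingHom _ lamF x₀ hx₀e l)

include K in
/-- **type (G), matrix form.** -/
theorem core_G (B : Set ℕ) (b : Nat.Primes) (hG : CohG N B b) (β : Module.Basis ι ℤ (Lam N))
    (lam : Nat.Primes → O) (c₀ : ι → O) (hc₀ : c₀ ≠ 0)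
    (hc₀e : ∀ l : Nat.Primes, ((latMat β l).map (Int.cast : ℤ → O)).mulVec c₀ = lam l • c₀)
    (c : ι → O)
    (hc : ∀ l : Nat.Primes, (l : ℕ) ∉ B →
      ((latMat β l).map (Int.cast : ℤ → O)).mulVec c = lam l • c) :
    ((latMat β b).map (Int.cast : ℤ → O)).mulVec c = lam b • c := by
  classical
  have hint : ∀ l, IsIntegral ℤ (lam l) := fun l =>
    integral_of_eigen K (latMat β l) c₀ hc₀ (lam l) (hc₀e l)
  refine core_lin K B b β lam hint ?_ c hc
  intro X hX hXe
  obtain ⟨X₀, hX₀, hX₀0, hX₀e⟩ := exists_class K β lam hint c₀ hc₀ hc₀e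
  exact hG (fun l => tau O K ⟨lam l, hint l⟩) X₀ hX₀ hX₀0 hX₀e X hX hXe

include K in
/-- **type (R), matrix form.**  The non-occurrence hypothesis is asked for EVERY embedding
`τ : integralClosure ℤ O → ℂ` of the algebraic integers of `O` (conjugate system `τ ∘ lam`). -/
theorem core_R (B : Set ℕ) (b : Nat.Primes) (hR : CohR N B b) (β : Module.Basis ι ℤ (Lam N))
    (lam : Nat.Primes → O) (c₀ : ι → O) (hc₀ : c₀ ≠ 0)
    (hc₀e : ∀ l : Nat.Primes, ((latMat β l).map (Int.cast : ℤ → O)).mulVec c₀ = lam l • c₀)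
    (hnonocc : ∀ (hint : ∀ l : Nat.Primes, IsIntegral ℤ (lam l))
      (τ : integralClosure ℤ O →+* ℂ), Function.Injective τ →
      ∀ (M' : ℕ) [NeZero M'], ¬ (b : ℕ) ∣ M' → ∀ g : CuspForm (Gamma0 M') 2,
        (∀ l : Nat.Primes, (l : ℕ) ∉ B → formOp M' l g = τ ⟨lam l, hint l⟩ • g) → g = 0)
    (c : ι → O)
    (hc : ∀ l : Nat.Primes, (l : ℕ) ∉ B →
      ((latMat β l).map (Int.cast : ℤ → O)).mulVec c = lam l • c) :
    ((latMat β b).map (Int.cast : ℤ → O)).mulVec c = lam b • c := by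
  classical
  have hint : ∀ l, IsIntegral ℤ (lam l) := fun l =>
    integral_of_eigen K (latMat β l) c₀ hc₀ (lam l) (hc₀e l)
  refine core_lin K B b β lam hint ?_ c hc
  intro X hX hXe
  obtain ⟨X₀, hX₀, hX₀0, hX₀e⟩ := exists_class K β lam hint c₀ hc₀ hc₀e
  exact hR (fun l => tau O K ⟨lam l, hint l⟩) X₀ hX₀ hX₀0 hX₀e
    (hnonocc hint (tau O K) (tau_injective O K))
    X hX hXe

include K in
/-- **type (P), common part.** -/
theorem core_quad (B : Set ℕ) (b : Nat.Primes) (β : Module.Basis ι ℤ (Lam N))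
    (lam : Nat.Primes → O) (hint : ∀ l, IsIntegral ℤ (lam l))
    (hC : ∀ X : Additive (Gamma0 N) →+ ℂ, X ∈ parabolicHoms ℂ (Gamma0 N) ℂ →
      (∀ l : Nat.Primes, (l : ℕ) ∉ B → cohGen N ℂ l X = tau O K ⟨lam l, hint l⟩ • X) →
      cohGen N ℂ b (cohGen N ℂ b X) - tau O K ⟨lam b, hint b⟩ • cohGen N ℂ b X
        + ((b : ℕ) : ℂ) • X = 0)
    (c : ι → O)
    (hc : ∀ l : Nat.Primes, (l : ℕ) ∉ B →
      ((latMat β l).map (Int.cast : ℤ → O)).mulVec c = lam l • c) :
    ((latMat β b).map (Int.cast : ℤ → O)).mulVec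
        (((latMat β b).map (Int.cast : ℤ → O)).mulVec c)
      - lam b • ((latMat β b).map (Int.cast : ℤ → O)).mulVec c + (((b : ℕ) : O)) • c = 0 := by
  classical
  set lamF : Nat.Primes → FF K := fun l => toF O K ⟨lam l, hint l⟩ with hlamF
  have hlamK : ∀ l, algebraMap (FF K) K (lamF l) = algebraMap O K (lam l) := fun l => rfl
  have h1 := mulVec_eq_zero_of_forall (F := FF K) (K := K) (sig K).toRingHom
    (fun s : {l : Nat.Primes // (l : ℕ) ∉ B} => latMat β s.1) (fun s => lamF s.1)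
    ((latMat β b).map (Int.cast : ℤ → FF K) * (latMat β b).map (Int.cast : ℤ → FF K)
      - lamF b • (latMat β b).map (Int.cast : ℤ → FF K)
      + (((b : ℕ) : FF K)) • (1 : Matrix ι ι (FF K)))
    (by
      intro z hz
      rw [mapQuad, map_intCast_map, map_natCast]
      have h2 := hC (toC β z) (toC_mem β z)
        (fun l hl => toC_eigen β z l _ (hz ⟨l, hl⟩))
      rw [cohGen_toC, cohGen_toC, ← map_smul, ← map_sub, ← map_smul, ← map_add] at h2
      exact toC_injective β (h2.trans (map_zero _).symm))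
    (cK K c)
    (fun s => by
      rw [hlamK]
      exact cK_eigen K _ _ _ (hc s.1 s.2))
  rw [mapQuad, map_intCast_map, hlamK, map_natCast] at h1
  apply cK_injective K
  rw [cK_add, cK_sub, cK_smul, cK_smul, cK_mulVec, cK_mulVec, cK_zero, map_natCast]
  exact h1

include K in
/-- **type (Q), common part.** -/
theorem core_cub (B : Set ℕ) (b : Nat.Primes) (β : Module.Basis ι ℤ (Lam N))
    (lam : Nat.Primes → O) (hint : ∀ l, IsIntegral ℤ (lam l))
    (hC : ∀ X : Additive (Gamma0 N) →+ ℂ, X ∈ parabolicHoms ℂ (Gamma0 N) ℂ →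
      (∀ l : Nat.Primes, (l : ℕ) ∉ B → cohGen N ℂ l X = tau O K ⟨lam l, hint l⟩ • X) →
      cohGen N ℂ b (cohGen N ℂ b (cohGen N ℂ b X))
        - tau O K ⟨lam b, hint b⟩ • cohGen N ℂ b (cohGen N ℂ b X)
        + ((b : ℕ) : ℂ) • cohGen N ℂ b X = 0)
    (c : ι → O)
    (hc : ∀ l : Nat.Primes, (l : ℕ) ∉ B →
      ((latMat β l).map (Int.cast : ℤ → O)).mulVec c = lam l • c) :
    ((latMat β b).map (Int.cast : ℤ → O)).mulVec
        (((latMat β b).map (Int.cast : ℤ → O)).mulVec
          (((latMat β b).map (Int.cast : ℤ → O)).mulVec c))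
      - lam b • ((latMat β b).map (Int.cast : ℤ → O)).mulVec
          (((latMat β b).map (Int.cast : ℤ → O)).mulVec c)
      + (((b : ℕ) : O)) • ((latMat β b).map (Int.cast : ℤ → O)).mulVec c = 0 := by
  classical
  set lamF : Nat.Primes → FF K := fun l => toF O K ⟨lam l, hint l⟩ with hlamF
  have hlamK : ∀ l, algebraMap (FF K) K (lamF l) = algebraMap O K (lam l) := fun l => rfl
  have h1 := mulVec_eq_zero_of_forall (F := FF K) (K := K) (sig K).toRingHom
    (fun s : {l : Nat.Primes // (l : ℕ) ∉ B} => latMat β s.1) (fun s => lamF s.1)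
    ((latMat β b).map (Int.cast : ℤ → FF K) * (latMat β b).map (Int.cast : ℤ → FF K)
        * (latMat β b).map (Int.cast : ℤ → FF K)
      - lamF b • ((latMat β b).map (Int.cast : ℤ → FF K)
        * (latMat β b).map (Int.cast : ℤ → FF K))
      + (((b : ℕ) : FF K)) • (latMat β b).map (Int.cast : ℤ → FF K))
    (by
      intro z hz
      rw [mapCub, map_intCast_map, map_natCast]
      have h2 := hC (toC β z) (toC_mem β z)
        (fun l hl => toC_eigen β z l _ (hz ⟨l, hl⟩))
      rw [cohGen_toC, cohGen_toC, cohGen_toC, ← map_smul, ← map_sub, ← map_smul, ← map_add] at h2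
      exact toC_injective β (h2.trans (map_zero _).symm))
    (cK K c)
    (fun s => by
      rw [hlamK]
      exact cK_eigen K _ _ _ (hc s.1 s.2))
  rw [mapCub, map_intCast_map, hlamK, map_natCast] at h1
  apply cK_injective K
  rw [cK_add, cK_sub, cK_smul, cK_smul, cK_mulVec, cK_mulVec, cK_mulVec, cK_zero, map_natCast]
  exact h1

variable {M₀ : ℕ} [NeZero M₀] {ι₁ : Type*} [Fintype ι₁] [DecidableEq ι₁]

include K in
/-- **type (P), matrix form**: reference = a nonzero full eigenvector of level `M₀`. -/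
theorem core_P (B : Set ℕ) (b : Nat.Primes) (hP : CohP N M₀ B b) (β : Module.Basis ι ℤ (Lam N))
    (β₁ : Module.Basis ι₁ ℤ (Lam M₀)) (lam : Nat.Primes → O) (c₁ : ι₁ → O) (hc₁ : c₁ ≠ 0)
    (hc₁e : ∀ l : Nat.Primes, ((latMat β₁ l).map (Int.cast : ℤ → O)).mulVec c₁ = lam l • c₁)
    (c : ι → O)
    (hc : ∀ l : Nat.Primes, (l : ℕ) ∉ B →
      ((latMat β l).map (Int.cast : ℤ → O)).mulVec c = lam l • c) :
    ((latMat β b).map (Int.cast : ℤ → O)).mulVec
        (((latMat β b).map (Int.cast : ℤ → O)).mulVec c)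
      - lam b • ((latMat β b).map (Int.cast : ℤ → O)).mulVec c + (((b : ℕ) : O)) • c = 0 := by
  classical
  have hint : ∀ l, IsIntegral ℤ (lam l) := fun l =>
    integral_of_eigen K (latMat β₁ l) c₁ hc₁ (lam l) (hc₁e l)
  refine core_quad K B b β lam hint ?_ c hc
  intro X hX hXe
  obtain ⟨X₁, hX₁, hX₁0, hX₁e⟩ := exists_class K β₁ lam hint c₁ hc₁ hc₁e
  exact hP (fun l => tau O K ⟨lam l, hint l⟩) X₁ hX₁ hX₁0 hX₁e X hX hXe

include K in
/-- **type (Q), matrix form**: reference = a nonzero full eigenvector of level `M₀`. -/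
theorem core_Q (B : Set ℕ) (b : Nat.Primes) (hQ : CohQ N M₀ B b) (β : Module.Basis ι ℤ (Lam N))
    (β₁ : Module.Basis ι₁ ℤ (Lam M₀)) (lam : Nat.Primes → O) (c₁ : ι₁ → O) (hc₁ : c₁ ≠ 0)
    (hc₁e : ∀ l : Nat.Primes, ((latMat β₁ l).map (Int.cast : ℤ → O)).mulVec c₁ = lam l • c₁)
    (c : ι → O)
    (hc : ∀ l : Nat.Primes, (l : ℕ) ∉ B →
      ((latMat β l).map (Int.cast : ℤ → O)).mulVec c = lam l • c) :
    ((latMat β b).map (Int.cast : ℤ → O)).mulVec
        (((latMat β b).map (Int.cast : ℤ → O)).mulVec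
          (((latMat β b).map (Int.cast : ℤ → O)).mulVec c))
      - lam b • ((latMat β b).map (Int.cast : ℤ → O)).mulVec
          (((latMat β b).map (Int.cast : ℤ → O)).mulVec c)
      + (((b : ℕ) : O)) • ((latMat β b).map (Int.cast : ℤ → O)).mulVec c = 0 := by
  classical
  have hint : ∀ l, IsIntegral ℤ (lam l) := fun l =>
    integral_of_eigen K (latMat β₁ l) c₁ hc₁ (lam l) (hc₁e l)
  refine core_cub K B b β lam hint ?_ c hc
  intro X hX hXe
  obtain ⟨X₁, hX₁, hX₁0, hX₁e⟩ := exists_class K β₁ lam hint c₁ hc₁ hc₁e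
  exact hQ (fun l => tau O K ⟨lam l, hint l⟩) X₁ hX₁ hX₁0 hX₁e X hX hXe

end Core

end Fermat.Agent.GE9.OldQ.Consumer
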