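/-
GATE-E / GE9-OLDQ, leaf (O5a) of helper63's slice table (board 7336) (helper57):
**a nonzero Hecke-stable space of weight-2 cusp forms of `Γ₀(N)` contains a form with `a₁ ≠ 0`.**

(i) the abstract statement (a commuting family on a finite-dimensional `ℂ`-space has a joint
eigenvector in every nonzero stable subspace) is ON MAIN:
`GM.End.exists_common_eigenvector_mem`; here:

* `exists_joint_eigenform_mem` : `W ≠ ⊥` stable under every `formOp N l` ⟹ a joint eigenvector
  `h ∈ W`, `h ≠ 0`, `formOp N l h = μ l • h` for ALL `l`, with `a₁(h) ≠ 0`;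
* **`exists_mem_qCoeff_one_ne_zero`** : `∃ h ∈ W, qCoeff h 1 ≠ 0`;
* **`eq_bot_of_qCoeff_one_eq_zero`** : a `formOp`-stable `W` on which `a₁ ≡ 0` is `⊥`;
* `anemicEigen N B lam` : the anemic eigenspace `{h | formOp N l h = lam l • h ∀ l ∉ B}`, stable under
  every `formOp N l`;
* **`eq_zero_on_anemicEigen_of_qCoeff_one`** : `A` an endomorphism commuting with every `formOp N l`
  such that `a₁(A h) = 0` for every `h` in the anemic eigenspace ⟹ `A h = 0` there;
* `aeval_eq_zero_of_qCoeff_one` : the same for `A = Φ(formOp N b)`, `Φ : ℂ[X]` (what O5 calls).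
-/
import Mathlib
import Fermat.Agent.GE9.OldQ.Single
import Fermat.Agent.S23.FinDim

set_option autoImplicit false

open CongruenceSubgroup ModularFormClass UpperHalfPlane CuspForm Polynomial

namespace Fermat.Agent.GE9.OldQ

open Fermat.Agent.GM.End (formOp formOp_commute exists_common_eigenvector_mem)
open Fermat.Agent.S49_helper65 (cusp_eq_zero_of_qCoeff qCoeff_zero_cusp)

variable {N : ℕ} [NeZero N]

/-- a joint eigenvector of ALL `formOp N l` with `a₁ = 0` vanishes. -/
theorem eq_zero_of_joint_eigen (μ : Nat.Primes → ℂ) (h : CuspForm (Gamma0 N) 2)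
    (he : ∀ l : Nat.Primes, formOp N l h = μ l • h) (h1 : qCoeff h 1 = 0) : h = 0 := by
  refine cusp_eq_zero_of_qCoeff h fun n => ?_
  rcases Nat.eq_zero_or_pos n with rfl | hn
  · exact qCoeff_zero_cusp h
  · exact qCoeff_eq_zero_of_eigen_away (b := 0) μ h (fun l _ => he l) h1 n
      (fun h0 => hn.ne' (Nat.eq_zero_of_zero_dvd h0))

/-- a nonzero `formOp`-stable space contains a joint eigenvector of all `formOp N l`, and its
first coefficient is nonzero. -/
theorem exists_joint_eigenform_mem (W : Submodule ℂ (CuspForm (Gamma0 N) 2)) (hW : W ≠ ⊥)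
    (hstab : ∀ l : Nat.Primes, ∀ f ∈ W, formOp N l f ∈ W) :
    ∃ (h : CuspForm (Gamma0 N) 2) (μ : Nat.Primes → ℂ), h ∈ W ∧ h ≠ 0 ∧
      (∀ l : Nat.Primes, formOp N l h = μ l • h) ∧ qCoeff h 1 ≠ 0 := by
  have : FiniteDimensional ℂ (CuspForm (Gamma0 N) 2) :=
    Fermat.Agent.S23.finiteDimensional_cuspForm N 2
  obtain ⟨v, c, hvW, hv0, hc⟩ :=
    exists_common_eigenvector_mem (fun l : Nat.Primes => formOp N l) (formOp_commute N) W hW hstab
  exact ⟨v, c, hvW, hv0, hc, fun h1 => hv0 (eq_zero_of_joint_eigen c v hc h1)⟩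

/-- **a nonzero `formOp`-stable space of cusp forms contains a form with `a₁ ≠ 0`.** -/
theorem exists_mem_qCoeff_one_ne_zero (W : Submodule ℂ (CuspForm (Gamma0 N) 2)) (hW : W ≠ ⊥)
    (hstab : ∀ l : Nat.Primes, ∀ f ∈ W, formOp N l f ∈ W) :
    ∃ h ∈ W, qCoeff h 1 ≠ 0 := by
  obtain ⟨h, μ, hhW, _, _, h1⟩ := exists_joint_eigenform_mem W hW hstab
  exact ⟨h, hhW, h1⟩

/-- the normalised version: a nonzero `formOp`-stable space contains a joint eigenvector with
`a₁ = 1`. -/
theorem exists_normalised_joint_eigenform_mem (W : Submodule ℂ (CuspForm (Gamma0 N) 2))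
    (hW : W ≠ ⊥) (hstab : ∀ l : Nat.Primes, ∀ f ∈ W, formOp N l f ∈ W) :
    ∃ (h : CuspForm (Gamma0 N) 2) (μ : Nat.Primes → ℂ), h ∈ W ∧
      (∀ l : Nat.Primes, formOp N l h = μ l • h) ∧ qCoeff h 1 = 1 := by
  obtain ⟨h, μ, hhW, _, he, h1⟩ := exists_joint_eigenform_mem W hW hstab
  refine ⟨(qCoeff h 1)⁻¹ • h, μ, W.smul_mem _ hhW, fun l => ?_, ?_⟩
  · rw [map_smul, he l, smul_comm]
  · rw [Fermat.Agent.S49_helper65.qCoeff_smul_cusp, inv_mul_cancel₀ h1]

/-- **a `formOp`-stable space of cusp forms on which `a₁ ≡ 0` is `⊥`.** -/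
theorem eq_bot_of_qCoeff_one_eq_zero (W : Submodule ℂ (CuspForm (Gamma0 N) 2))
    (hstab : ∀ l : Nat.Primes, ∀ f ∈ W, formOp N l f ∈ W)
    (h1 : ∀ f ∈ W, qCoeff f 1 = 0) : W = ⊥ := by
  by_contra hW
  obtain ⟨h, hhW, hne⟩ := exists_mem_qCoeff_one_ne_zero W hW hstab
  exact hne (h1 h hhW)

/-! ### the anemic eigenspace -/

/-- the anemic eigenspace: cusp forms which are eigenvectors of `formOp N l` with eigenvalue `lam l`
for every prime `l ∉ B`. -/
def anemicEigen (N : ℕ) [NeZero N] (B : Set ℕ) (lam : Nat.Primes → ℂ) :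
    Submodule ℂ (CuspForm (Gamma0 N) 2) where
  carrier := {h | ∀ l : Nat.Primes, (l : ℕ) ∉ B → formOp N l h = lam l • h}
  add_mem' := by
    intro f g hf hg l hl
    rw [map_add, hf l hl, hg l hl, smul_add]
  zero_mem' := by
    intro l _
    rw [map_zero, smul_zero]
  smul_mem' := by
    intro c f hf l hl
    rw [map_smul, hf l hl, smul_comm]

theorem mem_anemicEigen {B : Set ℕ} {lam : Nat.Primes → ℂ} {h : CuspForm (Gamma0 N) 2} :
    h ∈ anemicEigen N B lam ↔ ∀ l : Nat.Primes, (l : ℕ) ∉ B → formOp N l h = lam l • h :=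
  Iff.rfl

/-- an endomorphism which commutes with every `formOp N l` preserves the anemic eigenspace. -/
theorem map_mem_anemicEigen {B : Set ℕ} {lam : Nat.Primes → ℂ}
    (A : Module.End ℂ (CuspForm (Gamma0 N) 2)) (hA : ∀ l : Nat.Primes, Commute A (formOp N l))
    {h : CuspForm (Gamma0 N) 2} (hh : h ∈ anemicEigen N B lam) : A h ∈ anemicEigen N B lam := by
  intro l hl
  have hc : formOp N l (A h) = A (formOp N l h) :=
    (congrArg (fun t : Module.End ℂ (CuspForm (Gamma0 N) 2) => t h) (hA l).eq).symm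
  rw [hc, hh l hl, map_smul]

/-- the anemic eigenspace is stable under every `formOp N l`. -/
theorem formOp_mem_anemicEigen {B : Set ℕ} {lam : Nat.Primes → ℂ} (l : Nat.Primes)
    {h : CuspForm (Gamma0 N) 2} (hh : h ∈ anemicEigen N B lam) :
    formOp N l h ∈ anemicEigen N B lam :=
  map_mem_anemicEigen (formOp N l) (fun l' => formOp_commute N l l') hh

/-- **O5's closing step**: an endomorphism `A` commuting with every `formOp N l`, such that
`a₁(A h) = 0` for every `h` in the anemic eigenspace, kills the anemic eigenspace. -/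
theorem eq_zero_on_anemicEigen_of_qCoeff_one (B : Set ℕ) (lam : Nat.Primes → ℂ)
    (A : Module.End ℂ (CuspForm (Gamma0 N) 2)) (hA : ∀ l : Nat.Primes, Commute A (formOp N l))
    (h1 : ∀ h ∈ anemicEigen N B lam, qCoeff (A h) 1 = 0) :
    ∀ h ∈ anemicEigen N B lam, A h = 0 := by
  have hbot : (anemicEigen N B lam).map A = ⊥ := by
    refine eq_bot_of_qCoeff_one_eq_zero _ ?_ ?_
    · rintro l f ⟨h, hh, rfl⟩
      refine ⟨formOp N l h, formOp_mem_anemicEigen l hh, ?_⟩
      exact congrArg (fun t : Module.End ℂ (CuspForm (Gamma0 N) 2) => t h) (hA l).eq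
    · rintro f ⟨h, hh, rfl⟩
      exact h1 h hh
  intro h hh
  have : A h ∈ (anemicEigen N B lam).map A := ⟨h, hh, rfl⟩
  rw [hbot, Submodule.mem_bot] at this
  exact this

/-- a polynomial in an operator commuting with `T` commutes with `T`. -/
theorem commute_aeval_of_commute {V : Type*} [AddCommGroup V] [Module ℂ V]
    {S T : Module.End ℂ V} (hST : Commute S T) (Φ : ℂ[X]) : Commute (aeval S Φ) T := by
  induction Φ using Polynomial.induction_on with
  | C a =>
    rw [aeval_C]
    exact Algebra.commute_algebraMap_left a T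
  | add p q hp hq =>
    rw [map_add]
    exact hp.add_left hq
  | monomial n a ih =>
    have e : (C a * X ^ (n + 1) : ℂ[X]) = C a * X ^ n * X := by
      rw [pow_succ, mul_assoc]
    rw [e, map_mul, aeval_X]
    exact ih.mul_left hST

/-- the same for `A = Φ(formOp N b)`: if `a₁(Φ(U_b) h) = 0` on the anemic eigenspace then `Φ(U_b)`
kills the anemic eigenspace. -/
theorem aeval_eq_zero_of_qCoeff_one (B : Set ℕ) (lam : Nat.Primes → ℂ) (b : Nat.Primes) (Φ : ℂ[X])
    (h1 : ∀ h : CuspForm (Gamma0 N) 2,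
      (∀ l : Nat.Primes, (l : ℕ) ∉ B → formOp N l h = lam l • h) →
        qCoeff (aeval (formOp N b) Φ h) 1 = 0) :
    ∀ h : CuspForm (Gamma0 N) 2,
      (∀ l : Nat.Primes, (l : ℕ) ∉ B → formOp N l h = lam l • h) →
        aeval (formOp N b) Φ h = 0 :=
  eq_zero_on_anemicEigen_of_qCoeff_one B lam (aeval (formOp N b) Φ)
    (fun l => commute_aeval_of_commute (formOp_commute N b l) Φ) h1

end Fermat.Agent.GE9.OldQ
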