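/-
GATE-E / GE9-OLDQ (helper63) — O8, file 5: **the four ℂ-side shapes are THEOREMS**: helper8's O6
(`GE9/OldQ/Coh.lean`, reference = a cusp form with `a₁ ≠ 0`, bad set = a list of primes) gives
`Consumer.CohG / CohR / CohP / CohQ` (reference = a nonzero full eigenCLASS, bad set = a finite set).

* `exists_form_of_class` : a nonzero parabolic full eigenclass is the period pair of two full
  eigenforms, one of which is nonzero, hence has `a₁ ≠ 0`;
* `cohG`, `cohR`, `cohP`, `cohQ`.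
-/
import Mathlib
import Fermat.Agent.GE9.OldQ.Consumer
import Fermat.Agent.GE9.OldQ.Coh
import Fermat.Agent.GE9.OldQ.JointEig

set_option autoImplicit false
set_option linter.unusedSectionVars false

open scoped MatrixGroups
open CongruenceSubgroup ModularCurve ModularCurve.Period CuspForm ModularFormClass

namespace Fermat.Agent.GE9.OldQ.Consumer

open Fermat.Agent.S16_helper49 Fermat.Agent.GJ.J2.Lat Fermat.Agent.GE9.Mult1
open Fermat.Agent.GM.End Fermat.Agent.GE9.OldQ.Deplete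

variable {N : ℕ} [NeZero N]

/-- a nonzero parabolic full eigenclass produces a full eigenform with `a₁ ≠ 0`. -/
theorem exists_form_of_class (lam : Nat.Primes → ℂ) (X₀ : Additive (Gamma0 N) →+ ℂ)
    (hX₀ : X₀ ∈ parabolicHoms ℂ (Gamma0 N) ℂ) (hX₀0 : X₀ ≠ 0)
    (hX₀e : ∀ l : Nat.Primes, cohGen N ℂ l X₀ = lam l • X₀) :
    ∃ f₀ : CuspForm (Gamma0 N) 2, qCoeff f₀ 1 ≠ 0 ∧
      ∀ l : Nat.Primes, formOp N l f₀ = lam l • f₀ := by
  obtain ⟨f₁, f₂, hf, h₁, h₂⟩ := exists_eigen_pair X₀ hX₀ lam hX₀e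
  by_cases h10 : f₁ = 0
  · by_cases h20 : f₂ = 0
    · exfalso
      apply hX₀0
      rw [← hf, h10, h20]
      exact map_zero _
    · exact ⟨f₂, fun h => h20 (eq_zero_of_joint_eigen lam f₂ h₂ h), h₂⟩
  · exact ⟨f₁, fun h => h10 (eq_zero_of_joint_eigen lam f₁ h₁ h), h₁⟩

/-- the list of the bad primes other than `b`. -/
noncomputable def badList (B : Finset ℕ) (b : ℕ) : List ℕ :=
  (B.filter fun l => l.Prime ∧ l ≠ b).toList

theorem prime_of_mem_badList {B : Finset ℕ} {b l : ℕ} (h : l ∈ badList B b) : l.Prime := by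
  rw [badList, Finset.mem_toList, Finset.mem_filter] at h
  exact h.2.1

theorem notMem_badList (B : Finset ℕ) (b : ℕ) : b ∉ badList B b := by
  intro h
  rw [badList, Finset.mem_toList, Finset.mem_filter] at h
  exact h.2.2 rfl

theorem notMem_of_notMem_badList {B : Finset ℕ} {b : ℕ} (l : Nat.Primes) (hlb : (l : ℕ) ≠ b)
    (hl : (l : ℕ) ∉ badList B b) : (l : ℕ) ∉ (B : Set ℕ) := by
  intro hB
  apply hl
  rw [badList, Finset.mem_toList, Finset.mem_filter]
  exact ⟨hB, l.2, hlb⟩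

theorem notMem_badList_of_notMem {B : Finset ℕ} {b : ℕ} {l : ℕ} (hl : l ∉ (B : Set ℕ)) :
    l ∉ badList B b := by
  intro h
  rw [badList, Finset.mem_toList, Finset.mem_filter] at h
  exact hl h.1

/-- **(G)**: `b ∤ N`. -/
theorem cohG (B : Finset ℕ) (b : Nat.Primes) (hbN : ¬ (b : ℕ) ∣ N) : CohG N (B : Set ℕ) b := by
  intro lam X₀ hX₀ hX₀0 hX₀e X hX hXe
  obtain ⟨f₀, ha, hf₀e⟩ := exists_form_of_class lam X₀ hX₀ hX₀0 hX₀e
  exact Coh.coh_eigen_of_good b.2 (badList B b) lam hbN (fun l hl => prime_of_mem_badList hl)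
    (notMem_badList B b) f₀ ha (fun l _ => hf₀e l) X hX
    (fun l hlb hl => hXe l (notMem_of_notMem_badList l hlb hl))

/-- **(R)**: `N = M₀ b`, `b ∤ M₀`, `b ∈ B`. -/
theorem cohR (B : Finset ℕ) (b : Nat.Primes) (hbB : (b : ℕ) ∈ B) {M₀ : ℕ} [NeZero M₀]
    (hbM : ¬ (b : ℕ) ∣ M₀) (hN : N = M₀ * b) : CohR N (B : Set ℕ) b := by
  intro lam X₀ hX₀ hX₀0 hX₀e hnew X hX hXe
  obtain ⟨f₀, ha, hf₀e⟩ := exists_form_of_class lam X₀ hX₀ hX₀0 hX₀e
  have hls : ∀ l ∈ badList B b, l.Prime := fun l hl => prime_of_mem_badList hl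
  have hNZ : NeZero (M₀ * (badList B b).prod ^ 2) := neZero_lvl M₀ (badList B b) hls
  have hbM' : ¬ (b : ℕ) ∣ M₀ * (badList B b).prod ^ 2 := by
    intro hdvd
    rcases (Nat.Prime.dvd_mul b.2).mp hdvd with h | h
    · exact hbM h
    · have h2 := b.2.dvd_of_dvd_pow h
      obtain ⟨a, ha, hba⟩ := (Prime.dvd_prod_iff b.2.prime).mp h2
      have hap : a.Prime := hls a ha
      have : (b : ℕ) = a := (Nat.prime_dvd_prime_iff_eq b.2 hap).mp hba
      exact notMem_badList B b (this ▸ ha)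
  exact Coh.coh_eigen_of_new b.2 (badList B b) lam hbM hN hls (notMem_badList B b)
    (fun g hg => hnew (M₀ * (badList B b).prod ^ 2) hbM' g (fun l hl => by
      have hlb : (l : ℕ) ≠ b := fun h => hl (h ▸ hbB)
      rw [hg l hlb, lamD_of_not_mem lam (notMem_badList_of_notMem hl)]))
    f₀ ha (fun l _ => hf₀e l) X hX
    (fun l hlb hl => hXe l (notMem_of_notMem_badList l hlb hl))

/-- **(P)**: `N = M₀ b`, `b ∤ M₀`. -/
theorem cohP (B : Finset ℕ) (b : Nat.Primes) {M₀ : ℕ} [NeZero M₀]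
    (hbM : ¬ (b : ℕ) ∣ M₀) (hN : N = M₀ * b) : CohP N M₀ (B : Set ℕ) b := by
  intro lam X₁ hX₁ hX₁0 hX₁e X hX hXe
  obtain ⟨f₀, ha, hf₀e⟩ := exists_form_of_class lam X₁ hX₁ hX₁0 hX₁e
  exact Coh.coh_quadratic_of_ref b.2 (badList B b) lam hbM hN
    (fun l hl => prime_of_mem_badList hl) (notMem_badList B b) f₀ ha (fun l _ => hf₀e l) X hX
    (fun l hlb hl => hXe l (notMem_of_notMem_badList l hlb hl))

/-- **(Q)**: `N = M₀ b b`, `b ∤ M₀`. -/
theorem cohQ (B : Finset ℕ) (b : Nat.Primes) {M₀ : ℕ} [NeZero M₀]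
    (hbM : ¬ (b : ℕ) ∣ M₀) (hN : N = M₀ * b * b) : CohQ N M₀ (B : Set ℕ) b := by
  intro lam X₁ hX₁ hX₁0 hX₁e X hX hXe
  obtain ⟨f₀, ha, hf₀e⟩ := exists_form_of_class lam X₁ hX₁ hX₁0 hX₁e
  exact Coh.coh_cubic_of_ref b.2 (badList B b) lam hbM hN
    (fun l hl => prime_of_mem_badList hl) (notMem_badList B b) f₀ ha (fun l _ => hf₀e l) X hX
    (fun l hlb hl => hXe l (notMem_of_notMem_badList l hlb hl))

end Fermat.Agent.GE9.OldQ.Consumer
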