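/-
GATE-E / GE9-OLDQ (helper63) — O8-BASE, file 2: **the ℂ-side of the base case**: a nonzero ANEMIC
eigenclass produces a FULL system `μ` extending the anemic one, with a reference full eigenform.

* `exists_full_form` : `X ≠ 0` parabolic, `cohGen N ℂ l X = μ₀ l • X` for `l ∉ B`  ⟹  `∃ μ f₀`,
  `μ = μ₀` off `B`, `a₁(f₀) ≠ 0`, `formOp N l f₀ = μ l • f₀` for ALL `l`;
* `lin_of_form_G`, `lin_of_form_R` : the (G)/(R) conclusions with a reference FORM.
-/
import Mathlib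
import Fermat.Agent.GE9.OldQ.CohShapes

set_option autoImplicit false
set_option linter.unusedSectionVars false

open scoped MatrixGroups
open CongruenceSubgroup ModularCurve ModularCurve.Period CuspForm ModularFormClass

namespace Fermat.Agent.GE9.OldQ.Consumer

open Fermat.Agent.S16_helper49 Fermat.Agent.GJ.J2.Lat Fermat.Agent.GE9.Mult1
open Fermat.Agent.GM.End Fermat.Agent.GE9.OldQ.Deplete

variable {N : ℕ} [NeZero N]

/-- a nonzero anemic eigenclass produces a full eigenform in the anemic eigenspace. -/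
theorem exists_full_form (B : Finset ℕ) (μ₀ : Nat.Primes → ℂ) (X : Additive (Gamma0 N) →+ ℂ)
    (hX : X ∈ parabolicHoms ℂ (Gamma0 N) ℂ) (hX0 : X ≠ 0)
    (hXe : ∀ l : Nat.Primes, (l : ℕ) ∉ B → cohGen N ℂ l X = μ₀ l • X) :
    ∃ (μ : Nat.Primes → ℂ) (f₀ : CuspForm (Gamma0 N) 2),
      (∀ l : Nat.Primes, (l : ℕ) ∉ B → μ l = μ₀ l) ∧ qCoeff f₀ 1 ≠ 0 ∧
      ∀ l : Nat.Primes, formOp N l f₀ = μ l • f₀ := by
  obtain ⟨f₁, f₂, hf, h₁, h₂⟩ :=
    Coh.exists_eigen_pair_of (fun l => (l : ℕ) ∉ B) μ₀ X hX hXe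
  have hW : anemicEigen N (B : Set ℕ) μ₀ ≠ ⊥ := by
    intro hbot
    have hz : ∀ f : CuspForm (Gamma0 N) 2,
        (∀ l : Nat.Primes, (l : ℕ) ∉ B → formOp N l f = μ₀ l • f) → f = 0 := by
      intro f hfe
      have : f ∈ anemicEigen N (B : Set ℕ) μ₀ := fun l hl => hfe l (fun h => hl (Finset.mem_coe.mpr h))
      rw [hbot, Submodule.mem_bot] at this
      exact this
    apply hX0
    rw [← hf, hz f₁ h₁, hz f₂ h₂]
    exact map_zero _
  obtain ⟨h, μ, hhW, hh0, hhe, hh1⟩ := exists_joint_eigenform_mem _ hW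
    (fun l _ hf => formOp_mem_anemicEigen l hf)
  refine ⟨μ, h, fun l hl => ?_, hh1, hhe⟩
  have h3 : μ l • h = μ₀ l • h := by
    rw [← hhe l]
    exact hhW l (fun hmem => hl (Finset.mem_coe.mp hmem))
  have h4 : (μ l - μ₀ l) • h = 0 := by rw [sub_smul, h3, sub_self]
  rcases smul_eq_zero.mp h4 with h5 | h5
  · exact sub_eq_zero.mp h5
  · exact absurd h5 hh0

/-- **(G)** with a reference form. -/
theorem lin_of_form_G (B : Finset ℕ) (b : Nat.Primes) (hbN : ¬ (b : ℕ) ∣ N)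
    (μ : Nat.Primes → ℂ) (f₀ : CuspForm (Gamma0 N) 2) (ha : qCoeff f₀ 1 ≠ 0)
    (hf₀e : ∀ l : Nat.Primes, formOp N l f₀ = μ l • f₀)
    (X : Additive (Gamma0 N) →+ ℂ) (hX : X ∈ parabolicHoms ℂ (Gamma0 N) ℂ)
    (hXe : ∀ l : Nat.Primes, (l : ℕ) ∉ B → cohGen N ℂ l X = μ l • X) :
    cohGen N ℂ b X = μ b • X :=
  Coh.coh_eigen_of_good b.2 (badList B b) μ hbN (fun l hl => prime_of_mem_badList hl)
    (notMem_badList B b) f₀ ha (fun l _ => hf₀e l) X hX
    (fun l hlb hl => hXe l (fun h => notMem_of_notMem_badList l hlb hl (Finset.mem_coe.mpr h)))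

/-- **(R)** with a reference form. -/
theorem lin_of_form_R (B : Finset ℕ) (b : Nat.Primes) (hbB : (b : ℕ) ∈ B) {M₀ : ℕ} [NeZero M₀]
    (hbM : ¬ (b : ℕ) ∣ M₀) (hN : N = M₀ * b)
    (μ : Nat.Primes → ℂ) (f₀ : CuspForm (Gamma0 N) 2) (ha : qCoeff f₀ 1 ≠ 0)
    (hf₀e : ∀ l : Nat.Primes, formOp N l f₀ = μ l • f₀)
    (hnew : ∀ (M' : ℕ) [NeZero M'], ¬ (b : ℕ) ∣ M' → ∀ g : CuspForm (Gamma0 M') 2,
      (∀ l : Nat.Primes, (l : ℕ) ∉ B → formOp M' l g = μ l • g) → g = 0)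
    (X : Additive (Gamma0 N) →+ ℂ) (hX : X ∈ parabolicHoms ℂ (Gamma0 N) ℂ)
    (hXe : ∀ l : Nat.Primes, (l : ℕ) ∉ B → cohGen N ℂ l X = μ l • X) :
    cohGen N ℂ b X = μ b • X := by
  have hls : ∀ l ∈ badList B b, l.Prime := fun l hl => prime_of_mem_badList hl
  have hNZ : NeZero (M₀ * (badList B b).prod ^ 2) := neZero_lvl M₀ (badList B b) hls
  have hbM' : ¬ (b : ℕ) ∣ M₀ * (badList B b).prod ^ 2 := by
    intro hdvd
    rcases (Nat.Prime.dvd_mul b.2).mp hdvd with h | h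
    · exact hbM h
    · have h2 := b.2.dvd_of_dvd_pow h
      obtain ⟨a, ha', hba⟩ := (Prime.dvd_prod_iff b.2.prime).mp h2
      have hap : a.Prime := hls a ha'
      have : (b : ℕ) = a := (Nat.prime_dvd_prime_iff_eq b.2 hap).mp hba
      exact notMem_badList B b (this ▸ ha')
  exact Coh.coh_eigen_of_new b.2 (badList B b) μ hbM hN hls (notMem_badList B b)
    (fun g hg => hnew (M₀ * (badList B b).prod ^ 2) hbM' g (fun l hl => by
      have hlb : (l : ℕ) ≠ b := fun h => hl (h ▸ hbB)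
      rw [hg l hlb, lamD_of_not_mem μ
        (notMem_badList_of_notMem (fun h => hl (Finset.mem_coe.mp h)))]))
    f₀ ha (fun l _ => hf₀e l) X hX
    (fun l hlb hl => hXe l (fun h => notMem_of_notMem_badList l hlb hl (Finset.mem_coe.mpr h)))

end Fermat.Agent.GE9.OldQ.Consumer
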