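/-
GATE-E / GE9-OLDQ (helper63) — O8, file 4: **the consumer, module form**.

`M` an `O`-module with a basis `β'` indexed like a `ℤ`-basis `β` of `Lam N`, `j : Lam N →+ M` with
`j (β i) = β' i`, `T' l ∘ j = j ∘ latT N l` (binders of `Mult1.finrank_le_two_of_eigenO`); instance
`M = O ⊗[ℤ] Lam N`, `T' l = (latT N l).baseChange O`.

For `y ∈ M` with `T' l y = lam l • y` for all `l ∉ B` (ANEMIC eigenvector), per bad prime `b`:
* `eigen_of_good`  (G): `T' b y = lam b • y`;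
* `eigen_of_new`   (R): `T' b y = lam b • y`;
* `quad_of_old`    (P): `T' b (T' b y) − lam b • T' b y + b • y = 0`;
* `cub_of_old`     (Q): `T' b (T' b (T' b y)) − lam b • T' b (T' b y) + b • T' b y = 0`;
from the ℂ-side shapes `Consumer.CohG/R/P/Q` (O6) and reference FULL eigenvectors over `O`;
`_tensor` versions for `O ⊗[ℤ] Lam N`.
+ the two closing lemmas `eigen_of_quad`, `eigen_of_cub` (injectivity of the cofactor ⟹ eigen).
-/
import Mathlib
import Fermat.Agent.GE9.OldQ.Consumer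

set_option autoImplicit false
set_option linter.unusedSectionVars false

open scoped MatrixGroups TensorProduct
open CongruenceSubgroup ModularCurve ModularCurve.Period CuspForm ModularFormClass

namespace Fermat.Agent.GE9.OldQ.Consumer

open Fermat.Agent.S16_helper49 Fermat.Agent.GJ.J2.Lat Fermat.Agent.GE9.Mult1
open Fermat.Agent.GE9.OldQ.Transfer Fermat.Agent.GM.End

section Abs

variable {N : ℕ} [NeZero N] {ι : Type*} [Fintype ι]
variable {O : Type*} [CommRing O] {M : Type*} [AddCommGroup M] [Module O M]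

/-- coordinates. -/
noncomputable def crd (β' : Module.Basis ι O M) : M ≃ₗ[O] (ι → O) := β'.equivFun

theorem crd_T' (β : Module.Basis ι ℤ (Lam N)) (β' : Module.Basis ι O M) (j : Lam N →+ M)
    (hj : ∀ i, j (β i) = β' i) (T' : Nat.Primes → M →ₗ[O] M)
    (hT' : ∀ (l : Nat.Primes) (Φ : Lam N), T' l (j Φ) = j (latT N l Φ)) (l : Nat.Primes) (y : M) :
    crd β' (T' l y) = ((latMat β l).map (Int.cast : ℤ → O)).mulVec (crd β' y) :=
  repr_T' β β' j hj T' hT' l y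

theorem crd_eigen (β : Module.Basis ι ℤ (Lam N)) (β' : Module.Basis ι O M) (j : Lam N →+ M)
    (hj : ∀ i, j (β i) = β' i) (T' : Nat.Primes → M →ₗ[O] M)
    (hT' : ∀ (l : Nat.Primes) (Φ : Lam N), T' l (j Φ) = j (latT N l Φ)) (l : Nat.Primes) (y : M)
    (a : O) (h : T' l y = a • y) :
    ((latMat β l).map (Int.cast : ℤ → O)).mulVec (crd β' y) = a • crd β' y := by
  rw [← crd_T' β β' j hj T' hT', h, map_smul]

theorem crd_ne_zero (β' : Module.Basis ι O M) {y : M} (hy : y ≠ 0) : crd β' y ≠ 0 := by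
  intro h
  exact hy ((crd β').injective (h.trans (map_zero _).symm))

variable [IsDomain O] [CharZero O]

/-- **(G), module form.** -/
theorem eigen_of_good (B : Set ℕ) (b : Nat.Primes) (hG : CohG N B b)
    (β : Module.Basis ι ℤ (Lam N)) (β' : Module.Basis ι O M) (j : Lam N →+ M)
    (hj : ∀ i, j (β i) = β' i) (T' : Nat.Primes → M →ₗ[O] M)
    (hT' : ∀ (l : Nat.Primes) (Φ : Lam N), T' l (j Φ) = j (latT N l Φ))
    (lam : Nat.Primes → O) (y₀ : M) (hy₀ : y₀ ≠ 0) (hy₀e : ∀ l : Nat.Primes, T' l y₀ = lam l • y₀)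
    (y : M) (hy : ∀ l : Nat.Primes, (l : ℕ) ∉ B → T' l y = lam l • y) :
    T' b y = lam b • y := by
  classical
  apply (crd β').injective
  rw [crd_T' β β' j hj T' hT', map_smul]
  exact core_G (FractionRing O) B b hG β lam (crd β' y₀) (crd_ne_zero β' hy₀)
    (fun l => crd_eigen β β' j hj T' hT' l y₀ _ (hy₀e l)) (crd β' y)
    (fun l hl => crd_eigen β β' j hj T' hT' l y _ (hy l hl))

/-- **(R), module form.** -/
theorem eigen_of_new (B : Set ℕ) (b : Nat.Primes) (hR : CohR N B b)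
    (β : Module.Basis ι ℤ (Lam N)) (β' : Module.Basis ι O M) (j : Lam N →+ M)
    (hj : ∀ i, j (β i) = β' i) (T' : Nat.Primes → M →ₗ[O] M)
    (hT' : ∀ (l : Nat.Primes) (Φ : Lam N), T' l (j Φ) = j (latT N l Φ))
    (lam : Nat.Primes → O) (y₀ : M) (hy₀ : y₀ ≠ 0) (hy₀e : ∀ l : Nat.Primes, T' l y₀ = lam l • y₀)
    (hnonocc : ∀ (hint : ∀ l : Nat.Primes, IsIntegral ℤ (lam l))
      (τ : integralClosure ℤ O →+* ℂ), Function.Injective τ →
      ∀ (M' : ℕ) [NeZero M'], ¬ (b : ℕ) ∣ M' → ∀ g : CuspForm (Gamma0 M') 2,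
        (∀ l : Nat.Primes, (l : ℕ) ∉ B → formOp M' l g = τ ⟨lam l, hint l⟩ • g) → g = 0)
    (y : M) (hy : ∀ l : Nat.Primes, (l : ℕ) ∉ B → T' l y = lam l • y) :
    T' b y = lam b • y := by
  classical
  apply (crd β').injective
  rw [crd_T' β β' j hj T' hT', map_smul]
  exact core_R (FractionRing O) B b hR β lam (crd β' y₀) (crd_ne_zero β' hy₀)
    (fun l => crd_eigen β β' j hj T' hT' l y₀ _ (hy₀e l)) hnonocc (crd β' y)
    (fun l hl => crd_eigen β β' j hj T' hT' l y _ (hy l hl))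

variable {M₀ : ℕ} [NeZero M₀] {ι₁ : Type*} [Fintype ι₁] {M₁ : Type*} [AddCommGroup M₁] [Module O M₁]

/-- **(P), module form**: `y₁` a nonzero FULL eigenvector of level `M₀`. -/
theorem quad_of_old (B : Set ℕ) (b : Nat.Primes) (hP : CohP N M₀ B b)
    (β : Module.Basis ι ℤ (Lam N)) (β' : Module.Basis ι O M) (j : Lam N →+ M)
    (hj : ∀ i, j (β i) = β' i) (T' : Nat.Primes → M →ₗ[O] M)
    (hT' : ∀ (l : Nat.Primes) (Φ : Lam N), T' l (j Φ) = j (latT N l Φ))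
    (β₁ : Module.Basis ι₁ ℤ (Lam M₀)) (β₁' : Module.Basis ι₁ O M₁) (j₁ : Lam M₀ →+ M₁)
    (hj₁ : ∀ i, j₁ (β₁ i) = β₁' i) (T₁' : Nat.Primes → M₁ →ₗ[O] M₁)
    (hT₁' : ∀ (l : Nat.Primes) (Φ : Lam M₀), T₁' l (j₁ Φ) = j₁ (latT M₀ l Φ))
    (lam : Nat.Primes → O) (y₁ : M₁) (hy₁ : y₁ ≠ 0)
    (hy₁e : ∀ l : Nat.Primes, T₁' l y₁ = lam l • y₁)
    (y : M) (hy : ∀ l : Nat.Primes, (l : ℕ) ∉ B → T' l y = lam l • y) :
    T' b (T' b y) - lam b • T' b y + ((b : ℕ) : O) • y = 0 := by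
  classical
  apply (crd β').injective
  rw [map_add, map_sub, map_smul, map_smul, crd_T' β β' j hj T' hT', crd_T' β β' j hj T' hT',
    map_zero]
  exact core_P (FractionRing O) B b hP β β₁ lam (crd β₁' y₁) (crd_ne_zero β₁' hy₁)
    (fun l => crd_eigen β₁ β₁' j₁ hj₁ T₁' hT₁' l y₁ _ (hy₁e l)) (crd β' y)
    (fun l hl => crd_eigen β β' j hj T' hT' l y _ (hy l hl))

/-- **(Q), module form**: `y₁` a nonzero FULL eigenvector of level `M₀`. -/
theorem cub_of_old (B : Set ℕ) (b : Nat.Primes) (hQ : CohQ N M₀ B b)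
    (β : Module.Basis ι ℤ (Lam N)) (β' : Module.Basis ι O M) (j : Lam N →+ M)
    (hj : ∀ i, j (β i) = β' i) (T' : Nat.Primes → M →ₗ[O] M)
    (hT' : ∀ (l : Nat.Primes) (Φ : Lam N), T' l (j Φ) = j (latT N l Φ))
    (β₁ : Module.Basis ι₁ ℤ (Lam M₀)) (β₁' : Module.Basis ι₁ O M₁) (j₁ : Lam M₀ →+ M₁)
    (hj₁ : ∀ i, j₁ (β₁ i) = β₁' i) (T₁' : Nat.Primes → M₁ →ₗ[O] M₁)
    (hT₁' : ∀ (l : Nat.Primes) (Φ : Lam M₀), T₁' l (j₁ Φ) = j₁ (latT M₀ l Φ))
    (lam : Nat.Primes → O) (y₁ : M₁) (hy₁ : y₁ ≠ 0)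
    (hy₁e : ∀ l : Nat.Primes, T₁' l y₁ = lam l • y₁)
    (y : M) (hy : ∀ l : Nat.Primes, (l : ℕ) ∉ B → T' l y = lam l • y) :
    T' b (T' b (T' b y)) - lam b • T' b (T' b y) + ((b : ℕ) : O) • T' b y = 0 := by
  classical
  apply (crd β').injective
  rw [map_add, map_sub, map_smul, map_smul, crd_T' β β' j hj T' hT', crd_T' β β' j hj T' hT',
    crd_T' β β' j hj T' hT', map_zero]
  exact core_Q (FractionRing O) B b hQ β β₁ lam (crd β₁' y₁) (crd_ne_zero β₁' hy₁)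
    (fun l => crd_eigen β₁ β₁' j₁ hj₁ T₁' hT₁' l y₁ _ (hy₁e l)) (crd β' y)
    (fun l hl => crd_eigen β β' j hj T' hT' l y _ (hy l hl))

end Abs

/-! ### The two closing lemmas -/

section Close

variable {O : Type*} [CommRing O] {M : Type*} [AddCommGroup M] [Module O M]

/-- `(U − α)(U − β') = 0` on a `U`-stable `P'` on which `U − β'` is injective ⟹ `U = α` on `P'`. -/
theorem eigen_of_quad (U : M →ₗ[O] M) (P' : Submodule O M) (hstab : ∀ y ∈ P', U y ∈ P')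
    (α β' : O) (hq : ∀ y ∈ P', U (U y) - (α + β') • U y + (α * β') • y = 0)
    (hinj : ∀ y ∈ P', U y - β' • y = 0 → y = 0) : ∀ y ∈ P', U y = α • y := by
  intro y hy
  have hz : U y - α • y ∈ P' := P'.sub_mem (hstab y hy) (P'.smul_mem α hy)
  have h1 : U (U y - α • y) - β' • (U y - α • y) = 0 := by
    rw [map_sub, map_smul, smul_sub, smul_smul, ← hq y hy, add_smul, mul_comm β' α]
    abel
  exact sub_eq_zero.mp (hinj _ hz h1)

/-- `U (U² − aU + b) = 0` on a `U`-stable `P'` on which `U² − aU + b` is injective ⟹ `U = 0` on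
`P'`. -/
theorem eigen_of_cub (U : M →ₗ[O] M) (P' : Submodule O M) (hstab : ∀ y ∈ P', U y ∈ P')
    (a b : O) (hc : ∀ y ∈ P', U (U (U y)) - a • U (U y) + b • U y = 0)
    (hinj : ∀ y ∈ P', U (U y) - a • U y + b • y = 0 → y = 0) : ∀ y ∈ P', U y = 0 := by
  intro y hy
  exact hinj _ (hstab y hy) (hc y hy)

end Close

/-! ### The instance `O ⊗[ℤ] Lam N` -/

section Tensor

variable {N : ℕ} [NeZero N] {O : Type*} [CommRing O] [IsDomain O] [CharZero O]

/-- **(G) for `O ⊗[ℤ] Lam N`.** -/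
theorem eigen_of_good_tensor (B : Set ℕ) (b : Nat.Primes) (hG : CohG N B b)
    (lam : Nat.Primes → O) (y₀ : O ⊗[ℤ] Lam N) (hy₀ : y₀ ≠ 0)
    (hy₀e : ∀ l : Nat.Primes, (latT N l).baseChange O y₀ = lam l • y₀)
    (y : O ⊗[ℤ] Lam N)
    (hy : ∀ l : Nat.Primes, (l : ℕ) ∉ B → (latT N l).baseChange O y = lam l • y) :
    (latT N b).baseChange O y = lam b • y := by
  have hfree : Module.Free ℤ (Lam N) := Fermat.Agent.GJ.J2.ZStruct.free_parabolicHoms_int N
  have hfin : Module.Finite ℤ (Lam N) := Fermat.Agent.GJ.J2.ZStruct.finite_parabolicHoms_int N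
  let β := Module.Free.chooseBasis ℤ (Lam N)
  exact eigen_of_good B b hG β (Algebra.TensorProduct.basis O β)
    ((TensorProduct.mk ℤ O (Lam N) 1).toAddMonoidHom)
    (fun i => by
      rw [Algebra.TensorProduct.basis_apply]
      rfl)
    (fun l => (latT N l).baseChange O)
    (fun l Φ => by
      show (latT N l).baseChange O ((1 : O) ⊗ₜ[ℤ] Φ) = (1 : O) ⊗ₜ[ℤ] (latT N l Φ)
      rw [LinearMap.baseChange_tmul])
    lam y₀ hy₀ hy₀e y hy

/-- **(R) for `O ⊗[ℤ] Lam N`.** -/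
theorem eigen_of_new_tensor (B : Set ℕ) (b : Nat.Primes) (hR : CohR N B b)
    (lam : Nat.Primes → O) (y₀ : O ⊗[ℤ] Lam N) (hy₀ : y₀ ≠ 0)
    (hy₀e : ∀ l : Nat.Primes, (latT N l).baseChange O y₀ = lam l • y₀)
    (hnonocc : ∀ (hint : ∀ l : Nat.Primes, IsIntegral ℤ (lam l))
      (τ : integralClosure ℤ O →+* ℂ), Function.Injective τ →
      ∀ (M' : ℕ) [NeZero M'], ¬ (b : ℕ) ∣ M' → ∀ g : CuspForm (Gamma0 M') 2,
        (∀ l : Nat.Primes, (l : ℕ) ∉ B → formOp M' l g = τ ⟨lam l, hint l⟩ • g) → g = 0)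
    (y : O ⊗[ℤ] Lam N)
    (hy : ∀ l : Nat.Primes, (l : ℕ) ∉ B → (latT N l).baseChange O y = lam l • y) :
    (latT N b).baseChange O y = lam b • y := by
  have hfree : Module.Free ℤ (Lam N) := Fermat.Agent.GJ.J2.ZStruct.free_parabolicHoms_int N
  have hfin : Module.Finite ℤ (Lam N) := Fermat.Agent.GJ.J2.ZStruct.finite_parabolicHoms_int N
  let β := Module.Free.chooseBasis ℤ (Lam N)
  exact eigen_of_new B b hR β (Algebra.TensorProduct.basis O β)
    ((TensorProduct.mk ℤ O (Lam N) 1).toAddMonoidHom)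
    (fun i => by
      rw [Algebra.TensorProduct.basis_apply]
      rfl)
    (fun l => (latT N l).baseChange O)
    (fun l Φ => by
      show (latT N l).baseChange O ((1 : O) ⊗ₜ[ℤ] Φ) = (1 : O) ⊗ₜ[ℤ] (latT N l Φ)
      rw [LinearMap.baseChange_tmul])
    lam y₀ hy₀ hy₀e hnonocc y hy

variable {M₀ : ℕ} [NeZero M₀]

/-- **(P) for `O ⊗[ℤ] Lam N`**, reference in `O ⊗[ℤ] Lam M₀`. -/
theorem quad_of_old_tensor (B : Set ℕ) (b : Nat.Primes) (hP : CohP N M₀ B b)
    (lam : Nat.Primes → O) (y₁ : O ⊗[ℤ] Lam M₀) (hy₁ : y₁ ≠ 0)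
    (hy₁e : ∀ l : Nat.Primes, (latT M₀ l).baseChange O y₁ = lam l • y₁)
    (y : O ⊗[ℤ] Lam N)
    (hy : ∀ l : Nat.Primes, (l : ℕ) ∉ B → (latT N l).baseChange O y = lam l • y) :
    (latT N b).baseChange O ((latT N b).baseChange O y) - lam b • (latT N b).baseChange O y
      + ((b : ℕ) : O) • y = 0 := by
  have hfree : Module.Free ℤ (Lam N) := Fermat.Agent.GJ.J2.ZStruct.free_parabolicHoms_int N
  have hfin : Module.Finite ℤ (Lam N) := Fermat.Agent.GJ.J2.ZStruct.finite_parabolicHoms_int N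
  have hfree₁ : Module.Free ℤ (Lam M₀) := Fermat.Agent.GJ.J2.ZStruct.free_parabolicHoms_int M₀
  have hfin₁ : Module.Finite ℤ (Lam M₀) := Fermat.Agent.GJ.J2.ZStruct.finite_parabolicHoms_int M₀
  let β := Module.Free.chooseBasis ℤ (Lam N)
  let β₁ := Module.Free.chooseBasis ℤ (Lam M₀)
  exact quad_of_old B b hP β (Algebra.TensorProduct.basis O β)
    ((TensorProduct.mk ℤ O (Lam N) 1).toAddMonoidHom)
    (fun i => by
      rw [Algebra.TensorProduct.basis_apply]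
      rfl)
    (fun l => (latT N l).baseChange O)
    (fun l Φ => by
      show (latT N l).baseChange O ((1 : O) ⊗ₜ[ℤ] Φ) = (1 : O) ⊗ₜ[ℤ] (latT N l Φ)
      rw [LinearMap.baseChange_tmul])
    β₁ (Algebra.TensorProduct.basis O β₁)
    ((TensorProduct.mk ℤ O (Lam M₀) 1).toAddMonoidHom)
    (fun i => by
      rw [Algebra.TensorProduct.basis_apply]
      rfl)
    (fun l => (latT M₀ l).baseChange O)
    (fun l Φ => by
      show (latT M₀ l).baseChange O ((1 : O) ⊗ₜ[ℤ] Φ) = (1 : O) ⊗ₜ[ℤ] (latT M₀ l Φ)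
      rw [LinearMap.baseChange_tmul])
    lam y₁ hy₁ hy₁e y hy

/-- **(Q) for `O ⊗[ℤ] Lam N`**, reference in `O ⊗[ℤ] Lam M₀`. -/
theorem cub_of_old_tensor (B : Set ℕ) (b : Nat.Primes) (hQ : CohQ N M₀ B b)
    (lam : Nat.Primes → O) (y₁ : O ⊗[ℤ] Lam M₀) (hy₁ : y₁ ≠ 0)
    (hy₁e : ∀ l : Nat.Primes, (latT M₀ l).baseChange O y₁ = lam l • y₁)
    (y : O ⊗[ℤ] Lam N)
    (hy : ∀ l : Nat.Primes, (l : ℕ) ∉ B → (latT N l).baseChange O y = lam l • y) :
    (latT N b).baseChange O ((latT N b).baseChange O ((latT N b).baseChange O y))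
      - lam b • (latT N b).baseChange O ((latT N b).baseChange O y)
      + ((b : ℕ) : O) • (latT N b).baseChange O y = 0 := by
  have hfree : Module.Free ℤ (Lam N) := Fermat.Agent.GJ.J2.ZStruct.free_parabolicHoms_int N
  have hfin : Module.Finite ℤ (Lam N) := Fermat.Agent.GJ.J2.ZStruct.finite_parabolicHoms_int N
  have hfree₁ : Module.Free ℤ (Lam M₀) := Fermat.Agent.GJ.J2.ZStruct.free_parabolicHoms_int M₀
  have hfin₁ : Module.Finite ℤ (Lam M₀) := Fermat.Agent.GJ.J2.ZStruct.finite_parabolicHoms_int M₀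
  let β := Module.Free.chooseBasis ℤ (Lam N)
  let β₁ := Module.Free.chooseBasis ℤ (Lam M₀)
  exact cub_of_old B b hQ β (Algebra.TensorProduct.basis O β)
    ((TensorProduct.mk ℤ O (Lam N) 1).toAddMonoidHom)
    (fun i => by
      rw [Algebra.TensorProduct.basis_apply]
      rfl)
    (fun l => (latT N l).baseChange O)
    (fun l Φ => by
      show (latT N l).baseChange O ((1 : O) ⊗ₜ[ℤ] Φ) = (1 : O) ⊗ₜ[ℤ] (latT N l Φ)
      rw [LinearMap.baseChange_tmul])
    β₁ (Algebra.TensorProduct.basis O β₁)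
    ((TensorProduct.mk ℤ O (Lam M₀) 1).toAddMonoidHom)
    (fun i => by
      rw [Algebra.TensorProduct.basis_apply]
      rfl)
    (fun l => (latT M₀ l).baseChange O)
    (fun l Φ => by
      show (latT M₀ l).baseChange O ((1 : O) ⊗ₜ[ℤ] Φ) = (1 : O) ⊗ₜ[ℤ] (latT M₀ l Φ)
      rw [LinearMap.baseChange_tmul])
    lam y₁ hy₁ hy₁e y hy

end Tensor

end Fermat.Agent.GE9.OldQ.Consumer
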