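/-
GATE-E / GE9-OLDQ (helper63) — O8-BASE, file 1: **descent of an unknown scalar** (Mathlib +
`OldQ/Transfer`).

`exists_scalar` : `σ : F →+* L` fields, `Amat : S → Matrix ι ι ℤ`, `lamF : S → F`, `Ab` an integer
matrix and `μ : L` ANY scalar such that `Ab^L z = μ • z` on the joint eigenspace over `L`
(eigenvalues `σ (lamF s)`).  If the joint eigenspace over `F` is nonzero, then `μ = σ m` for some
`m ∈ F`, integral over `ℤ`, and `Ab^K y = m • y` on the joint eigenspace over every commutative
`F`-algebra `K`.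
-/
import Mathlib
import Fermat.Agent.GE9.OldQ.Transfer

set_option autoImplicit false
set_option linter.unusedSectionVars false

namespace Fermat.Agent.GE9.OldQ.Transfer

open Submodule Matrix Fermat.Agent.GE9.Mult1

variable {ι : Type*} [Fintype ι] [DecidableEq ι] {S : Type*}
variable {F : Type*} [Field F]

/-- **descent of an unknown scalar.** -/
theorem exists_scalar {L : Type*} [Field L] (σ : F →+* L)
    (Amat : S → Matrix ι ι ℤ) (lamF : S → F) (Ab : Matrix ι ι ℤ) (μ : L)
    (hC : ∀ z : ι → L, (∀ s, ((Amat s).map (Int.cast : ℤ → L)).mulVec z = σ (lamF s) • z) →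
      (Ab.map (Int.cast : ℤ → L)).mulVec z = μ • z)
    (x : ι → F) (hx0 : x ≠ 0)
    (hx : ∀ s, ((Amat s).map (Int.cast : ℤ → F)).mulVec x = lamF s • x) :
    ∃ m : F, σ m = μ ∧ IsIntegral ℤ m ∧
      ∀ (K : Type*) [CommRing K] [Algebra F K] (y : ι → K),
        (∀ s, ((Amat s).map (Int.cast : ℤ → K)).mulVec y = algebraMap F K (lamF s) • y) →
        (Ab.map (Int.cast : ℤ → K)).mulVec y = algebraMap F K m • y := by
  classical
  -- a nonzero coordinate
  obtain ⟨i, hi⟩ : ∃ i, x i ≠ 0 := by
    by_contra hcon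
    push Not at hcon
    exact hx0 (funext hcon)
  set m : F := (Ab.map (Int.cast : ℤ → F)).mulVec x i / x i with hm
  have h1 := hC (fun k => σ (x k)) (map_eigen σ Amat lamF x hx)
  -- `σ m = μ`
  have hσm : σ m = μ := by
    have h2 := congrFun h1 i
    have h3 : (Ab.map (Int.cast : ℤ → L)).mulVec (fun k => σ (x k)) i
        = σ ((Ab.map (Int.cast : ℤ → F)).mulVec x i) := by
      simp only [Matrix.mulVec, dotProduct, Matrix.map_apply, map_sum, map_mul, map_intCast]
    rw [h3, Pi.smul_apply, smul_eq_mul] at h2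
    have hσi : σ (x i) ≠ 0 := fun h => hi (σ.injective (h.trans (map_zero σ).symm))
    rw [hm, map_div₀, h2, mul_div_assoc, div_self hσi, mul_one]
  -- the identity over `F`
  have hkey : ∀ z : ι → L, (∀ s, ((Amat s).map (Int.cast : ℤ → L)).mulVec z = σ (lamF s) • z) →
      (((Ab.map (Int.cast : ℤ → F)) - m • (1 : Matrix ι ι F)).map σ).mulVec z = 0 := by
    intro z hz
    rw [mapLin, map_intCast_map, hσm, hC z hz, sub_self]
  have hxm : (Ab.map (Int.cast : ℤ → F)).mulVec x = m • x := by
    have h2 := mulVec_eq_zero_of_forall (K := F) σ Amat lamF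
      ((Ab.map (Int.cast : ℤ → F)) - m • (1 : Matrix ι ι F)) hkey x
      (fun s => by
        rw [Algebra.algebraMap_self, RingHom.id_apply]
        exact hx s)
    rw [mapLin, map_intCast_map, Algebra.algebraMap_self, RingHom.id_apply, sub_eq_zero] at h2
    exact h2
  refine ⟨m, hσm, FieldBC.isIntegral_of_mulVec_eq_smul Ab x hx0 m hxm, ?_⟩
  intro K _ _ y hy
  have h2 := mulVec_eq_zero_of_forall (K := K) σ Amat lamF
    ((Ab.map (Int.cast : ℤ → F)) - m • (1 : Matrix ι ι F)) hkey y hy
  rw [mapLin, map_intCast_map, sub_eq_zero] at h2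
  exact h2

end Fermat.Agent.GE9.OldQ.Transfer
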