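/-
GATE-E / GE9-OLDQ (helper63) — O8-BASE, file 3: **the base case: an ANEMIC system of
`O ⊗[ℤ] Lam N` extends to a FULL system with values in `O`** (bad primes of types (G) and (R)).

`O` an integrally closed domain of characteristic `0`, `B : Finset ℕ`, `lam₀ : Nat.Primes → O`
(only the values off `B` matter).  If every prime `b ∈ B` is of type (G) (`b ∤ N`) or (R)
(`b ∥ N` + `NonOccAt O B b lam₀`), then there is `lam : Nat.Primes → O`, `lam = lam₀` off `B`, such
that EVERY anemic eigenvector (`T'_l y = lam₀ l • y` for `l ∉ B`) is a full eigenvector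
(`T'_l y = lam l • y` for ALL `l`) — `exists_full_system` (matrix form `base_core`).

Mechanism: a nonzero anemic eigenvector over `O` gives a nonzero anemic eigenclass over `ℂ`
(`K = Frac O ⊇ F —σ→ ℂ`); the anemic eigenspace of forms contains a full eigenform
(`JointEig.exists_joint_eigenform_mem`), whose system `μ` governs the whole anemic eigenspace over
`ℂ` by O6; the unknown scalar `μ b` descends to `F` (`Transfer.exists_scalar`), is integral, hence
lies in `O`.
-/
import Mathlib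
import Fermat.Agent.GE9.OldQ.CohBase
import Fermat.Agent.GE9.OldQ.TransferEx
import Fermat.Agent.GE9.OldQ.ConsumerMod

set_option autoImplicit false
set_option linter.unusedSectionVars false

open scoped MatrixGroups TensorProduct
open CongruenceSubgroup ModularCurve ModularCurve.Period CuspForm ModularFormClass

namespace Fermat.Agent.GE9.OldQ.Consumer

open Fermat.Agent.S16_helper49 Fermat.Agent.GJ.J2.Lat Fermat.Agent.GE9.Mult1
open Fermat.Agent.GE9.OldQ.Transfer Fermat.Agent.GM.End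

/-- **non-occurrence at levels prime to `b`, anemic form**: for every embedding `τ` of the algebraic
integers of `O` into `ℂ`, no nonzero cusp form of a level prime to `b` is an anemic eigenvector
(off `B`) for the conjugate system `τ ∘ lam₀`. -/
def NonOccAt (O : Type*) [CommRing O] (B : Finset ℕ) (b : Nat.Primes) (lam₀ : Nat.Primes → O) :
    Prop :=
  ∀ (hint₀ : ∀ l : Nat.Primes, (l : ℕ) ∉ B → IsIntegral ℤ (lam₀ l))
    (τ : integralClosure ℤ O →+* ℂ), Function.Injective τ →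
    ∀ (M' : ℕ) [NeZero M'], ¬ (b : ℕ) ∣ M' → ∀ g : CuspForm (Gamma0 M') 2,
      (∀ (l : Nat.Primes) (hl : (l : ℕ) ∉ B), formOp M' l g = τ ⟨lam₀ l, hint₀ l hl⟩ • g) → g = 0

section Core

variable {N : ℕ} [NeZero N] {ι : Type*} [Fintype ι] [DecidableEq ι]
variable {O : Type*} [CommRing O] [IsDomain O] [CharZero O] [IsIntegrallyClosed O]
variable (K : Type*) [Field K] [Algebra O K] [IsFractionRing O K] [CharZero K]

include K in
/-- one bad prime, given a nonzero anemic eigenvector. -/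
theorem base_one (B : Finset ℕ) (β : Module.Basis ι ℤ (Lam N)) (lam₀ : Nat.Primes → O)
    (c₁ : ι → O) (hc₁0 : c₁ ≠ 0)
    (hc₁ : ∀ l : Nat.Primes, (l : ℕ) ∉ B →
      ((latMat β l).map (Int.cast : ℤ → O)).mulVec c₁ = lam₀ l • c₁)
    (b : Nat.Primes) (hbB : (b : ℕ) ∈ B)
    (htype : ¬ (b : ℕ) ∣ N ∨ ((b : ℕ) ∣ N ∧ ¬ (b : ℕ) ^ 2 ∣ N ∧ NonOccAt O B b lam₀)) :
    ∃ lamb : O, ∀ c : ι → O,
      (∀ l : Nat.Primes, (l : ℕ) ∉ B →
        ((latMat β l).map (Int.cast : ℤ → O)).mulVec c = lam₀ l • c) →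
      ((latMat β b).map (Int.cast : ℤ → O)).mulVec c = lamb • c := by
  classical
  have hint₀ : ∀ l : Nat.Primes, (l : ℕ) ∉ B → IsIntegral ℤ (lam₀ l) := fun l hl =>
    integral_of_eigen K (latMat β l) c₁ hc₁0 (lam₀ l) (hc₁ l hl)
  set lamF : {l : Nat.Primes // (l : ℕ) ∉ B} → FF K :=
    fun s => toF O K ⟨lam₀ s.1, hint₀ s.1 s.2⟩ with hlamF
  have hlamK : ∀ s, algebraMap (FF K) K (lamF s) = algebraMap O K (lam₀ s.1) := fun s => rfl
  -- a nonzero anemic eigenvector over `F`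
  obtain ⟨x, hx0, hxe⟩ := exists_ne_zero_eigen (F := FF K) (K := K)
    (fun s : {l : Nat.Primes // (l : ℕ) ∉ B} => latMat β s.1) lamF (cK K c₁) (cK_ne_zero K hc₁0)
    (fun s => by
      rw [hlamK]
      exact cK_eigen K _ _ _ (hc₁ s.1 s.2))
  -- the conjugate anemic system
  set μ₀ : Nat.Primes → ℂ := fun l =>
    if h : (l : ℕ) ∉ B then tau O K ⟨lam₀ l, hint₀ l h⟩ else 0 with hμ₀
  have hμ₀F : ∀ s : {l : Nat.Primes // (l : ℕ) ∉ B}, (sig K).toRingHom (lamF s) = μ₀ s.1 := by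
    intro s
    rw [hμ₀]
    simp only [dif_pos s.2]
    rfl
  -- the class of `σ ∘ x`
  have hz0 : (fun i => (sig K).toRingHom (x i)) ≠ 0 := by
    intro h
    apply hx0
    funext i
    have := congrFun h i
    rw [Pi.zero_apply] at this ⊢
    exact (sig K).toRingHom.injective (this.trans (map_zero _).symm)
  have hze := map_eigen (sig K).toRingHom _ lamF x hxe
  obtain ⟨μ, f₀, hμ, ha, hf₀e⟩ := exists_full_form B μ₀
    (toC β (fun i => (sig K).toRingHom (x i))) (toC_mem β _) (toC_ne_zero β hz0)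
    (fun l hl => by
      rw [← hμ₀F ⟨l, hl⟩]
      exact toC_eigen β _ l _ (hze ⟨l, hl⟩))
  -- the ℂ-side statement for `b`
  have hC : ∀ z : ι → ℂ,
      (∀ s : {l : Nat.Primes // (l : ℕ) ∉ B},
        ((latMat β s.1).map (Int.cast : ℤ → ℂ)).mulVec z = (sig K).toRingHom (lamF s) • z) →
      ((latMat β b).map (Int.cast : ℤ → ℂ)).mulVec z = μ b • z := by
    intro z hz
    have hXe : ∀ l : Nat.Primes, (l : ℕ) ∉ B → cohGen N ℂ l (toC β z) = μ l • toC β z := by
      intro l hl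
      rw [hμ l hl, ← hμ₀F ⟨l, hl⟩]
      exact toC_eigen β z l _ (hz ⟨l, hl⟩)
    apply eigen_of_toC β z b
    rcases htype with hbN | ⟨hbN, hb2, hno⟩
    · exact lin_of_form_G B b hbN μ f₀ ha hf₀e (toC β z) (toC_mem β z) hXe
    · obtain ⟨M₀, hM₀⟩ := hbN
      have hM₀0 : NeZero M₀ := ⟨fun h => (NeZero.ne N) (by rw [hM₀, h, mul_zero])⟩
      have hbM : ¬ (b : ℕ) ∣ M₀ := by
        rintro ⟨a, rfl⟩
        apply hb2
        rw [hM₀]
        exact ⟨a, by ring⟩
      refine lin_of_form_R B b hbB hbM (by rw [hM₀, mul_comm]) μ f₀ ha hf₀e ?_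
        (toC β z) (toC_mem β z) hXe
      intro M' _ hbM' g hg
      refine hno hint₀ (tau O K) (tau_injective O K) M' hbM' g (fun l hl => ?_)
      rw [hg l hl, hμ l hl, hμ₀]
      simp only [dif_pos hl]
  -- descent of `μ b`
  obtain ⟨m, -, hmint, hmK⟩ := exists_scalar (sig K).toRingHom
    (fun s : {l : Nat.Primes // (l : ℕ) ∉ B} => latMat β s.1) lamF (latMat β b) (μ b) hC x hx0 hxe
  have hmO : IsIntegral O (algebraMap (FF K) K m) :=
    (hmint.algebraMap (B := K)).tower_top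
  obtain ⟨lamb, hlamb⟩ := IsIntegrallyClosed.algebraMap_eq_of_integral hmO
  refine ⟨lamb, fun c hc => ?_⟩
  apply cK_injective K
  rw [cK_mulVec, cK_smul, hlamb]
  exact hmK K (cK K c) (fun s => by
    rw [hlamK]
    exact cK_eigen K _ _ _ (hc s.1 s.2))

include K in
/-- **the base case, matrix form.** -/
theorem base_core (B : Finset ℕ) (β : Module.Basis ι ℤ (Lam N)) (lam₀ : Nat.Primes → O)
    (htype : ∀ b : Nat.Primes, (b : ℕ) ∈ B →
      ¬ (b : ℕ) ∣ N ∨ ((b : ℕ) ∣ N ∧ ¬ (b : ℕ) ^ 2 ∣ N ∧ NonOccAt O B b lam₀)) :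
    ∃ lam : Nat.Primes → O, (∀ l : Nat.Primes, (l : ℕ) ∉ B → lam l = lam₀ l) ∧
      ∀ c : ι → O,
        (∀ l : Nat.Primes, (l : ℕ) ∉ B →
          ((latMat β l).map (Int.cast : ℤ → O)).mulVec c = lam₀ l • c) →
        ∀ l : Nat.Primes, ((latMat β l).map (Int.cast : ℤ → O)).mulVec c = lam l • c := by
  classical
  by_cases hne : ∃ c₁ : ι → O, c₁ ≠ 0 ∧ ∀ l : Nat.Primes, (l : ℕ) ∉ B →
      ((latMat β l).map (Int.cast : ℤ → O)).mulVec c₁ = lam₀ l • c₁
  · obtain ⟨c₁, hc₁0, hc₁⟩ := hne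
    have hex : ∀ b : Nat.Primes, (b : ℕ) ∈ B → ∃ lamb : O, ∀ c : ι → O,
        (∀ l : Nat.Primes, (l : ℕ) ∉ B →
          ((latMat β l).map (Int.cast : ℤ → O)).mulVec c = lam₀ l • c) →
        ((latMat β b).map (Int.cast : ℤ → O)).mulVec c = lamb • c :=
      fun b hbB => base_one K B β lam₀ c₁ hc₁0 hc₁ b hbB (htype b hbB)
    refine ⟨fun l => if h : (l : ℕ) ∈ B then Classical.choose (hex l h) else lam₀ l,
      fun l hl => dif_neg hl, fun c hc l => ?_⟩
    by_cases h : (l : ℕ) ∈ B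
    · simp only [dif_pos h]
      exact Classical.choose_spec (hex l h) c hc
    · simp only [dif_neg h]
      exact hc l h
  · refine ⟨lam₀, fun l _ => rfl, fun c hc l => ?_⟩
    have hc0 : c = 0 := by
      by_contra h0
      exact hne ⟨c, h0, hc⟩
    rw [hc0, Matrix.mulVec_zero, smul_zero]

end Core

section Tensor

variable {N : ℕ} [NeZero N] {O : Type*} [CommRing O] [IsDomain O] [CharZero O]
  [IsIntegrallyClosed O]

/-- **the base case for `O ⊗[ℤ] Lam N`**: every anemic system extends to a full system with values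
in `O` governing ALL anemic eigenvectors. -/
theorem exists_full_system (B : Finset ℕ) (lam₀ : Nat.Primes → O)
    (htype : ∀ b : Nat.Primes, (b : ℕ) ∈ B →
      ¬ (b : ℕ) ∣ N ∨ ((b : ℕ) ∣ N ∧ ¬ (b : ℕ) ^ 2 ∣ N ∧ NonOccAt O B b lam₀)) :
    ∃ lam : Nat.Primes → O, (∀ l : Nat.Primes, (l : ℕ) ∉ B → lam l = lam₀ l) ∧
      ∀ y : O ⊗[ℤ] Lam N,
        (∀ l : Nat.Primes, (l : ℕ) ∉ B → (latT N l).baseChange O y = lam₀ l • y) →
        ∀ l : Nat.Primes, (latT N l).baseChange O y = lam l • y := by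
  classical
  have hfree : Module.Free ℤ (Lam N) := Fermat.Agent.GJ.J2.ZStruct.free_parabolicHoms_int N
  have hfin : Module.Finite ℤ (Lam N) := Fermat.Agent.GJ.J2.ZStruct.finite_parabolicHoms_int N
  let β := Module.Free.chooseBasis ℤ (Lam N)
  let β' := Algebra.TensorProduct.basis O β
  let j : Lam N →+ O ⊗[ℤ] Lam N := (TensorProduct.mk ℤ O (Lam N) 1).toAddMonoidHom
  have hj : ∀ i, j (β i) = β' i := fun i => by
    show (1 : O) ⊗ₜ[ℤ] (β i) = Algebra.TensorProduct.basis O β i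
    rw [Algebra.TensorProduct.basis_apply]
  have hT' : ∀ (l : Nat.Primes) (Φ : Lam N),
      (latT N l).baseChange O (j Φ) = j (latT N l Φ) := fun l Φ => by
    show (latT N l).baseChange O ((1 : O) ⊗ₜ[ℤ] Φ) = (1 : O) ⊗ₜ[ℤ] (latT N l Φ)
    rw [LinearMap.baseChange_tmul]
  obtain ⟨lam, hlam, hall⟩ := base_core (FractionRing O) B β lam₀ htype
  refine ⟨lam, hlam, fun y hy l => ?_⟩
  apply (crd β').injective
  rw [crd_T' β β' j hj (fun l => (latT N l).baseChange O) hT', map_smul]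
  exact hall (crd β' y)
    (fun l' hl' => crd_eigen β β' j hj (fun l => (latT N l).baseChange O) hT' l' y _ (hy l' hl')) l

end Tensor

end Fermat.Agent.GE9.OldQ.Consumer
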