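/-
GATE-E / GE9-OLDQ, node O9 (helper81, for helper63's node table 7336): **non-occurrence of anemic
eigensystems congruent to `W` at levels prime to a ramified prime.**

* `exists_joint_eigenvector` : commuting endomorphisms of a finite-dimensional space over an
  algebraically closed field have a joint eigenvector in every nonzero stable subspace
  (any index type);
* `anemicSpace M' B θ` : the `ℂ`-subspace of `S₂(Γ₀(M'))` of the `h` with
  `formOp M' l h = θ l • h` for all primes `l ∉ B`; it is stable under every `formOp M' l'`;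
* `exists_normalizedEigenform_of_anemic` : a nonzero anemic eigenvector `g` (off `B`) gives a
  NORMALISED eigenform `f` of the same level with `a_l(f) = θ l` for all `l ∉ B`;
* `isResiduallyModularOfLevel_of_anemic` : if moreover `θ l = μ l` with `μ l ∈ ℤ̄`,
  `μ l ≡ a_l(W) mod 𝔪` at the good `l ∉ B`, `l ∤ M' p`, then `W.IsResiduallyModularOfLevel p M'`
  (the finitely many `l ∈ B` by Chebotarev: `GB/Top/CongrExtend`);
* `eq_zero_of_ramified(_of_abs)` : hence, if `ρ̄_{W,p} ⊗ k` is RAMIFIED at `r ∤ M' p`, there is NO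
  such `g ≠ 0` at level `M'` (`GB/Setup/RhoBar.ModData.isUnramifiedAt`).
-/
import Mathlib
import Fermat.Agent.GB.Top.CongrExtend
import Fermat.Agent.GB.Setup.RhoBar
import Fermat.Agent.GB.B5.Point.Period
import Fermat.Agent.GM.End.Endgame
import Fermat.Agent.S23.FinDim

set_option autoImplicit false

open scoped MatrixGroups
open CongruenceSubgroup CuspForm ModularFormClass WeierstrassCurve WeierstrassCurve.Affine.Point
open scoped WeierstrassCurve.Affine

namespace Fermat.Agent.GE9.OldQ.NonOcc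

open Fermat.Agent.GM.End Fermat.Agent.GB.Setup.RhoBar

/-! ### joint eigenvectors -/

section Joint

variable {K : Type*} [Field K] [IsAlgClosed K] {V : Type*} [AddCommGroup V] [Module K V]
  [FiniteDimensional K V] {I : Type*}

/-- **commuting operators have a joint eigenvector in every nonzero stable subspace.** -/
theorem exists_joint_eigenvector (T : I → Module.End K V)
    (hcomm : ∀ i j, Commute (T i) (T j)) :
    ∀ (n : ℕ) (W : Submodule K V), Module.finrank K W = n → W ≠ ⊥ →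
      (∀ i, ∀ w ∈ W, T i w ∈ W) →
      ∃ w ∈ W, w ≠ 0 ∧ ∃ μ : I → K, ∀ i, T i w = μ i • w := by
  intro n
  induction n using Nat.strong_induction_on with
  | _ n ih =>
    intro W hn hW hstab
    by_cases hsc : ∀ i, ∃ c : K, ∀ w ∈ W, T i w = c • w
    · choose μ hμ using hsc
      obtain ⟨w, hwW, hw0⟩ := (Submodule.ne_bot_iff W).mp hW
      exact ⟨w, hwW, hw0, μ, fun i => hμ i w hwW⟩
    · push Not at hsc
      obtain ⟨i₀, hi₀⟩ := hsc
      -- an eigenvalue of `T i₀` on `W`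
      have hWnt : Nontrivial W := Submodule.nontrivial_iff_ne_bot.mpr hW
      obtain ⟨c, hc⟩ := Module.End.exists_eigenvalue ((T i₀).restrict (hstab i₀))
      obtain ⟨v, hv⟩ := hc.exists_hasEigenvector
      let W' : Submodule K V := W ⊓ Module.End.eigenspace (T i₀) c
      have hvW' : (v : V) ∈ W' := by
        refine Submodule.mem_inf.mpr ⟨v.2, ?_⟩
        rw [Module.End.mem_eigenspace_iff]
        have h1 := Module.End.mem_eigenspace_iff.mp hv.1
        have h2 := congrArg (fun x : W => (x : V)) h1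
        simpa using h2
      have hv0 : (v : V) ≠ 0 := fun h => hv.2 (Subtype.ext h)
      have hW'ne : W' ≠ ⊥ := fun h => hv0 (by
        have := hvW'
        rw [h, Submodule.mem_bot] at this
        exact this)
      have hW'lt : W' < W := by
        refine lt_of_le_of_ne inf_le_left fun heq => ?_
        obtain ⟨w, hwW, hw⟩ := hi₀ c
        apply hw
        have : w ∈ W' := by rw [heq]; exact hwW
        exact Module.End.mem_eigenspace_iff.mp (Submodule.mem_inf.mp this).2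
      have hW'stab : ∀ i, ∀ w ∈ W', T i w ∈ W' := by
        intro i w hw
        have hw' := Submodule.mem_inf.mp hw
        refine Submodule.mem_inf.mpr ⟨hstab i w hw'.1, ?_⟩
        rw [Module.End.mem_eigenspace_iff]
        have h1 := Module.End.mem_eigenspace_iff.mp hw'.2
        have h2 : T i₀ (T i w) = T i (T i₀ w) := by
          have := (hcomm i₀ i).eq
          exact LinearMap.congr_fun this w
        rw [h2, h1, _root_.map_smul]
      have hlt : Module.finrank K W' < n := by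
        rw [← hn]
        exact Submodule.finrank_lt_finrank_of_lt hW'lt
      obtain ⟨w, hwW', hw0, μ, hμ⟩ := ih _ hlt W' rfl hW'ne hW'stab
      exact ⟨w, (Submodule.mem_inf.mp hwW').1, hw0, μ, hμ⟩

end Joint

/-! ### the anemic eigenspace -/

section Anemic

variable (M' : ℕ) [NeZero M']

/-- the forms `h` of level `M'` with `formOp M' l h = θ l • h` for every prime `l ∉ B`. -/
def anemicSpace (B : Finset ℕ) (θ : Nat.Primes → ℂ) : Submodule ℂ (CuspForm (Gamma0 M') 2) where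
  carrier := {h | ∀ l : Nat.Primes, (l : ℕ) ∉ B → formOp M' l h = θ l • h}
  zero_mem' := fun l _ => by rw [_root_.map_zero, smul_zero]
  add_mem' := fun {a b} ha hb l hl => by rw [_root_.map_add, ha l hl, hb l hl, smul_add]
  smul_mem' := fun c a ha l hl => by rw [_root_.map_smul, ha l hl, smul_comm]

variable {M'}

theorem mem_anemicSpace {B : Finset ℕ} {θ : Nat.Primes → ℂ} {h : CuspForm (Gamma0 M') 2} :
    h ∈ anemicSpace M' B θ ↔ ∀ l : Nat.Primes, (l : ℕ) ∉ B → formOp M' l h = θ l • h := Iff.rfl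

/-- the anemic eigenspace is stable under ALL Hecke operators (they commute). -/
theorem formOp_mem_anemicSpace {B : Finset ℕ} {θ : Nat.Primes → ℂ} (l' : Nat.Primes)
    {h : CuspForm (Gamma0 M') 2} (hh : h ∈ anemicSpace M' B θ) :
    formOp M' l' h ∈ anemicSpace M' B θ := by
  intro l hl
  have h1 : formOp M' l (formOp M' l' h) = formOp M' l' (formOp M' l h) :=
    LinearMap.congr_fun (formOp_commute M' l l').eq h
  rw [h1, hh l hl, _root_.map_smul]

/-- **a nonzero anemic eigenvector gives a normalised eigenform with the same eigenvalues off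
`B`.** -/
theorem exists_normalizedEigenform_of_anemic (B : Finset ℕ) (θ : Nat.Primes → ℂ)
    (g : CuspForm (Gamma0 M') 2) (hg0 : g ≠ 0)
    (hg : ∀ l : Nat.Primes, (l : ℕ) ∉ B → formOp M' l g = θ l • g) :
    ∃ f : CuspForm (Gamma0 M') 2, f.IsNormalizedEigenform ∧ f ∈ anemicSpace M' B θ ∧
      ∀ l : Nat.Primes, (l : ℕ) ∉ B → qCoeff f l = θ l := by
  classical
  have hfd : FiniteDimensional ℂ (CuspForm (Gamma0 M') 2) :=
    Fermat.Agent.S23.finiteDimensional_cuspForm M' 2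
  have hne : anemicSpace M' B θ ≠ ⊥ := fun h => hg0 (by
    have : g ∈ anemicSpace M' B θ := hg
    rw [h, Submodule.mem_bot] at this
    exact this)
  obtain ⟨w, hwW, hw0, ν, hν⟩ := exists_joint_eigenvector (fun l : Nat.Primes => formOp M' l)
    (fun l l' => formOp_commute M' l l') _ (anemicSpace M' B θ) rfl hne
    (fun l' h hh => formOp_mem_anemicSpace l' hh)
  -- the eigenvalues off `B` are the prescribed ones
  have hνθ : ∀ l : Nat.Primes, (l : ℕ) ∉ B → ν l = θ l := by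
    intro l hl
    have h1 : ν l • w = θ l • w := (hν l).symm.trans (hwW l hl)
    by_contra hne'
    apply hw0
    have h2 : (ν l - θ l) • w = 0 := by rw [sub_smul, h1, sub_self]
    exact (smul_eq_zero.mp h2).resolve_left (sub_ne_zero.mpr hne')
  let ϑ : ℕ → ℂ := fun n => if h : n.Prime then ν ⟨n, h⟩ else 0
  have hϑ : ∀ (ℓ : ℕ) (hℓ : ℓ.Prime), ϑ ℓ = ν ⟨ℓ, hℓ⟩ := fun ℓ hℓ => dif_pos hℓ
  have hT : ∀ (ℓ : ℕ) (hℓ : ℓ.Prime) (hℓN : ¬ ℓ ∣ M'),
      CuspForm.heckeTLin 2 hℓ hℓN w = ϑ ℓ • w := by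
    intro ℓ hℓ hℓN
    have h := hν ⟨ℓ, hℓ⟩
    rw [formOp_of_not_dvd M' hℓ hℓN] at h
    rw [h, hϑ ℓ hℓ]
  have hU : ∀ (q : ℕ) (_ : q.Prime) (hqN : q ∣ M'), CuspForm.heckeULin 2 hqN w = ϑ q • w := by
    intro q hq hqN
    have h := hν ⟨q, hq⟩
    rw [formOp_of_dvd M' hq hqN] at h
    rw [h, hϑ q hq]
  obtain ⟨h1, hnorm, hcoeff⟩ :=
    Fermat.Agent.GB.B5.Point.isNormalizedEigenform_inv_smul w hw0 ϑ hT hU
  refine ⟨(qCoeff w 1)⁻¹ • w, hnorm, Submodule.smul_mem _ _ hwW, fun l hl => ?_⟩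
  rw [hcoeff l l.2, hϑ l l.2, ← hνθ l hl]
  rfl

end Anemic

/-! ### residual modularity at the level of an anemic eigenvector -/

/-- `ℤ̄`. -/
local notation "Zbar" => integralClosure ℤ ℂ

/-- **O9**: a nonzero form of level `M'` which is an eigenvector of the Hecke operators off a
finite set `B`, with eigenvalues in `ℤ̄` congruent to `a_l(W)` modulo a maximal ideal `𝔪 ∋ p`,
makes `W` residually modular of level `M'`. -/
theorem isResiduallyModularOfLevel_of_anemic (W : WeierstrassCurve ℤ) (hΔ : W.Δ ≠ 0) {p : ℕ}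
    (hp : p.Prime) (M' : ℕ) [NeZero M'] (B : Finset ℕ) (𝔪 : Ideal Zbar) (h𝔪 : 𝔪.IsMaximal)
    (hp𝔪 : (p : Zbar) ∈ 𝔪) (μ : Nat.Primes → Zbar)
    (hμ : ∀ l : Nat.Primes, (l : ℕ) ∉ B → W.IsGoodPrimeFor l → ¬ (l : ℕ) ∣ M' → (l : ℕ) ≠ p →
      μ l - ((W.apOfModel l : ℤ) : Zbar) ∈ 𝔪)
    (g : CuspForm (Gamma0 M') 2) (hg0 : g ≠ 0)
    (hg : ∀ l : Nat.Primes, (l : ℕ) ∉ B → formOp M' l g = ((μ l : Zbar) : ℂ) • g) :
    W.IsResiduallyModularOfLevel p M' := by
  obtain ⟨f, hf, -, hfl⟩ :=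
    exists_normalizedEigenform_of_anemic B (fun l => ((μ l : Zbar) : ℂ)) g hg0 hg
  refine Fermat.Agent.GB.Top.CongrExtend.isResiduallyModularOfLevel_of_cofinite W hΔ hp B f 𝔪 hf
    h𝔪 hp𝔪 ?_
  intro ℓ hℓ hℓB hgood hℓM hℓp
  exact ⟨μ ⟨ℓ, hℓ⟩, (hfl ⟨ℓ, hℓ⟩ hℓB).symm, hμ ⟨ℓ, hℓ⟩ hℓB hgood hℓM hℓp⟩

/-! ### non-occurrence at levels prime to a ramified prime -/

section Ramified

variable {p : ℕ} [Fact p.Prime] {W : WeierstrassCurve ℤ}
  (hcard₁ : Nat.card (Submodule.torsionBy ℤ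
    ((W.map (Int.castRingHom ℚ))⁄(AlgebraicClosure ℚ)).Point p) = p ^ 2)
  (hker : GaloisFactorsThroughFiniteLevel
    (galoisRepModuleEnd (K := AlgebraicClosure ℚ) ℚ (W.map (Int.castRingHom ℚ)) p))

/-- **O9, corollary (absolute irreducibility form)**: if `ρ̄_{W,p} ⊗ k` is ramified at a prime
`r ∤ M' p`, no nonzero form of level `M'` is an anemic eigenvector congruent to `W`. -/
theorem eq_zero_of_ramified_of_abs (hΔ : W.Δ ≠ 0) (hirr : W.ModRepIsIrreducible p)
    (habs : ∀ (κ : Type) [Field κ] [Algebra (ZMod p) κ],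
      ((rb p W hcard₁ hker).baseChange κ).IsAbsolutelyIrreducible)
    (k : Type) [Field k] [Algebra (ZMod p) k] {r : ℕ} (hr : r.Prime)
    (hram : ¬ ((rb p W hcard₁ hker).baseChange k).IsUnramifiedAt r)
    (M' : ℕ) [NeZero M'] (hrM' : ¬ r ∣ M' * p) (B : Finset ℕ) (𝔪 : Ideal Zbar)
    (h𝔪 : 𝔪.IsMaximal) (hp𝔪 : (p : Zbar) ∈ 𝔪) (μ : Nat.Primes → Zbar)
    (hμ : ∀ l : Nat.Primes, (l : ℕ) ∉ B → W.IsGoodPrimeFor l → ¬ (l : ℕ) ∣ M' → (l : ℕ) ≠ p →
      μ l - ((W.apOfModel l : ℤ) : Zbar) ∈ 𝔪)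
    (g : CuspForm (Gamma0 M') 2)
    (hg : ∀ l : Nat.Primes, (l : ℕ) ∉ B → formOp M' l g = ((μ l : Zbar) : ℂ) • g) :
    g = 0 := by
  by_contra hg0
  have hres := isResiduallyModularOfLevel_of_anemic W hΔ (Fact.out : p.Prime) M' B 𝔪 h𝔪 hp𝔪 μ hμ
    g hg0 hg
  obtain ⟨D⟩ := (nonempty_modData_iff W p M').mp hres
  apply hram
  exact isUnramifiedAt_baseChange hcard₁ hker
    (isUnramifiedAt hcard₁ hker D (NeZero.ne M') hΔ hirr (habs D.κ) hr hrM') k

/-- **O9, corollary (`eq_zero_of_ramified`)**: the same with the transvection binder of the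
GATE-B top interface. -/
theorem eq_zero_of_ramified (hΔ : W.Δ ≠ 0) (hirr : W.ModRepIsIrreducible p)
    (htrans : ∃ σ : (AlgebraicClosure ℚ ≃ₐ[ℚ] AlgebraicClosure ℚ),
      galoisRepModuleEnd (K := AlgebraicClosure ℚ) ℚ (W.map (Int.castRingHom ℚ)) p σ ≠ 1 ∧
        (galoisRepModuleEnd (K := AlgebraicClosure ℚ) ℚ (W.map (Int.castRingHom ℚ)) p σ - 1) ^ 2
          = 0)
    (k : Type) [Field k] [Algebra (ZMod p) k] {r : ℕ} (hr : r.Prime)
    (hram : ¬ ((rb p W hcard₁ hker).baseChange k).IsUnramifiedAt r)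
    (M' : ℕ) [NeZero M'] (hrM' : ¬ r ∣ M' * p) (B : Finset ℕ) (𝔪 : Ideal Zbar)
    (h𝔪 : 𝔪.IsMaximal) (hp𝔪 : (p : Zbar) ∈ 𝔪) (μ : Nat.Primes → Zbar)
    (hμ : ∀ l : Nat.Primes, (l : ℕ) ∉ B → W.IsGoodPrimeFor l → ¬ (l : ℕ) ∣ M' → (l : ℕ) ≠ p →
      μ l - ((W.apOfModel l : ℤ) : Zbar) ∈ 𝔪)
    (g : CuspForm (Gamma0 M') 2)
    (hg : ∀ l : Nat.Primes, (l : ℕ) ∉ B → formOp M' l g = ((μ l : Zbar) : ℂ) • g) :
    g = 0 :=
  eq_zero_of_ramified_of_abs hcard₁ hker hΔ hirr
    (fun κ _ _ => isAbsolutelyIrreducible_baseChange hcard₁ hker hirr htrans κ)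
    k hr hram M' hrM' B 𝔪 h𝔪 hp𝔪 μ hμ g hg

end Ramified

end Fermat.Agent.GE9.OldQ.NonOcc
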