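/-
GATE-E / GE9-OLDQ (helper63) — O8-BASE, file 4: **suppliers of `Consumer.NonOccAt`** (the type (R)
hypothesis of `Consumer.exists_full_system`).

* `nonOccAt_of_place` : from the `ℤ̄`-form (PLACE step, `GE8/AuxR/Place.exists_maximal_over`);
* `nonOccAt_of_ramified` : from O9 (`NonOcc.eq_zero_of_ramified`): `ρ̄_{W,p} ⊗ k` ramified at
  `b ≠ p`, `O` local with `p ∈ 𝔪_O`, `lam₀ l ≡ a_l(W) (mod 𝔪_O)` at the good primes `l ∉ B`, `l ≠ p`.
-/
import Mathlib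
import Fermat.Agent.GE9.OldQ.Base
import Fermat.Agent.GE9.OldQ.NonOcc
import Fermat.Agent.GE8.AuxR.Place

set_option autoImplicit false
set_option linter.unusedSectionVars false

open scoped MatrixGroups TensorProduct
open CongruenceSubgroup CuspForm ModularFormClass WeierstrassCurve WeierstrassCurve.Affine.Point
open scoped WeierstrassCurve.Affine

namespace Fermat.Agent.GE9.OldQ.Consumer

open Fermat.Agent.GJ.J2.Lat Fermat.Agent.GM.End Fermat.Agent.GB.Setup.RhoBar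

/-- `ℤ̄ ⊆ ℂ`. -/
local notation "Zbar" => integralClosure ℤ ℂ

section Place

variable {O : Type} [CommRing O] [IsLocalRing O]

/-- **the PLACE step, anemic form.** -/
theorem nonOccAt_of_place {p : ℕ} (hp : p.Prime) (hpO : (p : O) ∈ IsLocalRing.maximalIdeal O)
    (B : Finset ℕ) (b : Nat.Primes) (lam₀ : Nat.Primes → O)
    (hZ : ∀ (𝔪 : Ideal Zbar), 𝔪.IsMaximal → (p : Zbar) ∈ 𝔪 → ∀ μ : Nat.Primes → Zbar,
      (∀ (l : Nat.Primes), (l : ℕ) ∉ B → ∀ n : ℤ,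
        lam₀ l - (n : O) ∈ IsLocalRing.maximalIdeal O → μ l - (n : Zbar) ∈ 𝔪) →
      ∀ (M' : ℕ) [NeZero M'], ¬ (b : ℕ) ∣ M' → ∀ g : CuspForm (Gamma0 M') 2,
        (∀ l : Nat.Primes, (l : ℕ) ∉ B → formOp M' l g = ((μ l : Zbar) : ℂ) • g) → g = 0) :
    NonOccAt O B b lam₀ := by
  classical
  intro hint₀ τ hτ M' _ hbM' g hg
  obtain ⟨j, Q, hj, hQmax, hpQ, hjQ⟩ :=
    Fermat.Agent.GE8.AuxR.Place.exists_maximal_over (R0 := integralClosure ℤ O)
      ((integralClosure ℤ O).val.toRingHom) τ hτ hp hpO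
  refine hZ Q hQmax hpQ
    (fun l => if hl : (l : ℕ) ∉ B then j ⟨lam₀ l, hint₀ l hl⟩ else 0) ?_ M' hbM' g ?_
  · intro l hl n hn
    have h1 : (integralClosure ℤ O).val.toRingHom
        ((⟨lam₀ l, hint₀ l hl⟩ : integralClosure ℤ O) - (n : integralClosure ℤ O))
        ∈ IsLocalRing.maximalIdeal O := by
      rw [map_sub, map_intCast]
      exact hn
    have h2 := hjQ _ h1
    rw [map_sub, map_intCast] at h2
    simp only [dif_pos hl]
    exact h2
  · intro l hl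
    simp only [dif_pos hl]
    rw [hj]
    exact hg l hl

end Place

section Ramified

variable {p : ℕ} [Fact p.Prime] {W : WeierstrassCurve ℤ}
  (hcard₁ : Nat.card (Submodule.torsionBy ℤ
    ((W.map (Int.castRingHom ℚ))⁄(AlgebraicClosure ℚ)).Point p) = p ^ 2)
  (hker : GaloisFactorsThroughFiniteLevel
    (galoisRepModuleEnd (K := AlgebraicClosure ℚ) ℚ (W.map (Int.castRingHom ℚ)) p))

/-- **`NonOccAt` at a prime where `ρ̄` is ramified** (O9). -/
theorem nonOccAt_of_ramified (hΔ : W.Δ ≠ 0) (hirr : W.ModRepIsIrreducible p)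
    (htrans : ∃ σ : (AlgebraicClosure ℚ ≃ₐ[ℚ] AlgebraicClosure ℚ),
      galoisRepModuleEnd (K := AlgebraicClosure ℚ) ℚ (W.map (Int.castRingHom ℚ)) p σ ≠ 1 ∧
        (galoisRepModuleEnd (K := AlgebraicClosure ℚ) ℚ (W.map (Int.castRingHom ℚ)) p σ - 1) ^ 2
          = 0)
    (k : Type) [Field k] [Algebra (ZMod p) k] (b : Nat.Primes) (hbp : (b : ℕ) ≠ p)
    (hram : ¬ ((rb p W hcard₁ hker).baseChange k).IsUnramifiedAt b)
    {O : Type} [CommRing O] [IsLocalRing O] (hpO : (p : O) ∈ IsLocalRing.maximalIdeal O)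
    (B : Finset ℕ) (lam₀ : Nat.Primes → O)
    (hcong : ∀ l : Nat.Primes, (l : ℕ) ∉ B → W.IsGoodPrimeFor l → (l : ℕ) ≠ p →
      lam₀ l - ((W.apOfModel l : ℤ) : O) ∈ IsLocalRing.maximalIdeal O) :
    NonOccAt O B b lam₀ := by
  apply nonOccAt_of_place (Fact.out : p.Prime) hpO B b lam₀
  intro 𝔪 h𝔪 hp𝔪 μ hμ M' _ hbM' g hg
  have hrM' : ¬ (b : ℕ) ∣ M' * p := by
    intro hdvd
    rcases (Nat.Prime.dvd_mul b.2).mp hdvd with h | h
    · exact hbM' h
    · exact hbp ((Nat.prime_dvd_prime_iff_eq b.2 (Fact.out : p.Prime)).mp h)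
  exact NonOcc.eq_zero_of_ramified hcard₁ hker hΔ hirr htrans k b.2 hram M' hrM' B 𝔪 h𝔪 hp𝔪 μ
    (fun l hlB hgood _ hlp => hμ l hlB _ (hcong l hlB hgood hlp)) g hg

end Ramified

end Fermat.Agent.GE9.OldQ.Consumer
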