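/-
GATE-E / GE9-OLDQ (helper63) — O8-STAGE, file 1: **references of LOWER level**.

The reference of O6 (`GE9/OldQ/Coh.lean`) is a cusp form of level `M₀` with `a₁ ≠ 0` which is an
eigenvector only AWAY from the other bad primes.  Hence a full eigenclass of any level `M₁ ∣ M₀`
such that the primes of `M₀ / M₁` are bad serves as reference (restriction of forms keeps the
`q`-expansion, and commutes with `formOp · l` whenever `l ∣ M₀ ↔ l ∣ M₁`).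

* `resLe`, `qCoeff_resLe`, `formOp_resLe`, `exists_ref_lower`;
* two-level shapes `CohG2 N M₁ B b`, `CohR2 N M₁ B b` and the suppliers
  `cohG2`, `cohR2`, `cohP2 : CohP N M₁ B b`, `cohQ2 : CohQ N M₁ B b`.
-/
import Mathlib
import Fermat.Agent.GE9.OldQ.CohShapes

set_option autoImplicit false
set_option linter.unusedSectionVars false

open scoped MatrixGroups
open CongruenceSubgroup ModularCurve ModularCurve.Period CuspForm ModularFormClass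

namespace Fermat.Agent.GE9.OldQ.Consumer

open Fermat.Agent.S16_helper49 Fermat.Agent.GJ.J2.Lat Fermat.Agent.GE9.Mult1
open Fermat.Agent.GM.End Fermat.Agent.GE9.OldQ.Deplete
open Fermat.Agent.GE.Mod.Stab (restrict G0)

/-! ### restriction to a deeper level -/

theorem Gamma0_le_of_dvd {M₁ M₀ : ℕ} (h : M₁ ∣ M₀) : Gamma0 M₀ ≤ Gamma0 M₁ := by
  intro γ hγ
  rw [Gamma0_mem] at hγ ⊢
  rw [CharP.intCast_eq_zero_iff (ZMod M₀) M₀] at hγ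
  rw [CharP.intCast_eq_zero_iff (ZMod M₁) M₁]
  exact (Int.natCast_dvd_natCast.mpr h).trans hγ

theorem G0_le_of_dvd {M₁ M₀ : ℕ} (h : M₁ ∣ M₀) : G0 M₀ ≤ G0 M₁ :=
  Subgroup.map_mono (Gamma0_le_of_dvd h)

/-- restriction `S₂(Γ₀(M₁)) → S₂(Γ₀(M₀))`, `M₁ ∣ M₀`. -/
noncomputable def resLe {M₁ M₀ : ℕ} (h : M₁ ∣ M₀) (g : CuspForm (Gamma0 M₁) 2) :
    CuspForm (Gamma0 M₀) 2 := restrict (G0_le_of_dvd h) g

theorem qCoeff_resLe {M₁ M₀ : ℕ} (h : M₁ ∣ M₀) (g : CuspForm (Gamma0 M₁) 2) (n : ℕ) :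
    qCoeff (resLe h g) n = qCoeff g n := rfl

theorem formOp_resLe {M₁ M₀ : ℕ} [NeZero M₁] [NeZero M₀] (h : M₁ ∣ M₀) (l : Nat.Primes)
    (hiff : (l : ℕ) ∣ M₀ ↔ (l : ℕ) ∣ M₁) (g : CuspForm (Gamma0 M₁) 2) :
    formOp M₀ l (resLe h g) = resLe h (formOp M₁ l g) := by
  apply ext_qCoeff
  intro n
  rw [qCoeff_formOp, qCoeff_resLe h (formOp M₁ l g), qCoeff_formOp]
  simp only [hiff, qCoeff_resLe]

theorem resLe_smul {M₁ M₀ : ℕ} (h : M₁ ∣ M₀) (c : ℂ) (g : CuspForm (Gamma0 M₁) 2) :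
    resLe h (c • g) = c • resLe h g := by
  apply ext_qCoeff
  intro n
  rw [qCoeff_resLe, Fermat.Agent.S49_helper65.qCoeff_smul_cusp,
    Fermat.Agent.S49_helper65.qCoeff_smul_cusp, qCoeff_resLe]

/-- a nonzero full eigenclass of level `M₁ ∣ M₀` gives a reference form of level `M₀`. -/
theorem exists_ref_lower {M₁ M₀ : ℕ} [NeZero M₁] [NeZero M₀] (h : M₁ ∣ M₀)
    (lam : Nat.Primes → ℂ) (X₁ : Additive (Gamma0 M₁) →+ ℂ)
    (hX₁ : X₁ ∈ parabolicHoms ℂ (Gamma0 M₁) ℂ) (hX₁0 : X₁ ≠ 0)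
    (hX₁e : ∀ l : Nat.Primes, cohGen M₁ ℂ l X₁ = lam l • X₁) :
    ∃ f₀ : CuspForm (Gamma0 M₀) 2, qCoeff f₀ 1 ≠ 0 ∧
      ∀ l : Nat.Primes, ((l : ℕ) ∣ M₀ → (l : ℕ) ∣ M₁) → formOp M₀ l f₀ = lam l • f₀ := by
  obtain ⟨f₁, ha, hf₁e⟩ := exists_form_of_class lam X₁ hX₁ hX₁0 hX₁e
  refine ⟨resLe h f₁, ha, fun l hl => ?_⟩
  rw [formOp_resLe h l ⟨hl, fun h' => dvd_trans h' h⟩, hf₁e l, resLe_smul]

/-! ### the two-level shapes -/

/-- type (G), reference of level `M₁`. -/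
def CohG2 (N M₁ : ℕ) [NeZero N] [NeZero M₁] (B : Set ℕ) (b : Nat.Primes) : Prop :=
  ∀ (lam : Nat.Primes → ℂ) (X₁ : Additive (Gamma0 M₁) →+ ℂ),
    X₁ ∈ parabolicHoms ℂ (Gamma0 M₁) ℂ → X₁ ≠ 0 →
    (∀ l : Nat.Primes, cohGen M₁ ℂ l X₁ = lam l • X₁) →
    ∀ X : Additive (Gamma0 N) →+ ℂ, X ∈ parabolicHoms ℂ (Gamma0 N) ℂ →
      (∀ l : Nat.Primes, (l : ℕ) ∉ B → cohGen N ℂ l X = lam l • X) →
      cohGen N ℂ b X = lam b • X

/-- type (R), reference of level `M₁`. -/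
def CohR2 (N M₁ : ℕ) [NeZero N] [NeZero M₁] (B : Set ℕ) (b : Nat.Primes) : Prop :=
  ∀ (lam : Nat.Primes → ℂ) (X₁ : Additive (Gamma0 M₁) →+ ℂ),
    X₁ ∈ parabolicHoms ℂ (Gamma0 M₁) ℂ → X₁ ≠ 0 →
    (∀ l : Nat.Primes, cohGen M₁ ℂ l X₁ = lam l • X₁) →
    (∀ (M' : ℕ) [NeZero M'], ¬ (b : ℕ) ∣ M' → ∀ g : CuspForm (Gamma0 M') 2,
      (∀ l : Nat.Primes, (l : ℕ) ∉ B → formOp M' l g = lam l • g) → g = 0) →
    ∀ X : Additive (Gamma0 N) →+ ℂ, X ∈ parabolicHoms ℂ (Gamma0 N) ℂ →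
      (∀ l : Nat.Primes, (l : ℕ) ∉ B → cohGen N ℂ l X = lam l • X) →
      cohGen N ℂ b X = lam b • X

variable {N M₁ : ℕ} [NeZero N] [NeZero M₁]

/-- **(G)**, reference of level `M₁ ∣ N`, the primes of `N / M₁` bad. -/
theorem cohG2 (B : Finset ℕ) (b : Nat.Primes) (hbN : ¬ (b : ℕ) ∣ N) (hdvd : M₁ ∣ N)
    (hB : ∀ l : Nat.Primes, (l : ℕ) ∣ N → ¬ (l : ℕ) ∣ M₁ → (l : ℕ) ∈ B) :
    CohG2 N M₁ (B : Set ℕ) b := by
  intro lam X₁ hX₁ hX₁0 hX₁e X hX hXe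
  obtain ⟨f₀, ha, hf₀e⟩ := exists_ref_lower hdvd lam X₁ hX₁ hX₁0 hX₁e
  refine Coh.coh_eigen_of_good b.2 (badList B b) lam hbN (fun l hl => prime_of_mem_badList hl)
    (notMem_badList B b) f₀ ha (fun l hl => hf₀e l (fun hlN => ?_)) X hX
    (fun l hlb hl => hXe l (notMem_of_notMem_badList l hlb hl))
  by_contra hlM
  have hlb : (l : ℕ) ≠ b := fun h => hbN (h ▸ hlN)
  exact notMem_of_notMem_badList l hlb hl (Finset.mem_coe.mpr (hB l hlN hlM))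

/-- **(R)**, reference of level `M₁ ∣ N` with `b ∣ M₁`, the primes of `N / M₁` bad. -/
theorem cohR2 (B : Finset ℕ) (b : Nat.Primes) (hbB : (b : ℕ) ∈ B) {M₀ : ℕ} [NeZero M₀]
    (hbM : ¬ (b : ℕ) ∣ M₀) (hN : N = M₀ * b) (hdvd : M₁ ∣ N) (hbM₁ : (b : ℕ) ∣ M₁)
    (hB : ∀ l : Nat.Primes, (l : ℕ) ∣ N → ¬ (l : ℕ) ∣ M₁ → (l : ℕ) ∈ B) :
    CohR2 N M₁ (B : Set ℕ) b := by
  intro lam X₁ hX₁ hX₁0 hX₁e hnew X hX hXe
  obtain ⟨f₀, ha, hf₀e⟩ := exists_ref_lower hdvd lam X₁ hX₁ hX₁0 hX₁e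
  have hls : ∀ l ∈ badList B b, l.Prime := fun l hl => prime_of_mem_badList hl
  have hNZ : NeZero (M₀ * (badList B b).prod ^ 2) := neZero_lvl M₀ (badList B b) hls
  have hbM' : ¬ (b : ℕ) ∣ M₀ * (badList B b).prod ^ 2 := by
    intro hd
    rcases (Nat.Prime.dvd_mul b.2).mp hd with h | h
    · exact hbM h
    · have h2 := b.2.dvd_of_dvd_pow h
      obtain ⟨a, ha', hba⟩ := (Prime.dvd_prod_iff b.2.prime).mp h2
      have hap : a.Prime := hls a ha'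
      have : (b : ℕ) = a := (Nat.prime_dvd_prime_iff_eq b.2 hap).mp hba
      exact notMem_badList B b (this ▸ ha')
  refine Coh.coh_eigen_of_new b.2 (badList B b) lam hbM hN hls (notMem_badList B b)
    (fun g hg => hnew (M₀ * (badList B b).prod ^ 2) hbM' g (fun l hl => by
      have hlb : (l : ℕ) ≠ b := fun h => hl (h ▸ hbB)
      rw [hg l hlb, lamD_of_not_mem lam (notMem_badList_of_notMem hl)]))
    f₀ ha (fun l hl => hf₀e l (fun hlN => ?_)) X hX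
    (fun l hlb hl => hXe l (notMem_of_notMem_badList l hlb hl))
  by_contra hlM
  have hlb : (l : ℕ) ≠ b := fun h => hlM (h ▸ hbM₁)
  exact notMem_of_notMem_badList l hlb hl (Finset.mem_coe.mpr (hB l hlN hlM))

/-- **(P)**, `N = M₀ b`, reference of level `M₁ ∣ M₀`, the primes of `M₀ / M₁` bad. -/
theorem cohP2 (B : Finset ℕ) (b : Nat.Primes) {M₀ : ℕ} [NeZero M₀]
    (hbM : ¬ (b : ℕ) ∣ M₀) (hN : N = M₀ * b) (hdvd : M₁ ∣ M₀)
    (hB : ∀ l : Nat.Primes, (l : ℕ) ∣ M₀ → ¬ (l : ℕ) ∣ M₁ → (l : ℕ) ∈ B) :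
    CohP N M₁ (B : Set ℕ) b := by
  intro lam X₁ hX₁ hX₁0 hX₁e X hX hXe
  obtain ⟨f₀, ha, hf₀e⟩ := exists_ref_lower hdvd lam X₁ hX₁ hX₁0 hX₁e
  refine Coh.coh_quadratic_of_ref b.2 (badList B b) lam hbM hN
    (fun l hl => prime_of_mem_badList hl) (notMem_badList B b) f₀ ha
    (fun l hl => hf₀e l (fun hlN => ?_)) X hX
    (fun l hlb hl => hXe l (notMem_of_notMem_badList l hlb hl))
  by_contra hlM
  have hlb : (l : ℕ) ≠ b := fun h => hbM (h ▸ hlN)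
  exact notMem_of_notMem_badList l hlb hl (Finset.mem_coe.mpr (hB l hlN hlM))

/-- **(Q)**, `N = M₀ b b`, reference of level `M₁ ∣ M₀`, the primes of `M₀ / M₁` bad. -/
theorem cohQ2 (B : Finset ℕ) (b : Nat.Primes) {M₀ : ℕ} [NeZero M₀]
    (hbM : ¬ (b : ℕ) ∣ M₀) (hN : N = M₀ * b * b) (hdvd : M₁ ∣ M₀)
    (hB : ∀ l : Nat.Primes, (l : ℕ) ∣ M₀ → ¬ (l : ℕ) ∣ M₁ → (l : ℕ) ∈ B) :
    CohQ N M₁ (B : Set ℕ) b := by
  intro lam X₁ hX₁ hX₁0 hX₁e X hX hXe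
  obtain ⟨f₀, ha, hf₀e⟩ := exists_ref_lower hdvd lam X₁ hX₁ hX₁0 hX₁e
  refine Coh.coh_cubic_of_ref b.2 (badList B b) lam hbM hN
    (fun l hl => prime_of_mem_badList hl) (notMem_badList B b) f₀ ha
    (fun l hl => hf₀e l (fun hlN => ?_)) X hX
    (fun l hlb hl => hXe l (notMem_of_notMem_badList l hlb hl))
  by_contra hlM
  have hlb : (l : ℕ) ≠ b := fun h => hbM (h ▸ hlN)
  exact notMem_of_notMem_badList l hlb hl (Finset.mem_coe.mpr (hB l hlN hlM))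

end Fermat.Agent.GE9.OldQ.Consumer
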