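/-
GATE-E / GE9-OLDQ (helper63) — O8-STAGE, file 2: **the consumer with references of LOWER level**.

`y₁ ≠ 0` a FULL eigenvector of `O ⊗[ℤ] Lam M₁` (system `lam`), `M₁` a divisor of the natural
reference level such that the primes of the quotient are bad.  For `y ∈ O ⊗[ℤ] Lam N` ANEMIC (off
`B`):
* `eigen_good2` (G) `b ∤ N`, `M₁ ∣ N` ⟹ `T'_b y = lam b • y`;
* `eigen_new2`  (R) `N = M₀ b`, `b ∤ M₀`, `b ∈ B`, `M₁ ∣ N`, `b ∣ M₁`, `NonOccAt` ⟹ the same;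
* `quad_old2`   (P) `N = M₀ b`, `b ∤ M₀`, `M₁ ∣ M₀` ⟹ `T'_b² y − lam b • T'_b y + b • y = 0`;
* `cub_old2`    (Q) `N = M₀ b b`, `b ∤ M₀`, `M₁ ∣ M₀` ⟹ `T'_b³ y − lam b • T'_b² y + b • T'_b y = 0`.
In particular ONE full eigenvector of the minimal level serves all bad primes of all stages.
-/
import Mathlib
import Fermat.Agent.GE9.OldQ.CohLower
import Fermat.Agent.GE9.OldQ.Base

set_option autoImplicit false
set_option linter.unusedSectionVars false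

open scoped MatrixGroups TensorProduct
open CongruenceSubgroup ModularCurve ModularCurve.Period CuspForm ModularFormClass

namespace Fermat.Agent.GE9.OldQ.Consumer

open Fermat.Agent.S16_helper49 Fermat.Agent.GJ.J2.Lat Fermat.Agent.GE9.Mult1
open Fermat.Agent.GE9.OldQ.Transfer Fermat.Agent.GM.End

section Core2

variable {N : ℕ} [NeZero N] {ι : Type*} [Fintype ι] [DecidableEq ι]
variable {O : Type*} [CommRing O] [IsDomain O] [CharZero O]
variable (K : Type*) [Field K] [Algebra O K] [IsFractionRing O K] [CharZero K]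
variable {M₁ : ℕ} [NeZero M₁] {ι₁ : Type*} [Fintype ι₁] [DecidableEq ι₁]

include K in
/-- **type (G), matrix form, reference of level `M₁`.** -/
theorem core_G2 (B : Set ℕ) (b : Nat.Primes) (hG : CohG2 N M₁ B b) (β : Module.Basis ι ℤ (Lam N))
    (β₁ : Module.Basis ι₁ ℤ (Lam M₁)) (lam : Nat.Primes → O) (c₁ : ι₁ → O) (hc₁ : c₁ ≠ 0)
    (hc₁e : ∀ l : Nat.Primes, ((latMat β₁ l).map (Int.cast : ℤ → O)).mulVec c₁ = lam l • c₁)
    (c : ι → O)
    (hc : ∀ l : Nat.Primes, (l : ℕ) ∉ B →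
      ((latMat β l).map (Int.cast : ℤ → O)).mulVec c = lam l • c) :
    ((latMat β b).map (Int.cast : ℤ → O)).mulVec c = lam b • c := by
  classical
  have hint : ∀ l, IsIntegral ℤ (lam l) := fun l =>
    integral_of_eigen K (latMat β₁ l) c₁ hc₁ (lam l) (hc₁e l)
  refine core_lin K B b β lam hint ?_ c hc
  intro X hX hXe
  obtain ⟨X₁, hX₁, hX₁0, hX₁e⟩ := exists_class K β₁ lam hint c₁ hc₁ hc₁e
  exact hG (fun l => tau O K ⟨lam l, hint l⟩) X₁ hX₁ hX₁0 hX₁e X hX hXe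

include K in
/-- **type (R), matrix form, reference of level `M₁`.** -/
theorem core_R2 (B : Finset ℕ) (b : Nat.Primes) (hR : CohR2 N M₁ (B : Set ℕ) b)
    (β : Module.Basis ι ℤ (Lam N))
    (β₁ : Module.Basis ι₁ ℤ (Lam M₁)) (lam : Nat.Primes → O) (c₁ : ι₁ → O) (hc₁ : c₁ ≠ 0)
    (hc₁e : ∀ l : Nat.Primes, ((latMat β₁ l).map (Int.cast : ℤ → O)).mulVec c₁ = lam l • c₁)
    (hno : NonOccAt O B b lam)
    (c : ι → O)
    (hc : ∀ l : Nat.Primes, (l : ℕ) ∉ (B : Set ℕ) →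
      ((latMat β l).map (Int.cast : ℤ → O)).mulVec c = lam l • c) :
    ((latMat β b).map (Int.cast : ℤ → O)).mulVec c = lam b • c := by
  classical
  have hint : ∀ l, IsIntegral ℤ (lam l) := fun l =>
    integral_of_eigen K (latMat β₁ l) c₁ hc₁ (lam l) (hc₁e l)
  refine core_lin K (B : Set ℕ) b β lam hint ?_ c hc
  intro X hX hXe
  obtain ⟨X₁, hX₁, hX₁0, hX₁e⟩ := exists_class K β₁ lam hint c₁ hc₁ hc₁e
  refine hR (fun l => tau O K ⟨lam l, hint l⟩) X₁ hX₁ hX₁0 hX₁e ?_ X hX hXe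
  intro M' _ hbM' g hg
  exact hno (fun l _ => hint l) (tau O K) (tau_injective O K) M' hbM' g
    (fun l hl => hg l (fun h => hl (Finset.mem_coe.mp h)))

end Core2

/-! ### `O ⊗[ℤ] Lam N` -/

section Tensor2

variable {N M₁ : ℕ} [NeZero N] [NeZero M₁] {O : Type*} [CommRing O] [IsDomain O] [CharZero O]

/-- the coordinates of `O ⊗[ℤ] Lam N` in the chosen basis, packaged. -/
theorem exists_tensor_coords (N : ℕ) [NeZero N] (O : Type*) [CommRing O] :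
    ∃ (ι : Type) (_ : Fintype ι) (β : Module.Basis ι ℤ (Lam N))
      (β' : Module.Basis ι O (O ⊗[ℤ] Lam N)) (j : Lam N →+ O ⊗[ℤ] Lam N),
      (∀ i, j (β i) = β' i) ∧
      ∀ (l : Nat.Primes) (Φ : Lam N), (latT N l).baseChange O (j Φ) = j (latT N l Φ) := by
  have hfree : Module.Free ℤ (Lam N) := Fermat.Agent.GJ.J2.ZStruct.free_parabolicHoms_int N
  have hfin : Module.Finite ℤ (Lam N) := Fermat.Agent.GJ.J2.ZStruct.finite_parabolicHoms_int N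
  refine ⟨Module.Free.ChooseBasisIndex ℤ (Lam N), inferInstance,
    Module.Free.chooseBasis ℤ (Lam N),
    Algebra.TensorProduct.basis O (Module.Free.chooseBasis ℤ (Lam N)),
    (TensorProduct.mk ℤ O (Lam N) 1).toAddMonoidHom, fun i => ?_, fun l Φ => ?_⟩
  · rw [Algebra.TensorProduct.basis_apply]
    rfl
  · show (latT N l).baseChange O ((1 : O) ⊗ₜ[ℤ] Φ) = (1 : O) ⊗ₜ[ℤ] (latT N l Φ)
    rw [LinearMap.baseChange_tmul]

/-- **(G)**, reference of level `M₁ ∣ N`, the primes of `N / M₁` in `B`. -/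
theorem eigen_good2 (B : Finset ℕ) (b : Nat.Primes) (hbN : ¬ (b : ℕ) ∣ N) (hdvd : M₁ ∣ N)
    (hB : ∀ l : Nat.Primes, (l : ℕ) ∣ N → ¬ (l : ℕ) ∣ M₁ → (l : ℕ) ∈ B)
    (lam : Nat.Primes → O) (y₁ : O ⊗[ℤ] Lam M₁) (hy₁ : y₁ ≠ 0)
    (hy₁e : ∀ l : Nat.Primes, (latT M₁ l).baseChange O y₁ = lam l • y₁)
    (y : O ⊗[ℤ] Lam N)
    (hy : ∀ l : Nat.Primes, (l : ℕ) ∉ B → (latT N l).baseChange O y = lam l • y) :
    (latT N b).baseChange O y = lam b • y := by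
  classical
  obtain ⟨ι, _, β, β', j, hj, hT'⟩ := exists_tensor_coords N O
  obtain ⟨ι₁, _, β₁, β₁', j₁, hj₁, hT₁'⟩ := exists_tensor_coords M₁ O
  apply (crd β').injective
  rw [crd_T' β β' j hj (fun l => (latT N l).baseChange O) hT', map_smul]
  exact core_G2 (FractionRing O) (B : Set ℕ) b (cohG2 B b hbN hdvd hB) β β₁ lam (crd β₁' y₁)
    (crd_ne_zero β₁' hy₁)
    (fun l => crd_eigen β₁ β₁' j₁ hj₁ (fun l => (latT M₁ l).baseChange O) hT₁' l y₁ _ (hy₁e l))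
    (crd β' y)
    (fun l hl => crd_eigen β β' j hj (fun l => (latT N l).baseChange O) hT' l y _
      (hy l (fun h => hl (Finset.mem_coe.mpr h))))

/-- **(R)**, reference of level `M₁ ∣ N` with `b ∣ M₁`, the primes of `N / M₁` in `B`. -/
theorem eigen_new2 (B : Finset ℕ) (b : Nat.Primes) (hbB : (b : ℕ) ∈ B) {M₀ : ℕ} [NeZero M₀]
    (hbM : ¬ (b : ℕ) ∣ M₀) (hN : N = M₀ * b) (hdvd : M₁ ∣ N) (hbM₁ : (b : ℕ) ∣ M₁)
    (hB : ∀ l : Nat.Primes, (l : ℕ) ∣ N → ¬ (l : ℕ) ∣ M₁ → (l : ℕ) ∈ B)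
    (lam : Nat.Primes → O) (y₁ : O ⊗[ℤ] Lam M₁) (hy₁ : y₁ ≠ 0)
    (hy₁e : ∀ l : Nat.Primes, (latT M₁ l).baseChange O y₁ = lam l • y₁)
    (hno : NonOccAt O B b lam)
    (y : O ⊗[ℤ] Lam N)
    (hy : ∀ l : Nat.Primes, (l : ℕ) ∉ B → (latT N l).baseChange O y = lam l • y) :
    (latT N b).baseChange O y = lam b • y := by
  classical
  obtain ⟨ι, _, β, β', j, hj, hT'⟩ := exists_tensor_coords N O
  obtain ⟨ι₁, _, β₁, β₁', j₁, hj₁, hT₁'⟩ := exists_tensor_coords M₁ O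
  apply (crd β').injective
  rw [crd_T' β β' j hj (fun l => (latT N l).baseChange O) hT', map_smul]
  exact core_R2 (FractionRing O) B b (cohR2 B b hbB hbM hN hdvd hbM₁ hB) β β₁ lam (crd β₁' y₁)
    (crd_ne_zero β₁' hy₁)
    (fun l => crd_eigen β₁ β₁' j₁ hj₁ (fun l => (latT M₁ l).baseChange O) hT₁' l y₁ _ (hy₁e l))
    hno (crd β' y)
    (fun l hl => crd_eigen β β' j hj (fun l => (latT N l).baseChange O) hT' l y _
      (hy l (fun h => hl (Finset.mem_coe.mpr h))))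

/-- **(P)**, `N = M₀ b`, reference of level `M₁ ∣ M₀`, the primes of `M₀ / M₁` in `B`. -/
theorem quad_old2 (B : Finset ℕ) (b : Nat.Primes) {M₀ : ℕ} [NeZero M₀]
    (hbM : ¬ (b : ℕ) ∣ M₀) (hN : N = M₀ * b) (hdvd : M₁ ∣ M₀)
    (hB : ∀ l : Nat.Primes, (l : ℕ) ∣ M₀ → ¬ (l : ℕ) ∣ M₁ → (l : ℕ) ∈ B)
    (lam : Nat.Primes → O) (y₁ : O ⊗[ℤ] Lam M₁) (hy₁ : y₁ ≠ 0)
    (hy₁e : ∀ l : Nat.Primes, (latT M₁ l).baseChange O y₁ = lam l • y₁)
    (y : O ⊗[ℤ] Lam N)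
    (hy : ∀ l : Nat.Primes, (l : ℕ) ∉ B → (latT N l).baseChange O y = lam l • y) :
    (latT N b).baseChange O ((latT N b).baseChange O y) - lam b • (latT N b).baseChange O y
      + ((b : ℕ) : O) • y = 0 :=
  quad_of_old_tensor (B : Set ℕ) b (cohP2 B b hbM hN hdvd hB) lam y₁ hy₁ hy₁e y
    (fun l hl => hy l (fun h => hl (Finset.mem_coe.mpr h)))

/-- **(Q)**, `N = M₀ b b`, reference of level `M₁ ∣ M₀`, the primes of `M₀ / M₁` in `B`. -/
theorem cub_old2 (B : Finset ℕ) (b : Nat.Primes) {M₀ : ℕ} [NeZero M₀]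
    (hbM : ¬ (b : ℕ) ∣ M₀) (hN : N = M₀ * b * b) (hdvd : M₁ ∣ M₀)
    (hB : ∀ l : Nat.Primes, (l : ℕ) ∣ M₀ → ¬ (l : ℕ) ∣ M₁ → (l : ℕ) ∈ B)
    (lam : Nat.Primes → O) (y₁ : O ⊗[ℤ] Lam M₁) (hy₁ : y₁ ≠ 0)
    (hy₁e : ∀ l : Nat.Primes, (latT M₁ l).baseChange O y₁ = lam l • y₁)
    (y : O ⊗[ℤ] Lam N)
    (hy : ∀ l : Nat.Primes, (l : ℕ) ∉ B → (latT N l).baseChange O y = lam l • y) :
    (latT N b).baseChange O ((latT N b).baseChange O ((latT N b).baseChange O y))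
      - lam b • (latT N b).baseChange O ((latT N b).baseChange O y)
      + ((b : ℕ) : O) • (latT N b).baseChange O y = 0 :=
  cub_of_old_tensor (B : Set ℕ) b (cohQ2 B b hbM hN hdvd hB) lam y₁ hy₁ hy₁e y
    (fun l hl => hy l (fun h => hl (Finset.mem_coe.mpr h)))

end Tensor2

end Fermat.Agent.GE9.OldQ.Consumer
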