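/-
GATE-E / GE9-OLDQ (helper63) — **`NonOccAt` at `b = p` from a `p`-new reference** (the type (R)
hypothesis of `hold_stage` / `exists_full_system` at the prime `p` in the strict-ordinary branches;
the binder `hnoP` of helper73 7804 and the `b = p` case of helper37's (e6) `hold_K`).

If a nonzero FULL eigenvector `y₁ ∈ O ⊗[ℤ] Lam (M₀ p)`, `p ∤ M₀`, has `U_p`-eigenvalue `u = lam p`
with `u ^ 2 = 1` (automatic on the `p`-new part: `GM/B5/UqSquare`), then the anemic system of `y₁`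
does not occur at ANY level prime to `p`: a form `g` of level `M'`, `p ∤ M'`, with that anemic system
may be taken to be a `T_p`-eigenform with eigenvalue `a`; helper8's type (P) quadratic
(`Deplete.quadratic_of_ref`) at the common level gives `u² − a u + p = 0`, i.e. `a = ±(p + 1)`,
against helper49's Petersson bound (`HeckeBound.heckeT_eigenvalue_ne`).

* `eq_zero_of_sq_eq_one` : the forms side;
* `exists_class_tau` : the reference class for an ARBITRARY embedding `τ` of `integralClosure ℤ O`;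
* **`nonOccAt_of_sq_eq_one`**.
-/
import Mathlib
import Fermat.Agent.GE9.OldQ.Lower
import Fermat.Agent.GB.B10N.HeckeBound

set_option autoImplicit false
set_option linter.unusedSectionVars false
set_option linter.style.haveILetI false

open scoped MatrixGroups TensorProduct
open CongruenceSubgroup ModularCurve ModularCurve.Period CuspForm ModularFormClass

namespace Fermat.Agent.GE9.OldQ.Consumer

open Fermat.Agent.S16_helper49 Fermat.Agent.GJ.J2.Lat Fermat.Agent.GE9.Mult1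
open Fermat.Agent.GE9.OldQ.Transfer Fermat.Agent.GM.End Fermat.Agent.GE9.OldQ
open Fermat.Agent.GE9.OldQ.Deplete

/-! ### the forms side -/

section Forms

/-- a full eigenform of level `M₀ p`, `p ∤ M₀`, with `U_p`-eigenvalue `u`, `u ^ 2 = 1`: its anemic
system (off any finite `B`) does not occur at a level prime to `p`. -/
theorem eq_zero_of_sq_eq_one {M₀ p : ℕ} [NeZero M₀] [NeZero (M₀ * p)] (hp : p.Prime)
    (hpM₀ : ¬ p ∣ M₀) (B : Finset ℕ) (θ : Nat.Primes → ℂ)
    (f₁ : CuspForm (Gamma0 (M₀ * p)) 2) (ha : qCoeff f₁ 1 ≠ 0)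
    (hf₁e : ∀ l : Nat.Primes, formOp (M₀ * p) l f₁ = θ l • f₁)
    (hu : θ (⟨p, hp⟩ : Nat.Primes) ^ 2 = 1)
    (M' : ℕ) [NeZero M'] (hpM' : ¬ p ∣ M') (g : CuspForm (Gamma0 M') 2)
    (hg : ∀ l : Nat.Primes, (l : ℕ) ∉ B → formOp M' l g = θ l • g) : g = 0 := by
  classical
  by_contra hg0
  -- a full eigenform in the anemic eigenspace of level `M'`
  have hW : anemicEigen M' (B : Set ℕ) θ ≠ ⊥ := by
    intro h
    have hmem : g ∈ anemicEigen M' (B : Set ℕ) θ := fun l hl => hg l hl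
    rw [h, Submodule.mem_bot] at hmem
    exact hg0 hmem
  obtain ⟨g₀, μ, hg₀W, hg₀0, hg₀e, hg₀1⟩ := exists_joint_eigenform_mem _ hW
    (fun l f hf => formOp_mem_anemicEigen l hf)
  have hμ : ∀ l : Nat.Primes, (l : ℕ) ∉ B → μ l = θ l := by
    intro l hl
    have h1 := hg₀W l (fun h => hl (Finset.mem_coe.mp h))
    rw [hg₀e l] at h1
    exact smul_left_injective ℂ hg₀0 h1
  -- the common level
  set L : ℕ := M' * M₀ with hL
  have hL0 : NeZero L := ⟨Nat.mul_ne_zero (NeZero.ne M') (NeZero.ne M₀)⟩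
  have hLp0 : NeZero (L * p) := ⟨Nat.mul_ne_zero (NeZero.ne L) hp.ne_zero⟩
  have hpL : ¬ p ∣ L := fun h => (hp.dvd_mul.mp h).elim hpM' hpM₀
  have hd1 : M' ∣ L := Dvd.intro _ rfl
  have hd2 : M₀ * p ∣ L * p := Nat.mul_dvd_mul (Dvd.intro_left _ rfl) (dvd_refl p)
  set B' : Finset ℕ := B ∪ M'.primeFactors ∪ M₀.primeFactors with hB'
  have hls : ∀ l ∈ badList B' p, l.Prime := fun l hl => prime_of_mem_badList hl
  -- primes outside the bad list
  have hout : ∀ l : Nat.Primes, (l : ℕ) ∉ badList B' p → (l : ℕ) ≠ p →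
      (l : ℕ) ∉ B ∧ ¬ (l : ℕ) ∣ M' ∧ ¬ (l : ℕ) ∣ M₀ := by
    intro l hl hlp
    have h1 : (l : ℕ) ∉ (B' : Set ℕ) := notMem_of_notMem_badList l hlp hl
    rw [Finset.mem_coe, hB', Finset.mem_union, Finset.mem_union] at h1
    push Not at h1
    refine ⟨h1.1.1, fun h => h1.1.2 ?_, fun h => h1.2 ?_⟩
    · exact Nat.mem_primeFactors.mpr ⟨l.2, h, NeZero.ne M'⟩
    · exact Nat.mem_primeFactors.mpr ⟨l.2, h, NeZero.ne M₀⟩
  have hnotL : ∀ l : Nat.Primes, ¬ (l : ℕ) ∣ M' → ¬ (l : ℕ) ∣ M₀ → ¬ (l : ℕ) ∣ L :=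
    fun l h1 h2 h => (l.2.dvd_mul.mp h).elim h1 h2
  -- the reference of level `L`
  have href : ∀ l : Nat.Primes, (l : ℕ) ∉ badList B' p →
      formOp L l (resLe hd1 g₀) = μ l • resLe hd1 g₀ := by
    intro l hl
    have hlM' : ¬ (l : ℕ) ∣ M' ∧ ¬ (l : ℕ) ∣ M₀ := by
      by_cases hlp : (l : ℕ) = p
      · rw [hlp]; exact ⟨hpM', hpM₀⟩
      · exact (hout l hl hlp).2
    rw [formOp_resLe hd1 l ⟨fun h => absurd h (hnotL l hlM'.1 hlM'.2), fun h => absurd h hlM'.1⟩,
      hg₀e l, resLe_smul]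
  -- the anemic form of level `L p`
  have hanem : ∀ l : Nat.Primes, (l : ℕ) ≠ p → (l : ℕ) ∉ badList B' p →
      formOp (L * p) l (resLe hd2 f₁) = μ l • resLe hd2 f₁ := by
    intro l hlp hl
    obtain ⟨hlB, hlM', hlM₀⟩ := hout l hl hlp
    have h1 : ¬ (l : ℕ) ∣ L * p := fun h => (l.2.dvd_mul.mp h).elim (hnotL l hlM' hlM₀)
      (fun h' => hlp ((Nat.prime_dvd_prime_iff_eq l.2 hp).mp h'))
    have h2 : ¬ (l : ℕ) ∣ M₀ * p := fun h => h1 (dvd_trans h hd2)
    rw [formOp_resLe hd2 l ⟨fun h => absurd h h1, fun h => absurd h h2⟩, hf₁e l, resLe_smul,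
      hμ l hlB]
  have hquad := quadratic_of_ref hp hpL (N := L * p) rfl (badList B' p) hls
    (notMem_badList B' p) μ (resLe hd1 g₀) (by rw [qCoeff_resLe]; exact hg₀1) href
    (resLe hd2 f₁) hanem
  -- `U_p` on the anemic form
  have hUp : formOp (L * p) (⟨p, hp⟩ : Nat.Primes) (resLe hd2 f₁)
      = θ (⟨p, hp⟩ : Nat.Primes) • resLe hd2 f₁ := by
    have h1 := formOp_resLe hd2 (⟨p, hp⟩ : Nat.Primes)
      ⟨fun _ => Dvd.intro_left M₀ rfl, fun _ => Dvd.intro_left L rfl⟩ f₁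
    exact h1.trans ((congrArg (resLe hd2) (hf₁e (⟨p, hp⟩ : Nat.Primes))).trans
      (resLe_smul hd2 _ _))
  rw [hUp, map_smul, hUp] at hquad
  set u : ℂ := θ (⟨p, hp⟩ : Nat.Primes) with hu'
  set a : ℂ := μ (⟨p, hp⟩ : Nat.Primes) with ha'
  have hne : resLe hd2 f₁ ≠ 0 := by
    intro h
    apply ha
    rw [← qCoeff_resLe hd2 f₁ 1, h]
    exact Deplete.qCoeff_zero' 1
  have hscal : (u * u - a * u + (p : ℂ)) • resLe hd2 f₁ = 0 := by
    rw [← hquad, add_smul, sub_smul, mul_smul, mul_smul]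
  have h0 : u * u - a * u + (p : ℂ) = 0 := by
    rcases smul_eq_zero.mp hscal with h | h
    · exact h
    · exact absurd h hne
  -- Petersson
  have hTp : CuspForm.heckeTLin 2 hp hpM' g₀ = a • g₀ := by
    rw [← formOp_of_not_dvd M' hp hpM']
    exact hg₀e _
  obtain ⟨hb1, hb2⟩ := Fermat.Agent.GB.B10N.HeckeBound.heckeT_eigenvalue_ne hp hpM' g₀ hg₀0 a hTp
  have hu1 : u = 1 ∨ u = -1 := by
    have : u ^ 2 = 1 ^ 2 := by rw [hu, one_pow]
    exact sq_eq_sq_iff_eq_or_eq_neg.mp this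
  rcases hu1 with h | h
  · rw [h] at h0
    exact hb1 (by linear_combination -h0)
  · rw [h] at h0
    exact hb2 (by linear_combination h0)

end Forms

/-! ### the reference class for an arbitrary embedding -/

section Tau

variable {N : ℕ} [NeZero N] {ι : Type*} [Fintype ι] [DecidableEq ι]
variable {O : Type*} [CommRing O] [IsDomain O] [CharZero O]
variable (K : Type*) [Field K] [Algebra O K] [IsFractionRing O K]
variable (F : Type*) [Field F] [Algebra (integralClosure ℤ O) F]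
  [IsFractionRing (integralClosure ℤ O) F]

include K F in
/-- a nonzero full eigenvector with coordinates in `O` gives a nonzero full eigenclass over `ℂ` for
the conjugate system `τ ∘ lam`, for EVERY injective `τ : integralClosure ℤ O →+* ℂ`. -/
theorem exists_class_tau (τ : integralClosure ℤ O →+* ℂ) (hτ : Function.Injective τ)
    (β : Module.Basis ι ℤ (Lam N)) (lam : Nat.Primes → O)
    (hint : ∀ l, IsIntegral ℤ (lam l)) (c₀ : ι → O) (hc₀ : c₀ ≠ 0)
    (hc₀e : ∀ l : Nat.Primes, ((latMat β l).map (Int.cast : ℤ → O)).mulVec c₀ = lam l • c₀) :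
    ∃ X₀ : Additive (Gamma0 N) →+ ℂ, X₀ ∈ parabolicHoms ℂ (Gamma0 N) ℂ ∧ X₀ ≠ 0 ∧
      ∀ l : Nat.Primes, cohGen N ℂ l X₀ = τ ⟨lam l, hint l⟩ • X₀ := by
  classical
  have hinj : Function.Injective
      ((algebraMap O K).comp (integralClosure ℤ O).val.toRingHom) :=
    (IsFractionRing.injective O K).comp Subtype.val_injective
  let φ : F →+* K := IsFractionRing.lift hinj
  letI : Algebra F K := φ.toAlgebra
  have hφ : ∀ r : integralClosure ℤ O,
      algebraMap F K (algebraMap (integralClosure ℤ O) F r) = algebraMap O K (r : O) :=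
    fun r => IsFractionRing.lift_algebraMap hinj r
  let σ : F →+* ℂ := IsFractionRing.lift hτ
  have hσ : ∀ r : integralClosure ℤ O, σ (algebraMap (integralClosure ℤ O) F r) = τ r :=
    fun r => IsFractionRing.lift_algebraMap hτ r
  set lamF : Nat.Primes → F := fun l => algebraMap (integralClosure ℤ O) F ⟨lam l, hint l⟩
    with hlamF
  obtain ⟨x₀, hx₀, hx₀e⟩ := exists_ne_zero_eigen (F := F) (K := K)
    (fun l : Nat.Primes => latMat β l) lamF (cK K c₀) (cK_ne_zero K hc₀)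
    (fun l => by
      rw [hφ]
      exact cK_eigen K _ _ _ (hc₀e l))
  have hz₀ : (fun i => σ (x₀ i)) ≠ 0 := by
    intro h
    apply hx₀
    funext i
    have := congrFun h i
    rw [Pi.zero_apply] at this ⊢
    exact σ.injective (this.trans (map_zero _).symm)
  refine ⟨toC β (fun i => σ (x₀ i)), toC_mem β _, toC_ne_zero β hz₀, fun l => ?_⟩
  have h1 := toC_eigen β _ l _ (map_eigen σ _ lamF x₀ hx₀e l)
  rwa [hσ] at h1

end Tau

/-! ### `NonOccAt` at `p` -/

section Main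

variable {N : ℕ} [NeZero N] {O : Type*} [CommRing O] [IsDomain O] [CharZero O]

/-- **`NonOccAt` at `p` from a `p`-new reference**: `N = M₀ p`, `p ∤ M₀`, `y₁ ≠ 0` a full eigenvector
of `O ⊗[ℤ] Lam N` with `lam p ^ 2 = 1`; then the anemic system of `y₁` (off any `B`) does not occur
at a level prime to `p`. -/
theorem nonOccAt_of_sq_eq_one {M₀ p : ℕ} (hp : p.Prime) (hN : N = M₀ * p) (hpM₀ : ¬ p ∣ M₀)
    (B : Finset ℕ) (lam : Nat.Primes → O) (y₁ : O ⊗[ℤ] Lam N) (hy₁ : y₁ ≠ 0)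
    (hy₁e : ∀ l : Nat.Primes, (latT N l).baseChange O y₁ = lam l • y₁)
    (hu : lam (⟨p, hp⟩ : Nat.Primes) ^ 2 = 1)
    (lam₀ : Nat.Primes → O) (hlam₀ : ∀ l : Nat.Primes, (l : ℕ) ∉ B → lam₀ l = lam l) :
    NonOccAt O B (⟨p, hp⟩ : Nat.Primes) lam₀ := by
  classical
  intro hint₀ τ hτ M' _ hpM' g hg
  subst hN
  have hM₀ : NeZero M₀ := ⟨fun h => NeZero.ne (M₀ * p) (by rw [h, zero_mul])⟩
  obtain ⟨ι, _, β, β', j, hj, hT'⟩ := exists_tensor_coords (M₀ * p) O
  have hc0 : crd β' y₁ ≠ 0 := crd_ne_zero β' hy₁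
  have hce : ∀ l : Nat.Primes,
      ((latMat β l).map (Int.cast : ℤ → O)).mulVec (crd β' y₁) = lam l • crd β' y₁ :=
    fun l => crd_eigen β β' j hj (fun l => (latT (M₀ * p) l).baseChange O) hT' l y₁ _ (hy₁e l)
  have hint : ∀ l, IsIntegral ℤ (lam l) :=
    fun l => integral_of_eigen (FractionRing O) (latMat β l) (crd β' y₁) hc0 (lam l) (hce l)
  obtain ⟨X₀, hX₀, hX₀0, hX₀e⟩ := exists_class_tau (FractionRing O)
    (FractionRing (integralClosure ℤ O)) τ hτ β lam hint (crd β' y₁) hc0 hce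
  obtain ⟨f₁, ha, hf₁e⟩ := exists_form_of_class (fun l => τ ⟨lam l, hint l⟩) X₀ hX₀ hX₀0 hX₀e
  refine eq_zero_of_sq_eq_one hp hpM₀ B (fun l => τ ⟨lam l, hint l⟩) f₁ ha hf₁e ?_ M' hpM' g
    (fun l hl => ?_)
  · have h1 : (⟨lam (⟨p, hp⟩ : Nat.Primes), hint _⟩ : integralClosure ℤ O) ^ 2 = 1 :=
      Subtype.ext (by simpa using hu)
    have h2 := congrArg τ h1
    rwa [map_pow, map_one] at h2
  · rw [hg l hl]
    congr 2
    exact Subtype.ext (hlam₀ l hl)

end Main

end Fermat.Agent.GE9.OldQ.Consumer
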