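/-
GATE-E / GE9-OLDQ (helper63) — O8-STAGE, file 3: **`hold` at a stage, flat case**.

`M` the minimal level, `Sg` the set of added primes (`q ∤ M`), `N = M ∏_{q ∈ Sg} q²` the level of
the stage, `S ⊇ Sg ∪ primes(M)` the bad set, `lam : Nat.Primes → O` the FULL system of a nonzero full
eigenvector `y₁ ∈ O ⊗[ℤ] Lam M` of the MINIMAL level (`Consumer.exists_full_system`), every bad prime
`b ∉ Sg` of type (G) (`b ∤ M`) or (R) (`b ∥ M` + `NonOccAt`).  `Lp ≤ O ⊗[ℤ] Lam N` a submodule stable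
under every `T'_l` on which the cofactors `T'_q² − lam q • T'_q + q` (`q ∈ Sg`) are injective (the
`𝔪`-primary part).  Then every ANEMIC eigenvector `x ∈ Lp` (off `S`, system `lam`) is a FULL
eigenvector for the stage system `stageLam Sg lam` (`0` on `Sg`, `lam` elsewhere):
`hold_stage` (level arithmetic done), `hold_stage_abs` (level arithmetic as hypotheses).
-/
import Mathlib
import Fermat.Agent.GE9.OldQ.Lower

set_option autoImplicit false
set_option linter.unusedSectionVars false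

open scoped MatrixGroups TensorProduct
open CongruenceSubgroup ModularCurve ModularCurve.Period CuspForm ModularFormClass

namespace Fermat.Agent.GE9.OldQ.Consumer

open Fermat.Agent.S16_helper49 Fermat.Agent.GJ.J2.Lat Fermat.Agent.GE9.Mult1
open Fermat.Agent.GM.End

section Anemic

variable {N : ℕ} [NeZero N] {O : Type*} [CommRing O]

/-- the base-changed Hecke operators commute. -/
theorem baseChange_latT_comm (l l' : Nat.Primes) (x : O ⊗[ℤ] Lam N) :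
    (latT N l).baseChange O ((latT N l').baseChange O x)
      = (latT N l').baseChange O ((latT N l).baseChange O x) := by
  have h : (latT N l) ∘ₗ (latT N l') = (latT N l') ∘ₗ (latT N l) := (latT_commute N l l').eq
  have h1 := congrArg (fun f : Lam N →ₗ[ℤ] Lam N => f.baseChange O x) h
  simpa only [LinearMap.baseChange_comp, LinearMap.comp_apply] using h1

/-- the anemic eigen-submodule. -/
def anemicSub (N : ℕ) [NeZero N] (O : Type*) [CommRing O] (B : Set ℕ) (lam : Nat.Primes → O) :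
    Submodule O (O ⊗[ℤ] Lam N) where
  carrier := {x | ∀ l : Nat.Primes, (l : ℕ) ∉ B → (latT N l).baseChange O x = lam l • x}
  zero_mem' := fun l _ => by rw [map_zero, smul_zero]
  add_mem' := fun {x y} hx hy l hl => by rw [map_add, hx l hl, hy l hl, smul_add]
  smul_mem' := fun c x hx l hl => by rw [map_smul, hx l hl, smul_comm]

theorem mem_anemicSub {B : Set ℕ} {lam : Nat.Primes → O} {x : O ⊗[ℤ] Lam N} :
    x ∈ anemicSub N O B lam ↔
      ∀ l : Nat.Primes, (l : ℕ) ∉ B → (latT N l).baseChange O x = lam l • x := Iff.rfl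

theorem latT_mem_anemicSub {B : Set ℕ} {lam : Nat.Primes → O} (b : Nat.Primes)
    {x : O ⊗[ℤ] Lam N} (hx : x ∈ anemicSub N O B lam) :
    (latT N b).baseChange O x ∈ anemicSub N O B lam := by
  intro l hl
  rw [baseChange_latT_comm, hx l hl, map_smul]

end Anemic

/-- the system of the stage: `0` on the added primes. -/
noncomputable def stageLam {O : Type*} [Zero O] (Sg : Finset ℕ) (lam : Nat.Primes → O) :
    Nat.Primes → O :=
  fun l => if (l : ℕ) ∈ Sg then 0 else lam l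

theorem stageLam_of_mem {O : Type*} [Zero O] {Sg : Finset ℕ} (lam : Nat.Primes → O)
    {l : Nat.Primes} (h : (l : ℕ) ∈ Sg) : stageLam Sg lam l = 0 := if_pos h

theorem stageLam_of_notMem {O : Type*} [Zero O] {Sg : Finset ℕ} (lam : Nat.Primes → O)
    {l : Nat.Primes} (h : (l : ℕ) ∉ Sg) : stageLam Sg lam l = lam l := if_neg h

section Hold

variable {M N : ℕ} [NeZero M] [NeZero N] {O : Type*} [CommRing O] [IsDomain O] [CharZero O]

/-- **`hold` at a stage, level arithmetic as hypotheses.** -/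
theorem hold_stage_abs (S Sg : Finset ℕ) (hMN : M ∣ N)
    (hNM : ∀ l : Nat.Primes, (l : ℕ) ∣ N → ¬ (l : ℕ) ∣ M → (l : ℕ) ∈ Sg)
    (hSgS : Sg ⊆ S)
    (hQ : ∀ q : Nat.Primes, (q : ℕ) ∈ Sg →
      ∃ M₀ : ℕ, N = M₀ * q * q ∧ ¬ (q : ℕ) ∣ M₀ ∧ M ∣ M₀)
    (lam : Nat.Primes → O) (y₁ : O ⊗[ℤ] Lam M) (hy₁ : y₁ ≠ 0)
    (hy₁e : ∀ l : Nat.Primes, (latT M l).baseChange O y₁ = lam l • y₁)
    (hbad : ∀ b : Nat.Primes, (b : ℕ) ∈ S → (b : ℕ) ∉ Sg →
      ¬ (b : ℕ) ∣ N ∨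
        ((∃ M₀ : ℕ, N = M₀ * b ∧ ¬ (b : ℕ) ∣ M₀) ∧ (b : ℕ) ∣ M ∧ NonOccAt O S b lam))
    (Lp : Submodule O (O ⊗[ℤ] Lam N))
    (hLp : ∀ l : Nat.Primes, ∀ x ∈ Lp, (latT N l).baseChange O x ∈ Lp)
    (hinj : ∀ q : Nat.Primes, (q : ℕ) ∈ Sg → ∀ y ∈ Lp,
      (latT N q).baseChange O ((latT N q).baseChange O y) - lam q • (latT N q).baseChange O y
        + ((q : ℕ) : O) • y = 0 → y = 0) :
    ∀ x ∈ Lp, (∀ l : Nat.Primes, (l : ℕ) ∉ S → (latT N l).baseChange O x = lam l • x) →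
      ∀ l : Nat.Primes, (latT N l).baseChange O x = stageLam Sg lam l • x := by
  classical
  intro x hxL hxe l
  have hB : ∀ l' : Nat.Primes, (l' : ℕ) ∣ N → ¬ (l' : ℕ) ∣ M → (l' : ℕ) ∈ S :=
    fun l' h1 h2 => hSgS (hNM l' h1 h2)
  by_cases hlSg : (l : ℕ) ∈ Sg
  · -- type (Q)
    rw [stageLam_of_mem lam hlSg, zero_smul]
    obtain ⟨M₀, hN, hlM₀, hMM₀⟩ := hQ l hlSg
    have hM₀0 : NeZero M₀ := ⟨fun h => (NeZero.ne N) (by rw [hN, h, zero_mul, zero_mul])⟩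
    have hB₀ : ∀ l' : Nat.Primes, (l' : ℕ) ∣ M₀ → ¬ (l' : ℕ) ∣ M → (l' : ℕ) ∈ S := by
      intro l' h1 h2
      refine hB l' ?_ h2
      rw [hN, mul_assoc]
      exact dvd_mul_of_dvd_left h1 _
    refine eigen_of_cub ((latT N l).baseChange O) (Lp ⊓ anemicSub N O (S : Set ℕ) lam)
      (fun y hy => ⟨hLp l y hy.1, latT_mem_anemicSub l hy.2⟩) (lam l) ((l : ℕ) : O)
      (fun y hy => cub_old2 S l hlM₀ hN hMM₀ hB₀ lam y₁ hy₁ hy₁e y
        (fun l' hl' => hy.2 l' (fun h => hl' (Finset.mem_coe.mp h))))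
      (fun y hy => hinj l hlSg y hy.1) x
      ⟨hxL, fun l' hl' => hxe l' (fun h => hl' (Finset.mem_coe.mpr h))⟩
  · rw [stageLam_of_notMem lam hlSg]
    by_cases hlS : (l : ℕ) ∈ S
    · rcases hbad l hlS hlSg with hlN | ⟨⟨M₀, hN, hlM₀⟩, hlM, hno⟩
      · -- type (G)
        exact eigen_good2 S l hlN hMN hB lam y₁ hy₁ hy₁e x hxe
      · -- type (R)
        have hM₀0 : NeZero M₀ := ⟨fun h => (NeZero.ne N) (by rw [hN, h, zero_mul])⟩
        exact eigen_new2 S l hlS hlM₀ hN hMN hlM hB lam y₁ hy₁ hy₁e hno x hxe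
    · exact hxe l hlS

/-- **`hold` at a stage**, `N = M ∏_{q ∈ Sg} q²`. -/
theorem hold_stage (S Sg : Finset ℕ) (hN : N = M * ∏ q ∈ Sg, q ^ 2)
    (hSg : ∀ q ∈ Sg, q.Prime ∧ ¬ q ∣ M) (hSgS : Sg ⊆ S)
    (lam : Nat.Primes → O) (y₁ : O ⊗[ℤ] Lam M) (hy₁ : y₁ ≠ 0)
    (hy₁e : ∀ l : Nat.Primes, (latT M l).baseChange O y₁ = lam l • y₁)
    (hbad : ∀ b : Nat.Primes, (b : ℕ) ∈ S → (b : ℕ) ∉ Sg →
      ¬ (b : ℕ) ∣ M ∨ ((b : ℕ) ∣ M ∧ ¬ (b : ℕ) ^ 2 ∣ M ∧ NonOccAt O S b lam))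
    (Lp : Submodule O (O ⊗[ℤ] Lam N))
    (hLp : ∀ l : Nat.Primes, ∀ x ∈ Lp, (latT N l).baseChange O x ∈ Lp)
    (hinj : ∀ q : Nat.Primes, (q : ℕ) ∈ Sg → ∀ y ∈ Lp,
      (latT N q).baseChange O ((latT N q).baseChange O y) - lam q • (latT N q).baseChange O y
        + ((q : ℕ) : O) • y = 0 → y = 0) :
    ∀ x ∈ Lp, (∀ l : Nat.Primes, (l : ℕ) ∉ S → (latT N l).baseChange O x = lam l • x) →
      ∀ l : Nat.Primes, (latT N l).baseChange O x = stageLam Sg lam l • x := by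
  classical
  -- primes of `N / M`
  have hNM : ∀ l : Nat.Primes, (l : ℕ) ∣ N → ¬ (l : ℕ) ∣ M → (l : ℕ) ∈ Sg := by
    intro l hlN hlM
    rw [hN] at hlN
    rcases (Nat.Prime.dvd_mul l.2).mp hlN with h | h
    · exact absurd h hlM
    · obtain ⟨q, hq, hlq⟩ := (Prime.dvd_finsetProd_iff l.2.prime _).mp h
      have h2 : (l : ℕ) ∣ q := l.2.dvd_of_dvd_pow hlq
      have h3 : (l : ℕ) = q := (Nat.prime_dvd_prime_iff_eq l.2 (hSg q hq).1).mp h2
      rw [h3]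
      exact hq
  have hprod : ∀ b : Nat.Primes, (b : ℕ) ∉ Sg → ∀ T : Finset ℕ, T ⊆ Sg →
      ¬ (b : ℕ) ∣ ∏ q ∈ T, q ^ 2 := by
    intro b hb T hT h
    obtain ⟨q, hq, hbq⟩ := (Prime.dvd_finsetProd_iff b.2.prime _).mp h
    have h2 : (b : ℕ) ∣ q := b.2.dvd_of_dvd_pow hbq
    have h3 : (b : ℕ) = q := (Nat.prime_dvd_prime_iff_eq b.2 (hSg q (hT hq)).1).mp h2
    exact hb (h3 ▸ hT hq)
  refine hold_stage_abs S Sg (hN ▸ dvd_mul_right M _) hNM hSgS ?_ lam y₁ hy₁ hy₁e ?_ Lp hLp hinj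
  · intro q hq
    refine ⟨M * ∏ q' ∈ Sg.erase (q : ℕ), q' ^ 2, ?_, ?_, dvd_mul_right M _⟩
    · rw [hN, ← Finset.mul_prod_erase Sg (fun q' => q' ^ 2) hq]
      ring
    · intro h
      rcases (Nat.Prime.dvd_mul q.2).mp h with h | h
      · exact (hSg q hq).2 h
      · obtain ⟨q', hq', hqq'⟩ := (Prime.dvd_finsetProd_iff q.2.prime _).mp h
        have h2 : (q : ℕ) ∣ q' := q.2.dvd_of_dvd_pow hqq'
        have h3 : (q : ℕ) = q' :=
          (Nat.prime_dvd_prime_iff_eq q.2 (hSg q' (Finset.mem_of_mem_erase hq')).1).mp h2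
        exact (Finset.ne_of_mem_erase hq') h3.symm
  · intro b hbS hbSg
    rcases hbad b hbS hbSg with hbM | ⟨hbM, hb2, hno⟩
    · left
      intro hbN
      exact hbSg (hNM b hbN hbM)
    · right
      obtain ⟨M', hM'⟩ := hbM
      refine ⟨⟨M' * ∏ q ∈ Sg, q ^ 2, ?_, ?_⟩, ⟨M', hM'⟩, hno⟩
      · rw [hN, hM']
        ring
      · intro h
        rcases (Nat.Prime.dvd_mul b.2).mp h with h | h
        · apply hb2
          rw [hM', pow_two]
          exact mul_dvd_mul_left _ h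
        · exact hprod b hbSg Sg (Finset.Subset.refl _) h

end Hold

end Fermat.Agent.GE9.OldQ.Consumer
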