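/-
GATE-E / GE9-OLDQ (helper63) — **`hold` at a stage, strict-ordinary (`p`-new) case, and `hold` from
`U_q = 0`**.

* `inj_of_uq_zero` : if `U_q = 0` on `Lp` (e.g. `UqLoc.uq_eq_zero_of_mem_locPart`), the cofactor
  hypothesis `hinj` of `hold_stage` holds trivially (`q • y = 0 ⟹ y = 0`);
* `hold_stage_uq` : `hold_stage` with `hinj` replaced by `hU : ∀ q ∈ Sg, ∀ y ∈ Lp, U_q y = 0`;
* **`hold_stage_pnew`** : minimal level `M p`, `p ∤ M`, reference `y₁` a full eigenvector of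
  `O ⊗ Lam (M p)` with `lam p ^ 2 = 1` (`p`-new): the type (R) hypothesis at `b = p` is discharged by
  `nonOccAt_of_sq_eq_one`; the other bad primes as in `hold_stage`;
* `hold_stage_pnew_uq` : both.
-/
import Mathlib
import Fermat.Agent.GE9.OldQ.HoldStage
import Fermat.Agent.GE9.OldQ.NonOccNew

set_option autoImplicit false
set_option linter.unusedSectionVars false

open scoped MatrixGroups TensorProduct
open CongruenceSubgroup ModularCurve ModularCurve.Period CuspForm ModularFormClass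

namespace Fermat.Agent.GE9.OldQ.Consumer

open Fermat.Agent.S16_helper49 Fermat.Agent.GJ.J2.Lat Fermat.Agent.GE9.Mult1
open Fermat.Agent.GM.End

section Inj

variable {N : ℕ} [NeZero N] {O : Type*} [CommRing O] [IsDomain O] [CharZero O]

/-- `n • y = 0`, `n ≠ 0` ⟹ `y = 0` in `O ⊗[ℤ] Lam N`. -/
theorem eq_zero_of_natCast_smul_eq_zero {n : ℕ} (hn : n ≠ 0) (y : O ⊗[ℤ] Lam N)
    (h : ((n : ℕ) : O) • y = 0) : y = 0 := by
  classical
  obtain ⟨ι, _, β, β', j, hj, hT'⟩ := exists_tensor_coords N O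
  apply (crd β').injective
  rw [map_zero]
  have h1 := congrArg (crd β') h
  rw [map_smul, map_zero] at h1
  funext i
  have h2 := congrFun h1 i
  rw [Pi.smul_apply, smul_eq_mul, Pi.zero_apply] at h2
  rcases mul_eq_zero.mp h2 with h3 | h3
  · exact absurd h3 (Nat.cast_ne_zero.mpr hn)
  · exact h3

/-- `U_q = 0` on `Lp` makes the cofactor `U_q² − a U_q + q` injective on `Lp`. -/
theorem inj_of_uq_zero (q : Nat.Primes) (a : O) (Lp : Submodule O (O ⊗[ℤ] Lam N))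
    (hU : ∀ y ∈ Lp, (latT N q).baseChange O y = 0) :
    ∀ y ∈ Lp,
      (latT N q).baseChange O ((latT N q).baseChange O y) - a • (latT N q).baseChange O y
        + ((q : ℕ) : O) • y = 0 → y = 0 := by
  intro y hy h
  rw [hU y hy, map_zero, smul_zero, sub_zero, zero_add] at h
  exact eq_zero_of_natCast_smul_eq_zero q.2.ne_zero y h

end Inj

section Hold

variable {M N : ℕ} [NeZero M] [NeZero N] {O : Type*} [CommRing O] [IsDomain O] [CharZero O]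

/-- **`hold` at a stage from `U_q = 0` on `Lp`** (`q ∈ Sg`). -/
theorem hold_stage_uq (S Sg : Finset ℕ) (hN : N = M * ∏ q ∈ Sg, q ^ 2)
    (hSg : ∀ q ∈ Sg, q.Prime ∧ ¬ q ∣ M) (hSgS : Sg ⊆ S)
    (lam : Nat.Primes → O) (y₁ : O ⊗[ℤ] Lam M) (hy₁ : y₁ ≠ 0)
    (hy₁e : ∀ l : Nat.Primes, (latT M l).baseChange O y₁ = lam l • y₁)
    (hbad : ∀ b : Nat.Primes, (b : ℕ) ∈ S → (b : ℕ) ∉ Sg →
      ¬ (b : ℕ) ∣ M ∨ ((b : ℕ) ∣ M ∧ ¬ (b : ℕ) ^ 2 ∣ M ∧ NonOccAt O S b lam))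
    (Lp : Submodule O (O ⊗[ℤ] Lam N))
    (hLp : ∀ l : Nat.Primes, ∀ x ∈ Lp, (latT N l).baseChange O x ∈ Lp)
    (hU : ∀ q : Nat.Primes, (q : ℕ) ∈ Sg → ∀ y ∈ Lp, (latT N q).baseChange O y = 0) :
    ∀ x ∈ Lp, (∀ l : Nat.Primes, (l : ℕ) ∉ S → (latT N l).baseChange O x = lam l • x) →
      ∀ l : Nat.Primes, (latT N l).baseChange O x = stageLam Sg lam l • x :=
  hold_stage S Sg hN hSg hSgS lam y₁ hy₁ hy₁e hbad Lp hLp
    (fun q hq => inj_of_uq_zero q (lam q) Lp (hU q hq))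

end Hold

section New

variable {M p N : ℕ} [NeZero (M * p)] [NeZero N] {O : Type*} [CommRing O] [IsDomain O]
  [CharZero O]

/-- **`hold` at a stage, `p`-new case**: minimal level `M p`, `p ∤ M`, `lam p ^ 2 = 1`. -/
theorem hold_stage_pnew (hp : p.Prime) (hpM : ¬ p ∣ M) (S Sg : Finset ℕ)
    (hN : N = M * p * ∏ q ∈ Sg, q ^ 2)
    (hSg : ∀ q ∈ Sg, q.Prime ∧ ¬ q ∣ M * p) (hSgS : Sg ⊆ S)
    (lam : Nat.Primes → O) (y₁ : O ⊗[ℤ] Lam (M * p)) (hy₁ : y₁ ≠ 0)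
    (hy₁e : ∀ l : Nat.Primes, (latT (M * p) l).baseChange O y₁ = lam l • y₁)
    (hu : lam (⟨p, hp⟩ : Nat.Primes) ^ 2 = 1)
    (hbad : ∀ b : Nat.Primes, (b : ℕ) ∈ S → (b : ℕ) ∉ Sg → (b : ℕ) ≠ p →
      ¬ (b : ℕ) ∣ M ∨ ((b : ℕ) ∣ M ∧ ¬ (b : ℕ) ^ 2 ∣ M ∧ NonOccAt O S b lam))
    (Lp : Submodule O (O ⊗[ℤ] Lam N))
    (hLp : ∀ l : Nat.Primes, ∀ x ∈ Lp, (latT N l).baseChange O x ∈ Lp)
    (hinj : ∀ q : Nat.Primes, (q : ℕ) ∈ Sg → ∀ y ∈ Lp,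
      (latT N q).baseChange O ((latT N q).baseChange O y) - lam q • (latT N q).baseChange O y
        + ((q : ℕ) : O) • y = 0 → y = 0) :
    ∀ x ∈ Lp, (∀ l : Nat.Primes, (l : ℕ) ∉ S → (latT N l).baseChange O x = lam l • x) →
      ∀ l : Nat.Primes, (latT N l).baseChange O x = stageLam Sg lam l • x := by
  refine hold_stage S Sg hN hSg hSgS lam y₁ hy₁ hy₁e (fun b hbS hbSg => ?_) Lp hLp hinj
  by_cases hbp : (b : ℕ) = p
  · -- type (R) at `p`, from the reference itself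
    have hb : b = (⟨p, hp⟩ : Nat.Primes) := Subtype.ext hbp
    refine Or.inr ⟨hbp ▸ Dvd.intro_left M rfl, ?_, ?_⟩
    · rw [hbp]
      intro h
      rw [pow_two] at h
      exact hpM ((Nat.mul_dvd_mul_iff_right hp.pos).mp h)
    · rw [hb]
      exact nonOccAt_of_sq_eq_one hp rfl hpM S lam y₁ hy₁ hy₁e hu lam (fun _ _ => rfl)
  · have hcop : Nat.Coprime (b : ℕ) p := (Nat.coprime_primes b.2 hp).mpr hbp
    rcases hbad b hbS hbSg hbp with h | ⟨h1, h2, h3⟩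
    · exact Or.inl fun h' => h (hcop.dvd_of_dvd_mul_right h')
    · refine Or.inr ⟨Dvd.dvd.mul_right h1 p, fun h' => h2 ?_, h3⟩
      exact (Nat.Coprime.pow_left 2 hcop).dvd_of_dvd_mul_right h'

/-- **`hold` at a stage, `p`-new case, from `U_q = 0` on `Lp`.** -/
theorem hold_stage_pnew_uq (hp : p.Prime) (hpM : ¬ p ∣ M) (S Sg : Finset ℕ)
    (hN : N = M * p * ∏ q ∈ Sg, q ^ 2)
    (hSg : ∀ q ∈ Sg, q.Prime ∧ ¬ q ∣ M * p) (hSgS : Sg ⊆ S)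
    (lam : Nat.Primes → O) (y₁ : O ⊗[ℤ] Lam (M * p)) (hy₁ : y₁ ≠ 0)
    (hy₁e : ∀ l : Nat.Primes, (latT (M * p) l).baseChange O y₁ = lam l • y₁)
    (hu : lam (⟨p, hp⟩ : Nat.Primes) ^ 2 = 1)
    (hbad : ∀ b : Nat.Primes, (b : ℕ) ∈ S → (b : ℕ) ∉ Sg → (b : ℕ) ≠ p →
      ¬ (b : ℕ) ∣ M ∨ ((b : ℕ) ∣ M ∧ ¬ (b : ℕ) ^ 2 ∣ M ∧ NonOccAt O S b lam))
    (Lp : Submodule O (O ⊗[ℤ] Lam N))
    (hLp : ∀ l : Nat.Primes, ∀ x ∈ Lp, (latT N l).baseChange O x ∈ Lp)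
    (hU : ∀ q : Nat.Primes, (q : ℕ) ∈ Sg → ∀ y ∈ Lp, (latT N q).baseChange O y = 0) :
    ∀ x ∈ Lp, (∀ l : Nat.Primes, (l : ℕ) ∉ S → (latT N l).baseChange O x = lam l • x) →
      ∀ l : Nat.Primes, (latT N l).baseChange O x = stageLam Sg lam l • x :=
  hold_stage_pnew hp hpM S Sg hN hSg hSgS lam y₁ hy₁ hy₁e hu hbad Lp hLp
    (fun q hq => inj_of_uq_zero q (lam q) Lp (hU q hq))

end New

end Fermat.Agent.GE9.OldQ.Consumer
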