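/-
GATE-E / GE9-OLDQ (helper63) — leaf **CQNE-O** (helper2 7653): Wiles' local factor
`c_q = (q − 1)((1 + q)² − a_q²)` is non-zero in ANY characteristic-zero domain `O` carrying a
nonzero FULL eigenvector `y ∈ O ⊗[ℤ] Lam N` with system `lam`, for a prime `q ∤ N` and
`a_q = lam q`.  No ring hom `O → ℂ` is needed: the eigenvalues are integral over `ℤ`
(`Consumer.integral_of_eigen`), the integral closure of `ℤ` in `O` embeds into `ℂ`
(`Consumer.tau`), the conjugate system occurs on a nonzero cusp form (`Consumer.exists_class` +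
`CohShapes.exists_form_of_class`), and `GB.B10N.HeckeBound.heckeT_eigenvalue_ne` (Petersson) gives
`τ(lam q) ≠ ±(q + 1)`.

* `eigenvalue_ne_of_class` : ℂ-side, from a nonzero parabolic full eigenclass;
* `lam_sq_ne` : `lam q ^ 2 ≠ (1 + q) ^ 2` in `O`;
* `cq_ne_zero_of_eigen` : the `hc` binder of `GE9/Eta/Chain.etaStage_lev`.
-/
import Mathlib
import Fermat.Agent.GE9.OldQ.Lower
import Fermat.Agent.GB.B10N.HeckeBound

set_option autoImplicit false
set_option linter.unusedSectionVars false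

open scoped MatrixGroups TensorProduct
open CongruenceSubgroup ModularCurve ModularCurve.Period CuspForm ModularFormClass

namespace Fermat.Agent.GE9.OldQ.CqNeO

open Fermat.Agent.S16_helper49 Fermat.Agent.GJ.J2.Lat Fermat.Agent.GE9.Mult1
open Fermat.Agent.GE9.OldQ.Transfer Fermat.Agent.GM.End Fermat.Agent.GE9.OldQ.Consumer

variable {N : ℕ} [NeZero N]

/-- ℂ-side: the `T_q`-eigenvalue of a nonzero parabolic full eigenclass, `q ∤ N`, is not
`±(q + 1)`. -/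
theorem eigenvalue_ne_of_class (lam : Nat.Primes → ℂ) (X₀ : Additive (Gamma0 N) →+ ℂ)
    (hX₀ : X₀ ∈ parabolicHoms ℂ (Gamma0 N) ℂ) (hX₀0 : X₀ ≠ 0)
    (hX₀e : ∀ l : Nat.Primes, cohGen N ℂ l X₀ = lam l • X₀)
    {q : ℕ} (hq : q.Prime) (hqN : ¬ q ∣ N) :
    lam ⟨q, hq⟩ ≠ (q : ℂ) + 1 ∧ lam ⟨q, hq⟩ ≠ -((q : ℂ) + 1) := by
  obtain ⟨f₀, hf₀1, hf₀e⟩ :=
    Fermat.Agent.GE9.OldQ.Consumer.exists_form_of_class lam X₀ hX₀ hX₀0 hX₀e
  have hf₀ : f₀ ≠ 0 := by
    rintro rfl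
    exact hf₀1 (Fermat.Agent.GE9.OldQ.Deplete.qCoeff_zero' 1)
  have h1 := hf₀e ⟨q, hq⟩
  rw [formOp_of_not_dvd N hq hqN] at h1
  exact Fermat.Agent.GB.B10N.HeckeBound.heckeT_eigenvalue_ne hq hqN f₀ hf₀ _ h1

variable {O : Type*} [CommRing O] [IsDomain O] [CharZero O]

section Gen

variable (K : Type*) [Field K] [Algebra O K] [IsFractionRing O K] [CharZero K]

include K in
/-- `lam q ^ 2 ≠ (1 + q) ^ 2`, generic fraction field. -/
theorem lam_sq_ne_aux (lam : Nat.Primes → O) (y : O ⊗[ℤ] Lam N) (hy : y ≠ 0)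
    (hye : ∀ l : Nat.Primes, (latT N l).baseChange O y = lam l • y)
    {q : ℕ} (hq : q.Prime) (hqN : ¬ q ∣ N) :
    lam ⟨q, hq⟩ ^ 2 ≠ (1 + (q : O)) ^ 2 := by
  classical
  obtain ⟨ι, _, β, β', j, hj, hT'⟩ := exists_tensor_coords N O
  have hc0 : crd β' y ≠ 0 := crd_ne_zero β' hy
  have hce : ∀ l : Nat.Primes,
      ((latMat β l).map (Int.cast : ℤ → O)).mulVec (crd β' y) = lam l • crd β' y :=
    fun l => crd_eigen β β' j hj (fun l => (latT N l).baseChange O) hT' l y _ (hye l)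
  have hint : ∀ l, IsIntegral ℤ (lam l) :=
    fun l => integral_of_eigen K (latMat β l) (crd β' y) hc0 (lam l) (hce l)
  obtain ⟨X₀, hX₀, hX₀0, hX₀e⟩ := exists_class K β lam hint (crd β' y) hc0 hce
  obtain ⟨h1, h2⟩ := eigenvalue_ne_of_class (fun l => tau O K ⟨lam l, hint l⟩) X₀ hX₀ hX₀0 hX₀e
    hq hqN
  intro h
  -- push the equation into `ℂ` through `tau`
  have h3 : (⟨lam ⟨q, hq⟩, hint ⟨q, hq⟩⟩ : integralClosure ℤ O) ^ 2
      = (1 + (q : integralClosure ℤ O)) ^ 2 := by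
    apply Subtype.ext
    simpa using h
  have h4 := congrArg (tau O K) h3
  simp only [map_pow, map_add, map_one, map_natCast] at h4
  rcases sq_eq_sq_iff_eq_or_eq_neg.1 h4 with h5 | h5
  · exact h1 (by rw [h5]; ring)
  · exact h2 (by rw [h5]; ring)

end Gen

/-- **`lam q ^ 2 ≠ (1 + q) ^ 2`** for the system of a nonzero full eigenvector of `O ⊗[ℤ] Lam N`,
`q ∤ N`. -/
theorem lam_sq_ne (lam : Nat.Primes → O) (y : O ⊗[ℤ] Lam N) (hy : y ≠ 0)
    (hye : ∀ l : Nat.Primes, (latT N l).baseChange O y = lam l • y)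
    {q : ℕ} (hq : q.Prime) (hqN : ¬ q ∣ N) :
    lam ⟨q, hq⟩ ^ 2 ≠ (1 + (q : O)) ^ 2 :=
  lam_sq_ne_aux (FractionRing O) lam y hy hye hq hqN

/-- **CQNE-O**: Wiles' factor `c_q = (q − 1)((1 + q)² − lam q²)` is non-zero in `O`. -/
theorem cq_ne_zero_of_eigen (lam : Nat.Primes → O) (y : O ⊗[ℤ] Lam N) (hy : y ≠ 0)
    (hye : ∀ l : Nat.Primes, (latT N l).baseChange O y = lam l • y)
    (q : ℕ) (hq : q.Prime) (hqN : ¬ q ∣ N) :
    ((q : O) - 1) * ((1 + (q : O)) ^ 2 - lam ⟨q, hq⟩ ^ 2) ≠ 0 := by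
  intro h0
  rcases mul_eq_zero.1 h0 with h1 | h1
  · have h2 : (q : O) = ((1 : ℕ) : O) := by
      rw [Nat.cast_one]
      exact sub_eq_zero.1 h1
    exact hq.one_lt.ne' (Nat.cast_injective h2)
  · exact lam_sq_ne lam y hy hye hq hqN (sub_eq_zero.1 h1).symm

end Fermat.Agent.GE9.OldQ.CqNeO
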