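/-
GATE-E / GE9-OLDQ, SO(a) add-on (helper81): **the base case with ONE bad prime `r` treated LAST, its
non-occurrence hypothesis at the SINGLE level `N / r`** (two-step variant of
`Consumer.exists_full_system`).

Why: for a bad prime `r ∥ N` where `ρ̄` is NOT known to be ramified (`r = p` in the strict-ordinary
case (a): `p ∥ M`, `ρ̄` not modular of level `M / p`), `Consumer.NonOccAt O B r lam₀` — non-occurrence
at EVERY level prime to `r` — is not available: the only input is `¬ ResMod p (M / p)` + level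
lowering on cube-free levels.  But if `r` is treated after all the other bad primes (types (G)/(R)
with `ρ̄` ramified), the anemic vectors are already eigenvectors for every `l ≠ r`, the depletion list
of the (R) argument is EMPTY, and the non-occurrence is only used at the level `M₀ = N / r` itself.

* `NonOccAtLvl O B lam₀ M'` : no nonzero cusp form of level `M'` is anemic (off `B`) for a conjugate
  of `lam₀`;
* `lin_of_form_R_lvl`, `base_one_lvl` : the (R) step with the level-specific hypothesis;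
* `badList_singleton` ;
* **`base_core_lvl`**, **`exists_full_system_lvl`** : conclusion of `Consumer.exists_full_system`
  VERBATIM.
-/
import Mathlib
import Fermat.Agent.GE9.OldQ.Base

set_option autoImplicit false
set_option linter.unusedSectionVars false

open scoped MatrixGroups TensorProduct
open CongruenceSubgroup ModularCurve ModularCurve.Period CuspForm ModularFormClass

namespace Fermat.Agent.GE9.OldQ.BaseLvl

open Fermat.Agent.S16_helper49 Fermat.Agent.GJ.J2.Lat Fermat.Agent.GE9.Mult1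
open Fermat.Agent.GE9.OldQ.Transfer Fermat.Agent.GM.End Fermat.Agent.GE9.OldQ.Consumer
open Fermat.Agent.GE9.OldQ.Deplete

/-- **non-occurrence at ONE level**: for every embedding `τ` of the algebraic integers of `O` into
`ℂ`, no nonzero cusp form of level `M'` is an anemic eigenvector (off `B`) for `τ ∘ lam₀`. -/
def NonOccAtLvl (O : Type*) [CommRing O] (B : Finset ℕ) (lam₀ : Nat.Primes → O) (M' : ℕ)
    [NeZero M'] : Prop :=
  ∀ (hint₀ : ∀ l : Nat.Primes, (l : ℕ) ∉ B → IsIntegral ℤ (lam₀ l))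
    (τ : integralClosure ℤ O →+* ℂ), Function.Injective τ →
    ∀ g : CuspForm (Gamma0 M') 2,
      (∀ (l : Nat.Primes) (hl : (l : ℕ) ∉ B), formOp M' l g = τ ⟨lam₀ l, hint₀ l hl⟩ • g) → g = 0

/-- `NonOccAt` (all levels prime to `b`) gives `NonOccAtLvl` at each of them. -/
theorem nonOccAtLvl_of_nonOccAt {O : Type*} [CommRing O] {B : Finset ℕ} {b : Nat.Primes}
    {lam₀ : Nat.Primes → O} (h : NonOccAt O B b lam₀) (M' : ℕ) [NeZero M']
    (hbM' : ¬ (b : ℕ) ∣ M') : NonOccAtLvl O B lam₀ M' :=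
  fun hint₀ τ hτ g hg => h hint₀ τ hτ M' hbM' g hg

theorem badList_singleton (r : ℕ) : badList {r} r = [] := by
  rw [badList, Finset.toList_eq_nil, Finset.filter_eq_empty_iff]
  intro l hl h
  exact h.2 (Finset.mem_singleton.mp hl)

section Coh

variable {N : ℕ} [NeZero N]

/-- **(R)** with a reference form, non-occurrence at the single level `M₀ * (badList B b).prod ^ 2`
(quantified over the levels EQUAL to it, so that the caller may rewrite the level). -/
theorem lin_of_form_R_lvl (B : Finset ℕ) (b : Nat.Primes) {M₀ : ℕ} [NeZero M₀]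
    (hbM : ¬ (b : ℕ) ∣ M₀) (hN : N = M₀ * b)
    (μ : Nat.Primes → ℂ) (f₀ : CuspForm (Gamma0 N) 2) (ha : qCoeff f₀ 1 ≠ 0)
    (hf₀e : ∀ l : Nat.Primes, formOp N l f₀ = μ l • f₀)
    (hnew : ∀ (M' : ℕ) [NeZero M'], M' = M₀ * (badList B b).prod ^ 2 →
      ∀ g : CuspForm (Gamma0 M') 2,
        (∀ l : Nat.Primes, (l : ℕ) ∉ B → formOp M' l g = μ l • g) → g = 0)
    (X : Additive (Gamma0 N) →+ ℂ) (hX : X ∈ parabolicHoms ℂ (Gamma0 N) ℂ)
    (hXe : ∀ l : Nat.Primes, (l : ℕ) ∉ B → cohGen N ℂ l X = μ l • X)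
    (hbB : (b : ℕ) ∈ B) :
    cohGen N ℂ b X = μ b • X := by
  have hls : ∀ l ∈ badList B b, l.Prime := fun l hl => prime_of_mem_badList hl
  have hNZ : NeZero (M₀ * (badList B b).prod ^ 2) := neZero_lvl M₀ (badList B b) hls
  exact Coh.coh_eigen_of_new b.2 (badList B b) μ hbM hN hls (notMem_badList B b)
    (fun g hg => hnew (M₀ * (badList B b).prod ^ 2) rfl g (fun l hl => by
      have hlb : (l : ℕ) ≠ b := fun h => hl (h ▸ hbB)
      rw [hg l hlb, lamD_of_not_mem μ
        (notMem_badList_of_notMem (fun h => hl (Finset.mem_coe.mp h)))]))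
    f₀ ha (fun l _ => hf₀e l) X hX
    (fun l hlb hl => hXe l (fun h => notMem_of_notMem_badList l hlb hl (Finset.mem_coe.mpr h)))

end Coh

section Core

variable {N : ℕ} [NeZero N] {ι : Type*} [Fintype ι] [DecidableEq ι]
variable {O : Type*} [CommRing O] [IsDomain O] [CharZero O] [IsIntegrallyClosed O]
variable (K : Type*) [Field K] [Algebra O K] [IsFractionRing O K] [CharZero K]

include K in
/-- one bad prime of type (R), non-occurrence at the single level `M₀ * (badList B b).prod ^ 2`. -/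
theorem base_one_lvl (B : Finset ℕ) (β : Module.Basis ι ℤ (Lam N)) (lam₀ : Nat.Primes → O)
    (c₁ : ι → O) (hc₁0 : c₁ ≠ 0)
    (hc₁ : ∀ l : Nat.Primes, (l : ℕ) ∉ B →
      ((latMat β l).map (Int.cast : ℤ → O)).mulVec c₁ = lam₀ l • c₁)
    (b : Nat.Primes) (hbB : (b : ℕ) ∈ B) {M₀ : ℕ} [NeZero M₀] (hbM : ¬ (b : ℕ) ∣ M₀)
    (hN : N = M₀ * b)
    (hno : ∀ (M' : ℕ) [NeZero M'], M' = M₀ * (badList B b).prod ^ 2 → NonOccAtLvl O B lam₀ M') :
    ∃ lamb : O, ∀ c : ι → O,
      (∀ l : Nat.Primes, (l : ℕ) ∉ B →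
        ((latMat β l).map (Int.cast : ℤ → O)).mulVec c = lam₀ l • c) →
      ((latMat β b).map (Int.cast : ℤ → O)).mulVec c = lamb • c := by
  classical
  have hint₀ : ∀ l : Nat.Primes, (l : ℕ) ∉ B → IsIntegral ℤ (lam₀ l) := fun l hl =>
    integral_of_eigen K (latMat β l) c₁ hc₁0 (lam₀ l) (hc₁ l hl)
  set lamF : {l : Nat.Primes // (l : ℕ) ∉ B} → FF K :=
    fun s => toF O K ⟨lam₀ s.1, hint₀ s.1 s.2⟩ with hlamF
  have hlamK : ∀ s, algebraMap (FF K) K (lamF s) = algebraMap O K (lam₀ s.1) := fun s => rfl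
  -- a nonzero anemic eigenvector over `F`
  obtain ⟨x, hx0, hxe⟩ := exists_ne_zero_eigen (F := FF K) (K := K)
    (fun s : {l : Nat.Primes // (l : ℕ) ∉ B} => latMat β s.1) lamF (cK K c₁) (cK_ne_zero K hc₁0)
    (fun s => by
      rw [hlamK]
      exact cK_eigen K _ _ _ (hc₁ s.1 s.2))
  -- the conjugate anemic system
  set μ₀ : Nat.Primes → ℂ := fun l =>
    if h : (l : ℕ) ∉ B then tau O K ⟨lam₀ l, hint₀ l h⟩ else 0 with hμ₀
  have hμ₀F : ∀ s : {l : Nat.Primes // (l : ℕ) ∉ B}, (sig K).toRingHom (lamF s) = μ₀ s.1 := by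
    intro s
    rw [hμ₀]
    simp only [dif_pos s.2]
    rfl
  -- the class of `σ ∘ x`
  have hz0 : (fun i => (sig K).toRingHom (x i)) ≠ 0 := by
    intro h
    apply hx0
    funext i
    have := congrFun h i
    rw [Pi.zero_apply] at this ⊢
    exact (sig K).toRingHom.injective (this.trans (map_zero _).symm)
  have hze := map_eigen (sig K).toRingHom _ lamF x hxe
  obtain ⟨μ, f₀, hμ, ha, hf₀e⟩ := exists_full_form B μ₀
    (toC β (fun i => (sig K).toRingHom (x i))) (toC_mem β _) (toC_ne_zero β hz0)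
    (fun l hl => by
      rw [← hμ₀F ⟨l, hl⟩]
      exact toC_eigen β _ l _ (hze ⟨l, hl⟩))
  -- the ℂ-side statement for `b`
  have hC : ∀ z : ι → ℂ,
      (∀ s : {l : Nat.Primes // (l : ℕ) ∉ B},
        ((latMat β s.1).map (Int.cast : ℤ → ℂ)).mulVec z = (sig K).toRingHom (lamF s) • z) →
      ((latMat β b).map (Int.cast : ℤ → ℂ)).mulVec z = μ b • z := by
    intro z hz
    have hXe : ∀ l : Nat.Primes, (l : ℕ) ∉ B → cohGen N ℂ l (toC β z) = μ l • toC β z := by
      intro l hl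
      rw [hμ l hl, ← hμ₀F ⟨l, hl⟩]
      exact toC_eigen β z l _ (hz ⟨l, hl⟩)
    apply eigen_of_toC β z b
    refine lin_of_form_R_lvl B b hbM hN μ f₀ ha hf₀e ?_ (toC β z) (toC_mem β z) hXe hbB
    intro M' _ hM' g hg
    refine hno M' hM' hint₀ (tau O K) (tau_injective O K) g (fun l hl => ?_)
    rw [hg l hl, hμ l hl, hμ₀]
    simp only [dif_pos hl]
  -- descent of `μ b`
  obtain ⟨m, -, hmint, hmK⟩ := exists_scalar (sig K).toRingHom
    (fun s : {l : Nat.Primes // (l : ℕ) ∉ B} => latMat β s.1) lamF (latMat β b) (μ b) hC x hx0 hxe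
  have hmO : IsIntegral O (algebraMap (FF K) K m) :=
    (hmint.algebraMap (B := K)).tower_top
  obtain ⟨lamb, hlamb⟩ := IsIntegrallyClosed.algebraMap_eq_of_integral hmO
  refine ⟨lamb, fun c hc => ?_⟩
  apply cK_injective K
  rw [cK_mulVec, cK_smul, hlamb]
  exact hmK K (cK K c) (fun s => by
    rw [hlamK]
    exact cK_eigen K _ _ _ (hc s.1 s.2))

include K in
/-- **the base case with `r` last, matrix form.** -/
theorem base_core_lvl (B : Finset ℕ) (β : Module.Basis ι ℤ (Lam N)) (lam₀ : Nat.Primes → O)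
    (r : Nat.Primes) (hrB : (r : ℕ) ∈ B) {M₀ : ℕ} [NeZero M₀] (hrM : ¬ (r : ℕ) ∣ M₀)
    (hN : N = M₀ * r)
    (htype : ∀ b : Nat.Primes, (b : ℕ) ∈ B → b ≠ r →
      ¬ (b : ℕ) ∣ N ∨ ((b : ℕ) ∣ N ∧ ¬ (b : ℕ) ^ 2 ∣ N ∧ NonOccAt O B b lam₀))
    (hr : NonOccAtLvl O B lam₀ M₀) :
    ∃ lam : Nat.Primes → O, (∀ l : Nat.Primes, (l : ℕ) ∉ B → lam l = lam₀ l) ∧
      ∀ c : ι → O,
        (∀ l : Nat.Primes, (l : ℕ) ∉ B →
          ((latMat β l).map (Int.cast : ℤ → O)).mulVec c = lam₀ l • c) →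
        ∀ l : Nat.Primes, ((latMat β l).map (Int.cast : ℤ → O)).mulVec c = lam l • c := by
  classical
  by_cases hne : ∃ c₁ : ι → O, c₁ ≠ 0 ∧ ∀ l : Nat.Primes, (l : ℕ) ∉ B →
      ((latMat β l).map (Int.cast : ℤ → O)).mulVec c₁ = lam₀ l • c₁
  · obtain ⟨c₁, hc₁0, hc₁⟩ := hne
    -- step 1: the bad primes other than `r`
    have hex : ∀ b : Nat.Primes, (b : ℕ) ∈ B ∧ b ≠ r → ∃ lamb : O, ∀ c : ι → O,
        (∀ l : Nat.Primes, (l : ℕ) ∉ B →
          ((latMat β l).map (Int.cast : ℤ → O)).mulVec c = lam₀ l • c) →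
        ((latMat β b).map (Int.cast : ℤ → O)).mulVec c = lamb • c :=
      fun b hb => base_one K B β lam₀ c₁ hc₁0 hc₁ b hb.1 (htype b hb.1 hb.2)
    set lam₁ : Nat.Primes → O :=
      fun l => if h : (l : ℕ) ∈ B ∧ l ≠ r then Classical.choose (hex l h) else lam₀ l with hlam₁
    have hlam₁off : ∀ l : Nat.Primes, (l : ℕ) ∉ B → lam₁ l = lam₀ l := fun l hl => by
      rw [hlam₁]
      exact dif_neg (fun h => hl h.1)
    have hstep1 : ∀ c : ι → O,
        (∀ l : Nat.Primes, (l : ℕ) ∉ B →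
          ((latMat β l).map (Int.cast : ℤ → O)).mulVec c = lam₀ l • c) →
        ∀ l : Nat.Primes, (l : ℕ) ∉ ({(r : ℕ)} : Finset ℕ) →
          ((latMat β l).map (Int.cast : ℤ → O)).mulVec c = lam₁ l • c := by
      intro c hc l hl
      have hlr : l ≠ r := fun h => hl (Finset.mem_singleton.mpr (congrArg Subtype.val h))
      by_cases h : (l : ℕ) ∈ B
      · rw [hlam₁]
        simp only [dif_pos (And.intro h hlr)]
        exact Classical.choose_spec (hex l ⟨h, hlr⟩) c hc
      · rw [hlam₁off l h]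
        exact hc l h
    -- step 2: `r`, with `B' = {r}`
    obtain ⟨lamr, hlamr⟩ := base_one_lvl K {(r : ℕ)} β lam₁ c₁ hc₁0 (hstep1 c₁ hc₁) r
      (Finset.mem_singleton_self _) hrM hN (by
        intro M' _ hM' hint₁ τ hτ g hg
        have hM'' : M' = M₀ := by
          rw [hM', badList_singleton, List.prod_nil, one_pow, mul_one]
        subst hM''
        refine hr (fun l hl => by rw [← hlam₁off l hl]; exact hint₁ l (fun h => hl
          ((Finset.mem_singleton.mp h) ▸ hrB))) τ hτ g (fun l hl => ?_)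
        have hl' : (l : ℕ) ∉ ({(r : ℕ)} : Finset ℕ) :=
          fun h => hl ((Finset.mem_singleton.mp h) ▸ hrB)
        rw [hg l hl']
        congr 2
        exact Subtype.ext (hlam₁off l hl))
    refine ⟨fun l => if l = r then lamr else lam₁ l, fun l hl => ?_, fun c hc l => ?_⟩
    · have hlr : l ≠ r := fun h => hl (h ▸ hrB)
      simp only [if_neg hlr]
      exact hlam₁off l hl
    · by_cases hlr : l = r
      · simp only [if_pos hlr]
        rw [hlr]
        exact hlamr c (hstep1 c hc)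
      · simp only [if_neg hlr]
        exact hstep1 c hc l (fun h => hlr (Subtype.ext (Finset.mem_singleton.mp h)))
  · refine ⟨lam₀, fun l _ => rfl, fun c hc l => ?_⟩
    have hc0 : c = 0 := by
      by_contra h0
      exact hne ⟨c, h0, hc⟩
    rw [hc0, Matrix.mulVec_zero, smul_zero]

end Core

section Tensor

variable {N : ℕ} [NeZero N] {O : Type*} [CommRing O] [IsDomain O] [CharZero O]
  [IsIntegrallyClosed O]

/-- **the base case for `O ⊗[ℤ] Lam N` with the bad prime `r ∥ N` treated last**: the types of the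
other bad primes as in `Consumer.exists_full_system`, and for `r` non-occurrence at the single level
`M₀ = N / r` (anemic off `B`). -/
theorem exists_full_system_lvl (B : Finset ℕ) (lam₀ : Nat.Primes → O)
    (r : Nat.Primes) (hrB : (r : ℕ) ∈ B) {M₀ : ℕ} [NeZero M₀] (hrM : ¬ (r : ℕ) ∣ M₀)
    (hN : N = M₀ * r)
    (htype : ∀ b : Nat.Primes, (b : ℕ) ∈ B → b ≠ r →
      ¬ (b : ℕ) ∣ N ∨ ((b : ℕ) ∣ N ∧ ¬ (b : ℕ) ^ 2 ∣ N ∧ NonOccAt O B b lam₀))
    (hr : NonOccAtLvl O B lam₀ M₀) :
    ∃ lam : Nat.Primes → O, (∀ l : Nat.Primes, (l : ℕ) ∉ B → lam l = lam₀ l) ∧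
      ∀ y : O ⊗[ℤ] Lam N,
        (∀ l : Nat.Primes, (l : ℕ) ∉ B → (latT N l).baseChange O y = lam₀ l • y) →
        ∀ l : Nat.Primes, (latT N l).baseChange O y = lam l • y := by
  classical
  have hfree : Module.Free ℤ (Lam N) := Fermat.Agent.GJ.J2.ZStruct.free_parabolicHoms_int N
  have hfin : Module.Finite ℤ (Lam N) := Fermat.Agent.GJ.J2.ZStruct.finite_parabolicHoms_int N
  let β := Module.Free.chooseBasis ℤ (Lam N)
  let β' := Algebra.TensorProduct.basis O β
  let j : Lam N →+ O ⊗[ℤ] Lam N := (TensorProduct.mk ℤ O (Lam N) 1).toAddMonoidHom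
  have hj : ∀ i, j (β i) = β' i := fun i => by
    show (1 : O) ⊗ₜ[ℤ] (β i) = Algebra.TensorProduct.basis O β i
    rw [Algebra.TensorProduct.basis_apply]
  have hT' : ∀ (l : Nat.Primes) (Φ : Lam N),
      (latT N l).baseChange O (j Φ) = j (latT N l Φ) := fun l Φ => by
    show (latT N l).baseChange O ((1 : O) ⊗ₜ[ℤ] Φ) = (1 : O) ⊗ₜ[ℤ] (latT N l Φ)
    rw [LinearMap.baseChange_tmul]
  obtain ⟨lam, hlam, hall⟩ := base_core_lvl (FractionRing O) B β lam₀ r hrB hrM hN htype hr
  refine ⟨lam, hlam, fun y hy l => ?_⟩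
  apply (crd β').injective
  rw [crd_T' β β' j hj (fun l => (latT N l).baseChange O) hT', map_smul]
  exact hall (crd β' y)
    (fun l' hl' => crd_eigen β β' j hj (fun l => (latT N l).baseChange O) hT' l' y _ (hy l' hl')) l

end Tensor

end Fermat.Agent.GE9.OldQ.BaseLvl
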