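/-
GATE-E / GE9-OLDQ (helper63) — O8a: **the abstract algebra of the consumer** (Mathlib only).

* `eq_smul_of_aeval_mul_eq_zero` : `T` an endomorphism of an `O`-module, `P'` a `T`-stable
  submodule on which `((X − λ) Ψ)(T) = 0` and `Ψ(T)` is injective  ⟹  `T = λ` on `P'`.
* `aeval_notMem_of_isUnit_eval` : `A` a commutative `O`-algebra, `𝔪 ≠ ⊤` an ideal, `t ∈ A` with
  `t − x ∈ 𝔪` (`x ∈ O`), `Ψ ∈ O[X]` with `Ψ(x) ∈ Oˣ`  ⟹  `Ψ(t) ∉ 𝔪`
  (so `Ψ(t)` acts bijectively on `locPart 𝔪 L`, `GB/B3/Loc.bijective_smul_locPart`).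
-/
import Mathlib

set_option autoImplicit false

namespace Fermat.Agent.GE9.OldQ

open Polynomial

variable {O : Type*} [CommRing O]

/-- `((X − λ) Ψ)(T) = 0` and `Ψ(T)` injective on a `T`-stable submodule ⟹ `T = λ` there. -/
theorem eq_smul_of_aeval_mul_eq_zero {M : Type*} [AddCommGroup M] [Module O M]
    (T : Module.End O M) (P' : Submodule O M) (hstab : ∀ y ∈ P', T y ∈ P')
    (lam : O) (Ψ : O[X])
    (hid : ∀ y ∈ P', aeval T ((X - C lam) * Ψ) y = 0)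
    (hinj : ∀ y ∈ P', aeval T Ψ y = 0 → y = 0) :
    ∀ y ∈ P', T y = lam • y := by
  intro y hy
  have hz : T y - lam • y ∈ P' := P'.sub_mem (hstab y hy) (P'.smul_mem lam hy)
  have h1 : aeval T Ψ (T y - lam • y) = 0 := by
    have h2 := hid y hy
    rw [mul_comm, map_mul, Module.End.mul_apply] at h2
    have h3 : aeval T (X - C lam) y = T y - lam • y := by
      rw [map_sub, aeval_X, aeval_C, LinearMap.sub_apply, Module.algebraMap_end_apply]
    rw [h3] at h2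
    exact h2
  exact sub_eq_zero.mp (hinj _ hz h1)

/-- `t ≡ x (mod 𝔪)` and `Ψ(x)` a unit ⟹ `Ψ(t) ∉ 𝔪`. -/
theorem aeval_notMem_of_isUnit_eval {A : Type*} [CommRing A] [Algebra O A] (𝔪 : Ideal A)
    (h𝔪 : 𝔪 ≠ ⊤) (t : A) (x : O) (ht : t - algebraMap O A x ∈ 𝔪) (Ψ : O[X])
    (hu : IsUnit (Ψ.eval x)) : aeval t Ψ ∉ 𝔪 := by
  intro hmem
  -- `Ψ(t) − Ψ(x) ∈ 𝔪`
  have h1 : aeval t Ψ - algebraMap O A (Ψ.eval x) ∈ 𝔪 := by
    have h2 : aeval (algebraMap O A x) Ψ = algebraMap O A (Ψ.eval x) := by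
      rw [aeval_algebraMap_apply, coe_aeval_eq_eval]
    rw [← h2]
    have h3 : t - algebraMap O A x ∣ aeval t Ψ - aeval (algebraMap O A x) Ψ := by
      have := Polynomial.sub_dvd_eval_sub t (algebraMap O A x) (Ψ.map (algebraMap O A))
      rwa [eval_map_algebraMap, eval_map_algebraMap] at this
    exact Ideal.mem_of_dvd _ h3 ht
  have h4 : algebraMap O A (Ψ.eval x) ∈ 𝔪 := by
    have := 𝔪.sub_mem hmem h1
    rwa [sub_sub_cancel] at this
  exact h𝔪 (Ideal.eq_top_of_isUnit_mem _ h4 (hu.map (algebraMap O A)))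

end Fermat.Agent.GE9.OldQ
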