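/-
GATE-E / GE9-OLDQ (helper63) — (UQ0), file 1: **the abstract algebra** (Mathlib only).

* `comp_mul_aeval_comp` : `U = r ∘ v`, `U₁ = v ∘ r`  ⟹  `U * g(U) = r ∘ g(U₁) ∘ v` for every polynomial.
* `exists_poly_of_factor` : if moreover `X₁` is finite free and `U₁ ∘ R = c` for some `R`, then
  `g := charpoly U₁` is monic, `g(0) ∣ c ^ rank` and `U * g(U) = 0`.
* `baseChange_mul_aeval_eq_zero` : the identity `U * g(U) = 0` over `ℤ` base-changes to any `O`.
* `eq_zero_of_mul_aeval_eq_zero` : `U g(U) = 0` on `X`, `L ≤ X` `U`-stable with `g(U)` injective on `L`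
  ⟹ `U = 0` on `L`.
-/
import Mathlib

set_option autoImplicit false

namespace Fermat.Agent.GE9.OldQ.UqPolyAbs

open Polynomial

section Factor

variable {R : Type*} [CommRing R] {X X₁ : Type*} [AddCommGroup X] [AddCommGroup X₁]
  [Module R X] [Module R X₁]

/-- `(r v) (r v)^n = r (v r)^n v` -/
theorem comp_mul_pow_comp (r : X₁ →ₗ[R] X) (v : X →ₗ[R] X₁) (n : ℕ) :
    (r ∘ₗ v) * (r ∘ₗ v) ^ n = r ∘ₗ ((v ∘ₗ r) ^ n) ∘ₗ v := by
  induction n with
  | zero =>
    rw [pow_zero, pow_zero, mul_one]
    rfl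
  | succ n ih =>
    rw [pow_succ, ← mul_assoc, ih, pow_succ]
    rfl

/-- `(r v) g(r v) = r g(v r) v` -/
theorem comp_mul_aeval_comp (r : X₁ →ₗ[R] X) (v : X →ₗ[R] X₁) (g : R[X]) :
    (r ∘ₗ v) * aeval (r ∘ₗ v) g = r ∘ₗ (aeval (v ∘ₗ r) g) ∘ₗ v := by
  induction g using Polynomial.induction_on' with
  | add p p' hp hp' =>
    rw [map_add, map_add, mul_add, hp, hp', LinearMap.add_comp, LinearMap.comp_add]
  | monomial n a =>
    rw [aeval_monomial, aeval_monomial, Algebra.left_comm, comp_mul_pow_comp]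
    ext x
    simp only [Module.End.mul_apply, LinearMap.comp_apply, Module.algebraMap_end_apply, map_smul]

variable [Module.Free R X₁] [Module.Finite R X₁]

/-- **the polynomial**: `U = r ∘ v`, `U₁ = v ∘ r`, `U₁ ∘ R' = c`  ⟹  `g := charpoly U₁` is monic,
`g(0) ∣ c ^ rank` and `U * g(U) = 0`. -/
theorem exists_poly_of_factor (r : X₁ →ₗ[R] X) (v : X →ₗ[R] X₁) (R' : X₁ →ₗ[R] X₁) (c : R)
    (hR : ∀ z, v (r (R' z)) = c • z) :
    ∃ g : R[X], g.Monic ∧ g.eval 0 ∣ c ^ Module.finrank R X₁ ∧
      (r ∘ₗ v) * aeval (r ∘ₗ v) g = 0 := by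
  refine ⟨(v ∘ₗ r).charpoly, LinearMap.charpoly_monic _, ?_, ?_⟩
  · have h1 : (v ∘ₗ r) ∘ₗ R' = c • (LinearMap.id : X₁ →ₗ[R] X₁) := by
      ext z
      exact hR z
    have h2 := congrArg LinearMap.det h1
    rw [LinearMap.det_comp, LinearMap.det_smul, LinearMap.det_id, mul_one,
      LinearMap.det_eq_sign_charpoly_coeff] at h2
    rw [← coeff_zero_eq_eval_zero, ← h2]
    exact ⟨(-1) ^ Module.finrank R X₁ * LinearMap.det R', by ring⟩
  · rw [comp_mul_aeval_comp, LinearMap.aeval_self_charpoly]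
    ext x
    simp

end Factor

section BaseChange

variable {X : Type*} [AddCommGroup X] (O : Type*) [CommRing O]

open TensorProduct

/-- `aeval` commutes with base change. -/
theorem aeval_baseChange (U : Module.End ℤ X) (g : ℤ[X]) :
    aeval (U.baseChange O) (g.map (algebraMap ℤ O)) = (aeval U g).baseChange O := by
  rw [aeval_map_algebraMap]
  induction g using Polynomial.induction_on' with
  | add p p' hp hp' => rw [map_add, map_add, hp, hp', LinearMap.baseChange_add]
  | monomial n a =>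
    rw [aeval_monomial, aeval_monomial]
    ext x
    simp only [TensorProduct.AlgebraTensorModule.curry_apply, TensorProduct.curry_apply,
      LinearMap.coe_restrictScalars, Module.End.mul_apply, LinearMap.baseChange_tmul,
      Module.algebraMap_end_apply]
    have hpow : ∀ (k : ℕ) (y : X), ((U.baseChange O) ^ k) ((1 : O) ⊗ₜ[ℤ] y)
        = (1 : O) ⊗ₜ[ℤ] ((U ^ k) y) := by
      intro k
      induction k with
      | zero => intro y; rfl
      | succ k ih =>
        intro y
        rw [pow_succ, Module.End.mul_apply, LinearMap.baseChange_tmul, ih, pow_succ,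
          Module.End.mul_apply]
    rw [hpow, TensorProduct.tmul_smul]

/-- the identity `U * g(U) = 0` base-changes. -/
theorem baseChange_mul_aeval_eq_zero (U : Module.End ℤ X) (g : ℤ[X])
    (h : U * aeval U g = 0) (y : O ⊗[ℤ] X) :
    U.baseChange O (aeval (U.baseChange O) (g.map (algebraMap ℤ O)) y) = 0 := by
  rw [aeval_baseChange, ← LinearMap.comp_apply, ← LinearMap.baseChange_comp]
  have h' : U ∘ₗ aeval U g = 0 := h
  rw [h', LinearMap.baseChange_zero, LinearMap.zero_apply]

end BaseChange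

section Kill

variable {O : Type*} [CommRing O] {X : Type*} [AddCommGroup X] [Module O X]

/-- `U g(U) = 0`, `L` a `U`-stable submodule on which `g(U)` is injective ⟹ `U = 0` on `L`. -/
theorem eq_zero_of_mul_aeval_eq_zero (U : Module.End O X) (g : O[X])
    (h : ∀ y, U (aeval U g y) = 0) (L : Submodule O X) (hstab : ∀ y ∈ L, U y ∈ L)
    (hinj : ∀ y ∈ L, aeval U g y = 0 → y = 0) : ∀ y ∈ L, U y = 0 := by
  intro y hy
  refine hinj (U y) (hstab y hy) ?_
  have hc : Commute (aeval U g) U := by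
    have := (Commute.all g (Polynomial.X : O[X])).map (aeval U)
    rwa [aeval_X] at this
  have h2 : aeval U g (U y) = U (aeval U g y) := by
    have := congrArg (fun f : Module.End O X => f y) hc.eq
    simpa only [Module.End.mul_apply] using this
  rw [h2, h]

end Kill

end Fermat.Agent.GE9.OldQ.UqPolyAbs
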