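/-
GATE-E / GE9-OLDQ (helper63) — (UQ0), file 2: **`U_q · g(U_q) = 0` on `Lam (M₀ q²)`**, `q ∤ M₀`, with
`g ∈ ℤ[X]` monic and `g(0) ∣ q ^ n` — a `χ`-free integral identity which makes `U_q` vanish on every
local part where `U_q` is in the maximal ideal and `q` is a unit (no oldform/newform trichotomy).

(A) `q ∣ M`: `U_q^{(M q)} = res ∘ v`, `v ∘ res = U_q^{(M)}`, `v := W_M ∘ cores2 ∘ W_{M q}`
    (Atkin–Lehner: `q² ∣ level ⟹ U_q` lowers the level).  `cohU_eq_fr'` is the twin of helper2's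
    `Fricke.cohU_eq_fr` with the composition order swapped: `U_q^{(M q)} = W ∘ res_δ ∘ cores2 ∘ W`.
(B) `q ∤ M₀`: `U_q^{(M₀ q)} ∘ R = q` on `Lam (M₀ q)`, `R := w res cores − q w` (helper37's
    `UT.cohU_eq`: `U = res cores_δ − w`).
(C) `g := charpoly (U_q^{(M₀ q)})` (`UqPolyAbs.exists_poly_of_factor`).

* `exists_uq_poly`, `exists_uq_poly_of_eq` : the identity over `ℤ`;
* `exists_uq_poly_tensor` : over `O ⊗[ℤ] Lam N`, `g(0)` a unit of `O` as soon as `q` is;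
* `uq_eq_zero_of_injective` : `U_q = 0` on every `U_q`-stable submodule on which `g(U_q)` is injective.
-/
import Mathlib
import Fermat.Agent.GE9.OldQ.UqPolyAbs
import Fermat.Agent.GE9.Fricke.Adjoint
import Fermat.Agent.GE9.Eta.Adj3.UT
import Fermat.Agent.GE9.Adj3.Main

set_option autoImplicit false
set_option linter.unusedSectionVars false
set_option linter.unnecessarySeqFocus false

open scoped MatrixGroups TensorProduct
open CongruenceSubgroup Matrix Matrix.SpecialLinearGroup ModularCurve.Period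
open P2MW.S_ModularForm_heckeT_slash_eq_self_of_mem_Gamma0.ModularForm.HeckeSlashInvariance
open P2MW.S_ModularForm_heckeT_slash_eq_self_of_mem_Gamma0.ModularForm
open Fermat.Agent.S16_helper49 Fermat.Agent.GM.Amalgam Fermat.Agent.GM.B Fermat.Agent.GM.Bridge
  Fermat.Agent.GM.PD Fermat.Agent.GJ.J2.Lat Fermat.Agent.GM.Asm Fermat.Agent.GM.B5
open Fermat.Agent.GM.Theta.Outer Fermat.Agent.GE9.Adj3 Fermat.Agent.GE9.Fricke

namespace Fermat.Agent.GE9.OldQ.UqPoly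

/-! ### (A) `U_q = W ∘ res_δ ∘ cores2 ∘ W` at level `M q`, `q ∣ M` -/

section V

variable {M q : ℕ} [NeZero M] [Fact q.Prime] [NeZero (M * q)]

/-- `t_j(M) δ = δ t_j(M q)` -/
theorem tRep_mul_dlt (j : ℕ) :
    embR (tRep M j) * dlt q = dlt q * embR (tRep (M * q) j) := by
  have hq : q ≠ 0 := (Fact.out : q.Prime).ne_zero
  ext a b
  simp only [Matrix.GeneralLinearGroup.coe_mul, Matrix.mul_apply, Fin.sum_univ_two]
  have e1 : ∀ (K : ℕ) (a b : Fin 2), (tRep K j : Matrix (Fin 2) (Fin 2) ℤ) a b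
      = (!![1, 0; (K : ℤ) * j, 1] : Matrix (Fin 2) (Fin 2) ℤ) a b := fun K a b => rfl
  fin_cases a <;> fin_cases b <;> simp [hq, e1]
  ring

/-- the composite system `W ∘ res_δ ∘ cores2 ∘ W` at level `M q` -/
noncomputable def frVSys (hqM : q ∣ M) : CosetSys embR (Gamma0 (M * q)) (Gamma0 (M * q)) :=
  (((frSys (M * q)).comp (coresSys2 hqM)).comp (resDSys M q)).comp (frSys (M * q))

theorem frVSys_op (hqM : q ∣ M) {A : Type*} [AddCommGroup A]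
    (φ : Additive (Gamma0 (M * q)) →+ A) :
    (frVSys hqM).op A φ
      = frOp (M * q) A (resD A M q (cores2 A hqM (frOp (M * q) A φ))) := by
  unfold frVSys
  rw [CosetSys.op_comp, CosetSys.op_comp, CosetSys.op_comp]
  rfl

/-- the index bijection `x ↦ -x` -/
def frVIdx (q : ℕ) : ZMod q ≃ ((Unit × ZMod q) × Unit) × Unit where
  toFun x := ((((), -x), ()), ())
  invFun p := -p.1.1.2
  left_inv x := neg_neg x
  right_inv p := by
    obtain ⟨⟨⟨⟨⟩, j⟩, ⟨⟩⟩, ⟨⟩⟩ := p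
    show ((((), - -j), ()), ()) = _
    rw [neg_neg]

theorem dvd_level (M q : ℕ) : q ∣ M * q := Dvd.intro_left M rfl

/-- **`U_q = W ∘ res_δ ∘ cores2 ∘ W`** on `Hom(Γ₀(M q), A)`, `q ∣ M` -/
theorem cohU_eq_fr' (hqM : q ∣ M) {A : Type*} [AddCommGroup A]
    (φ : Additive (Gamma0 (M * q)) →+ A) :
    cohU (dvd_level M q) A φ
      = frOp (M * q) A (resD A M q (cores2 A hqM (frOp (M * q) A φ))) := by
  rw [← frVSys_op, ← uSys_op]
  symm
  refine Fermat.Agent.GB.B5.Betti.op_eq_of_reps (uSys (dvd_level M q)) (frVSys hqM) embR_injective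
    (frVIdx q) (frMat (M * q) * frMat (M * q)) (fun x => (frMat_sq_comm x))
    (fun x : ZMod q => (⟨trZ (-(exists_val_add_val_neg x).choose),
      trZ_mem (M * q) _⟩ : Gamma0 (M * q))) ?_ φ
  intro x
  obtain ⟨x, rfl⟩ : ∃ x' : ZMod q, x' = x := ⟨x, rfl⟩
  show frMat (M * q) * embR (tRep M (-x).val) * dlt q * frMat (M * q)
    = frMat (M * q) * frMat (M * q)
        * embR (trZ (-(exists_val_add_val_neg x).choose)) * heckeMatrix q x.val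
  rw [mul_assoc (frMat (M * q)) (embR _) (dlt q), tRep_mul_dlt, ← mul_assoc]
  exact frMat_dlt_tRep_frMat (M * q) q x.val (-x).val (NeZero.ne q) _
    (exists_val_add_val_neg x).choose_spec

end V

/-! ### (A) on the lattices -/

section LamA

variable {M : ℕ} [NeZero M] (l : Nat.Primes) [Fact (l : ℕ).Prime] [NeZero (M * (l : ℕ))]

/-- `v : Lam (M l) → Lam M`, `l ∣ M` -/
noncomputable def vP (hlM : (l : ℕ) ∣ M) : Lam (M * (l : ℕ)) →+ Lam M :=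
  (frP M ℤ).comp ((cores2P ℤ hlM).comp (frP (M * (l : ℕ)) ℤ))

theorem vP_apply (hlM : (l : ℕ) ∣ M) (x : Lam (M * (l : ℕ))) :
    vP l hlM x = frP M ℤ (cores2P ℤ hlM (frP (M * (l : ℕ)) ℤ x)) := rfl

/-- **`U_l^{(M l)} = res ∘ v`**, `l ∣ M` -/
theorem latT_eq_resP_vP (hlM : (l : ℕ) ∣ M) (x : Lam (M * (l : ℕ))) :
    latT (M * (l : ℕ)) l x = resP ℤ M (l : ℕ) (vP l hlM x) := by
  have : NeZero (l : ℕ) := ⟨l.2.ne_zero⟩
  have h1 : latT (M * (l : ℕ)) l x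
      = frP (M * (l : ℕ)) ℤ (resDP ℤ M (l : ℕ) (cores2P ℤ hlM (frP (M * (l : ℕ)) ℤ x))) := by
    apply Subtype.ext
    rw [coe_latT, cohGen_of_dvd (M * (l : ℕ)) ℤ l (dvd_level M (l : ℕ)), cohU_eq_fr' hlM]
    rfl
  rw [h1, frP_resDP, vP_apply]

/-- **`v ∘ res = U_l^{(M)}`**, `l ∣ M` -/
theorem vP_resP (hlM : (l : ℕ) ∣ M) (y : Lam M) :
    vP l hlM (resP ℤ M (l : ℕ) y) = latT M l y := by
  rw [vP_apply, frP_resP, latT_eq_fr_of_dvd l hlM y]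

end LamA

/-! ### (B) `U_q ∘ R = q` at level `N q`, `q ∤ N` -/

section LamB

variable {N q : ℕ} [NeZero N] [Fact q.Prime] [NeZero (N * q)] (hqN : ¬ q ∣ N)

/-- `U_q = res cores_δ − w` on `Lam (N q)` -/
theorem latT_eq_sub (hq : q.Prime) (z : Lam (N * q)) :
    latT (N * q) (⟨q, hq⟩ : Nat.Primes) z = resP ℤ N q (coresDP ℤ hqN z) - wP hqN ℤ z := by
  apply Subtype.ext
  show cohGen (N * q) ℤ (⟨q, hq⟩ : Nat.Primes) z.1
    = res ℤ N q (coresD ℤ hqN z.1) - wOp hqN ℤ z.1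
  have hdvd : (((⟨q, hq⟩ : Nat.Primes) : ℕ)) ∣ N * q := dvd_level N q
  rw [cohGen_of_dvd (N * q) ℤ (⟨q, hq⟩ : Nat.Primes) hdvd]
  exact Fermat.Agent.GE9.Eta.Adj3.cohU_eq hqN z.1

/-- `U_q (w z) = res cores z − z` -/
theorem latT_wP (hq : q.Prime) (z : Lam (N * q)) :
    latT (N * q) (⟨q, hq⟩ : Nat.Primes) (wP hqN ℤ z) = resP ℤ N q (coresP ℤ hqN z) - z := by
  rw [latT_eq_sub hqN hq, coresDP_wP, wP_wP]

/-- `R := w res cores − q w` -/
noncomputable def rP : Lam (N * q) →ₗ[ℤ] Lam (N * q) :=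
  ((wP hqN ℤ).comp ((resP ℤ N q).comp (coresP ℤ hqN))).toIntLinearMap
    - (q : ℤ) • (wP hqN ℤ).toIntLinearMap

theorem rP_apply (z : Lam (N * q)) :
    rP hqN z = wP hqN ℤ (resP ℤ N q (coresP ℤ hqN z)) - (q : ℤ) • wP hqN ℤ z := rfl

/-- **`U_q ∘ R = q`** on `Lam (N q)`, `q ∤ N` -/
theorem latT_rP (hq : q.Prime) (z : Lam (N * q)) :
    latT (N * q) (⟨q, hq⟩ : Nat.Primes) (rP hqN z) = (q : ℤ) • z := by
  rw [rP_apply, map_sub, map_smul, latT_wP hqN hq, latT_wP hqN hq, coresP_resP hqN, map_nsmul,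
    smul_sub]
  simp only [add_smul, one_smul, natCast_zsmul]
  abel

end LamB

/-! ### (C) the polynomial -/

section Poly

open Polynomial

variable {M₀ q : ℕ} [NeZero M₀] [NeZero (M₀ * q)] [NeZero (M₀ * q * q)]

/-- **(UQ-POLY)** `U_q · g(U_q) = 0` on `Lam (M₀ q²)`, `q ∤ M₀`, with `g` monic and `g(0) ∣ q ^ n`. -/
theorem exists_uq_poly (hq : q.Prime) (hqM₀ : ¬ q ∣ M₀) :
    ∃ g : ℤ[X], g.Monic ∧ (∃ n : ℕ, g.eval 0 ∣ (q : ℤ) ^ n) ∧
      latT (M₀ * q * q) (⟨q, hq⟩ : Nat.Primes)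
        * aeval (latT (M₀ * q * q) (⟨q, hq⟩ : Nat.Primes)) g = 0 := by
  have : Fact q.Prime := ⟨hq⟩
  have : Fact (((⟨q, hq⟩ : Nat.Primes) : ℕ)).Prime := ⟨hq⟩
  have hfree : Module.Free ℤ (Lam (M₀ * q)) :=
    Fermat.Agent.GJ.J2.ZStruct.free_parabolicHoms_int (M₀ * q)
  have hfin : Module.Finite ℤ (Lam (M₀ * q)) :=
    Fermat.Agent.GJ.J2.ZStruct.finite_parabolicHoms_int (M₀ * q)
  have hdvd : ((⟨q, hq⟩ : Nat.Primes) : ℕ) ∣ M₀ * q := dvd_level M₀ q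
  set r : Lam (M₀ * q) →ₗ[ℤ] Lam (M₀ * q * q) := (resP ℤ (M₀ * q) q).toIntLinearMap with hr
  set v : Lam (M₀ * q * q) →ₗ[ℤ] Lam (M₀ * q) :=
    (vP (M := M₀ * q) (⟨q, hq⟩ : Nat.Primes) hdvd).toIntLinearMap with hv
  have hU : latT (M₀ * q * q) (⟨q, hq⟩ : Nat.Primes) = r ∘ₗ v :=
    LinearMap.ext fun x => latT_eq_resP_vP (M := M₀ * q) (⟨q, hq⟩ : Nat.Primes) hdvd x
  have hU₁ : ∀ y, v (r y) = latT (M₀ * q) (⟨q, hq⟩ : Nat.Primes) y := fun y =>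
    vP_resP (M := M₀ * q) (⟨q, hq⟩ : Nat.Primes) hdvd y
  obtain ⟨g, hg, hg0, hgU⟩ := UqPolyAbs.exists_poly_of_factor r v (rP hqM₀) (q : ℤ)
    (fun z => by rw [hU₁, latT_rP hqM₀ hq])
  refine ⟨g, hg, ⟨_, hg0⟩, ?_⟩
  rw [hU]
  exact hgU

/-- the same at a level `N = M₀ q²`. -/
theorem exists_uq_poly_of_eq {N : ℕ} [NeZero N] (hq : q.Prime) (hqM₀ : ¬ q ∣ M₀)
    (hN : N = M₀ * q * q) :
    ∃ g : ℤ[X], g.Monic ∧ (∃ n : ℕ, g.eval 0 ∣ (q : ℤ) ^ n) ∧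
      latT N (⟨q, hq⟩ : Nat.Primes) * aeval (latT N (⟨q, hq⟩ : Nat.Primes)) g = 0 := by
  subst hN
  exact exists_uq_poly hq hqM₀

end Poly

/-! ### the tensor form and the consumer -/

section Tensor

open Polynomial

variable {N : ℕ} [NeZero N] (O : Type*) [CommRing O]

/-- **(UQ-POLY), tensor form**: over any `O` in which `q` is a unit there is `g ∈ O[X]` with `g(0)` a
unit and `U_q (g(U_q) y) = 0` for every `y ∈ O ⊗[ℤ] Lam N`, `N = M₀ q²`, `q ∤ M₀`. -/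
theorem exists_uq_poly_tensor {M₀ q : ℕ} (hq : q.Prime) (hqM₀ : ¬ q ∣ M₀) (hN : N = M₀ * q * q)
    (hqO : IsUnit ((q : ℕ) : O)) :
    ∃ g : O[X], g.Monic ∧ IsUnit (g.eval 0) ∧
      ∀ y : O ⊗[ℤ] Lam N, (latT N (⟨q, hq⟩ : Nat.Primes)).baseChange O
        (aeval ((latT N (⟨q, hq⟩ : Nat.Primes)).baseChange O) g y) = 0 := by
  have hM₀ : NeZero M₀ := ⟨fun h => NeZero.ne N (by rw [hN, h, zero_mul, zero_mul])⟩
  have hM₀q : NeZero (M₀ * q) := ⟨fun h => NeZero.ne N (by rw [hN, h, zero_mul])⟩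
  have hM₀qq : NeZero (M₀ * q * q) := ⟨fun h => NeZero.ne N (by rw [hN, h])⟩
  obtain ⟨g, hg, ⟨n, hn⟩, hgU⟩ := exists_uq_poly_of_eq (M₀ := M₀) hq hqM₀ hN
  refine ⟨g.map (algebraMap ℤ O), hg.map _, ?_, fun y =>
    UqPolyAbs.baseChange_mul_aeval_eq_zero O _ g hgU y⟩
  rw [← coeff_zero_eq_eval_zero, coeff_map, coeff_zero_eq_eval_zero]
  have h1 : algebraMap ℤ O (g.eval 0) ∣ algebraMap ℤ O ((q : ℤ) ^ n) := map_dvd _ hn
  have h2 : algebraMap ℤ O ((q : ℤ) ^ n) = ((q : ℕ) : O) ^ n := by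
    rw [map_pow]
    congr 1
    simp
  rw [h2] at h1
  exact isUnit_of_dvd_unit h1 (hqO.pow n)

/-- **(UQ0), abstract consumer**: `U_q = 0` on every `U_q`-stable submodule `L` of `O ⊗[ℤ] Lam N` on
which `Ψ(U_q)` is injective for every `Ψ ∈ O[X]` with `Ψ(0)` a unit. -/
theorem uq_eq_zero_of_injective {M₀ q : ℕ} (hq : q.Prime) (hqM₀ : ¬ q ∣ M₀) (hN : N = M₀ * q * q)
    (hqO : IsUnit ((q : ℕ) : O)) (L : Submodule O (O ⊗[ℤ] Lam N))
    (hstab : ∀ y ∈ L, (latT N (⟨q, hq⟩ : Nat.Primes)).baseChange O y ∈ L)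
    (hinj : ∀ Ψ : O[X], IsUnit (Ψ.eval 0) → ∀ y ∈ L,
      aeval ((latT N (⟨q, hq⟩ : Nat.Primes)).baseChange O) Ψ y = 0 → y = 0) :
    ∀ y ∈ L, (latT N (⟨q, hq⟩ : Nat.Primes)).baseChange O y = 0 := by
  obtain ⟨g, -, hg0, hgU⟩ := exists_uq_poly_tensor O hq hqM₀ hN hqO
  exact UqPolyAbs.eq_zero_of_mul_aeval_eq_zero _ g hgU L hstab (hinj g hg0)

end Tensor

end Fermat.Agent.GE9.OldQ.UqPoly
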