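/-
GATE-E / GE9-OLDQ (helper63) — (UQ0), file 3: **`U_q = 0` on the `𝔪`-local part** of
`𝒪 ⊗[ℤ] Lam N`, `N = M₀ q²`, `q ∤ M₀`, `q ∈ 𝒪ˣ`, for ANY commutative `𝒪`-algebra `A` acting on
`𝒪 ⊗[ℤ] Lam N` and ANY maximal ideal `𝔪` containing an element `t` which acts as `U_q`.

`χ`-free: covers the systems which are old at `q` and those which are new at `q` (conductor `q` or
`q²`).  From `UqPoly.exists_uq_poly_tensor` (`U_q g(U_q) = 0`, `g(0)` a unit),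
`ConsumerAbs.aeval_notMem_of_isUnit_eval` (`g(t) ∉ 𝔪`) and `GB/B3/Loc.bijective_smul_locPart`.
-/
import Mathlib
import Fermat.Agent.GE9.OldQ.UqPoly
import Fermat.Agent.GE9.OldQ.ConsumerAbs
import Fermat.Agent.GB.B3.Loc

set_option autoImplicit false
set_option linter.unusedSectionVars false

open scoped TensorProduct
open Polynomial

namespace Fermat.Agent.GE9.OldQ.UqLoc

open Fermat.Agent.GJ.J2.Lat Fermat.Agent.GB.B3.Loc

section Smul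

variable {O : Type*} [CommRing O] {A : Type*} [CommRing A] [Algebra O A]
  {X : Type*} [AddCommGroup X] [Module O X] [Module A X] [IsScalarTower O A X]

/-- if `t` acts as `U`, then `Ψ(t)` acts as `Ψ(U)`. -/
theorem aeval_smul_eq (t : A) (U : Module.End O X) (ht : ∀ x, t • x = U x) (Ψ : O[X]) (x : X) :
    (aeval t Ψ) • x = aeval U Ψ x := by
  induction Ψ using Polynomial.induction_on' generalizing x with
  | add p p' hp hp' => rw [map_add, map_add, add_smul, hp, hp', LinearMap.add_apply]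
  | monomial n a =>
    rw [aeval_monomial, aeval_monomial, Module.End.mul_apply, Module.algebraMap_end_apply,
      mul_smul, algebraMap_smul]
    congr 1
    induction n generalizing x with
    | zero => rw [pow_zero, pow_zero, one_smul, Module.End.one_apply]
    | succ n ih => rw [pow_succ, pow_succ, mul_smul, ht, ih, Module.End.mul_apply]

end Smul

section Loc

variable {N : ℕ} [NeZero N]
variable {𝒪 : Type} [CommRing 𝒪] [IsLocalRing 𝒪] [IsNoetherianRing 𝒪]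
  [IsAdicComplete (IsLocalRing.maximalIdeal 𝒪) 𝒪]
variable {A : Type} [CommRing A] [Algebra 𝒪 A] [Module A (𝒪 ⊗[ℤ] Lam N)]
  [IsScalarTower 𝒪 A (𝒪 ⊗[ℤ] Lam N)]

/-- **(UQ0)** `U_q = 0` on `locPart 𝔪 (𝒪 ⊗[ℤ] Lam N)`: `N = M₀ q²`, `q ∤ M₀`, `q ∈ 𝒪ˣ`, `t ∈ 𝔪` acting
as `U_q`. -/
theorem uq_eq_zero_of_mem_locPart {M₀ q : ℕ} (hq : q.Prime) (hqM₀ : ¬ q ∣ M₀)
    (hN : N = M₀ * q * q) (hq𝒪 : IsUnit ((q : ℕ) : 𝒪))
    (𝔪 : Ideal A) [h𝔪 : 𝔪.IsMaximal] (t : A) (ht𝔪 : t ∈ 𝔪)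
    (ht : ∀ x : 𝒪 ⊗[ℤ] Lam N, t • x = (latT N (⟨q, hq⟩ : Nat.Primes)).baseChange 𝒪 x) :
    ∀ x ∈ locPart 𝔪 (𝒪 ⊗[ℤ] Lam N), (latT N (⟨q, hq⟩ : Nat.Primes)).baseChange 𝒪 x = 0 := by
  have hfinZ : Module.Finite ℤ (Lam N) := Fermat.Agent.GJ.J2.ZStruct.finite_parabolicHoms_int N
  have hfin : Module.Finite 𝒪 (𝒪 ⊗[ℤ] Lam N) := inferInstance
  obtain ⟨g, -, hg0, hgU⟩ := UqPoly.exists_uq_poly_tensor 𝒪 hq hqM₀ hN hq𝒪
  have hs : aeval t g ∉ 𝔪 :=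
    aeval_notMem_of_isUnit_eval 𝔪 h𝔪.ne_top t 0 (by rw [map_zero, sub_zero]; exact ht𝔪) g hg0
  have hbij := bijective_smul_locPart 𝒪 (L := 𝒪 ⊗[ℤ] Lam N) 𝔪 hs
  intro x hx
  have hUx : (latT N (⟨q, hq⟩ : Nat.Primes)).baseChange 𝒪 x ∈ locPart 𝔪 (𝒪 ⊗[ℤ] Lam N) := by
    rw [← ht]
    exact Submodule.smul_mem _ t hx
  have h0 : aeval t g • (latT N (⟨q, hq⟩ : Nat.Primes)).baseChange 𝒪 x = 0 := by
    rw [← ht x, smul_comm, ht, aeval_smul_eq t _ ht g x]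
    exact hgU x
  have h1 := hbij.1 (a₁ := ⟨_, hUx⟩) (a₂ := 0) (Subtype.ext (by
    show aeval t g • (latT N (⟨q, hq⟩ : Nat.Primes)).baseChange 𝒪 x
      = aeval t g • ((0 : locPart 𝔪 (𝒪 ⊗[ℤ] Lam N)) : 𝒪 ⊗[ℤ] Lam N)
    rw [h0, Submodule.coe_zero, smul_zero]))
  exact congrArg Subtype.val h1

end Loc

end Fermat.Agent.GE9.OldQ.UqLoc
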