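/-
GATE-E / GE9-OLDQ (helper57): **the (O6) consumer shapes of board 7336**, as wrappers over helper8's
`Coh.coh_eigen_of_good / coh_eigen_of_new / coh_quadratic_of_ref / coh_cubic_of_ref`.

`B : Finset ℕ` a finite set of primes, `b ∈ B`; "off `B`" := `(l : ℕ) ∉ B`;
`X ∈ Hom_par(Γ₀(N), ℂ)` with `cohLin N l X = lam l • X` for every prime `l ∉ B`.
The REFERENCE of each type is a NONZERO PARABOLIC FULL EIGENCLASS (eigenvalues `μ`, `μ = lam` off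
`B`): `X₀` of level `N` for the types (G), (R), `X₁` of level `M₀` for the types (P), (Q).

* `exists_ref_form` : a nonzero parabolic full eigenclass of level `M` gives a cusp form `f₀` of
  level `M` with `a₁(f₀) ≠ 0` and the same eigenvalues;
* (G) `coh_good` : `b ∤ N` ⟹ `cohLin N b X = μ_b • X`;
* (R) `coh_new` : `N = M₀ b`, `b ∤ M₀`, and the anemic system does not occur on cusp forms of any
  level prime to `b` ⟹ `cohLin N b X = μ_b • X`;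
* (P) `coh_quadratic` : `N = M₀ b`, `b ∤ M₀` ⟹ `U (U X) − μ_b • U X + b • X = 0`;
* (Q) `coh_cubic` : `N = M₀ b b`, `b ∤ M₀` ⟹ `U (U (U X)) − μ_b • U (U X) + b • U X = 0`.
-/
import Mathlib
import Fermat.Agent.GE9.OldQ.Coh
import Fermat.Agent.GE9.OldQ.JointEig
import Fermat.Agent.GE9.Mult1.EigenC

set_option autoImplicit false
set_option linter.unusedVariables false

open scoped MatrixGroups
open CongruenceSubgroup ModularCurve ModularCurve.Period CuspForm ModularFormClass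

namespace Fermat.Agent.GE9.OldQ.CohRef

open Fermat.Agent.GM.End (formOp cohLin cohLin_apply)
open Fermat.Agent.GE9.OldQ.Deplete (lamD lamD_of_not_mem neZero_lvl not_dvd_lvl)
open Fermat.Agent.GE9.OldQ.Coh (coh_eigen_of_good coh_eigen_of_new coh_quadratic_of_ref
  coh_cubic_of_ref)

/-- a nonzero parabolic FULL eigenclass of level `M` gives a cusp form `f₀` of level `M` with
`a₁(f₀) ≠ 0` and the same eigenvalues. -/
theorem exists_ref_form {M : ℕ} [NeZero M] (μ : Nat.Primes → ℂ)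
    (X₀ : Additive (Gamma0 M) →+ ℂ) (hX₀par : X₀ ∈ parabolicHoms ℂ (Gamma0 M) ℂ) (hX₀ne : X₀ ≠ 0)
    (hX₀ : ∀ l : Nat.Primes, cohLin M l X₀ = μ l • X₀) :
    ∃ f₀ : CuspForm (Gamma0 M) 2, qCoeff f₀ 1 ≠ 0 ∧
      ∀ l : Nat.Primes, formOp M l f₀ = μ l • f₀ := by
  obtain ⟨f₁, f₂, hf, h₁, h₂⟩ :=
    Fermat.Agent.GE9.Mult1.exists_eigen_pair X₀ hX₀par μ (fun l => hX₀ l)
  by_cases hf₁ : f₁ = 0
  · have hf₂ : f₂ ≠ 0 := by
      intro hf₂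
      apply hX₀ne
      rw [← hf, hf₁, hf₂]
      exact map_zero _
    exact ⟨f₂, fun h1 => hf₂ (eq_zero_of_joint_eigen μ f₂ h₂ h1), h₂⟩
  · exact ⟨f₁, fun h1 => hf₁ (eq_zero_of_joint_eigen μ f₁ h₁ h1), h₁⟩

/-- the list `(B.erase b).toList` : its members are primes, `b` is not in it, and `B` is `b`
together with the list. -/
theorem erase_toList_facts {b : ℕ} (B : Finset ℕ) (hBp : ∀ s ∈ B, s.Prime) (hbB : b ∈ B) :
    (∀ ℓ ∈ (B.erase b).toList, ℓ.Prime) ∧ b ∉ (B.erase b).toList ∧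
      ∀ x : ℕ, x ∈ B ↔ x = b ∨ x ∈ (B.erase b).toList := by
  refine ⟨fun ℓ hℓ => hBp ℓ (Finset.mem_of_mem_erase (Finset.mem_toList.mp hℓ)), fun h => ?_,
    fun x => ?_⟩
  · exact (Finset.mem_erase.mp (Finset.mem_toList.mp h)).1 rfl
  · rw [Finset.mem_toList, Finset.mem_erase]
    constructor
    · intro hx
      by_cases hxb : x = b
      · exact Or.inl hxb
      · exact Or.inr ⟨hxb, hx⟩
    · rintro (rfl | ⟨_, hx⟩)
      · exact hbB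
      · exact hx

section Types

variable {N : ℕ} [NeZero N] {b : ℕ} (B : Finset ℕ) (hBp : ∀ s ∈ B, s.Prime) (hb : b.Prime)
  (hbB : b ∈ B) (lam μ : Nat.Primes → ℂ) (hμ : ∀ l : Nat.Primes, (l : ℕ) ∉ B → μ l = lam l)

include hBp hbB hμ

/-- the anemic hypothesis in the list form of `Coh.lean`, for the system `μ`. -/
theorem anemic_list (X : Additive (Gamma0 N) →+ ℂ)
    (hX : ∀ l : Nat.Primes, (l : ℕ) ∉ B → cohLin N l X = lam l • X) :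
    ∀ l : Nat.Primes, (l : ℕ) ≠ b → (l : ℕ) ∉ (B.erase b).toList → cohLin N l X = μ l • X := by
  obtain ⟨_, _, hB⟩ := erase_toList_facts B hBp hbB
  intro l h1 h2
  have hlB : (l : ℕ) ∉ B := fun h => by
    rcases (hB _).mp h with h' | h'
    · exact h1 h'
    · exact h2 h'
  rw [hX l hlB, hμ l hlB]

/-- **(G)**: `b ∤ N`; reference: a nonzero parabolic FULL eigenclass `X₀` of level `N`. -/
theorem coh_good (hbN : ¬ b ∣ N)
    (X₀ : Additive (Gamma0 N) →+ ℂ) (hX₀par : X₀ ∈ parabolicHoms ℂ (Gamma0 N) ℂ) (hX₀ne : X₀ ≠ 0)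
    (hX₀ : ∀ l : Nat.Primes, cohLin N l X₀ = μ l • X₀)
    (X : Additive (Gamma0 N) →+ ℂ) (hXpar : X ∈ parabolicHoms ℂ (Gamma0 N) ℂ)
    (hX : ∀ l : Nat.Primes, (l : ℕ) ∉ B → cohLin N l X = lam l • X) :
    cohLin N ⟨b, hb⟩ X = μ ⟨b, hb⟩ • X := by
  obtain ⟨hls, hbls, _⟩ := erase_toList_facts B hBp hbB
  obtain ⟨f₀, ha, hf₀e⟩ := exists_ref_form μ X₀ hX₀par hX₀ne hX₀
  exact coh_eigen_of_good hb (B.erase b).toList μ hbN hls hbls f₀ ha (fun l _ => hf₀e l) X hXpar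
    (anemic_list B hBp hbB lam μ hμ X hX)

/-- **(R)**: `N = M₀ b`, `b ∤ M₀`; reference: a nonzero parabolic FULL eigenclass `X₀` of level
`N`; the anemic system `lam` (off `B`) does not occur on cusp forms of any level prime to `b`. -/
theorem coh_new {M₀ : ℕ} [NeZero M₀] (hbM : ¬ b ∣ M₀) (hN : N = M₀ * b)
    (hnew : ∀ (M' : ℕ) [NeZero M'], ¬ b ∣ M' → ∀ g : CuspForm (Gamma0 M') 2,
      (∀ l : Nat.Primes, (l : ℕ) ∉ B → formOp M' l g = lam l • g) → g = 0)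
    (X₀ : Additive (Gamma0 N) →+ ℂ) (hX₀par : X₀ ∈ parabolicHoms ℂ (Gamma0 N) ℂ) (hX₀ne : X₀ ≠ 0)
    (hX₀ : ∀ l : Nat.Primes, cohLin N l X₀ = μ l • X₀)
    (X : Additive (Gamma0 N) →+ ℂ) (hXpar : X ∈ parabolicHoms ℂ (Gamma0 N) ℂ)
    (hX : ∀ l : Nat.Primes, (l : ℕ) ∉ B → cohLin N l X = lam l • X) :
    cohLin N ⟨b, hb⟩ X = μ ⟨b, hb⟩ • X := by
  obtain ⟨hls, hbls, hB⟩ := erase_toList_facts B hBp hbB
  obtain ⟨f₀, ha, hf₀e⟩ := exists_ref_form μ X₀ hX₀par hX₀ne hX₀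
  refine coh_eigen_of_new hb (B.erase b).toList μ hbM hN hls hbls ?_ f₀ ha (fun l _ => hf₀e l) X
    hXpar (anemic_list B hBp hbB lam μ hμ X hX)
  intro g hg
  refine @hnew (M₀ * (B.erase b).toList.prod ^ 2) (neZero_lvl M₀ _ hls)
    (not_dvd_lvl hb hbM _ hls hbls) g fun l hlB => ?_
  have h1 : (l : ℕ) ≠ b := fun e => hlB ((hB _).mpr (Or.inl e))
  have h2 : (l : ℕ) ∉ (B.erase b).toList := fun e => hlB ((hB _).mpr (Or.inr e))
  rw [hg l h1, lamD_of_not_mem μ h2, hμ l hlB]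

/-- **(P)**: `N = M₀ b`, `b ∤ M₀`; reference: a nonzero parabolic FULL eigenclass `X₁` of level
`M₀`. -/
theorem coh_quadratic {M₀ : ℕ} [NeZero M₀] (hbM : ¬ b ∣ M₀) (hN : N = M₀ * b)
    (X₁ : Additive (Gamma0 M₀) →+ ℂ) (hX₁par : X₁ ∈ parabolicHoms ℂ (Gamma0 M₀) ℂ)
    (hX₁ne : X₁ ≠ 0) (hX₁ : ∀ l : Nat.Primes, cohLin M₀ l X₁ = μ l • X₁)
    (X : Additive (Gamma0 N) →+ ℂ) (hXpar : X ∈ parabolicHoms ℂ (Gamma0 N) ℂ)
    (hX : ∀ l : Nat.Primes, (l : ℕ) ∉ B → cohLin N l X = lam l • X) :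
    cohLin N ⟨b, hb⟩ (cohLin N ⟨b, hb⟩ X) - μ ⟨b, hb⟩ • cohLin N ⟨b, hb⟩ X + (b : ℂ) • X = 0 := by
  obtain ⟨hls, hbls, _⟩ := erase_toList_facts B hBp hbB
  obtain ⟨f₀, ha, hf₀e⟩ := exists_ref_form μ X₁ hX₁par hX₁ne hX₁
  exact coh_quadratic_of_ref hb (B.erase b).toList μ hbM hN hls hbls f₀ ha (fun l _ => hf₀e l) X
    hXpar (anemic_list B hBp hbB lam μ hμ X hX)

/-- **(Q)**: `N = M₀ b b`, `b ∤ M₀`; reference: a nonzero parabolic FULL eigenclass `X₁` of level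
`M₀`. -/
theorem coh_cubic {M₀ : ℕ} [NeZero M₀] (hbM : ¬ b ∣ M₀) (hN : N = M₀ * b * b)
    (X₁ : Additive (Gamma0 M₀) →+ ℂ) (hX₁par : X₁ ∈ parabolicHoms ℂ (Gamma0 M₀) ℂ)
    (hX₁ne : X₁ ≠ 0) (hX₁ : ∀ l : Nat.Primes, cohLin M₀ l X₁ = μ l • X₁)
    (X : Additive (Gamma0 N) →+ ℂ) (hXpar : X ∈ parabolicHoms ℂ (Gamma0 N) ℂ)
    (hX : ∀ l : Nat.Primes, (l : ℕ) ∉ B → cohLin N l X = lam l • X) :
    cohLin N ⟨b, hb⟩ (cohLin N ⟨b, hb⟩ (cohLin N ⟨b, hb⟩ X))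
      - μ ⟨b, hb⟩ • cohLin N ⟨b, hb⟩ (cohLin N ⟨b, hb⟩ X)
      + (b : ℂ) • cohLin N ⟨b, hb⟩ X = 0 := by
  obtain ⟨hls, hbls, _⟩ := erase_toList_facts B hBp hbB
  obtain ⟨f₀, ha, hf₀e⟩ := exists_ref_form μ X₁ hX₁par hX₁ne hX₁
  exact coh_cubic_of_ref hb (B.erase b).toList μ hbM hN hls hbls f₀ ha (fun l _ => hf₀e l) X
    hXpar (anemic_list B hBp hbB lam μ hμ X hX)

end Types

end Fermat.Agent.GE9.OldQ.CohRef
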