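/-
GATE-E / GE9-OLDQ, the TRANSFER step of leaf (O6) of helper63's node table (board 7233) (helper57):
**a polynomial identity in one Hecke operator on the anemic eigenspace of cusp forms passes to the
anemic eigenspace of `Hom_par(Γ₀(N), ℂ)`.**

`B : Set ℕ` (the bad primes), `lam : Nat.Primes → ℂ`; "eigen off `B`" := eigenvector with eigenvalue
`lam l` of the operator at every prime `l ∉ B` (`formOp N l` on `S₂(Γ₀(N))`, `cohGen N ℂ l` on
`Hom(Γ₀(N), ℂ)`).

* `aeval_cohLin_periodHomPair` : `Φ(cohLin N l) (per (f, g)) = per (Φ(formOp N l) f, Φ(formOp N l) g)`;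
* `exists_eigen_pair_off` : a parabolic class which is eigen off `B` is `per (f₁, f₂)` with `f₁`,
  `f₂` eigen off `B` (Eichler–Shimura `S21` + `periodHomPair_formOp`);
* **`coh_aeval_eq_zero`** : `Φ(formOp N b) = 0` on the forms which are eigen off `B` ⟹
  `Φ(cohLin N b) = 0` on the parabolic classes which are eigen off `B`;
* explicit (non-`aeval`) forms for `Φ = X − λ`, `X² − aX + c`, `X (X² − aX + c)`:
  `coh_linear_of_forms`, `coh_quadratic_of_forms`, `coh_cubic_of_forms`.
-/
import Mathlib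
import Fermat.Agent.GM.End.Endgame
import Fermat.Agent.S21

set_option autoImplicit false

open scoped MatrixGroups
open CongruenceSubgroup ModularCurve ModularCurve.Period CuspForm ModularFormClass Polynomial

namespace Fermat.Agent.GE9.OldQ

open Fermat.Agent.S16_helper49 Fermat.Agent.GJ.J2.Lat
open Fermat.Agent.GM.End (formOp cohLin cohLin_apply periodHomPair_formOp)

variable {N : ℕ} [NeZero N]

/-! ### intertwining and polynomials (abstract) -/

/-- an intertwiner `J ∘ A = A' ∘ J` intertwines `Φ(A)` and `Φ(A')`. -/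
theorem aeval_intertwine {V W : Type*} [AddCommGroup V] [Module ℂ V] [AddCommGroup W] [Module ℂ W]
    (J : V →ₗ[ℂ] W) (A : Module.End ℂ V) (A' : Module.End ℂ W)
    (hJ : ∀ v, J (A v) = A' (J v)) (Φ : ℂ[X]) (v : V) :
    J (aeval A Φ v) = aeval A' Φ (J v) := by
  induction Φ using Polynomial.induction_on generalizing v with
  | C a =>
    rw [aeval_C, aeval_C, Module.algebraMap_end_apply, Module.algebraMap_end_apply, map_smul]
  | add p q hp hq =>
    rw [map_add, map_add, LinearMap.add_apply, LinearMap.add_apply, map_add, hp, hq]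
  | monomial n a ih =>
    have e : (C a * X ^ (n + 1) : ℂ[X]) = C a * X ^ n * X := by
      rw [pow_succ, mul_assoc]
    rw [e, map_mul, map_mul (aeval A'), aeval_X, aeval_X, Module.End.mul_apply,
      Module.End.mul_apply, ih, hJ]

/-! ### the period pair -/

/-- the period pair intertwines `Φ(formOp N l)` (on both components) and `Φ(cohLin N l)`. -/
theorem aeval_cohLin_periodHomPair (l : Nat.Primes) (Φ : ℂ[X]) (f g : CuspForm (Gamma0 N) 2) :
    aeval (cohLin N l) Φ (periodHomPair N (f, g)) =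
      periodHomPair N (aeval (formOp N l) Φ f, aeval (formOp N l) Φ g) := by
  have h := aeval_intertwine (periodHomPair N)
    (LinearMap.prodMap (formOp N l) (formOp N l)) (cohLin N l)
    (fun v => periodHomPair_formOp N l v.1 v.2) Φ (f, g)
  rw [← h]
  congr 1
  -- `Φ(A × A) = Φ(A) × Φ(A)`
  have h1 := aeval_intertwine (LinearMap.fst ℂ (CuspForm (Gamma0 N) 2) (CuspForm (Gamma0 N) 2))
    (LinearMap.prodMap (formOp N l) (formOp N l)) (formOp N l) (fun v => rfl) Φ (f, g)
  have h2 := aeval_intertwine (LinearMap.snd ℂ (CuspForm (Gamma0 N) 2) (CuspForm (Gamma0 N) 2))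
    (LinearMap.prodMap (formOp N l) (formOp N l)) (formOp N l) (fun v => rfl) Φ (f, g)
  exact Prod.ext h1 h2

/-- a parabolic class which is eigen off `B` is the period pair of two cusp forms which are eigen
off `B`. -/
theorem exists_eigen_pair_off (B : Set ℕ) (lam : Nat.Primes → ℂ)
    (φ : Additive (Gamma0 N) →+ ℂ) (hXpar : φ ∈ parabolicHoms ℂ (Gamma0 N) ℂ)
    (hX : ∀ l : Nat.Primes, (l : ℕ) ∉ B → cohGen N ℂ l φ = lam l • φ) :
    ∃ f₁ f₂ : CuspForm (Gamma0 N) 2, periodHomPair N (f₁, f₂) = φ ∧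
      (∀ l : Nat.Primes, (l : ℕ) ∉ B → formOp N l f₁ = lam l • f₁) ∧
      (∀ l : Nat.Primes, (l : ℕ) ∉ B → formOp N l f₂ = lam l • f₂) := by
  have hXpar' := hXpar
  rw [← (Fermat.Agent.S21.result N).2] at hXpar'
  obtain ⟨⟨f₁, f₂⟩, hf⟩ := hXpar'
  have hinj := (Fermat.Agent.S21.result N).1
  have heig : ∀ l : Nat.Primes, (l : ℕ) ∉ B →
      formOp N l f₁ = lam l • f₁ ∧ formOp N l f₂ = lam l • f₂ := by
    intro l hl
    have h1 : periodHomPair N (formOp N l f₁, formOp N l f₂)
        = periodHomPair N (lam l • (f₁, f₂)) := by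
      rw [periodHomPair_formOp, hf, map_smul, hf]
      exact hX l hl
    have h2 := hinj h1
    rw [Prod.smul_mk, Prod.mk.injEq] at h2
    exact h2
  exact ⟨f₁, f₂, hf, fun l hl => (heig l hl).1, fun l hl => (heig l hl).2⟩

/-- **the transfer**: a polynomial identity `Φ(formOp N b) = 0` on the cusp forms which are eigen
off `B` gives `Φ(cohLin N b) = 0` on the parabolic classes which are eigen off `B`. -/
theorem coh_aeval_eq_zero (B : Set ℕ) (lam : Nat.Primes → ℂ) (b : Nat.Primes) (Φ : ℂ[X])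
    (hforms : ∀ h : CuspForm (Gamma0 N) 2,
      (∀ l : Nat.Primes, (l : ℕ) ∉ B → formOp N l h = lam l • h) → aeval (formOp N b) Φ h = 0)
    (φ : Additive (Gamma0 N) →+ ℂ) (hXpar : φ ∈ parabolicHoms ℂ (Gamma0 N) ℂ)
    (hX : ∀ l : Nat.Primes, (l : ℕ) ∉ B → cohGen N ℂ l φ = lam l • φ) :
    aeval (cohLin N b) Φ φ = 0 := by
  obtain ⟨f₁, f₂, hf, h₁, h₂⟩ := exists_eigen_pair_off B lam φ hXpar hX
  rw [← hf, aeval_cohLin_periodHomPair, hforms f₁ h₁, hforms f₂ h₂]
  exact map_zero _

/-! ### explicit forms -/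

/-- `Φ = X − a`. -/
theorem coh_linear_of_forms (B : Set ℕ) (lam : Nat.Primes → ℂ) (b : Nat.Primes) (a : ℂ)
    (hforms : ∀ h : CuspForm (Gamma0 N) 2,
      (∀ l : Nat.Primes, (l : ℕ) ∉ B → formOp N l h = lam l • h) → formOp N b h = a • h)
    (φ : Additive (Gamma0 N) →+ ℂ) (hXpar : φ ∈ parabolicHoms ℂ (Gamma0 N) ℂ)
    (hX : ∀ l : Nat.Primes, (l : ℕ) ∉ B → cohGen N ℂ l φ = lam l • φ) :
    cohGen N ℂ b φ = a • φ := by
  have h := coh_aeval_eq_zero B lam b (X - C a)
    (fun h hh => by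
      rw [map_sub, aeval_X, aeval_C, LinearMap.sub_apply, Module.algebraMap_end_apply,
        hforms h hh, sub_self]) φ hXpar hX
  rw [map_sub, aeval_X, aeval_C, LinearMap.sub_apply, Module.algebraMap_end_apply,
    sub_eq_zero] at h
  exact h

/-- `Φ = X² − a X + c`. -/
theorem coh_quadratic_of_forms (B : Set ℕ) (lam : Nat.Primes → ℂ) (b : Nat.Primes) (a c : ℂ)
    (hforms : ∀ h : CuspForm (Gamma0 N) 2,
      (∀ l : Nat.Primes, (l : ℕ) ∉ B → formOp N l h = lam l • h) →
        formOp N b (formOp N b h) - a • formOp N b h + c • h = 0)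
    (φ : Additive (Gamma0 N) →+ ℂ) (hXpar : φ ∈ parabolicHoms ℂ (Gamma0 N) ℂ)
    (hX : ∀ l : Nat.Primes, (l : ℕ) ∉ B → cohGen N ℂ l φ = lam l • φ) :
    cohGen N ℂ b (cohGen N ℂ b φ) - a • cohGen N ℂ b φ + c • φ = 0 := by
  have key : ∀ {V : Type} [AddCommGroup V] [Module ℂ V] (A : Module.End ℂ V) (v : V),
      aeval A (X ^ 2 - C a * X + C c : ℂ[X]) v = A (A v) - a • A v + c • v := by
    intro V _ _ A v
    rw [map_add, map_sub, map_pow, map_mul, aeval_X, aeval_C, aeval_C, LinearMap.add_apply,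
      LinearMap.sub_apply, pow_two, Module.End.mul_apply, Module.End.mul_apply,
      Module.algebraMap_end_apply, Module.algebraMap_end_apply]
  have h := coh_aeval_eq_zero B lam b (X ^ 2 - C a * X + C c)
    (fun h hh => by rw [key, hforms h hh]) φ hXpar hX
  rw [key] at h
  exact h

/-- `Φ = X (X² − a X + c)`. -/
theorem coh_cubic_of_forms (B : Set ℕ) (lam : Nat.Primes → ℂ) (b : Nat.Primes) (a c : ℂ)
    (hforms : ∀ h : CuspForm (Gamma0 N) 2,
      (∀ l : Nat.Primes, (l : ℕ) ∉ B → formOp N l h = lam l • h) →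
        formOp N b (formOp N b (formOp N b h)) - a • formOp N b (formOp N b h)
          + c • formOp N b h = 0)
    (φ : Additive (Gamma0 N) →+ ℂ) (hXpar : φ ∈ parabolicHoms ℂ (Gamma0 N) ℂ)
    (hX : ∀ l : Nat.Primes, (l : ℕ) ∉ B → cohGen N ℂ l φ = lam l • φ) :
    cohGen N ℂ b (cohGen N ℂ b (cohGen N ℂ b φ)) - a • cohGen N ℂ b (cohGen N ℂ b φ)
      + c • cohGen N ℂ b φ = 0 := by
  have key : ∀ {V : Type} [AddCommGroup V] [Module ℂ V] (A : Module.End ℂ V) (v : V),
      aeval A (X ^ 3 - C a * X ^ 2 + C c * X : ℂ[X]) v = A (A (A v)) - a • A (A v) + c • A v := by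
    intro V _ _ A v
    rw [map_add, map_sub, map_pow, map_mul, map_mul, map_pow, aeval_X, aeval_C, aeval_C,
      LinearMap.add_apply, LinearMap.sub_apply, pow_succ, pow_two, Module.End.mul_apply,
      Module.End.mul_apply, Module.End.mul_apply, Module.End.mul_apply, Module.End.mul_apply,
      Module.algebraMap_end_apply, Module.algebraMap_end_apply]
  have h := coh_aeval_eq_zero B lam b (X ^ 3 - C a * X ^ 2 + C c * X)
    (fun h hh => by rw [key, hforms h hh]) φ hXpar hX
  rw [key] at h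
  exact h

end Fermat.Agent.GE9.OldQ
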