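/-
GATE-E / GE9-OLDQ (helper63) — O8, file 6: **the consumer, binder-free** (O6 plugged) and the
PLACE step of type (R).

`y ∈ O ⊗[ℤ] Lam N` an ANEMIC eigenvector (`T'_l y = lam l • y` for all primes `l ∉ B`,
`T'_l = (latT N l).baseChange O`), `B : Finset ℕ`, `b` a prime:
* `eigen_good`  (G) `b ∤ N`, reference `y₀ ≠ 0` FULL eigenvector of level `N` ⟹ `T'_b y = lam b • y`;
* `eigen_new`   (R) `N = M₀ b`, `b ∤ M₀`, `b ∈ B`, same reference + non-occurrence `hnonocc`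
  ⟹ `T'_b y = lam b • y`;
* `quad_old`    (P) `N = M₀ b`, `b ∤ M₀`, reference `y₁ ≠ 0` FULL eigenvector of level `M₀`
  ⟹ `T'_b² y − lam b • T'_b y + b • y = 0`;
* `cub_old`     (Q) `N = M₀ b b`, `b ∤ M₀`, same ⟹ `T'_b³ y − lam b • T'_b² y + b • T'_b y = 0`;
* `nonocc_of_place` : the hypothesis `hnonocc` of (R) from its `ℤ̄`-form (what `NonOcc.eq_zero_of_ramified`
  proves): every system `μ : primes → ℤ̄` and maximal ideal `𝔪 ∋ p` of `ℤ̄` to which the congruences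
  `lam l ≡ n (mod 𝔪_O)`, `n ∈ ℤ`, transfer has no anemic eigenform at a level prime to `b`.
-/
import Mathlib
import Fermat.Agent.GE9.OldQ.ConsumerMod
import Fermat.Agent.GE9.OldQ.CohShapes
import Fermat.Agent.GE8.AuxR.Place

set_option autoImplicit false
set_option linter.unusedSectionVars false

open scoped MatrixGroups TensorProduct
open CongruenceSubgroup ModularCurve ModularCurve.Period CuspForm ModularFormClass

namespace Fermat.Agent.GE9.OldQ.Final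

open Fermat.Agent.S16_helper49 Fermat.Agent.GJ.J2.Lat Fermat.Agent.GE9.Mult1
open Fermat.Agent.GM.End Fermat.Agent.GE9.OldQ.Consumer

section Plugged

variable {N : ℕ} [NeZero N] {O : Type*} [CommRing O] [IsDomain O] [CharZero O]

/-- **(G)**, binder-free. -/
theorem eigen_good (B : Finset ℕ) (b : Nat.Primes) (hbN : ¬ (b : ℕ) ∣ N)
    (lam : Nat.Primes → O) (y₀ : O ⊗[ℤ] Lam N) (hy₀ : y₀ ≠ 0)
    (hy₀e : ∀ l : Nat.Primes, (latT N l).baseChange O y₀ = lam l • y₀)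
    (y : O ⊗[ℤ] Lam N)
    (hy : ∀ l : Nat.Primes, (l : ℕ) ∉ B → (latT N l).baseChange O y = lam l • y) :
    (latT N b).baseChange O y = lam b • y :=
  eigen_of_good_tensor (B : Set ℕ) b (cohG B b hbN) lam y₀ hy₀ hy₀e y
    (fun l hl => hy l (fun h => hl (Finset.mem_coe.mpr h)))

/-- **(R)**, O6 plugged; `hnonocc` from `nonocc_of_place`. -/
theorem eigen_new (B : Finset ℕ) (b : Nat.Primes) (hbB : (b : ℕ) ∈ B) {M₀ : ℕ} [NeZero M₀]
    (hbM : ¬ (b : ℕ) ∣ M₀) (hN : N = M₀ * b)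
    (lam : Nat.Primes → O) (y₀ : O ⊗[ℤ] Lam N) (hy₀ : y₀ ≠ 0)
    (hy₀e : ∀ l : Nat.Primes, (latT N l).baseChange O y₀ = lam l • y₀)
    (hnonocc : ∀ (hint : ∀ l : Nat.Primes, IsIntegral ℤ (lam l))
      (τ : integralClosure ℤ O →+* ℂ), Function.Injective τ →
      ∀ (M' : ℕ) [NeZero M'], ¬ (b : ℕ) ∣ M' → ∀ g : CuspForm (Gamma0 M') 2,
        (∀ l : Nat.Primes, (l : ℕ) ∉ B → formOp M' l g = τ ⟨lam l, hint l⟩ • g) → g = 0)
    (y : O ⊗[ℤ] Lam N)
    (hy : ∀ l : Nat.Primes, (l : ℕ) ∉ B → (latT N l).baseChange O y = lam l • y) :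
    (latT N b).baseChange O y = lam b • y :=
  eigen_of_new_tensor (B : Set ℕ) b (cohR B b hbB hbM hN) lam y₀ hy₀ hy₀e
    (fun hint τ hτ M' _ hbM' g hg => hnonocc hint τ hτ M' hbM' g
      (fun l hl => hg l (fun h => hl (Finset.mem_coe.mp h))))
    y (fun l hl => hy l (fun h => hl (Finset.mem_coe.mpr h)))

variable {M₀ : ℕ} [NeZero M₀]

/-- **(P)**, binder-free. -/
theorem quad_old (B : Finset ℕ) (b : Nat.Primes) (hbM : ¬ (b : ℕ) ∣ M₀) (hN : N = M₀ * b)
    (lam : Nat.Primes → O) (y₁ : O ⊗[ℤ] Lam M₀) (hy₁ : y₁ ≠ 0)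
    (hy₁e : ∀ l : Nat.Primes, (latT M₀ l).baseChange O y₁ = lam l • y₁)
    (y : O ⊗[ℤ] Lam N)
    (hy : ∀ l : Nat.Primes, (l : ℕ) ∉ B → (latT N l).baseChange O y = lam l • y) :
    (latT N b).baseChange O ((latT N b).baseChange O y) - lam b • (latT N b).baseChange O y
      + ((b : ℕ) : O) • y = 0 :=
  quad_of_old_tensor (B : Set ℕ) b (cohP B b hbM hN) lam y₁ hy₁ hy₁e y
    (fun l hl => hy l (fun h => hl (Finset.mem_coe.mpr h)))

/-- **(Q)**, binder-free. -/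
theorem cub_old (B : Finset ℕ) (b : Nat.Primes) (hbM : ¬ (b : ℕ) ∣ M₀) (hN : N = M₀ * b * b)
    (lam : Nat.Primes → O) (y₁ : O ⊗[ℤ] Lam M₀) (hy₁ : y₁ ≠ 0)
    (hy₁e : ∀ l : Nat.Primes, (latT M₀ l).baseChange O y₁ = lam l • y₁)
    (y : O ⊗[ℤ] Lam N)
    (hy : ∀ l : Nat.Primes, (l : ℕ) ∉ B → (latT N l).baseChange O y = lam l • y) :
    (latT N b).baseChange O ((latT N b).baseChange O ((latT N b).baseChange O y))
      - lam b • (latT N b).baseChange O ((latT N b).baseChange O y)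
      + ((b : ℕ) : O) • (latT N b).baseChange O y = 0 :=
  cub_of_old_tensor (B : Set ℕ) b (cohQ B b hbM hN) lam y₁ hy₁ hy₁e y
    (fun l hl => hy l (fun h => hl (Finset.mem_coe.mpr h)))

end Plugged

section Closed

variable {N : ℕ} [NeZero N] {O : Type*} [CommRing O] [IsDomain O] [CharZero O]
variable {M₀ : ℕ} [NeZero M₀]

/-- **(P) closed on a submodule**: `P'` stable under `T'_b`, ANEMIC (off `B`) for the system `lam`
of a nonzero full eigenvector `y₁` of level `M₀ = N / b`; `X² − lam_b X + b = (X − α)(X − β')` and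
`T'_b − β'` injective on `P'`  ⟹  `T'_b = α` on `P'`. -/
theorem eigen_old_P (B : Finset ℕ) (b : Nat.Primes) (hbM : ¬ (b : ℕ) ∣ M₀) (hN : N = M₀ * b)
    (lam : Nat.Primes → O) (y₁ : O ⊗[ℤ] Lam M₀) (hy₁ : y₁ ≠ 0)
    (hy₁e : ∀ l : Nat.Primes, (latT M₀ l).baseChange O y₁ = lam l • y₁)
    (P' : Submodule O (O ⊗[ℤ] Lam N))
    (hstab : ∀ y ∈ P', (latT N b).baseChange O y ∈ P')
    (hP' : ∀ y ∈ P', ∀ l : Nat.Primes, (l : ℕ) ∉ B → (latT N l).baseChange O y = lam l • y)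
    (α β' : O) (hsum : α + β' = lam b) (hprod : α * β' = ((b : ℕ) : O))
    (hinj : ∀ y ∈ P', (latT N b).baseChange O y - β' • y = 0 → y = 0) :
    ∀ y ∈ P', (latT N b).baseChange O y = α • y := by
  refine eigen_of_quad ((latT N b).baseChange O) P' hstab α β' (fun y hy => ?_) hinj
  rw [hsum, hprod]
  exact quad_old B b hbM hN lam y₁ hy₁ hy₁e y (hP' y hy)

/-- **(Q) closed on a submodule**: `P'` stable under `T'_b`, ANEMIC (off `B`) for the system `lam`
of a nonzero full eigenvector `y₁` of level `M₀ = N / b²`; `T'_b² − lam_b T'_b + b` injective on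
`P'`  ⟹  `T'_b = 0` on `P'`. -/
theorem eigen_old_Q (B : Finset ℕ) (b : Nat.Primes) (hbM : ¬ (b : ℕ) ∣ M₀) (hN : N = M₀ * b * b)
    (lam : Nat.Primes → O) (y₁ : O ⊗[ℤ] Lam M₀) (hy₁ : y₁ ≠ 0)
    (hy₁e : ∀ l : Nat.Primes, (latT M₀ l).baseChange O y₁ = lam l • y₁)
    (P' : Submodule O (O ⊗[ℤ] Lam N))
    (hstab : ∀ y ∈ P', (latT N b).baseChange O y ∈ P')
    (hP' : ∀ y ∈ P', ∀ l : Nat.Primes, (l : ℕ) ∉ B → (latT N l).baseChange O y = lam l • y)
    (hinj : ∀ y ∈ P', (latT N b).baseChange O ((latT N b).baseChange O y)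
      - lam b • (latT N b).baseChange O y + ((b : ℕ) : O) • y = 0 → y = 0) :
    ∀ y ∈ P', (latT N b).baseChange O y = 0 :=
  eigen_of_cub ((latT N b).baseChange O) P' hstab (lam b) ((b : ℕ) : O)
    (fun y hy => cub_old B b hbM hN lam y₁ hy₁ hy₁e y (hP' y hy)) hinj

/-- **assembly**: an anemic `P'` on which every bad prime has been treated is a FULL eigen-submodule,
hence of rank `≤ 2` (MULT1-O). -/
theorem finrank_le_two_of_anemic (B : Finset ℕ) (lam' : Nat.Primes → O)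
    (P' : Submodule O (O ⊗[ℤ] Lam N))
    (hP' : ∀ y ∈ P', ∀ l : Nat.Primes, (l : ℕ) ∉ B → (latT N l).baseChange O y = lam' l • y)
    (hB : ∀ y ∈ P', ∀ l : Nat.Primes, (l : ℕ) ∈ B → (latT N l).baseChange O y = lam' l • y) :
    P' ≤ eigenTensorO N O lam' ∧ Module.finrank O P' ≤ 2 := by
  have hall : ∀ y ∈ P', ∀ l : Nat.Primes, (latT N l).baseChange O y = lam' l • y := by
    intro y hy l
    by_cases hl : (l : ℕ) ∈ B
    · exact hB y hy l hl
    · exact hP' y hy l hl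
  refine ⟨fun y hy => mem_eigenTensorO.mpr (hall y hy), ?_⟩
  have hfree : Module.Free ℤ (Lam N) := Fermat.Agent.GJ.J2.ZStruct.free_parabolicHoms_int N
  have hfin : Module.Finite ℤ (Lam N) := Fermat.Agent.GJ.J2.ZStruct.finite_parabolicHoms_int N
  let β := Module.Free.chooseBasis ℤ (Lam N)
  exact finrank_le_two_of_eigenO β (Algebra.TensorProduct.basis O β)
    ((TensorProduct.mk ℤ O (Lam N) 1).toAddMonoidHom)
    (fun i => by
      rw [Algebra.TensorProduct.basis_apply]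
      rfl)
    (fun l => (latT N l).baseChange O)
    (fun l Φ => by
      show (latT N l).baseChange O ((1 : O) ⊗ₜ[ℤ] Φ) = (1 : O) ⊗ₜ[ℤ] (latT N l Φ)
      rw [LinearMap.baseChange_tmul])
    lam' P' hall

end Closed

section Place

/-- `ℤ̄ ⊆ ℂ`. -/
local notation "Zbar" => integralClosure ℤ ℂ

variable {O : Type} [CommRing O] [IsLocalRing O]

/-- **the PLACE step of type (R)**: the non-occurrence hypothesis of `eigen_new`, from its `ℤ̄`-form. -/
theorem nonocc_of_place {p : ℕ} (hp : p.Prime) (hpO : (p : O) ∈ IsLocalRing.maximalIdeal O)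
    (B : Finset ℕ) (b : Nat.Primes) (lam : Nat.Primes → O)
    (hZ : ∀ (𝔪 : Ideal Zbar), 𝔪.IsMaximal → (p : Zbar) ∈ 𝔪 → ∀ μ : Nat.Primes → Zbar,
      (∀ (l : Nat.Primes) (n : ℤ), lam l - (n : O) ∈ IsLocalRing.maximalIdeal O →
        μ l - (n : Zbar) ∈ 𝔪) →
      ∀ (M' : ℕ) [NeZero M'], ¬ (b : ℕ) ∣ M' → ∀ g : CuspForm (Gamma0 M') 2,
        (∀ l : Nat.Primes, (l : ℕ) ∉ B → formOp M' l g = ((μ l : Zbar) : ℂ) • g) → g = 0) :
    ∀ (hint : ∀ l : Nat.Primes, IsIntegral ℤ (lam l))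
      (τ : integralClosure ℤ O →+* ℂ), Function.Injective τ →
      ∀ (M' : ℕ) [NeZero M'], ¬ (b : ℕ) ∣ M' → ∀ g : CuspForm (Gamma0 M') 2,
        (∀ l : Nat.Primes, (l : ℕ) ∉ B → formOp M' l g = τ ⟨lam l, hint l⟩ • g) → g = 0 := by
  intro hint τ hτ M' _ hbM' g hg
  obtain ⟨j, Q, hj, hQmax, hpQ, hjQ⟩ :=
    Fermat.Agent.GE8.AuxR.Place.exists_maximal_over (R0 := integralClosure ℤ O)
      ((integralClosure ℤ O).val.toRingHom) τ hτ hp hpO
  refine hZ Q hQmax hpQ (fun l => j ⟨lam l, hint l⟩) ?_ M' hbM' g ?_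
  · intro l n hn
    have h1 : (integralClosure ℤ O).val.toRingHom
        ((⟨lam l, hint l⟩ : integralClosure ℤ O) - (n : integralClosure ℤ O))
        ∈ IsLocalRing.maximalIdeal O := by
      rw [map_sub, map_intCast]
      exact hn
    have h2 := hjQ _ h1
    rwa [map_sub, map_intCast] at h2
  · intro l hl
    rw [hj]
    exact hg l hl

end Place

end Fermat.Agent.GE9.OldQ.Final
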