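/-
GATE-E / GE9-OLDQ (helper63) — O8, file 7: **type (R) closed**: `Final.eigen_new` with its
non-occurrence hypothesis discharged by O9 (`NonOcc.eq_zero_of_ramified`, helper81) through the
PLACE step `Final.nonocc_of_place`.

`ρ̄_{W,p} ⊗ k` ramified at the prime `b ≠ p`, `O` a local domain of characteristic `0` with
`p ∈ 𝔪_O`, `lam l ≡ a_l(W) (mod 𝔪_O)` at the good primes `l ∉ B`, `l ≠ p`; `N = M₀ b`, `b ∤ M₀`,
`b ∈ B`; `y₀ ≠ 0` a FULL eigenvector in `O ⊗ Lam N`.  Then every ANEMIC eigenvector `y` (off `B`)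
has `T'_b y = lam b • y`.
-/
import Mathlib
import Fermat.Agent.GE9.OldQ.Final
import Fermat.Agent.GE9.OldQ.NonOcc

set_option autoImplicit false
set_option linter.unusedSectionVars false

open scoped MatrixGroups TensorProduct
open CongruenceSubgroup CuspForm ModularFormClass WeierstrassCurve WeierstrassCurve.Affine.Point
open scoped WeierstrassCurve.Affine

namespace Fermat.Agent.GE9.OldQ.Final

open Fermat.Agent.GJ.J2.Lat Fermat.Agent.GM.End Fermat.Agent.GB.Setup.RhoBar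

variable {p : ℕ} [Fact p.Prime] {W : WeierstrassCurve ℤ}
  (hcard₁ : Nat.card (Submodule.torsionBy ℤ
    ((W.map (Int.castRingHom ℚ))⁄(AlgebraicClosure ℚ)).Point p) = p ^ 2)
  (hker : GaloisFactorsThroughFiniteLevel
    (galoisRepModuleEnd (K := AlgebraicClosure ℚ) ℚ (W.map (Int.castRingHom ℚ)) p))

/-- the non-occurrence hypothesis of `eigen_new` at a prime where `ρ̄` is ramified. -/
theorem nonocc_of_ramified (hΔ : W.Δ ≠ 0) (hirr : W.ModRepIsIrreducible p)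
    (htrans : ∃ σ : (AlgebraicClosure ℚ ≃ₐ[ℚ] AlgebraicClosure ℚ),
      galoisRepModuleEnd (K := AlgebraicClosure ℚ) ℚ (W.map (Int.castRingHom ℚ)) p σ ≠ 1 ∧
        (galoisRepModuleEnd (K := AlgebraicClosure ℚ) ℚ (W.map (Int.castRingHom ℚ)) p σ - 1) ^ 2
          = 0)
    (k : Type) [Field k] [Algebra (ZMod p) k] (b : Nat.Primes) (hbp : (b : ℕ) ≠ p)
    (hram : ¬ ((rb p W hcard₁ hker).baseChange k).IsUnramifiedAt b)
    {O : Type} [CommRing O] [IsLocalRing O] (hpO : (p : O) ∈ IsLocalRing.maximalIdeal O)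
    (B : Finset ℕ) (lam : Nat.Primes → O)
    (hcong : ∀ l : Nat.Primes, (l : ℕ) ∉ B → W.IsGoodPrimeFor l → (l : ℕ) ≠ p →
      lam l - ((W.apOfModel l : ℤ) : O) ∈ IsLocalRing.maximalIdeal O) :
    ∀ (hint : ∀ l : Nat.Primes, IsIntegral ℤ (lam l))
      (τ : integralClosure ℤ O →+* ℂ), Function.Injective τ →
      ∀ (M' : ℕ) [NeZero M'], ¬ (b : ℕ) ∣ M' → ∀ g : CuspForm (Gamma0 M') 2,
        (∀ l : Nat.Primes, (l : ℕ) ∉ B → formOp M' l g = τ ⟨lam l, hint l⟩ • g) → g = 0 := by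
  apply nonocc_of_place (Fact.out : p.Prime) hpO B b lam
  intro 𝔪 h𝔪 hp𝔪 μ hμ M' _ hbM' g hg
  have hrM' : ¬ (b : ℕ) ∣ M' * p := by
    intro hdvd
    rcases (Nat.Prime.dvd_mul b.2).mp hdvd with h | h
    · exact hbM' h
    · exact hbp ((Nat.prime_dvd_prime_iff_eq b.2 (Fact.out : p.Prime)).mp h)
  exact NonOcc.eq_zero_of_ramified hcard₁ hker hΔ hirr htrans k b.2 hram M' hrM' B 𝔪 h𝔪 hp𝔪 μ
    (fun l hlB hgood _ hlp => hμ l _ (hcong l hlB hgood hlp)) g hg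

variable {N : ℕ} [NeZero N]

/-- **(R) closed.** -/
theorem eigen_new_of_ramified (hΔ : W.Δ ≠ 0) (hirr : W.ModRepIsIrreducible p)
    (htrans : ∃ σ : (AlgebraicClosure ℚ ≃ₐ[ℚ] AlgebraicClosure ℚ),
      galoisRepModuleEnd (K := AlgebraicClosure ℚ) ℚ (W.map (Int.castRingHom ℚ)) p σ ≠ 1 ∧
        (galoisRepModuleEnd (K := AlgebraicClosure ℚ) ℚ (W.map (Int.castRingHom ℚ)) p σ - 1) ^ 2
          = 0)
    (k : Type) [Field k] [Algebra (ZMod p) k] (b : Nat.Primes) (hbp : (b : ℕ) ≠ p)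
    (hram : ¬ ((rb p W hcard₁ hker).baseChange k).IsUnramifiedAt b)
    {O : Type} [CommRing O] [IsDomain O] [CharZero O] [IsLocalRing O]
    (hpO : (p : O) ∈ IsLocalRing.maximalIdeal O)
    (B : Finset ℕ) (hbB : (b : ℕ) ∈ B) {M₀ : ℕ} [NeZero M₀]
    (hbM : ¬ (b : ℕ) ∣ M₀) (hN : N = M₀ * b) (lam : Nat.Primes → O)
    (hcong : ∀ l : Nat.Primes, (l : ℕ) ∉ B → W.IsGoodPrimeFor l → (l : ℕ) ≠ p →
      lam l - ((W.apOfModel l : ℤ) : O) ∈ IsLocalRing.maximalIdeal O)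
    (y₀ : O ⊗[ℤ] Lam N) (hy₀ : y₀ ≠ 0)
    (hy₀e : ∀ l : Nat.Primes, (latT N l).baseChange O y₀ = lam l • y₀)
    (y : O ⊗[ℤ] Lam N)
    (hy : ∀ l : Nat.Primes, (l : ℕ) ∉ B → (latT N l).baseChange O y = lam l • y) :
    (latT N b).baseChange O y = lam b • y :=
  eigen_new B b hbB hbM hN lam y₀ hy₀ hy₀e
    (nonocc_of_ramified hcard₁ hker hΔ hirr htrans k b hbp hram hpO B lam hcong) y hy

end Fermat.Agent.GE9.OldQ.Final
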