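/-
GATE-E / SO(a) step supply, LATTICE HALF of `hnew` (helper63): **if `W` is NOT residually modular of
level `N₀` (`p ∤ N₀`), then the `𝔪`-local part of `𝒪 ⊗ Lam (N₀ p)` is `p`-new**, i.e. killed by
`β_p ⊗ 𝒪 = (cores_p, cores_{p,δ}) ⊗ 𝒪`, for every eigensystem `lam'` lifting `a_ℓ(W)` mod `𝔪_𝒪` off
a finite set `S ∋ p` containing the primes of `N₀`.

Proof: helper39's `GB/B10/KillerPlug.exists_killer_of_not_resMod` gives an integer polynomial `P` in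
the `T_ℓ`, `ℓ ∉ S`, with `P (T^{N₀}) = 0` and `θ (P (T^N)) = 1` for every mod-`p` eigencharacter of
any level with the eigenvalues of `W`.  `β_p` intertwines `P (T^{N₀ p})` and `P (T^{N₀})`
(`GM/B5/EquivLat.betaP_latT`), so `β_p ∘ P (T^{N₀ p}) = 0` on `Lam (N₀ p)`; and `P (T^{N₀ p})`
acts bijectively on the `𝔪`-local part (`CarrierLam.bijective_smul_of_isUnit`).

* `betaP_latAct_aeval` : the intertwining relation for Hecke polynomials away from `S`;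
* `hnew_of_killer` : the statement from a killer `P`;
* **`hnew_of_not_resMod`** : the statement from `¬ W.IsResiduallyModularOfLevel p N₀`;
* **`hnew_stage`** : the same in the VERBATIM shape of the binder `hnew` of helper73's
  `GE9/Stage/SupplySOFrob.exists_supplySO_frob` (`EtaStage … → ∀ [IsMaximal], ∀ x ∈ locPart …`);
* **`sq_eq_one_of_not_resMod`** : by-product — the eigensystem of an `EtaStage` of level `N₀ p` has
  `lam p ^ 2 = 1` (helper50's `UqSqOmega.latT_baseChange_sq_of_betaP`): the input `hu` of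
  `NonOccNew.nonOccAt_of_sq_eq_one`.
-/
import Mathlib
import Fermat.Agent.GB.B10.KillerPlug
import Fermat.Agent.GE9.Stage.CarrierLam
import Fermat.Agent.GM.B5.EquivLat
import Fermat.Agent.GE9.PNew.UqSqOmega

set_option autoImplicit false
set_option linter.unusedSectionVars false
set_option linter.unusedVariables false
set_option linter.style.haveILetI false

noncomputable section

namespace Fermat.Agent.GE9.OldQ.HnewLoc

open TensorProduct IsLocalRing Submodule CuspForm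
open Fermat.Agent.GJ.J2.Lat Fermat.Agent.GJ.J2.LatAct Fermat.Agent.GB.B3.Loc
  Fermat.Agent.GE9.Eta.Mod Fermat.Agent.GE9.Mult1 Fermat.Agent.GE9.Stage.CarrierLam
  Fermat.Agent.GM.B Fermat.Agent.GK.New Fermat.Agent.GB.A.A6.Killer

/-! ### `β_p` intertwines the Hecke polynomials away from `S` -/

section Abstract

/-- an additive map intertwining two families of commuting operators intertwines all the
polynomials in them (Mathlib only). -/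
theorem intertwine_aeval {σ A₁ A₀ M₁ M₀ : Type*} [CommRing A₁] [CommRing A₀] [Algebra ℤ A₁]
    [Algebra ℤ A₀] [AddCommGroup M₁] [AddCommGroup M₀]
    (a₁ : A₁ →+* Module.End ℤ M₁) (a₀ : A₀ →+* Module.End ℤ M₀) (f₁ : σ → A₁) (f₀ : σ → A₀)
    (β : M₁ →+ M₀ × M₀)
    (hX : ∀ (i : σ) (z : M₁), β (a₁ (f₁ i) z) = (a₀ (f₀ i) (β z).1, a₀ (f₀ i) (β z).2))
    (P : MvPolynomial σ ℤ) :
    ∀ z : M₁, β (a₁ (MvPolynomial.aeval f₁ P) z)
      = (a₀ (MvPolynomial.aeval f₀ P) (β z).1, a₀ (MvPolynomial.aeval f₀ P) (β z).2) := by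
  induction P using MvPolynomial.induction_on with
  | C n =>
    intro z
    rw [MvPolynomial.aeval_C, MvPolynomial.aeval_C, eq_intCast (algebraMap ℤ A₁) n,
      eq_intCast (algebraMap ℤ A₀) n, map_intCast, map_intCast,
      Module.End.intCast_apply, Module.End.intCast_apply, Module.End.intCast_apply, map_zsmul]
    rfl
  | add P Q hP hQ =>
    intro z
    rw [map_add, map_add, map_add, map_add, LinearMap.add_apply, LinearMap.add_apply,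
      LinearMap.add_apply, map_add, hP z, hQ z]
    rfl
  | mul_X P i hP =>
    intro z
    simp only [map_mul, MvPolynomial.aeval_X, Module.End.mul_apply]
    rw [hP, hX]

end Abstract

section Equiv

variable {N₀ p : ℕ} [Fact p.Prime] [NeZero N₀] [NeZero (N₀ * p)] (hpN₀ : ¬ p ∣ N₀)
  {S : Finset ℕ} (hN₀S : ∀ q : ℕ, q.Prime → q ∣ N₀ → q ∈ S)
  (hNS : ∀ q : ℕ, q.Prime → q ∣ N₀ * p → q ∈ S)

theorem latAct_TfamH (N : ℕ) [NeZero N] (hS : ∀ q : ℕ, q.Prime → q ∣ N → q ∈ S)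
    (i : PrimeIdx S) :
    latAct N (↑S : Set ℕ) (TfamH hS i) = latT N (⟨i.1, i.2.1⟩ : Nat.Primes) := by
  rw [TfamH]
  exact latAct_T N (↑S : Set ℕ) i.2.1 (PrimeIdx.not_dvd hS i) _

/-- `β_p` intertwines the Hecke polynomials away from `S` of the levels `N₀ p` and `N₀`. -/
theorem betaP_latAct_aeval (P : MvPolynomial (PrimeIdx S) ℤ) (z : Lam (N₀ * p)) :
    betaP ℤ hpN₀ (latAct (N₀ * p) (↑S : Set ℕ) (MvPolynomial.aeval (TfamH hNS) P) z)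
      = (latAct N₀ (↑S : Set ℕ) (MvPolynomial.aeval (TfamH hN₀S) P) (betaP ℤ hpN₀ z).1,
         latAct N₀ (↑S : Set ℕ) (MvPolynomial.aeval (TfamH hN₀S) P) (betaP ℤ hpN₀ z).2) := by
  have hX : ∀ (i : PrimeIdx S) (z : Lam (N₀ * p)),
      betaP ℤ hpN₀ (latAct (N₀ * p) (↑S : Set ℕ) (TfamH hNS i) z)
    = (latAct N₀ (↑S : Set ℕ) (TfamH hN₀S i) (betaP ℤ hpN₀ z).1,
       latAct N₀ (↑S : Set ℕ) (TfamH hN₀S i) (betaP ℤ hpN₀ z).2) := by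
    intro i z
    rw [latAct_TfamH, latAct_TfamH]
    exact Fermat.Agent.GM.B5.betaP_latT hpN₀ (⟨i.1, i.2.1⟩ : Nat.Primes) (PrimeIdx.not_dvd hNS i) z
  exact intertwine_aeval (latAct (N₀ * p) (↑S : Set ℕ)) (latAct N₀ (↑S : Set ℕ))
    (TfamH hNS) (TfamH hN₀S) (betaP ℤ hpN₀) hX P z

/-- a Hecke polynomial away from `S` which dies at level `N₀` maps `Lam (N₀ p)` into `ker β_p`. -/
theorem betaP_comp_latAct_eq_zero (P : MvPolynomial (PrimeIdx S) ℤ)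
    (hP0 : MvPolynomial.aeval (TfamH hN₀S) P = 0) :
    (betaP ℤ hpN₀).toIntLinearMap ∘ₗ
      latAct (N₀ * p) (↑S : Set ℕ) (MvPolynomial.aeval (TfamH hNS) P) = 0 := by
  refine LinearMap.ext fun z => ?_
  rw [LinearMap.comp_apply, AddMonoidHom.coe_toIntLinearMap, betaP_latAct_aeval hpN₀ hN₀S hNS,
    hP0, map_zero, LinearMap.zero_apply, LinearMap.zero_apply, LinearMap.zero_apply]
  rfl

end Equiv

/-! ### the local part is `p`-new -/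

section Main

variable {𝒪 : Type} [CommRing 𝒪] [IsDomain 𝒪] [CharZero 𝒪]
  [IsLocalRing 𝒪] [IsNoetherianRing 𝒪] [IsAdicComplete (maximalIdeal 𝒪) 𝒪]
  {N₀ p : ℕ} [Fact p.Prime] [NeZero N₀] [NeZero (N₀ * p)]
  {S : Finset ℕ}

/-- **`hnew` from a killer**: a Hecke polynomial `P` away from `S` with `P (T^{N₀}) = 0` acting on
the eigen-sublattice of `lam'` by a unit ⟹ the `𝔪`-local part of level `N₀ p` is `p`-new. -/
theorem hnew_of_killer (hpN₀ : ¬ p ∣ N₀) (hN₀S : ∀ q : ℕ, q.Prime → q ∣ N₀ → q ∈ S)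
    (hNS : ∀ q : ℕ, q.Prime → q ∣ N₀ * p → q ∈ S)
    (lam' : Nat.Primes → 𝒪) [(mLam (N₀ * p) 𝒪 lam').IsMaximal]
    {x₀ : 𝒪 ⊗[ℤ] Lam (N₀ * p)} (hx₀ : x₀ ∈ eigenTensorO (N₀ * p) 𝒪 lam') (hx₀0 : x₀ ≠ 0)
    (P : MvPolynomial (PrimeIdx S) ℤ) (hP0 : MvPolynomial.aeval (TfamH hN₀S) P = 0)
    (hP1 : IsUnit (chiLam (N₀ * p) 𝒪 lam'
      (iotaLam (N₀ * p) 𝒪 (↑S : Set ℕ) (MvPolynomial.aeval (TfamH hNS) P)))) :
    ∀ x ∈ locPart (mLam (N₀ * p) 𝒪 lam') (𝒪 ⊗[ℤ] Lam (N₀ * p)),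
      (betaP ℤ hpN₀).toIntLinearMap.baseChange 𝒪 x = 0 := by
  intro x hx
  set a : AfLam (N₀ * p) 𝒪 :=
    iotaLam (N₀ * p) 𝒪 (↑S : Set ℕ) (MvPolynomial.aeval (TfamH hNS) P) with ha
  have hbij := bijective_smul_of_isUnit hx₀ hx₀0 a hP1 (chiLam_spec (N₀ * p) 𝒪 lam' a hx₀)
  obtain ⟨y, hy⟩ := hbij.2 ⟨x, hx⟩
  have hxy : x = a • (y : 𝒪 ⊗[ℤ] Lam (N₀ * p)) := (congrArg Subtype.val hy).symm
  rw [hxy, ha, iotaLam_smul, ← LinearMap.comp_apply, ← LinearMap.baseChange_comp,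
    betaP_comp_latAct_eq_zero hpN₀ hN₀S hNS P hP0, LinearMap.baseChange_zero,
    LinearMap.zero_apply]

/-- **`hnew` from `¬ IsResiduallyModularOfLevel`** (lattice half of helper10's NONOCC-SOa). -/
theorem hnew_of_not_resMod (hpN₀ : ¬ p ∣ N₀) (hN₀S : ∀ q : ℕ, q.Prime → q ∣ N₀ → q ∈ S)
    (W : WeierstrassCurve ℤ) (hΔ : W.Δ ≠ 0) (hpS : p ∈ S)
    (hno : ¬ W.IsResiduallyModularOfLevel p N₀) (hp𝒪 : (p : 𝒪) ∈ maximalIdeal 𝒪)
    (lam' : Nat.Primes → 𝒪)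
    (hlamW : ∀ l : Nat.Primes, (l : ℕ) ∉ S →
      residue 𝒪 (lam' l) = ((W.apOfModel l : ℤ) : ResidueField 𝒪))
    [(mLam (N₀ * p) 𝒪 lam').IsMaximal]
    {x₀ : 𝒪 ⊗[ℤ] Lam (N₀ * p)} (hx₀ : x₀ ∈ eigenTensorO (N₀ * p) 𝒪 lam') (hx₀0 : x₀ ≠ 0) :
    ∀ x ∈ locPart (mLam (N₀ * p) 𝒪 lam') (𝒪 ⊗[ℤ] Lam (N₀ * p)),
      (betaP ℤ hpN₀).toIntLinearMap.baseChange 𝒪 x = 0 := by
  have hp : p.Prime := Fact.out
  have hNS : ∀ q : ℕ, q.Prime → q ∣ N₀ * p → q ∈ S := by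
    intro q hq hqN
    rcases (Nat.Prime.dvd_mul hq).mp hqN with h | h
    · exact hN₀S q hq h
    · rw [(Nat.prime_dvd_prime_iff_eq hq hp).mp h]
      exact hpS
  obtain ⟨P, hP0, hP1⟩ :=
    Fermat.Agent.GB.B10.KillerPlug.exists_killer_of_not_resMod (S := S) W hΔ hp hN₀S hno
  refine hnew_of_killer hpN₀ hN₀S hNS lam' hx₀ hx₀0 P hP0 ?_
  set θ : ↥(heckeAlgebra (N₀ * p) 2 (↑S : Set ℕ)) →+* ResidueField 𝒪 :=
    (residue 𝒪).comp (((chiHom hx₀ hx₀0 : AfLam (N₀ * p) 𝒪 →ₐ[𝒪] 𝒪) :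
      AfLam (N₀ * p) 𝒪 →+* 𝒪).comp (iotaLam (N₀ * p) 𝒪 (↑S : Set ℕ))) with hθ
  have h1 := hP1 (N₀ * p) hNS (ResidueField 𝒪) θ
    (by
      have : ((p : ℕ) : ResidueField 𝒪) = residue 𝒪 ((p : ℕ) : 𝒪) := (map_natCast _ _).symm
      rw [this, residue_eq_zero_iff]
      exact hp𝒪)
    (by
      intro ℓ hℓ hℓN hℓS
      rw [hθ, RingHom.comp_apply, RingHom.comp_apply, RingHom.coe_coe, chiHom_apply,
        chiLam_eq_of_smul hx₀ hx₀0 _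
          ((iotaLam_T_smul (N₀ * p) 𝒪 (↑S : Set ℕ) hℓ hℓN hℓS x₀).trans
            (mem_eigenTensorO.mp hx₀ (⟨ℓ, hℓ⟩ : Nat.Primes)))]
      exact hlamW (⟨ℓ, hℓ⟩ : Nat.Primes) (by exact_mod_cast hℓS))
  rw [hθ, RingHom.comp_apply, RingHom.comp_apply, RingHom.coe_coe, chiHom_apply] at h1
  by_contra hnu
  have h0 : residue 𝒪 (chiLam (N₀ * p) 𝒪 lam'
      (iotaLam (N₀ * p) 𝒪 (↑S : Set ℕ) (MvPolynomial.aeval (TfamH hNS) P))) = 0 := by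
    rw [residue_eq_zero_iff, mem_maximalIdeal, mem_nonunits_iff]
    exact hnu
  rw [h0] at h1
  exact zero_ne_one h1

/-- **the binder `hnew` of `SupplySOFrob.exists_supplySO_frob`, VERBATIM shape.** -/
theorem hnew_stage (hpN₀ : ¬ p ∣ N₀) (hN₀S : ∀ q : ℕ, q.Prime → q ∣ N₀ → q ∈ S)
    (W : WeierstrassCurve ℤ) (hΔ : W.Δ ≠ 0) (hpS : p ∈ S)
    (hno : ¬ W.IsResiduallyModularOfLevel p N₀) (hp𝒪 : (p : 𝒪) ∈ maximalIdeal 𝒪)
    (lam' : Nat.Primes → 𝒪)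
    (hlamW : ∀ l : Nat.Primes, (l : ℕ) ∉ S →
      residue 𝒪 (lam' l) = ((W.apOfModel l : ℤ) : ResidueField 𝒪))
    {d : ℕ} (hd : d ≠ 0) :
    EtaStage (N₀ * p) 𝒪 lam' d →
      ∀ [(mLam (N₀ * p) 𝒪 lam').IsMaximal],
      ∀ x ∈ locPart (mLam (N₀ * p) 𝒪 lam') (𝒪 ⊗[ℤ] Lam (N₀ * p)),
        (betaP ℤ hpN₀).toIntLinearMap.baseChange 𝒪 x = 0 := by
  rintro ⟨b, hli, hspan, -⟩ _
  have hx₀ : b ⟨0, Nat.pos_of_ne_zero hd⟩ ∈ eigenTensorO (N₀ * p) 𝒪 lam' := by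
    rw [← hspan]
    exact subset_span (Set.mem_range_self _)
  exact hnew_of_not_resMod hpN₀ hN₀S W hΔ hpS hno hp𝒪 lam' hlamW hx₀ (hli.ne_zero _)

/-- **by-product**: the eigensystem of an `EtaStage` of level `N₀ p` whose residual system is not
modular of level `N₀` has `lam p ^ 2 = 1` (`= hu` of `NonOccNew.nonOccAt_of_sq_eq_one`). -/
theorem sq_eq_one_of_not_resMod (hpN₀ : ¬ p ∣ N₀) (hN₀S : ∀ q : ℕ, q.Prime → q ∣ N₀ → q ∈ S)
    (W : WeierstrassCurve ℤ) (hΔ : W.Δ ≠ 0) (hpS : p ∈ S)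
    (hno : ¬ W.IsResiduallyModularOfLevel p N₀) (hp𝒪 : (p : 𝒪) ∈ maximalIdeal 𝒪)
    (lam' : Nat.Primes → 𝒪)
    (hlamW : ∀ l : Nat.Primes, (l : ℕ) ∉ S →
      residue 𝒪 (lam' l) = ((W.apOfModel l : ℤ) : ResidueField 𝒪))
    {x₀ : 𝒪 ⊗[ℤ] Lam (N₀ * p)} (hx₀ : x₀ ∈ eigenTensorO (N₀ * p) 𝒪 lam') (hx₀0 : x₀ ≠ 0)
    (hp : p.Prime) : lam' (⟨p, hp⟩ : Nat.Primes) ^ 2 = 1 := by
  haveI : (mLam (N₀ * p) 𝒪 lam').IsMaximal := isMaximal_mLam hx₀ hx₀0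
  have hloc : x₀ ∈ locPart (mLam (N₀ * p) 𝒪 lam') (𝒪 ⊗[ℤ] Lam (N₀ * p)) :=
    eigenTensorO_le_locPart hx₀ hx₀0 hx₀
  have hβ := hnew_of_not_resMod hpN₀ hN₀S W hΔ hpS hno hp𝒪 lam' hlamW hx₀ hx₀0 x₀ hloc
  haveI : Module.Flat ℤ 𝒪 := inferInstance
  have h := Fermat.Agent.GE9.PNew.UqSqOmega.latT_baseChange_sq_of_betaP hpN₀ hp 𝒪 x₀ hβ
  have he := mem_eigenTensorO.mp hx₀ (⟨p, hp⟩ : Nat.Primes)
  rw [he, map_smul, he, smul_smul] at h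
  have h' : (lam' (⟨p, hp⟩ : Nat.Primes) * lam' (⟨p, hp⟩ : Nat.Primes)) • x₀
      = (1 : 𝒪) • x₀ := by rw [h, one_smul]
  rw [pow_two]
  exact scalar_cancel hx₀0 h'

end Main

end Fermat.Agent.GE9.OldQ.HnewLoc

end
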