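/-
GATE-E / GE9-OLDQ, SO(a) add-on (helper81): **suppliers of `BaseLvl.NonOccAtLvl`** (non-occurrence at
ONE level), the hypothesis on the LAST bad prime of `BaseLvl.exists_full_system_lvl`.

* `nonOccAtLvl_mono`, `nonOccAtLvl_congr`, `nonOccAtLvl_map` : formal properties;
* `nonOccAtLvl_of_place` : the PLACE step (twin of `Consumer.nonOccAt_of_place`);
* **`nonOccAtLvl_of_not_resMod`** : `O` local with `p ∈ 𝔪_O`, `lam₀ l ≡ a_l(W)` mod `𝔪_O` at the
  good primes `l ∉ B`, `l ≠ p`, and `W` NOT residually modular of level `M'` ⟹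
  `NonOccAtLvl O B lam₀ M'` (O9: `NonOcc.isResiduallyModularOfLevel_of_anemic`);
* **`nonOccAtLvl_of_not_resMod_of_local`** : the same over a field `Ω`, for the image of a family of a
  LOCAL ring `T` under a ring hom `χ : T → Ω`.

Use (strict-ordinary case (a): `p ∥ M`, `¬ W.IsResiduallyModularOfLevel p (M / p)`): `r := p`,
`M₀ := M / p` at the base; at a stage `M₀ := (M / p) ∏ q²` with `hnot` from SQ + LLQ lowering.
-/
import Mathlib
import Fermat.Agent.GE9.OldQ.BaseLvl
import Fermat.Agent.GE9.OldQ.NonOcc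
import Fermat.Agent.GE8.AuxR.Place

set_option autoImplicit false
set_option linter.unusedSectionVars false
set_option linter.style.haveILetI false

open scoped MatrixGroups TensorProduct
open CongruenceSubgroup CuspForm ModularFormClass

namespace Fermat.Agent.GE9.OldQ.NonOccP

open Fermat.Agent.GJ.J2.Lat Fermat.Agent.GM.End Fermat.Agent.GE9.OldQ.BaseLvl

/-- `ℤ̄ ⊆ ℂ`. -/
local notation "Zbar" => integralClosure ℤ ℂ

/-! ### formal properties -/

section Formal

/-- `NonOccAtLvl` is antitone in the bad set. -/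
theorem nonOccAtLvl_mono {O : Type*} [CommRing O] {B B' : Finset ℕ} (hBB' : B ⊆ B')
    (lam₀ : Nat.Primes → O) (M' : ℕ) [NeZero M'] (h : NonOccAtLvl O B' lam₀ M') :
    NonOccAtLvl O B lam₀ M' := by
  intro hint₀ τ hτ g hg
  exact h (fun l hl => hint₀ l (fun hlB => hl (hBB' hlB))) τ hτ g
    (fun l hl => hg l (fun hlB => hl (hBB' hlB)))

/-- `NonOccAtLvl` only depends on the values of the system off `B`. -/
theorem nonOccAtLvl_congr {O : Type*} [CommRing O] {B : Finset ℕ}
    {lam₀ lam₁ : Nat.Primes → O} (hagree : ∀ l : Nat.Primes, (l : ℕ) ∉ B → lam₀ l = lam₁ l)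
    (M' : ℕ) [NeZero M'] (h : NonOccAtLvl O B lam₀ M') : NonOccAtLvl O B lam₁ M' := by
  intro hint₁ τ hτ g hg
  refine h (fun l hl => by rw [hagree l hl]; exact hint₁ l hl) τ hτ g (fun l hl => ?_)
  rw [hg l hl]
  congr 2
  exact Subtype.ext (hagree l hl).symm

/-- `NonOccAtLvl` transfers along an injective ring hom. -/
theorem nonOccAtLvl_map {O' O : Type*} [CommRing O'] [CommRing O] (ι : O' →+* O)
    (hι : Function.Injective ι) {B : Finset ℕ} (lam₀' : Nat.Primes → O') (M' : ℕ) [NeZero M']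
    (h : NonOccAtLvl O' B lam₀' M') : NonOccAtLvl O B (fun l => ι (lam₀' l)) M' := by
  intro hint₀ τ hτ g hg
  have hint' : ∀ l : Nat.Primes, (l : ℕ) ∉ B → IsIntegral ℤ (lam₀' l) := fun l hl =>
    (isIntegral_algHom_iff (ι.toIntAlgHom) hι).mp (hint₀ l hl)
  let κ : integralClosure ℤ O' →+* integralClosure ℤ O :=
    (ι.comp (integralClosure ℤ O').val.toRingHom).codRestrict (integralClosure ℤ O)
      (fun x => map_isIntegral_int ι x.2)
  have hκ : Function.Injective κ := by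
    intro x y hxy
    apply Subtype.ext
    apply hι
    exact congrArg Subtype.val hxy
  refine h hint' (τ.comp κ) (hτ.comp hκ) g (fun l hl => ?_)
  rw [hg l hl]
  rfl

end Formal

/-! ### the PLACE step and O9 -/

section Place

variable {O : Type} [CommRing O] [IsLocalRing O]

/-- **the PLACE step at one level.** -/
theorem nonOccAtLvl_of_place {p : ℕ} (hp : p.Prime) (hpO : (p : O) ∈ IsLocalRing.maximalIdeal O)
    (B : Finset ℕ) (lam₀ : Nat.Primes → O) (M' : ℕ) [NeZero M']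
    (hZ : ∀ (𝔪 : Ideal Zbar), 𝔪.IsMaximal → (p : Zbar) ∈ 𝔪 → ∀ μ : Nat.Primes → Zbar,
      (∀ (l : Nat.Primes), (l : ℕ) ∉ B → ∀ n : ℤ,
        lam₀ l - (n : O) ∈ IsLocalRing.maximalIdeal O → μ l - (n : Zbar) ∈ 𝔪) →
      ∀ g : CuspForm (Gamma0 M') 2,
        (∀ l : Nat.Primes, (l : ℕ) ∉ B → formOp M' l g = ((μ l : Zbar) : ℂ) • g) → g = 0) :
    NonOccAtLvl O B lam₀ M' := by
  classical
  intro hint₀ τ hτ g hg
  obtain ⟨j, Q, hj, hQmax, hpQ, hjQ⟩ :=
    Fermat.Agent.GE8.AuxR.Place.exists_maximal_over (R0 := integralClosure ℤ O)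
      ((integralClosure ℤ O).val.toRingHom) τ hτ hp hpO
  refine hZ Q hQmax hpQ
    (fun l => if hl : (l : ℕ) ∉ B then j ⟨lam₀ l, hint₀ l hl⟩ else 0) ?_ g ?_
  · intro l hl n hn
    have h1 : (integralClosure ℤ O).val.toRingHom
        ((⟨lam₀ l, hint₀ l hl⟩ : integralClosure ℤ O) - (n : integralClosure ℤ O))
        ∈ IsLocalRing.maximalIdeal O := by
      rw [map_sub, map_intCast]
      exact hn
    have h2 := hjQ _ h1
    rw [map_sub, map_intCast] at h2
    simp only [dif_pos hl]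
    exact h2
  · intro l hl
    simp only [dif_pos hl]
    rw [hj]
    exact hg l hl

/-- **`NonOccAtLvl` at a level where `W` is not residually modular** (O9). -/
theorem nonOccAtLvl_of_not_resMod (W : WeierstrassCurve ℤ) (hΔ : W.Δ ≠ 0) {p : ℕ} (hp : p.Prime)
    (hpO : (p : O) ∈ IsLocalRing.maximalIdeal O) (B : Finset ℕ) (lam₀ : Nat.Primes → O)
    (hcong : ∀ l : Nat.Primes, (l : ℕ) ∉ B → W.IsGoodPrimeFor l → (l : ℕ) ≠ p →
      lam₀ l - ((W.apOfModel l : ℤ) : O) ∈ IsLocalRing.maximalIdeal O)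
    (M' : ℕ) [NeZero M'] (hnot : ¬ W.IsResiduallyModularOfLevel p M') :
    NonOccAtLvl O B lam₀ M' := by
  apply nonOccAtLvl_of_place hp hpO B lam₀ M'
  intro 𝔪 h𝔪 hp𝔪 μ hμ g hg
  by_contra hg0
  exact hnot (NonOcc.isResiduallyModularOfLevel_of_anemic W hΔ hp M' B 𝔪 h𝔪 hp𝔪 μ
    (fun l hlB hgood _ hlp => hμ l hlB _ (hcong l hlB hgood hlp)) g hg0 hg)

end Place

/-! ### the form over a field, through a local carrier -/

section Local

/-- **`NonOccAtLvl` over a field `Ω`** for a system which is the image of a family `t` of a LOCAL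
ring `T` (`p ∈ 𝔪_T`, `t l ≡ a_l(W)` mod `𝔪_T` at the good primes off `B`) under `χ : T → Ω`, at a
level where `W` is not residually modular. -/
theorem nonOccAtLvl_of_not_resMod_of_local (W : WeierstrassCurve ℤ) (hΔ : W.Δ ≠ 0) {p : ℕ}
    (hp : p.Prime) {T : Type} [CommRing T] [IsLocalRing T]
    (hpT : (p : T) ∈ IsLocalRing.maximalIdeal T)
    {Ω : Type*} [Field Ω] (χ : T →+* Ω) (B : Finset ℕ) (t : Nat.Primes → T)
    (hcong : ∀ l : Nat.Primes, (l : ℕ) ∉ B → W.IsGoodPrimeFor l → (l : ℕ) ≠ p →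
      t l - ((W.apOfModel l : ℤ) : T) ∈ IsLocalRing.maximalIdeal T)
    (M' : ℕ) [NeZero M'] (hnot : ¬ W.IsResiduallyModularOfLevel p M') :
    NonOccAtLvl Ω B (fun l => χ (t l)) M' := by
  classical
  have hne : Nontrivial (T ⧸ RingHom.ker χ) :=
    Ideal.Quotient.nontrivial_iff.mpr (RingHom.ker_ne_top χ)
  have hsurj : Function.Surjective (Ideal.Quotient.mk (RingHom.ker χ)) :=
    Ideal.Quotient.mk_surjective
  haveI : IsLocalRing (T ⧸ RingHom.ker χ) :=
    IsLocalRing.of_surjective' (Ideal.Quotient.mk (RingHom.ker χ)) hsurj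
  haveI : IsLocalHom (Ideal.Quotient.mk (RingHom.ker χ)) :=
    IsLocalHom.of_surjective _ hsurj
  have hmem : ∀ x : T, x ∈ IsLocalRing.maximalIdeal T →
      Ideal.Quotient.mk (RingHom.ker χ) x ∈ IsLocalRing.maximalIdeal (T ⧸ RingHom.ker χ) :=
    fun x hx => map_nonunit (Ideal.Quotient.mk (RingHom.ker χ)) x hx
  have h1 : NonOccAtLvl (T ⧸ RingHom.ker χ) B
      (fun l => Ideal.Quotient.mk (RingHom.ker χ) (t l)) M' := by
    refine nonOccAtLvl_of_not_resMod W hΔ hp ?_ B _ ?_ M' hnot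
    · have := hmem _ hpT
      rwa [map_natCast] at this
    · intro l hlB hgood hlp
      have := hmem _ (hcong l hlB hgood hlp)
      rwa [map_sub, map_intCast] at this
  have h2 := nonOccAtLvl_map (RingHom.kerLift χ) (RingHom.kerLift_injective χ) _ M' h1
  refine nonOccAtLvl_congr (fun l _ => ?_) M' h2
  exact RingHom.kerLift_mk χ (t l)

end Local

end Fermat.Agent.GE9.OldQ.NonOccP
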