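/-
GATE-E / RISK-4 R4-J (helper50): the ABSTRACT step (C) of helper63's `χ`-free identity
`U_q · g(U_q) = 0` (board 7769).

Setting: `Λ₁` a finite free `R`-module, `Λ₂` any `R`-module, `r : Λ₁ → Λ₂` ("res"),
`v : Λ₂ → Λ₁` ("`W ∘ cores2 ∘ W`"), `U = r ∘ v` on `Λ₂`, `U₁ = v ∘ r` on `Λ₁`, and a right
quasi-inverse `U₁ ∘ Rr = c`.  Then `g := charpoly U₁` is monic, `g(0) ∣ c ^ rank Λ₁`, and
`U ∘ g(U) = 0` (Cayley–Hamilton for `U₁` transported through `r`, `v`).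

Consumer: if moreover `g(U)` is injective on a `U`-stable submodule `A`, then `U = 0` on `A`.
-/
import Mathlib

set_option autoImplicit false

open Polynomial

namespace Fermat.Agent.GE9.OldQ.UqPolyAlg

variable {R : Type*} [CommRing R]
variable {Λ₁ Λ₂ : Type*} [AddCommGroup Λ₁] [AddCommGroup Λ₂] [Module R Λ₁] [Module R Λ₂]

/-! ### intertwining of polynomials in `r ∘ v` and `v ∘ r` -/

theorem pow_comp_swap_apply (r : Λ₁ →ₗ[R] Λ₂) (v : Λ₂ →ₗ[R] Λ₁) (k : ℕ) (x : Λ₁) :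
    ((r ∘ₗ v) ^ k) (r x) = r (((v ∘ₗ r) ^ k) x) := by
  induction k generalizing x with
  | zero => simp
  | succ k ih =>
    rw [pow_succ, pow_succ, Module.End.mul_apply, Module.End.mul_apply, LinearMap.comp_apply,
      LinearMap.comp_apply, ih]

theorem pow_comp_swap (r : Λ₁ →ₗ[R] Λ₂) (v : Λ₂ →ₗ[R] Λ₁) (k : ℕ) :
    ((r ∘ₗ v) ^ k) ∘ₗ r = r ∘ₗ ((v ∘ₗ r) ^ k) :=
  LinearMap.ext fun x => pow_comp_swap_apply r v k x

/-- `g(r v) ∘ r = r ∘ g(v r)` for every polynomial `g`. -/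
theorem aeval_comp_swap (r : Λ₁ →ₗ[R] Λ₂) (v : Λ₂ →ₗ[R] Λ₁) (g : R[X]) :
    (aeval (r ∘ₗ v) g) ∘ₗ r = r ∘ₗ (aeval (v ∘ₗ r) g) := by
  induction g using Polynomial.induction_on' with
  | add p q hp hq =>
    rw [map_add, map_add, LinearMap.add_comp, LinearMap.comp_add, hp, hq]
  | monomial n a =>
    ext x
    rw [LinearMap.comp_apply, LinearMap.comp_apply, aeval_monomial, aeval_monomial,
      Module.End.mul_apply, Module.End.mul_apply, pow_comp_swap_apply,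
      Module.algebraMap_end_apply, Module.algebraMap_end_apply, map_smul]

theorem aeval_comp_swap_apply (r : Λ₁ →ₗ[R] Λ₂) (v : Λ₂ →ₗ[R] Λ₁) (g : R[X]) (x : Λ₁) :
    aeval (r ∘ₗ v) g (r x) = r (aeval (v ∘ₗ r) g x) :=
  LinearMap.congr_fun (aeval_comp_swap r v g) x

/-- `g(U)` and `U` commute. -/
theorem aeval_apply_comm (U : Module.End R Λ₂) (g : R[X]) (z : Λ₂) :
    U (aeval U g z) = aeval U g (U z) := by
  have h : Commute (aeval U X) (aeval U g) := (Polynomial.commute_X g).map (aeval U)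
  rw [aeval_X] at h
  exact LinearMap.congr_fun h.eq z

section Free

variable [Module.Free R Λ₁] [Module.Finite R Λ₁]

/-- **Cayley–Hamilton transported**: `(r v) ∘ g(r v) = 0` for `g = charpoly (v r)`. -/
theorem comp_aeval_charpoly_apply (r : Λ₁ →ₗ[R] Λ₂) (v : Λ₂ →ₗ[R] Λ₁) (z : Λ₂) :
    (r ∘ₗ v) (aeval (r ∘ₗ v) (v ∘ₗ r).charpoly z) = 0 := by
  rw [aeval_apply_comm, LinearMap.comp_apply, aeval_comp_swap_apply,
    LinearMap.aeval_self_charpoly, LinearMap.zero_apply, map_zero]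

/-- `charpoly(U₁)(0) ∣ c ^ rank` when `U₁ ∘ Rr = c`. -/
theorem eval_zero_charpoly_dvd (U₁ Rr : Module.End R Λ₁) (c : R)
    (h : ∀ x, U₁ (Rr x) = c • x) :
    (U₁.charpoly.eval 0) ∣ c ^ Module.finrank R Λ₁ := by
  have hcomp : U₁ * Rr = c • (1 : Module.End R Λ₁) := by
    ext x
    simp [h x]
  have hdet : LinearMap.det U₁ * LinearMap.det Rr = c ^ Module.finrank R Λ₁ := by
    rw [← map_mul, hcomp, LinearMap.det_smul, map_one, mul_one]
  rw [← Polynomial.coeff_zero_eq_eval_zero]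
  have hsign : LinearMap.det U₁ = (-1) ^ Module.finrank R Λ₁ * U₁.charpoly.coeff 0 :=
    LinearMap.det_eq_sign_charpoly_coeff U₁
  refine ⟨(-1) ^ Module.finrank R Λ₁ * LinearMap.det Rr, ?_⟩
  rw [← hdet, hsign]
  ring

/-- **(UQ-POLY), abstract form** (pointwise hypotheses). -/
theorem exists_poly (r : Λ₁ →ₗ[R] Λ₂) (v : Λ₂ →ₗ[R] Λ₁) (U : Module.End R Λ₂)
    (U₁ Rr : Module.End R Λ₁) (c : R)
    (hU : ∀ z, U z = r (v z)) (hU₁ : ∀ x, U₁ x = v (r x)) (hR : ∀ x, U₁ (Rr x) = c • x) :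
    ∃ g : R[X], g.Monic ∧ (g.eval 0 ∣ c ^ Module.finrank R Λ₁) ∧
      ∀ z, U (aeval U g z) = 0 := by
  have eU : U = r ∘ₗ v := LinearMap.ext hU
  have eU₁ : U₁ = v ∘ₗ r := LinearMap.ext hU₁
  refine ⟨U₁.charpoly, LinearMap.charpoly_monic U₁, eval_zero_charpoly_dvd U₁ Rr c hR, ?_⟩
  intro z
  rw [eU, eU₁]
  exact comp_aeval_charpoly_apply r v z

/-- the same with the divisibility in the `∃ n` form of board 7769. -/
theorem exists_poly' (r : Λ₁ →ₗ[R] Λ₂) (v : Λ₂ →ₗ[R] Λ₁) (U : Module.End R Λ₂)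
    (U₁ Rr : Module.End R Λ₁) (c : R)
    (hU : ∀ z, U z = r (v z)) (hU₁ : ∀ x, U₁ x = v (r x)) (hR : ∀ x, U₁ (Rr x) = c • x) :
    ∃ g : R[X], g.Monic ∧ (∃ n : ℕ, g.eval 0 ∣ c ^ n) ∧ ∀ z, U (aeval U g z) = 0 := by
  obtain ⟨g, hg, hd, h⟩ := exists_poly r v U U₁ Rr c hU hU₁ hR
  exact ⟨g, hg, ⟨_, hd⟩, h⟩

end Free

/-! ### the consumer: `U · g(U) = 0` and `g(U)` injective on a `U`-stable part ⟹ `U = 0` there -/

/-- If `U (g(U) z) = 0` for all `z`, `A` is `U`-stable and `g(U)` is injective on `A`, then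
`U = 0` on `A`. -/
theorem eq_zero_of_injOn (U : Module.End R Λ₂) (g : R[X]) (h : ∀ z, U (aeval U g z) = 0)
    (A : Submodule R Λ₂) (hA : ∀ z ∈ A, U z ∈ A)
    (hinj : ∀ z ∈ A, aeval U g z = 0 → z = 0) (z : Λ₂) (hz : z ∈ A) : U z = 0 := by
  apply hinj (U z) (hA z hz)
  rw [← aeval_apply_comm]
  exact h z

/-- base-change form: the identity `U (g(U) z) = 0` over `R` gives the same identity for
`U ⊗ S` with `g` mapped to `S[X]`. -/
theorem baseChange_identity (S : Type*) [CommRing S] [Algebra R S] (U : Module.End R Λ₂)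
    (g : R[X]) (h : ∀ z, U (aeval U g z) = 0) (y : TensorProduct R S Λ₂) :
    (U.baseChange S) (aeval (U.baseChange S) (g.map (algebraMap R S)) y) = 0 := by
  have hzero : U * aeval U g = 0 := LinearMap.ext h
  have hbc : aeval (U.baseChange S) (g.map (algebraMap R S))
      = (aeval U g).baseChange S := by
    rw [Polynomial.aeval_map_algebraMap]
    have := Polynomial.aeval_algHom_apply (Module.End.baseChangeHom R S Λ₂) U g
    exact this
  rw [hbc]
  have : (U.baseChange S) ∘ₗ ((aeval U g).baseChange S) = 0 := by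
    rw [← LinearMap.baseChange_comp, ← Module.End.mul_eq_comp, hzero, LinearMap.baseChange_zero]
  exact LinearMap.congr_fun this y

/-- the constant term of `g` becomes a unit in any `R`-algebra `S` where `c` is a unit. -/
theorem isUnit_eval_zero_map (S : Type*) [CommRing S] [Algebra R S] (g : R[X]) (c : R) (n : ℕ)
    (hd : g.eval 0 ∣ c ^ n) (hc : IsUnit (algebraMap R S c)) :
    IsUnit ((g.map (algebraMap R S)).eval 0) := by
  rw [Polynomial.eval_zero_map]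
  have h1 : algebraMap R S (g.eval 0) ∣ algebraMap R S (c ^ n) := map_dvd (algebraMap R S) hd
  rw [map_pow] at h1
  exact isUnit_of_dvd_unit h1 (hc.pow n)

/-- **(UQ-POLY) ⊗ `S`**: the whole package after base change to an `R`-algebra `S` in which `c`
is a unit: a monic `G ∈ S[X]` with unit constant term and `(U ⊗ S) ∘ G(U ⊗ S) = 0`. -/
theorem exists_poly_baseChange [Module.Free R Λ₁] [Module.Finite R Λ₁]
    (S : Type*) [CommRing S] [Algebra R S]
    (r : Λ₁ →ₗ[R] Λ₂) (v : Λ₂ →ₗ[R] Λ₁) (U : Module.End R Λ₂)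
    (U₁ Rr : Module.End R Λ₁) (c : R)
    (hU : ∀ z, U z = r (v z)) (hU₁ : ∀ x, U₁ x = v (r x)) (hR : ∀ x, U₁ (Rr x) = c • x)
    (hc : IsUnit (algebraMap R S c)) :
    ∃ G : S[X], G.Monic ∧ IsUnit (G.eval 0) ∧
      ∀ y : TensorProduct R S Λ₂, (U.baseChange S) (aeval (U.baseChange S) G y) = 0 := by
  obtain ⟨g, hg, hd, h⟩ := exists_poly r v U U₁ Rr c hU hU₁ hR
  exact ⟨g.map (algebraMap R S), hg.map _, isUnit_eval_zero_map S g c _ hd hc,
    baseChange_identity S U g h⟩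

end Fermat.Agent.GE9.OldQ.UqPolyAlg
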